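import Mathlib
import Fermat.Prelude.Def_ModularCurve_LaurentCoeff

/-!
# Descent of field generation along coefficient extension of Laurent series (helper25)

For a field extension `K ⊆ E` and Laurent series `y`, `S ⊆ K((q))`: if (the image of) `y`
lies in the subfield of `E((q))` generated over `E` by (the image of) `S`, then `y` lies in
the subfield of `K((q))` generated over `K` by `S`.

Main result: `mem_adjoin_of_coeffMap_mem_adjoin`.
-/

set_option autoImplicit false

open ModularCurve

noncomputable section
namespace Fermat.Agent.S28.helper25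

section

variable {K E : Type*} [Field K] [Field E] [Algebra K E]

theorem algebraMap_laurent_eq_single' {R : Type*} [CommRing R] (c : R) :
    algebraMap R (LaurentSeries R) c = HahnSeries.single 0 c := by
  have h1 : algebraMap R (PowerSeries R) c = PowerSeries.C c := by simp
  rw [HahnSeries.algebraMap_apply', h1, HahnSeries.ofPowerSeries_C]
  rfl

theorem coeff_algebraMap_mul {R : Type*} [CommRing R] (e : R) (x : LaurentSeries R) (k : ℤ) :
    (algebraMap R (LaurentSeries R) e * x).coeff k = e * x.coeff k := by
  rw [algebraMap_laurent_eq_single', ← HahnSeries.C_apply, HahnSeries.C_mul_eq_smul]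
  rfl

/-- applying a `K`-linear functional coefficientwise -/
theorem map_smul_coeffMap (π : E →ₗ[K] K) (e : E) (w : LaurentSeries K) :
    (algebraMap E (LaurentSeries E) e * coeffMap (algebraMap K E) w).map π =
      algebraMap K (LaurentSeries K) (π e) * w := by
  ext k
  rw [HahnSeries.map_coeff, coeff_algebraMap_mul, coeff_algebraMap_mul, coeffMap_coeff,
    mul_comm e, ← Algebra.smul_def, map_smul, smul_eq_mul, mul_comm]

theorem map_add_linear (π : E →ₗ[K] K) (x y : LaurentSeries E) :
    (x + y).map π = x.map π + y.map π := by
  ext k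
  simp

theorem coeffMap_algebraMap_injective' :
    Function.Injective (coeffMap (algebraMap K E)) := by
  intro x y h
  ext k
  have h2 := congrArg (fun z : LaurentSeries E => z.coeff k) h
  simp only [coeffMap_coeff] at h2
  exact (algebraMap K E).injective h2

/-- key step: coefficientwise functionals send `E[ι S]` to `K[S]`, compatibly with
multiplication by elements coming from `K((q))`. -/
theorem exists_map_eq_of_mem_adjoin (S : Set (LaurentSeries K)) (π : E →ₗ[K] K)
    {c : LaurentSeries E} (hc : c ∈ Algebra.adjoin E (coeffMap (algebraMap K E) '' S)) :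
    ∃ c' ∈ Algebra.adjoin K S, ∀ z : LaurentSeries K,
      (coeffMap (algebraMap K E) z * c).map π = z * c' := by
  have hc' := (Subalgebra.mem_toSubmodule _).mpr hc
  rw [Algebra.adjoin_eq_span] at hc'
  clear hc
  -- strengthened induction statement
  suffices H : ∀ e : E, ∃ c' ∈ Algebra.adjoin K S, ∀ z : LaurentSeries K,
      (coeffMap (algebraMap K E) z * (algebraMap E (LaurentSeries E) e * c)).map π = z * c' by
    simpa using H 1
  induction hc' using Submodule.span_induction with
  | mem x hx =>
    intro e
    have hx' : x ∈ (Submonoid.closure S).map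
        ((coeffMap (algebraMap K E) : LaurentSeries K →+* LaurentSeries E) :
          LaurentSeries K →* LaurentSeries E) := by
      rw [MonoidHom.map_mclosure]; exact hx
    obtain ⟨m, hm, rfl⟩ := hx'
    have hmS : m ∈ Algebra.adjoin K S :=
      (Submonoid.closure_le (S := (Algebra.adjoin K S).toSubmonoid)).mpr
        Algebra.subset_adjoin hm
    refine ⟨algebraMap K (LaurentSeries K) (π e) * m,
      Subalgebra.mul_mem _ (Subalgebra.algebraMap_mem _ _) hmS, ?_⟩
    intro z
    have h1 : coeffMap (algebraMap K E) z *
        (algebraMap E (LaurentSeries E) e *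
          (coeffMap (algebraMap K E) : LaurentSeries K →* LaurentSeries E) m) =
        algebraMap E (LaurentSeries E) e * coeffMap (algebraMap K E) (z * m) := by
      rw [map_mul]
      simp only [MonoidHom.coe_coe]
      ring
    rw [h1, map_smul_coeffMap]
    ring
  | zero =>
    intro e
    refine ⟨0, zero_mem _, fun z => ?_⟩
    rw [mul_zero, mul_zero, mul_zero]
    ext k
    simp
  | add x y _ _ hx hy =>
    intro e
    obtain ⟨x', hx', hx''⟩ := hx e
    obtain ⟨y', hy', hy''⟩ := hy e
    refine ⟨x' + y', add_mem hx' hy', fun z => ?_⟩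
    rw [mul_add, mul_add, map_add_linear, hx'', hy'', mul_add]
  | smul a x _ hx =>
    intro e
    obtain ⟨x', hx', hx''⟩ := hx (e * a)
    refine ⟨x', hx', fun z => ?_⟩
    rw [Algebra.smul_def, ← mul_assoc (algebraMap E (LaurentSeries E) e), ← map_mul]
    exact hx'' z

/-- **Descent.** -/
theorem mem_adjoin_of_coeffMap_mem_adjoin (S : Set (LaurentSeries K)) (y : LaurentSeries K)
    (h : coeffMap (algebraMap K E) y ∈
      IntermediateField.adjoin E (coeffMap (algebraMap K E) '' S)) :
    y ∈ IntermediateField.adjoin K S := by
  obtain ⟨a, ha, b, hb, hab⟩ := IntermediateField.mem_adjoin_iff_div.mp h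
  by_cases hb0 : b = 0
  · rw [hb0, div_zero] at hab
    have : y = 0 := coeffMap_algebraMap_injective' (K := K) (E := E) (by rw [hab, map_zero])
    rw [this]
    exact zero_mem _
  · -- choose a coefficient and a functional
    have hbk : ∃ k, b.coeff k ≠ 0 := by
      by_contra hcon
      exact hb0 (HahnSeries.ext (funext fun k => not_not.mp fun hk => hcon ⟨k, hk⟩))
    obtain ⟨k, hk⟩ := hbk
    let B := Module.Basis.ofVectorSpace K E
    have hrepr : B.repr (b.coeff k) ≠ 0 := by
      intro h0
      exact hk (B.repr.map_eq_zero_iff.mp h0)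
    obtain ⟨s, hs⟩ : ∃ s, B.repr (b.coeff k) s ≠ 0 := by
      by_contra hcon
      exact hrepr (Finsupp.ext fun s => not_not.mp fun hs => hcon ⟨s, hs⟩)
    obtain ⟨a', ha', ha''⟩ := exists_map_eq_of_mem_adjoin S (B.coord s) ha
    obtain ⟨b', hb', hb''⟩ := exists_map_eq_of_mem_adjoin S (B.coord s) hb
    have hb'0 : b' ≠ 0 := by
      intro h0
      have h1 := hb'' 1
      rw [map_one, one_mul, one_mul, h0] at h1
      have h2 := congrArg (fun z : LaurentSeries K => z.coeff k) h1
      simp only [HahnSeries.map_coeff, HahnSeries.coeff_zero] at h2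
      exact hs h2
    have hyb : coeffMap (algebraMap K E) y * b = a := by
      rw [hab, div_mul_cancel₀ _ hb0]
    have h1 := hb'' y
    rw [hyb] at h1
    have h2 := ha'' 1
    rw [map_one, one_mul, one_mul] at h2
    have h3 : y * b' = a' := by rw [← h1, h2]
    have h4 : y = a' / b' := by rw [← h3, mul_div_cancel_right₀ _ hb'0]
    rw [h4]
    exact div_mem (IntermediateField.algebra_adjoin_le_adjoin K S ha')
      (IntermediateField.algebra_adjoin_le_adjoin K S hb')

end

end Fermat.Agent.S28.helper25
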