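import Mathlib
import Fermat.Prelude.Def_ModularCurve_IgusaScheme
import Fermat.Prelude.Def_ModularCurve_X0ModL

set_option autoImplicit false

namespace Fermat.Agent.S28.helper94

/-- `ℤ_(ℓ)` as a subring of `ℚ`. -/
abbrev Zl (ℓ : ℕ) : Type := ↥(GaloisRep.ratLocalizedAt ℓ)

variable (ℓ : ℕ)

theorem mem_ratLocalizedAt_iff (q : ℚ) : q ∈ GaloisRep.ratLocalizedAt ℓ ↔ q.den.Coprime ℓ :=
  Iff.rfl

variable [hℓ : Fact ℓ.Prime]

theorem coprime_iff_not_dvd (n : ℕ) : n.Coprime ℓ ↔ ¬ ℓ ∣ n := by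
  rw [Nat.coprime_comm, Nat.Prime.coprime_iff_not_dvd hℓ.out]

theorem intCast_inv_mem (y : ℤ) (hy : ¬ (ℓ : ℤ) ∣ y) :
    ((y : ℚ))⁻¹ ∈ GaloisRep.ratLocalizedAt ℓ := by
  rw [mem_ratLocalizedAt_iff, coprime_iff_not_dvd]
  have hy0 : y ≠ 0 := by rintro rfl; exact hy (dvd_zero _)
  rw [Rat.inv_intCast_den, if_neg hy0]
  intro h
  apply hy
  exact Int.natCast_dvd.mpr h

theorem not_dvd_den (a : Zl ℓ) : ¬ (ℓ : ℤ) ∣ ((a : ℚ).den : ℤ) := by
  have := (coprime_iff_not_dvd ℓ _).mp a.2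
  exact_mod_cast this

omit hℓ in
theorem coe_mul_den (a : Zl ℓ) : (a : ℚ) * ((a : ℚ).den : ℤ) = ((a : ℚ).num : ℤ) := by
  simp [Rat.mul_den_eq_num]

theorem isPrime_span_ell : (Ideal.span {(ℓ : ℤ)}).IsPrime := by
  rw [Ideal.span_singleton_prime (by exact_mod_cast hℓ.out.ne_zero)]
  exact Nat.prime_iff_prime_int.mp hℓ.out

theorem isLocalization_Zl :
    have := isPrime_span_ell ℓ
    IsLocalization.AtPrime (Zl ℓ) (Ideal.span {(ℓ : ℤ)}) := by
  have := isPrime_span_ell ℓ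
  rw [IsLocalization.AtPrime, isLocalization_iff]
  refine ⟨?_, ?_, ?_⟩
  · rintro ⟨y, hy⟩
    have hy' : ¬ (ℓ : ℤ) ∣ y := by
      intro h
      exact hy (Ideal.mem_span_singleton.mpr h)
    have hy0 : (y : ℚ) ≠ 0 := by
      intro h
      apply hy'
      have : y = 0 := by exact_mod_cast h
      rw [this]; exact dvd_zero _
    refine ⟨⟨algebraMap ℤ (Zl ℓ) y, ⟨((y : ℚ))⁻¹, intCast_inv_mem ℓ y hy'⟩, ?_, ?_⟩, rfl⟩
    · ext
      simp [hy0]
    · ext
      simp [hy0]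
  · intro z
    refine ⟨⟨(z : ℚ).num, ⟨((z : ℚ).den : ℤ), ?_⟩⟩, ?_⟩
    · intro h
      exact not_dvd_den ℓ z (Ideal.mem_span_singleton.mp h)
    · ext
      simp [Rat.mul_den_eq_num]
  · intro x y h
    refine ⟨1, ?_⟩
    have h2 := congrArg (fun t : Zl ℓ => (t : ℚ)) h
    have h3 : (x : ℚ) = (y : ℚ) := by simpa using h2
    have h4 : x = y := by exact_mod_cast h3
    simp [h4]


/-- reduction `ℤ_(ℓ) → 𝔽_ℓ` -/
theorem exists_resZl : ∃ r : Zl ℓ →+* ZMod ℓ, Function.Surjective r ∧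
    ∀ a : Zl ℓ, r a = 0 ↔ ∃ b : Zl ℓ, a = (ℓ : Zl ℓ) * b := by
  have := isPrime_span_ell ℓ
  have := isLocalization_Zl ℓ
  have hunit : ∀ y : (Ideal.span {(ℓ : ℤ)}).primeCompl,
      IsUnit (Int.castRingHom (ZMod ℓ) y) := by
    rintro ⟨y, hy⟩
    have hy' : ¬ (ℓ : ℤ) ∣ y := fun h => hy (Ideal.mem_span_singleton.mpr h)
    rw [isUnit_iff_ne_zero]
    intro h
    exact hy' ((ZMod.intCast_zmod_eq_zero_iff_dvd y ℓ).mp h)
  let r : Zl ℓ →+* ZMod ℓ := IsLocalization.lift hunit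
  have hr : ∀ n : ℤ, r (algebraMap ℤ (Zl ℓ) n) = (n : ZMod ℓ) := fun n => by
    simp [r]
  refine ⟨r, ?_, ?_⟩
  · intro x
    obtain ⟨n, rfl⟩ := ZMod.intCast_surjective x
    exact ⟨algebraMap ℤ (Zl ℓ) n, hr n⟩
  · intro a
    obtain ⟨⟨x, ⟨y, hy⟩⟩, hxy⟩ := IsLocalization.surj (Ideal.span {(ℓ : ℤ)}).primeCompl a
    have hy' : ¬ (ℓ : ℤ) ∣ y := fun h => hy (Ideal.mem_span_singleton.mpr h)
    simp only at hxy
    have hyu : IsUnit (algebraMap ℤ (Zl ℓ) y) :=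
      IsLocalization.map_units (Zl ℓ) (⟨y, hy⟩ : (Ideal.span {(ℓ : ℤ)}).primeCompl)
    have hry : r (algebraMap ℤ (Zl ℓ) y) ≠ 0 := by
      rw [hr]
      intro h
      exact hy' ((ZMod.intCast_zmod_eq_zero_iff_dvd y ℓ).mp h)
    constructor
    · intro ha
      have h1 : r (algebraMap ℤ (Zl ℓ) x) = 0 := by
        rw [← hxy, map_mul, ha, zero_mul]
      rw [hr] at h1
      obtain ⟨c, hc⟩ := (ZMod.intCast_zmod_eq_zero_iff_dvd x ℓ).mp h1
      obtain ⟨u, hu⟩ := hyu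
      refine ⟨algebraMap ℤ (Zl ℓ) c * (u⁻¹ : (Zl ℓ)ˣ), ?_⟩
      have h2 : a * (u : Zl ℓ) = (ℓ : Zl ℓ) * algebraMap ℤ (Zl ℓ) c := by
        rw [hu, hxy, hc]
        simp
      calc a = a * (u : Zl ℓ) * (u⁻¹ : (Zl ℓ)ˣ) := by simp
        _ = _ := by rw [h2]; ring
    · rintro ⟨b, rfl⟩
      rw [map_mul]
      have : r (ℓ : Zl ℓ) = 0 := by
        rw [map_natCast]; exact ZMod.natCast_self ℓ
      rw [this, zero_mul]

/-- The reduction map `ℤ_(ℓ) → 𝔽_ℓ`. -/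
noncomputable def resZl : Zl ℓ →+* ZMod ℓ := (exists_resZl ℓ).choose

theorem resZl_surjective : Function.Surjective (resZl ℓ) := (exists_resZl ℓ).choose_spec.1

theorem resZl_eq_zero_iff (a : Zl ℓ) : resZl ℓ a = 0 ↔ ∃ b : Zl ℓ, a = (ℓ : Zl ℓ) * b :=
  (exists_resZl ℓ).choose_spec.2 a

/-- Any two ring homomorphisms from `ℤ_(ℓ)` to a field agree. -/
theorem ringHom_ext_Zl {K : Type*} [Field K] (f g : Zl ℓ →+* K) : f = g := by
  have := isPrime_span_ell ℓ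
  have := isLocalization_Zl ℓ
  apply IsLocalization.ringHom_ext (Ideal.span {(ℓ : ℤ)}).primeCompl
  exact RingHom.ext_int _ _

theorem ringHom_eq_cast (K : Type) [Field K] [CharP K ℓ] (r : Zl ℓ →+* ZMod ℓ)
    (f : Zl ℓ →+* K) (a : Zl ℓ) :
    f a = ZMod.castHom (dvd_refl ℓ) K (r a) := by
  have := ringHom_ext_Zl ℓ f ((ZMod.castHom (dvd_refl ℓ) K).comp r)
  rw [this]
  rfl

/-- any ring hom from `ℤ_(ℓ)` to a char-`ℓ` field factors through `resZl` -/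
theorem ringHom_eq_cast_resZl (K : Type) [Field K] [CharP K ℓ] (f : Zl ℓ →+* K) (a : Zl ℓ) :
    f a = ZMod.castHom (dvd_refl ℓ) K (resZl ℓ a) :=
  ringHom_eq_cast ℓ K (resZl ℓ) f a

theorem isFractionRing_Zl : IsFractionRing (Zl ℓ) ℚ := by
  have := isPrime_span_ell ℓ
  have := isLocalization_Zl ℓ
  exact IsFractionRing.isFractionRing_of_isDomain_of_isLocalization
    (Ideal.span {(ℓ : ℤ)}).primeCompl (Zl ℓ) ℚ

theorem prime_ell_Zl : Prime (ℓ : Zl ℓ) := by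
  obtain ⟨r, hr1, hr2⟩ := exists_resZl ℓ
  have hne : (ℓ : Zl ℓ) ≠ 0 := by
    intro h
    have := congrArg (fun t : Zl ℓ => (t : ℚ)) h
    simp at this
    exact hℓ.out.ne_zero this
  rw [← Ideal.span_singleton_prime hne]
  have hker : RingHom.ker r = Ideal.span {(ℓ : Zl ℓ)} := by
    ext a
    rw [RingHom.mem_ker, hr2, Ideal.mem_span_singleton]
    constructor
    · rintro ⟨b, rfl⟩; exact dvd_mul_right _ _
    · rintro ⟨b, rfl⟩; exact ⟨b, rfl⟩
  rw [← hker]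
  exact RingHom.ker_isPrime r

theorem isPrincipalIdealRing_Zl : IsPrincipalIdealRing (Zl ℓ) := by
  have := isPrime_span_ell ℓ
  have := isLocalization_Zl ℓ
  have h0 : Ideal.span {(ℓ : ℤ)} ≠ ⊥ := by
    rw [Ne, Ideal.span_singleton_eq_bot]
    exact_mod_cast hℓ.out.ne_zero
  have := IsLocalization.AtPrime.isDiscreteValuationRing_of_dedekind_domain ℤ h0 (Zl ℓ)
  infer_instance

theorem isIntegrallyClosed_Zl : IsIntegrallyClosed (Zl ℓ) := by
  have := isPrincipalIdealRing_Zl ℓ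
  infer_instance


omit hℓ in
theorem coeffMap_algebraMap_injective :
    Function.Injective (ModularCurve.coeffMap (algebraMap (Zl ℓ) ℚ)) := by
  intro x y h
  ext k
  have h2 := congrArg (fun z : LaurentSeries ℚ => z.coeff k) h
  simp only [ModularCurve.coeffMap_coeff] at h2
  exact_mod_cast h2

/-- Version of `coeffMap` injectivity for any injective ring homomorphism. -/
theorem coeffMap_injective_of_injective {R S : Type*} [CommRing R] [CommRing S] (f : R →+* S)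
    (hf : Function.Injective f) : Function.Injective (ModularCurve.coeffMap f) := by
  intro x y h
  ext k
  have h2 := congrArg (fun z : LaurentSeries S => z.coeff k) h
  simp only [ModularCurve.coeffMap_coeff] at h2
  exact hf h2

end Fermat.Agent.S28.helper94
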