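import Mathlib
import Fermat.Prelude.Def_ModularCurve_X0ModL

/-! # S28: functions on the upper half plane with a meromorphic `q^{1/N}`-expansion at `∞` -/

set_option autoImplicit false

noncomputable section

namespace Fermat.Agent.S28

open UpperHalfPlane Complex
open scoped Real MatrixGroups Manifold

/-- `q_N(τ) = exp(2πiτ/N)` -/
def qN (N : ℕ) (τ : ℍ) : ℂ := Function.Periodic.qParam N τ

theorem qN_ne_zero (N : ℕ) (τ : ℍ) : qN N τ ≠ 0 := Complex.exp_ne_zero _

theorem norm_qN_lt_one (N : ℕ) [NeZero N] (τ : ℍ) : ‖qN N τ‖ < 1 :=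
  Function.Periodic.norm_qParam_lt_one (by exact_mod_cast Nat.pos_of_ne_zero (NeZero.ne N)) τ.im_pos

/-- the Laurent series `t^{-M} * p(t)` -/
def lau (M : ℕ) (p : PowerSeries ℂ) : LaurentSeries ℂ :=
  HahnSeries.single (-(M : ℤ)) 1 * HahnSeries.ofPowerSeries ℤ ℂ p

theorem lau_coeff (M : ℕ) (p : PowerSeries ℂ) (n : ℤ) :
    (lau M p).coeff n = if 0 ≤ n + M then p.coeff (n + M).toNat else 0 := by
  rw [lau, HahnSeries.coeff_single_mul, one_mul, sub_neg_eq_add]
  split_ifs with h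
  · obtain ⟨k, hk⟩ := Int.eq_ofNat_of_zero_le h
    rw [hk, Int.toNat_natCast, HahnSeries.ofPowerSeries_apply_coeff]
  · exact ModularCurve.ofPowerSeries_coeff_of_neg _ (not_le.mp h)

/-- `PowerSeries` part of a sum/shift -/
theorem lau_shift (M k : ℕ) (p : PowerSeries ℂ) :
    lau (M + k) (PowerSeries.X ^ k * p) = lau M p := by
  rw [lau, lau, map_mul, map_pow, HahnSeries.ofPowerSeries_X, HahnSeries.single_pow, one_pow,
    ← mul_assoc, HahnSeries.single_mul_single, one_mul]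
  congr 2
  push_cast
  simp

/-- `HasSum`-expansion with pole order at most `M`. -/
def HasExpAt (N : ℕ) (f : ℍ → ℂ) (M : ℕ) (p : PowerSeries ℂ) : Prop :=
  ∀ τ : ℍ, HasSum (fun n : ℕ => p.coeff n * qN N τ ^ n) (qN N τ ^ M * f τ)

/-- `f` has the meromorphic expansion `s` at `∞` in the variable `t = q_N`. -/
def HasExp (N : ℕ) (f : ℍ → ℂ) (s : LaurentSeries ℂ) : Prop :=
  ∃ (M : ℕ) (p : PowerSeries ℂ), s = lau M p ∧ HasExpAt N f M p

theorem HasExpAt.shift {N : ℕ} {f : ℍ → ℂ} {M : ℕ} {p : PowerSeries ℂ} (h : HasExpAt N f M p)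
    (k : ℕ) : HasExpAt N f (M + k) (PowerSeries.X ^ k * p) := by
  intro τ
  have h1 := (h τ).mul_left (qN N τ ^ k)
  have h2 : ∀ n : ℕ, (PowerSeries.X ^ k * p).coeff (n + k) * qN N τ ^ (n + k) =
      qN N τ ^ k * (p.coeff n * qN N τ ^ n) := by
    intro n
    rw [PowerSeries.coeff_X_pow_mul, pow_add]
    ring
  have e1 : qN N τ ^ (M + k) * f τ = qN N τ ^ k * (qN N τ ^ M * f τ) := by
    rw [pow_add]; ring
  have h0 : ∑ i ∈ Finset.range k, (PowerSeries.X ^ k * p).coeff i * qN N τ ^ i = 0 := by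
    apply Finset.sum_eq_zero
    intro i hi
    rw [PowerSeries.coeff_X_pow_mul', if_neg (by simpa using Finset.mem_range.mp hi), zero_mul]
  have h5 : (qN N τ ^ (M + k) * f τ -
      ∑ i ∈ Finset.range k, (PowerSeries.X ^ k * p).coeff i * qN N τ ^ i) =
      qN N τ ^ k * (qN N τ ^ M * f τ) := by
    rw [h0, sub_zero, e1]
  have h3 : HasSum (fun n : ℕ => (PowerSeries.X ^ k * p).coeff (n + k) * qN N τ ^ (n + k))
      (qN N τ ^ (M + k) * f τ -
        ∑ i ∈ Finset.range k, (PowerSeries.X ^ k * p).coeff i * qN N τ ^ i) := by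
    rw [h5]
    exact h1.congr_fun h2
  refine (hasSum_nat_add_iff' k).mp ?_
  exact h3

theorem HasExpAt.add {N : ℕ} {f g : ℍ → ℂ} {M : ℕ} {p r : PowerSeries ℂ}
    (hf : HasExpAt N f M p) (hg : HasExpAt N g M r) : HasExpAt N (f + g) M (p + r) := by
  intro τ
  have := (hf τ).add (hg τ)
  simp only [Pi.add_apply, mul_add, map_add, add_mul]
  exact this

theorem HasExpAt.neg {N : ℕ} {f : ℍ → ℂ} {M : ℕ} {p : PowerSeries ℂ}
    (hf : HasExpAt N f M p) : HasExpAt N (-f) M (-p) := by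
  intro τ
  have := (hf τ).neg
  simp only [Pi.neg_apply, mul_neg, map_neg, neg_mul]
  exact this

theorem HasExpAt.const (N : ℕ) (c : ℂ) : HasExpAt N (fun _ => c) 0 (PowerSeries.C c) := by
  intro τ
  have h := hasSum_ite_eq (0 : ℕ) c
  rw [pow_zero, one_mul]
  refine h.congr_fun fun n => ?_
  rw [PowerSeries.coeff_C]
  split_ifs with hn
  · subst hn; simp
  · simp

theorem HasExpAt.mul {N : ℕ} [NeZero N] {f g : ℍ → ℂ} {M M' : ℕ} {p r : PowerSeries ℂ}
    (hf : HasExpAt N f M p) (hg : HasExpAt N g M' r) :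
    HasExpAt N (f * g) (M + M') (p * r) := by
  intro τ
  have h1 := hf τ
  have h2 := hg τ
  have hs1 : Summable fun n : ℕ => ‖p.coeff n * qN N τ ^ n‖ := h1.summable.norm
  have hs2 : Summable fun n : ℕ => ‖r.coeff n * qN N τ ^ n‖ := h2.summable.norm
  have h3 := tsum_mul_tsum_eq_tsum_sum_antidiagonal_of_summable_norm hs1 hs2
  have h4 := (summable_norm_sum_mul_antidiagonal_of_summable_norm hs1 hs2).of_norm
  rw [h1.tsum_eq, h2.tsum_eq] at h3
  have h5 : ∀ n : ℕ, (p * r).coeff n * qN N τ ^ n =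
      ∑ kl ∈ Finset.HasAntidiagonal.antidiagonal n,
        (p.coeff kl.1 * qN N τ ^ kl.1) * (r.coeff kl.2 * qN N τ ^ kl.2) := by
    intro n
    rw [PowerSeries.coeff_mul, Finset.sum_mul]
    refine Finset.sum_congr rfl fun kl hkl => ?_
    rw [← Finset.HasAntidiagonal.mem_antidiagonal.mp hkl, pow_add]
    ring
  have e : qN N τ ^ (M + M') * (f * g) τ = qN N τ ^ M * f τ * (qN N τ ^ M' * g τ) := by
    rw [pow_add, Pi.mul_apply]; ring
  rw [e, h3]
  exact (h4.hasSum).congr_fun h5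


/-! ### uniqueness -/

theorem coeff_eq_zero_of_hasSum_zero (N : ℕ) [NeZero N] (c : ℕ → ℂ)
    (h : ∀ τ : ℍ, HasSum (fun n : ℕ => c n * qN N τ ^ n) 0) : ∀ n, c n = 0 := by
  intro n
  have hN : (0 : ℝ) < (N : ℝ) := by exact_mod_cast Nat.pos_of_ne_zero (NeZero.ne N)
  have hcusp : UpperHalfPlane.cuspFunction (N : ℝ) (0 : ℍ → ℂ) = 0 := by
    simpa [UpperHalfPlane.cuspFunction, Function.Periodic.cuspFunction]
      using! (tendsto_const_nhds.mono_left nhdsWithin_le_nhds).limUnder_eq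
  have han : AnalyticAt ℂ (UpperHalfPlane.cuspFunction (N : ℝ) (0 : ℍ → ℂ)) 0 := by
    rw [hcusp]; exact analyticAt_const
  have h' : ∀ τ : ℍ, HasSum (fun m : ℕ => c m • Function.Periodic.qParam (N : ℝ) τ ^ m)
      ((0 : ℍ → ℂ) τ) := by
    intro τ
    simpa [qN, smul_eq_mul] using h τ
  have : c n = (UpperHalfPlane.qExpansion (N : ℝ) (0 : ℍ → ℂ)).coeff n :=
    UpperHalfPlane.qExpansion_coeff_unique
      (ContinuousMap.mk (0 : ℍ → ℂ) continuous_const) hN han h' n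
  rw [this, UpperHalfPlane.qExpansion_zero]
  simp

theorem HasExpAt.unique {N : ℕ} [NeZero N] {f : ℍ → ℂ} {M : ℕ} {p r : PowerSeries ℂ}
    (hp : HasExpAt N f M p) (hr : HasExpAt N f M r) : p = r := by
  ext n
  have h := coeff_eq_zero_of_hasSum_zero N (fun n => p.coeff n - r.coeff n) (fun τ => by
    have := (hp τ).sub (hr τ)
    rw [sub_self] at this
    refine this.congr_fun fun n => ?_
    ring) n
  exact sub_eq_zero.mp h

theorem lau_zero_C (c : ℂ) : lau 0 (PowerSeries.C c) = HahnSeries.C c := by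
  rw [lau, HahnSeries.ofPowerSeries_C]
  simp

theorem lau_add (M : ℕ) (p r : PowerSeries ℂ) : lau M (p + r) = lau M p + lau M r := by
  rw [lau, lau, lau, map_add, mul_add]

theorem lau_neg (M : ℕ) (p : PowerSeries ℂ) : lau M (-p) = -lau M p := by
  rw [lau, lau, map_neg, mul_neg]

theorem lau_mul (M M' : ℕ) (p r : PowerSeries ℂ) : lau (M + M') (p * r) = lau M p * lau M' r := by
  rw [lau, lau, lau, map_mul]
  have : HahnSeries.single (-((M + M' : ℕ) : ℤ)) (1 : ℂ) =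
      HahnSeries.single (-(M : ℤ)) 1 * HahnSeries.single (-(M' : ℤ)) 1 := by
    rw [HahnSeries.single_mul_single, one_mul]
    congr 2
    omega
  rw [this, mul_mul_mul_comm]

theorem HasExp.unique {N : ℕ} [NeZero N] {f : ℍ → ℂ} {s s' : LaurentSeries ℂ}
    (h : HasExp N f s) (h' : HasExp N f s') : s = s' := by
  obtain ⟨M, p, rfl, hp⟩ := h
  obtain ⟨M', p', rfl, hp'⟩ := h'
  have h1 := hp.shift M'
  have h2 := hp'.shift M
  rw [add_comm M' M] at h2
  rw [← lau_shift M M' p, ← lau_shift M' M p', add_comm M' M, h1.unique h2]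

theorem HasExp.add {N : ℕ} {f g : ℍ → ℂ} {s s' : LaurentSeries ℂ}
    (h : HasExp N f s) (h' : HasExp N g s') : HasExp N (f + g) (s + s') := by
  obtain ⟨M, p, rfl, hp⟩ := h
  obtain ⟨M', p', rfl, hp'⟩ := h'
  have h1 := hp.shift M'
  have h2 := hp'.shift M
  rw [add_comm M' M] at h2
  refine ⟨M + M', _, ?_, h1.add h2⟩
  rw [lau_add, lau_shift, add_comm M M', lau_shift]

theorem HasExp.neg {N : ℕ} {f : ℍ → ℂ} {s : LaurentSeries ℂ}
    (h : HasExp N f s) : HasExp N (-f) (-s) := by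
  obtain ⟨M, p, rfl, hp⟩ := h
  exact ⟨M, -p, (lau_neg M p).symm, hp.neg⟩

theorem HasExp.mul {N : ℕ} [NeZero N] {f g : ℍ → ℂ} {s s' : LaurentSeries ℂ}
    (h : HasExp N f s) (h' : HasExp N g s') : HasExp N (f * g) (s * s') := by
  obtain ⟨M, p, rfl, hp⟩ := h
  obtain ⟨M', p', rfl, hp'⟩ := h'
  exact ⟨M + M', p * p', (lau_mul M M' p p').symm, hp.mul hp'⟩

theorem HasExp.const (N : ℕ) (c : ℂ) : HasExp N (fun _ => c) (HahnSeries.C c) :=
  ⟨0, PowerSeries.C c, (lau_zero_C c).symm, HasExpAt.const N c⟩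

theorem HasExp.zero (N : ℕ) : HasExp N (0 : ℍ → ℂ) 0 := by
  have := HasExp.const N 0
  rwa [map_zero] at this

theorem HasExp.one (N : ℕ) : HasExp N (1 : ℍ → ℂ) 1 := by
  have := HasExp.const N 1
  rwa [map_one] at this

/-! ### the ring of holomorphic functions with an expansion -/

/-- holomorphic functions on `ℍ` with a meromorphic `q_N`-expansion at `∞`. -/
def Wring (N : ℕ) [NeZero N] : Subring (ℍ → ℂ) where
  carrier := {f | MDifferentiable 𝓘(ℂ) 𝓘(ℂ) f ∧ ∃ s, HasExp N f s}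
  mul_mem' := fun ⟨h1, _, e1⟩ ⟨h2, _, e2⟩ => ⟨h1.mul h2, _, e1.mul e2⟩
  one_mem' := ⟨mdifferentiable_const, _, HasExp.one N⟩
  add_mem' := fun ⟨h1, _, e1⟩ ⟨h2, _, e2⟩ => ⟨h1.add h2, _, e1.add e2⟩
  zero_mem' := ⟨mdifferentiable_const, _, HasExp.zero N⟩
  neg_mem' := fun ⟨h1, _, e1⟩ => ⟨h1.neg, _, e1.neg⟩

/-- the expansion of an element of `Wring` -/
def expW (N : ℕ) [NeZero N] (f : Wring N) : LaurentSeries ℂ := f.2.2.choose

theorem hasExp_expW (N : ℕ) [NeZero N] (f : Wring N) : HasExp N (f : ℍ → ℂ) (expW N f) :=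
  f.2.2.choose_spec

theorem expW_eq (N : ℕ) [NeZero N] (f : Wring N) {s : LaurentSeries ℂ}
    (h : HasExp N (f : ℍ → ℂ) s) : expW N f = s :=
  (hasExp_expW N f).unique h

/-- the expansion as a ring hom -/
def expHom (N : ℕ) [NeZero N] : Wring N →+* LaurentSeries ℂ where
  toFun := expW N
  map_one' := expW_eq N _ (HasExp.one N)
  map_mul' f g := expW_eq N _ ((hasExp_expW N f).mul (hasExp_expW N g))
  map_zero' := expW_eq N _ (HasExp.zero N)
  map_add' f g := expW_eq N _ ((hasExp_expW N f).add (hasExp_expW N g))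

end Fermat.Agent.S28
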