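import Mathlib
import Fermat.Prelude.Def_ModularCurve_JqCoeff
import Fermat.Agent.S24.Defs
import Fermat.Agent.S23.helper74_AffPt
import Fermat.Agent.S28.Expansion

/-! # S28 analytic theorem: shared definitions (interface file for the AT slices) -/

set_option autoImplicit false

noncomputable section

namespace Fermat.Agent.S28

open ModularCurve UpperHalfPlane

/-- `x = j(t^N)` as a Laurent series over `ℂ` (`t = q^{1/N}`) -/
def xC (N : ℕ) [NeZero N] : LaurentSeries ℂ := qExpand ℂ N (jqModC ℂ)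

/-- `ζ_N = exp(2πi/N)` -/
def zetaC (N : ℕ) : ℂ := Complex.exp (2 * Real.pi * Complex.I / N)

/-- formal substitution `t ↦ ξ t^e` on Laurent series: the coefficient of `t^(e n)` is
`ξ^n s_n` (junk value `0` for `e = 0`). -/
def affL (ξ : ℂ) (e : ℕ) (s : LaurentSeries ℂ) : LaurentSeries ℂ :=
  if h : e = 0 then 0 else @qExpand ℂ _ e ⟨h⟩ (Fermat.Agent.S24.rotL ξ s)

theorem affL_of_ne_zero (ξ : ℂ) (e : ℕ) [he : NeZero e] (s : LaurentSeries ℂ) :
    affL ξ e s = qExpand ℂ e (Fermat.Agent.S24.rotL ξ s) := by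
  unfold affL
  rw [dif_neg (NeZero.ne e)]

/-- the formal `q`-expansion of `Δ` -/
def deltaS : LaurentSeries ℂ :=
  HahnSeries.single (1 : ℤ) (1 : ℂ) *
    HahnSeries.ofPowerSeries ℤ ℂ (dedekindEtaUnit.map (Int.castRingHom ℂ))

/-- the formal `q`-expansion of `1/Δ` -/
def deltaSinv : LaurentSeries ℂ :=
  HahnSeries.single (-1 : ℤ) (1 : ℂ) *
    HahnSeries.ofPowerSeries ℤ ℂ (dedekindEtaUnitInv.map (Int.castRingHom ℂ))

end Fermat.Agent.S28
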