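import Mathlib
import Fermat.Agent.S28.ATDefs
import Fermat.Agent.S24.helper37_TExp

/-!
# S28-AT-F (helper25): formal lemmas on leading terms and coefficient rings

The statements `affL_lead`, `affL_coeff_mem`, `mul_coeff_mem`, `jqModC_coeff_mem`,
`deltaS_coeff_mem`, `deltaSinv_coeff_mem`, `lead_mul` are those of section AT-F of the
plan of helper28 (slices of the analytic theorem), verbatim.
-/

set_option autoImplicit false

noncomputable section

namespace Fermat.Agent.S28.helper25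

open ModularCurve Fermat.Agent.S28
open Fermat.Agent.S24 (rotL rotL_coeff)
open Fermat.Agent.S24.helper37 (rotL_mul rotL_single)

/-! ### auxiliary lemmas -/

/-- coefficients of `ofPowerSeries` at an integer index -/
theorem coeff_ofPowerSeries_int {R : Type*} [CommRing R] (p : PowerSeries R) (k : ℤ) :
    (HahnSeries.ofPowerSeries ℤ R p).coeff k =
      if 0 ≤ k then PowerSeries.coeff k.toNat p else 0 := by
  split_ifs with h
  · have h2 : k = (k.toNat : ℤ) := (Int.toNat_of_nonneg h).symm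
    conv_lhs => rw [h2, HahnSeries.ofPowerSeries_apply_coeff]
  · exact ofPowerSeries_coeff_of_neg _ (by omega)

theorem ofPowerSeries_coeff_mem (S : Subring ℂ) (p : PowerSeries ℂ)
    (hp : ∀ n, PowerSeries.coeff n p ∈ S) :
    ∀ n, (HahnSeries.ofPowerSeries ℤ ℂ p).coeff n ∈ S := by
  intro n
  rw [coeff_ofPowerSeries_int]
  split_ifs
  · exact hp _
  · exact S.zero_mem

theorem single_coeff_mem (S : Subring ℂ) (m : ℤ) (c : ℂ) (hc : c ∈ S) :
    ∀ n, (HahnSeries.single m c : LaurentSeries ℂ).coeff n ∈ S := by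
  intro n
  by_cases h : n = m
  · subst h
    rw [HahnSeries.coeff_single_same]
    exact hc
  · rw [HahnSeries.coeff_single_of_ne h]
    exact S.zero_mem

theorem zpow_mem_of_mem_of_inv_mem (S : Subring ℂ) (ξ : ℂ) (hξ : ξ ∈ S) (hξ' : ξ⁻¹ ∈ S)
    (k : ℤ) : ξ ^ k ∈ S := by
  rcases Int.eq_nat_or_neg k with ⟨n, rfl | rfl⟩
  · rw [zpow_natCast]
    exact S.pow_mem hξ n
  · rw [zpow_neg, zpow_natCast, ← inv_pow]
    exact S.pow_mem hξ' n

theorem map_intCast_coeff_mem (S : Subring ℂ) (p : PowerSeries ℤ) :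
    ∀ n, PowerSeries.coeff n (p.map (Int.castRingHom ℂ)) ∈ S := by
  intro n
  rw [PowerSeries.coeff_map]
  exact intCast_mem S _

/-! ### the statements of AT-F -/

theorem mul_coeff_mem (S : Subring ℂ) (s s' : LaurentSeries ℂ) (hs : ∀ n, s.coeff n ∈ S)
    (hs' : ∀ n, s'.coeff n ∈ S) : ∀ n, (s * s').coeff n ∈ S := by
  intro n
  rw [HahnSeries.coeff_mul]
  exact Subring.sum_mem _ (fun ij _ => S.mul_mem (hs _) (hs' _))

theorem lead_mul (m m' : ℤ) (c c' : ℂ) (p p' : PowerSeries ℂ)
    (hp : PowerSeries.constantCoeff p = 1) (hp' : PowerSeries.constantCoeff p' = 1) :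
    ∃ r : PowerSeries ℂ, PowerSeries.constantCoeff r = 1 ∧
      (HahnSeries.single m c * HahnSeries.ofPowerSeries ℤ ℂ p) *
        (HahnSeries.single m' c' * HahnSeries.ofPowerSeries ℤ ℂ p') =
      HahnSeries.single (m + m') (c * c') * HahnSeries.ofPowerSeries ℤ ℂ r := by
  refine ⟨p * p', by rw [map_mul, hp, hp', one_mul], ?_⟩
  have h1 : (HahnSeries.single (m + m') (c * c') : LaurentSeries ℂ) =
      HahnSeries.single m c * HahnSeries.single m' c' := HahnSeries.single_mul_single.symm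
  rw [h1, (HahnSeries.ofPowerSeries ℤ ℂ).map_mul]
  ring

theorem affL_coeff_mem (S : Subring ℂ) (ξ : ℂ) (hξ : ξ ∈ S) (hξ' : ξ⁻¹ ∈ S) (e : ℕ)
    (s : LaurentSeries ℂ) (hs : ∀ n, s.coeff n ∈ S) : ∀ n, (affL ξ e s).coeff n ∈ S := by
  intro n
  by_cases he : e = 0
  · unfold affL
    rw [dif_pos he, HahnSeries.coeff_zero]
    exact S.zero_mem
  · have hne : NeZero e := ⟨he⟩
    rw [affL_of_ne_zero]
    by_cases hd : (e : ℤ) ∣ n
    · obtain ⟨k, rfl⟩ := hd
      rw [qExpand_coeff_mul, rotL_coeff]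
      exact S.mul_mem (zpow_mem_of_mem_of_inv_mem S ξ hξ hξ' k) (hs k)
    · rw [qExpand_coeff_of_not_dvd e _ hd]
      exact S.zero_mem

theorem jqModC_coeff_mem (S : Subring ℂ) : ∀ n, (jqModC ℂ).coeff n ∈ S := by
  intro n
  rw [jqModC_eq_map_intCast, HahnSeries.map_coeff]
  exact intCast_mem S _

theorem deltaS_coeff_mem (S : Subring ℂ) : ∀ n, deltaS.coeff n ∈ S := by
  unfold deltaS
  exact mul_coeff_mem S _ _ (single_coeff_mem S 1 1 S.one_mem)
    (ofPowerSeries_coeff_mem S _ (map_intCast_coeff_mem S _))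

theorem deltaSinv_coeff_mem (S : Subring ℂ) : ∀ n, deltaSinv.coeff n ∈ S := by
  unfold deltaSinv
  exact mul_coeff_mem S _ _ (single_coeff_mem S (-1) 1 S.one_mem)
    (ofPowerSeries_coeff_mem S _ (map_intCast_coeff_mem S _))

theorem affL_lead (ξ : ℂ) (hξ : ξ ≠ 0) (e : ℕ) (he : e ≠ 0) (m : ℤ) (c : ℂ) (p : PowerSeries ℂ)
    (hp : PowerSeries.constantCoeff p = 1) :
    ∃ p' : PowerSeries ℂ, PowerSeries.constantCoeff p' = 1 ∧
      affL ξ e (HahnSeries.single m c * HahnSeries.ofPowerSeries ℤ ℂ p) =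
        HahnSeries.single ((e : ℤ) * m) (c * ξ ^ m) * HahnSeries.ofPowerSeries ℤ ℂ p' := by
  have hne : NeZero e := ⟨he⟩
  have hepos : (0 : ℤ) < (e : ℤ) := by exact_mod_cast Nat.pos_of_ne_zero he
  refine ⟨PowerSeries.mk (fun n => if e ∣ n then ξ ^ (n / e) * PowerSeries.coeff (n / e) p
    else 0), ?_, ?_⟩
  · rw [← PowerSeries.coeff_zero_eq_constantCoeff_apply, PowerSeries.coeff_mk,
      if_pos (dvd_zero e), Nat.zero_div, pow_zero, one_mul,
      PowerSeries.coeff_zero_eq_constantCoeff_apply, hp]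
  · rw [affL_of_ne_zero, rotL_mul hξ, map_mul, rotL_single, qExpand_single, mul_comm (ξ ^ m) c]
    congr 1
    ext k
    rw [coeff_ofPowerSeries_int]
    by_cases hd : (e : ℤ) ∣ k
    · obtain ⟨j, rfl⟩ := hd
      rw [qExpand_coeff_mul, rotL_coeff, coeff_ofPowerSeries_int]
      by_cases hj : 0 ≤ j
      · have hej : 0 ≤ (e : ℤ) * j := mul_nonneg hepos.le hj
        have htn : ((e : ℤ) * j).toNat = e * j.toNat := by
          have : ((e : ℤ) * j) = ((e * j.toNat : ℕ) : ℤ) := by
            push_cast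
            rw [Int.toNat_of_nonneg hj]
          rw [this, Int.toNat_natCast]
        rw [if_pos hj, if_pos hej, PowerSeries.coeff_mk, htn, if_pos (dvd_mul_right _ _),
          Nat.mul_div_cancel_left _ (Nat.pos_of_ne_zero he)]
        congr 1
        conv_lhs => rw [← Int.toNat_of_nonneg hj, zpow_natCast]
      · have hej : ¬ 0 ≤ (e : ℤ) * j := by
          intro h
          exact hj (nonneg_of_mul_nonneg_right h hepos)
        rw [if_neg hj, if_neg hej, mul_zero]
    · rw [qExpand_coeff_of_not_dvd e _ hd]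
      split_ifs with hk
      · rw [PowerSeries.coeff_mk, if_neg]
        intro hdvd
        apply hd
        rw [← Int.toNat_of_nonneg hk]
        exact_mod_cast hdvd
      · rfl

end Fermat.Agent.S28.helper25
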