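import Mathlib
import Fermat.Agent.S28.ATDefs

/-! # S28-AT-B (task 210, helper78): analytic substitution `τ ↦ (aτ+b)/D` in `q_N`-expansions -/

set_option autoImplicit false

noncomputable section

namespace Fermat.Agent.S28.helper78

open ModularCurve UpperHalfPlane Fermat.Agent.S28
open Fermat.Agent.S24 (jfun scaleH rotL)
open Fermat.Agent.S23.helper74 (affPt xi)
open scoped MatrixGroups Manifold

/-- `q_1((aτ+b)/D) = ξ * q_N(τ)^e` when `e * D = N * a`. -/
theorem qN_one_affPt (N a D e : ℕ) [NeZero N] (b : ℤ) (ha : 0 < a) (hD : 0 < D)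
    (he : e * D = N * a) (τ : ℍ) :
    qN 1 (affPt a D b ha hD τ) = xi D b * qN N τ ^ e := by
  have hD' : (D : ℂ) ≠ 0 := by exact_mod_cast hD.ne'
  have hN' : (N : ℂ) ≠ 0 := by exact_mod_cast NeZero.ne N
  have he' : (e : ℂ) * D = N * a := by exact_mod_cast he
  simp only [qN, Function.Periodic.qParam, xi, Fermat.Agent.S23.helper74.coe_affPt,
    ← Complex.exp_nat_mul, ← Complex.exp_add]
  congr 1
  push_cast
  field_simp
  linear_combination (-(τ : ℂ)) * he'

/-- holomorphy of `f ∘ affPt` -/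
theorem mdiff_comp_affPt {f : ℍ → ℂ} (hf : MDifferentiable 𝓘(ℂ) 𝓘(ℂ) f) (a D : ℕ) (b : ℤ)
    (ha : 0 < a) (hD : 0 < D) :
    MDifferentiable 𝓘(ℂ) 𝓘(ℂ) (fun τ => f (affPt a D b ha hD τ)) := by
  rw [UpperHalfPlane.mdifferentiable_iff] at hf ⊢
  have hmaps : Set.MapsTo (fun z : ℂ => ((a : ℂ) * z + b) / D) {z | 0 < z.im} {z | 0 < z.im} := by
    intro z hz
    exact Fermat.Agent.S23.helper74.affPt_im_pos a D b ha hD ⟨z, hz⟩
  have hdiff : DifferentiableOn ℂ (fun z : ℂ => ((a : ℂ) * z + b) / D) {z | 0 < z.im} := by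
    fun_prop
  refine (hf.comp hdiff hmaps).congr fun z hz => ?_
  simp only [Function.comp_apply]
  congr 1
  apply UpperHalfPlane.ext
  rw [Fermat.Agent.S23.helper74.coe_affPt, UpperHalfPlane.ofComplex_apply_of_im_pos hz,
    UpperHalfPlane.ofComplex_apply_of_im_pos (hmaps hz)]


/-- the power series of the substituted expansion: the coefficient of `t^(e n)` is
`ξ^(n - M) * p_n`. -/
def substPS (ξ : ℂ) (e M : ℕ) (p : PowerSeries ℂ) : PowerSeries ℂ :=
  PowerSeries.mk fun m => if e ∣ m then ξ ^ (((m / e : ℕ) : ℤ) - M) * p.coeff (m / e) else 0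

theorem substPS_coeff_mul (ξ : ℂ) {e : ℕ} (he : 0 < e) (M : ℕ) (p : PowerSeries ℂ) (n : ℕ) :
    (substPS ξ e M p).coeff (e * n) = ξ ^ ((n : ℤ) - M) * p.coeff n := by
  rw [substPS, PowerSeries.coeff_mk, if_pos (dvd_mul_right e n), Nat.mul_div_cancel_left n he]

theorem substPS_coeff_of_not_dvd (ξ : ℂ) (e M : ℕ) (p : PowerSeries ℂ) {m : ℕ} (h : ¬ e ∣ m) :
    (substPS ξ e M p).coeff m = 0 := by
  rw [substPS, PowerSeries.coeff_mk, if_neg h]

/-- the formal identity `affL ξ e (lau M p) = lau (e M) (substPS ξ e M p)` -/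
theorem affL_lau (ξ : ℂ) {e : ℕ} (he : 0 < e) (M : ℕ) (p : PowerSeries ℂ) :
    affL ξ e (lau M p) = lau (e * M) (substPS ξ e M p) := by
  have : NeZero e := ⟨he.ne'⟩
  have heZ : (0 : ℤ) < (e : ℤ) := by exact_mod_cast he
  rw [affL_of_ne_zero]
  ext k
  rw [lau_coeff]
  by_cases hk : (e : ℤ) ∣ k
  · obtain ⟨k', rfl⟩ := hk
    rw [qExpand_coeff_mul, Fermat.Agent.S24.rotL_coeff, lau_coeff]
    have e1 : (e : ℤ) * k' + ((e * M : ℕ) : ℤ) = (e : ℤ) * (k' + M) := by push_cast; ring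
    rw [e1]
    by_cases h0 : 0 ≤ k' + (M : ℤ)
    · rw [if_pos h0, if_pos (mul_nonneg heZ.le h0)]
      obtain ⟨n, hn⟩ := Int.eq_ofNat_of_zero_le h0
      rw [hn, Int.toNat_natCast]
      have e2 : ((e : ℤ) * (n : ℤ)).toNat = e * n := by
        rw [← Nat.cast_mul, Int.toNat_natCast]
      rw [e2, substPS_coeff_mul ξ he]
      congr 2
      omega
    · rw [if_neg h0, if_neg, mul_zero]
      intro h
      exact h0 (nonneg_of_mul_nonneg_right h heZ)
  · rw [qExpand_coeff_of_not_dvd e _ hk]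
    split_ifs with h0
    · rw [substPS_coeff_of_not_dvd]
      intro hd
      apply hk
      have h1 : ((e : ℤ)) ∣ ((k + ((e * M : ℕ) : ℤ)).toNat : ℤ) := by exact_mod_cast hd
      rw [Int.toNat_of_nonneg h0] at h1
      have h2 : (e : ℤ) ∣ ((e * M : ℕ) : ℤ) := by push_cast; exact dvd_mul_right _ _
      exact (Int.dvd_add_left h2).mp h1
    · rfl


theorem hasExpAt_comp_aff {f : ℍ → ℂ} {M : ℕ} {p : PowerSeries ℂ} (hp : HasExpAt 1 f M p)
    (N a D e : ℕ) [NeZero N] (b : ℤ) (ha : 0 < a) (hD : 0 < D) (he : e * D = N * a) :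
    HasExpAt N (fun τ => f (affPt a D b ha hD τ)) (e * M) (substPS (xi D b) e M p) := by
  have hepos : 0 < e := by
    rcases Nat.eq_zero_or_pos e with h0 | h0
    · exfalso
      rw [h0, zero_mul] at he
      exact (Nat.mul_pos (Nat.pos_of_ne_zero (NeZero.ne N)) ha).ne he
    · exact h0
  have hξ : xi D b ≠ 0 := Fermat.Agent.S23.helper74.xi_ne_zero D b
  intro τ
  have h1 := hp (affPt a D b ha hD τ)
  rw [qN_one_affPt N a D e b ha hD he τ] at h1
  have h2 := h1.mul_left ((xi D b) ^ (-(M : ℤ)))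
  have e1 : (xi D b) ^ (-(M : ℤ)) * ((xi D b * qN N τ ^ e) ^ M * f (affPt a D b ha hD τ)) =
      qN N τ ^ (e * M) * f (affPt a D b ha hD τ) := by
    rw [mul_pow, ← pow_mul, zpow_neg, zpow_natCast, ← mul_assoc, ← mul_assoc,
      inv_mul_cancel₀ (pow_ne_zero _ hξ), one_mul]
  rw [e1] at h2
  have hinj : Function.Injective (fun n : ℕ => e * n) :=
    fun x y hxy => Nat.eq_of_mul_eq_mul_left hepos hxy
  rw [← hinj.hasSum_iff]
  · refine h2.congr_fun fun n => ?_
    simp only [Function.comp_apply]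
    rw [substPS_coeff_mul _ hepos, mul_pow, ← pow_mul, zpow_sub₀ hξ, zpow_natCast, zpow_natCast,
      zpow_neg, zpow_natCast, div_eq_mul_inv]
    ring
  · intro m hm
    have : ¬ e ∣ m := by
      rintro ⟨n, rfl⟩
      exact hm ⟨n, rfl⟩
    rw [substPS_coeff_of_not_dvd _ _ _ _ this, zero_mul]

/-- **AT-B.** analytic substitution `τ ↦ (aτ+b)/D` in a `q`-expansion -/
theorem hasExp_comp_aff {f : ℍ → ℂ} {s : LaurentSeries ℂ} (h : HasExp 1 f s)
    (N a D e : ℕ) [NeZero N] (b : ℤ) (ha : 0 < a) (hD : 0 < D) (he : e * D = N * a) :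
    HasExp N (fun τ => f (affPt a D b ha hD τ)) (affL (xi D b) e s) := by
  have hepos : 0 < e := by
    rcases Nat.eq_zero_or_pos e with h0 | h0
    · exfalso
      rw [h0, zero_mul] at he
      exact (Nat.mul_pos (Nat.pos_of_ne_zero (NeZero.ne N)) ha).ne he
    · exact h0
  obtain ⟨M, p, rfl, hp⟩ := h
  exact ⟨e * M, substPS (xi D b) e M p, affL_lau (xi D b) hepos M p,
    hasExpAt_comp_aff hp N a D e b ha hD he⟩

end Fermat.Agent.S28.helper78
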