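import Mathlib
import Fermat.Agent.S28.ATDefs
import Fermat.Agent.S24.helper17_Bridge
import Fermat.Agent.S24.helper24_JBasic
import Fermat.Agent.S23.helper35_Hermite
import Fermat.Agent.S23.helper74_SlashFormula

/-!
# S28-AT-C: level-one expansions and Hermite transport (helper93)

* `hasExp_jfun`, `hasExp_disc`, `hasExp_disc_inv`: the formal series `jqModC ℂ`, `deltaS`,
  `deltaSinv` are the `q`-expansions of `j`, `Δ`, `1/Δ` in the sense of `HasExp 1`.
* `hermite_transport`: for `γ ∈ SL(2,ℤ)` and `d ≥ 1`, with `a = gcd(d, γ₁₀)`, `a D = d`: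
  `j(d·γτ) = j((aτ+b)/D)` and `Δ(d·γτ)/Δ(γτ) = D⁻¹² Δ((aτ+b)/D)/Δ(τ)`.
-/

set_option autoImplicit false

noncomputable section

namespace Fermat.Agent.S28.helper93

open ModularCurve UpperHalfPlane Fermat.Agent.S28
open Fermat.Agent.S24 (jfun scaleH rotL)
open Fermat.Agent.S24.helper17 (IsNice)
open Fermat.Agent.S23.helper74 (affPt xi)
open scoped MatrixGroups Manifold

/-- a nice function `q^M f` with `q`-expansion `p` gives `HasExpAt 1 f M p`. -/
theorem hasExpAt_of_isNice {f : ℍ → ℂ} (M : ℕ)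
    (h : IsNice (fun τ => Function.Periodic.qParam 1 τ ^ M * f τ)) :
    HasExpAt 1 f M (qExpansion 1 (fun τ => Function.Periodic.qParam 1 τ ^ M * f τ)) := by
  intro τ
  have h1 := h.hasSum τ
  simp only [smul_eq_mul] at h1
  have hq : qN 1 τ = Function.Periodic.qParam 1 τ := by
    simp [qN]
  rw [hq]
  exact h1

theorem hasExp_of_isNice {f : ℍ → ℂ} (M : ℕ)
    (h : IsNice (fun τ => Function.Periodic.qParam 1 τ ^ M * f τ)) :
    HasExp 1 f (lau M (qExpansion 1 (fun τ => Function.Periodic.qParam 1 τ ^ M * f τ))) :=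
  ⟨M, _, rfl, hasExpAt_of_isNice M h⟩

theorem hasExp_jfun : HasExp 1 jfun (jqModC ℂ) := by
  have h := hasExp_of_isNice (f := jfun) 1 Fermat.Agent.S24.helper17.isNice_qParam_mul_jfun
  rw [Fermat.Agent.S24.helper17.qExpansion_qParam_mul_jfun] at h
  have e : lau 1 (jNum.map (Int.castRingHom ℂ)) = jqModC ℂ := by
    rw [lau, jqModC]
    norm_num
  rwa [e] at h

theorem hasExp_disc : HasExp 1 (fun τ => ModularForm.discriminant τ) deltaS := by
  have h0 : IsNice (fun τ => Function.Periodic.qParam 1 τ ^ 0 * ModularForm.discriminant τ) :=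
    Fermat.Agent.S24.helper17.isNice_discriminant.congr (fun τ => by simp)
  have h := hasExp_of_isNice (f := fun τ => ModularForm.discriminant τ) 0 h0
  have e1 : (fun τ : ℍ => Function.Periodic.qParam 1 τ ^ 0 * ModularForm.discriminant τ) =
      (ModularForm.discriminant : ℍ → ℂ) := by
    funext τ
    simp
  rw [e1, Fermat.Agent.S24.helper17.qExpansion_discriminant_eq] at h
  have e : lau 0 (PowerSeries.X * dedekindEtaUnit.map (Int.castRingHom ℂ)) = deltaS := by
    rw [lau, deltaS, map_mul, HahnSeries.ofPowerSeries_X]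
    simp
  rwa [e] at h

theorem hasExp_disc_inv : HasExp 1 (fun τ => (ModularForm.discriminant τ)⁻¹) deltaSinv := by
  have h0 : IsNice
      (fun τ => Function.Periodic.qParam 1 τ ^ 1 * (ModularForm.discriminant τ)⁻¹) :=
    Fermat.Agent.S24.helper17.isNice_etaV.congr (fun τ => by
      rw [Fermat.Agent.S24.helper17.etaV_eq, pow_one, div_eq_mul_inv])
  have h := hasExp_of_isNice (f := fun τ => (ModularForm.discriminant τ)⁻¹) 1 h0
  have e1 : (fun τ : ℍ => Function.Periodic.qParam 1 τ ^ 1 * (ModularForm.discriminant τ)⁻¹) =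
      Fermat.Agent.S24.helper17.etaV := by
    funext τ
    rw [Fermat.Agent.S24.helper17.etaV_eq, pow_one, div_eq_mul_inv]
  rw [e1, Fermat.Agent.S24.helper17.qExpansion_etaV] at h
  have e : lau 1 (dedekindEtaUnitInv.map (Int.castRingHom ℂ)) = deltaSinv := by
    rw [lau, deltaSinv]
    norm_num
  rwa [e] at h

theorem scaleH_eq_affPt (d : ℕ) [NeZero d] (τ : ℍ) :
    scaleH d τ = affPt d 1 0 (Nat.pos_of_ne_zero (NeZero.ne d)) one_pos τ := by
  apply UpperHalfPlane.ext
  rw [Fermat.Agent.S23.helper74.coe_affPt]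
  show (d : ℂ) * (τ : ℂ) = _
  simp

theorem hermite_transport (d : ℕ) [NeZero d] (γ : SL(2, ℤ)) :
    ∃ (a D : ℕ) (b : ℤ) (ha : 0 < a) (hD : 0 < D), a * D = d ∧
      a = Nat.gcd d (γ 1 0).natAbs ∧
      (∀ τ : ℍ, jfun (scaleH d (γ • τ)) = jfun (affPt a D b ha hD τ)) ∧
      (∀ τ : ℍ, ModularForm.discriminant (scaleH d (γ • τ)) / ModularForm.discriminant (γ • τ) =
          ((D : ℂ)⁻¹) ^ 12 *
            (ModularForm.discriminant (affPt a D b ha hD τ) / ModularForm.discriminant τ)) := by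
  have hd : 0 < d := Nat.pos_of_ne_zero (NeZero.ne d)
  obtain ⟨δ, a, D, b, ha, hD, haD, hgcd, hmat⟩ := Fermat.Agent.S23.helper35.hermite_int d hd γ
  -- entrywise equations
  have e1 : (d : ℤ) * γ 0 0 = δ 0 0 * a := by
    have := congrFun (congrFun hmat 0) 0
    simpa [Matrix.mul_apply, Fin.sum_univ_two] using this
  have e2 : (d : ℤ) * γ 0 1 = δ 0 0 * b + δ 0 1 * D := by
    have := congrFun (congrFun hmat 0) 1
    simpa [Matrix.mul_apply, Fin.sum_univ_two] using this
  have e3 : γ 1 0 = δ 1 0 * a := by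
    have := congrFun (congrFun hmat 1) 0
    simpa [Matrix.mul_apply, Fin.sum_univ_two] using this
  have e4 : γ 1 1 = δ 1 0 * b + δ 1 1 * D := by
    have := congrFun (congrFun hmat 1) 1
    simpa [Matrix.mul_apply, Fin.sum_univ_two] using this
  have htr : ∀ τ : ℍ, scaleH d (γ • τ) = δ • affPt a D b ha hD τ := by
    intro τ
    rw [scaleH_eq_affPt]
    exact Fermat.Agent.S23.helper74.affPt_smul d a D b hd ha hD γ δ e1 e2 e3 e4 τ
  refine ⟨a, D, b, ha, hD, haD, hgcd, ?_, ?_⟩
  · intro τ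
    rw [htr, Fermat.Agent.S24.helper24.jfun_smul]
  · intro τ
    rw [htr, Fermat.Agent.S23.helper74.discriminant_SL_smul δ,
      Fermat.Agent.S23.helper74.discriminant_SL_smul γ,
      Fermat.Agent.S23.helper74.hermite_denom a D b ha hD γ δ e3 e4 τ]
    have hj := Fermat.Agent.S23.helper74.SL_denom_ne_zero γ τ
    have hD' : (D : ℂ) ≠ 0 := by exact_mod_cast hD.ne'
    have hΔ := ModularForm.discriminant_ne_zero τ
    field_simp

end Fermat.Agent.S28.helper93
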