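import Mathlib
import Fermat.Agent.S28.ATDefs
import Fermat.Agent.S28.helper25_ATFormal
import Fermat.Agent.S28.helper78_CompAff
import Fermat.Agent.S28.helper93_LevelOne
import Fermat.Agent.S24.helper24_Stabilizer
import Fermat.Agent.S24.helper37_IndexGamma0
import Fermat.Agent.S24.helper77_PolyInJ

/-! # S28 analytic theorem: the ring `G`, the expansions `E i` and the final assembly -/

set_option autoImplicit false

noncomputable section

namespace Fermat.Agent.S28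

open ModularCurve UpperHalfPlane CongruenceSubgroup
open Fermat.Agent.S24 (jfun scaleH rotL jfunD jfunDg)
open Fermat.Agent.S23.helper74 (affPt xi)
open scoped MatrixGroups Manifold

/-! ### uniqueness of the function with a given expansion -/

theorem lau_injective (M : ℕ) : Function.Injective (lau M) := by
  intro p r h
  ext n
  have := congrArg (fun s : LaurentSeries ℂ => s.coeff ((n : ℤ) - M)) h
  simp only [lau_coeff] at this
  have h0 : (0 : ℤ) ≤ (n : ℤ) - M + M := by omega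
  rw [if_pos h0, if_pos h0] at this
  have e : ((n : ℤ) - M + M).toNat = n := by omega
  rwa [e] at this

theorem HasExp.fun_unique {N : ℕ} [NeZero N] {f g : ℍ → ℂ} {s : LaurentSeries ℂ}
    (hf : HasExp N f s) (hg : HasExp N g s) : f = g := by
  obtain ⟨M, p, hs, hp⟩ := hf
  obtain ⟨M', p', hs', hp'⟩ := hg
  have h1 := hp.shift M'
  have h2 := hp'.shift M
  have e : PowerSeries.X ^ M' * p = PowerSeries.X ^ M * p' := by
    apply lau_injective (M + M')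
    rw [lau_shift, ← hs]
    rw [show M + M' = M' + M by ring, lau_shift, ← hs']
  rw [e] at h1
  funext τ
  have h4 := h2 τ
  rw [show M' + M = M + M' by ring] at h4
  have h3 := (h1 τ).unique h4
  exact mul_left_cancel₀ (pow_ne_zero _ (qN_ne_zero N τ)) h3

/-! ### the algebra of modular functions -/

/-- Functions on `ℍ` invariant under `Γ₀(N)`, all of whose `SL(2,ℤ)`-translates are holomorphic
with a meromorphic `q_N`-expansion at `∞`. -/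
def GAlg (N : ℕ) [NeZero N] : Subalgebra ℂ (ℍ → ℂ) where
  carrier := {f | (∀ γ ∈ Gamma0 N, ∀ τ : ℍ, f (γ • τ) = f τ) ∧
    ∀ γ : SL(2, ℤ), (fun τ : ℍ => f (γ • τ)) ∈ Wring N}
  mul_mem' := by
    rintro f g ⟨hf1, hf2⟩ ⟨hg1, hg2⟩
    refine ⟨fun γ hγ τ => ?_, fun γ => ?_⟩
    · simp only [Pi.mul_apply, hf1 γ hγ τ, hg1 γ hγ τ]
    · exact (Wring N).mul_mem (hf2 γ) (hg2 γ)
  add_mem' := by
    rintro f g ⟨hf1, hf2⟩ ⟨hg1, hg2⟩
    refine ⟨fun γ hγ τ => ?_, fun γ => ?_⟩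
    · simp only [Pi.add_apply, hf1 γ hγ τ, hg1 γ hγ τ]
    · exact (Wring N).add_mem (hf2 γ) (hg2 γ)
  algebraMap_mem' := by
    intro c
    refine ⟨fun γ _ τ => rfl, fun γ => ?_⟩
    exact ⟨mdifferentiable_const, _, HasExp.const N c⟩

theorem mem_GAlg {N : ℕ} [NeZero N] {f : ℍ → ℂ} : f ∈ GAlg N ↔
    (∀ γ ∈ Gamma0 N, ∀ τ : ℍ, f (γ • τ) = f τ) ∧
      ∀ γ : SL(2, ℤ), (fun τ : ℍ => f (γ • τ)) ∈ Wring N := Iff.rfl

/-- translation by `γ` as a ring hom `GAlg N →+* Wring N` -/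
def transHom (N : ℕ) [NeZero N] (γ : SL(2, ℤ)) : GAlg N →+* Wring N where
  toFun f := ⟨fun τ => (f : ℍ → ℂ) (γ • τ), f.2.2 γ⟩
  map_one' := rfl
  map_mul' _ _ := rfl
  map_zero' := rfl
  map_add' _ _ := rfl

/-- the expansion of `f ∘ γ` as an algebra hom -/
def EAlg (N : ℕ) [NeZero N] (γ : SL(2, ℤ)) : GAlg N →ₐ[ℂ] LaurentSeries ℂ where
  __ := (expHom N).comp (transHom N γ)
  commutes' c := by
    rw [LaurentSeries.algebraMap_apply]
    exact expW_eq N _ (HasExp.const N c)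

theorem EAlg_eq (N : ℕ) [NeZero N] (γ : SL(2, ℤ)) (f : GAlg N) {s : LaurentSeries ℂ}
    (h : HasExp N (fun τ => (f : ℍ → ℂ) (γ • τ)) s) : EAlg N γ f = s :=
  expW_eq N _ h

theorem hasExp_EAlg (N : ℕ) [NeZero N] (γ : SL(2, ℤ)) (f : GAlg N) :
    HasExp N (fun τ => (f : ℍ → ℂ) (γ • τ)) (EAlg N γ f) :=
  hasExp_expW N _

/-! ### Hermite data -/

local notation "Δ" => ModularForm.discriminant

/-- Hermite data of `(d, γ)` -/
structure HData (d : ℕ) [NeZero d] (γ : SL(2, ℤ)) where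
  /-- upper left entry -/
  a : ℕ
  /-- lower right entry -/
  D : ℕ
  /-- upper right entry -/
  b : ℤ
  ha : 0 < a
  hD : 0 < D
  had : a * D = d
  hgcd : a = Nat.gcd d (γ 1 0).natAbs
  hj : ∀ τ : ℍ, jfun (scaleH d (γ • τ)) = jfun (affPt a D b ha hD τ)
  hΔ : ∀ τ : ℍ, Δ (scaleH d (γ • τ)) / Δ (γ • τ) =
    ((D : ℂ)⁻¹) ^ 12 * (Δ (affPt a D b ha hD τ) / Δ τ)

theorem nonempty_hData (d : ℕ) [NeZero d] (γ : SL(2, ℤ)) : Nonempty (HData d γ) := by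
  obtain ⟨a, D, b, ha, hD, had, hgcd, hj, hΔ⟩ := helper93.hermite_transport d γ
  exact ⟨⟨a, D, b, ha, hD, had, hgcd, hj, hΔ⟩⟩

/-- chosen Hermite data -/
def hData (d : ℕ) [NeZero d] (γ : SL(2, ℤ)) : HData d γ := (nonempty_hData d γ).some

namespace HData

variable {d : ℕ} [NeZero d] {γ : SL(2, ℤ)} (h : HData d γ)

/-- the root of unity of the Hermite data -/
def ξ : ℂ := xi h.D h.b

/-- the exponent `e = (N/d) a²` -/
def e (N : ℕ) : ℕ := N / d * h.a ^ 2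

theorem e_mul (N : ℕ) (hd : d ∣ N) : h.e N * h.D = N * h.a := by
  obtain ⟨k, rfl⟩ := hd
  have hd0 : 0 < d := Nat.pos_of_ne_zero (NeZero.ne d)
  rw [e, Nat.mul_div_cancel_left _ hd0]
  have := h.had
  calc k * h.a ^ 2 * h.D = k * h.a * (h.a * h.D) := by ring
    _ = d * k * h.a := by rw [this]; ring

theorem e_ne_zero (N : ℕ) [NeZero N] (hd : d ∣ N) : h.e N ≠ 0 := by
  intro h0
  have := h.e_mul N hd
  rw [h0, zero_mul] at this
  have h1 : N * h.a ≠ 0 := Nat.mul_ne_zero (NeZero.ne N) h.ha.ne'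
  exact h1 this.symm

theorem ξ_ne_zero : h.ξ ≠ 0 := Fermat.Agent.S23.helper74.xi_ne_zero _ _

/-- the expansion of `j(d γ τ)` -/
def jSer (N : ℕ) : LaurentSeries ℂ := affL h.ξ (h.e N) (jqModC ℂ)

/-- the expansion of `Δ(d γ τ)/Δ(γ τ)` -/
def uSer (N : ℕ) : LaurentSeries ℂ :=
  HahnSeries.C (((h.D : ℂ)⁻¹) ^ 12) * (affL h.ξ (h.e N) deltaS * affL (xi 1 0) N deltaSinv)

/-- the expansion of `Δ(γ τ)/Δ(d γ τ)` -/
def uinvSer (N : ℕ) : LaurentSeries ℂ :=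
  HahnSeries.C ((h.D : ℂ) ^ 12) * (affL h.ξ (h.e N) deltaSinv * affL (xi 1 0) N deltaS)

theorem hasExp_j (N : ℕ) [NeZero N] (hd : d ∣ N) :
    HasExp N (fun τ => jfun (scaleH d (γ • τ))) (h.jSer N) := by
  have := helper78.hasExp_comp_aff helper93.hasExp_jfun N h.a h.D (h.e N) h.b h.ha h.hD (h.e_mul N hd)
  have e : (fun τ => jfun (scaleH d (γ • τ))) = fun τ => jfun (affPt h.a h.D h.b h.ha h.hD τ) :=
    funext h.hj
  rw [e]
  exact this

end HData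

theorem affPt_one_one_zero (τ : ℍ) : affPt 1 1 0 one_pos one_pos τ = τ := by
  apply UpperHalfPlane.ext
  simp [affPt]

theorem hasExp_of_one {f : ℍ → ℂ} {s : LaurentSeries ℂ} (h : HasExp 1 f s) (N : ℕ) [NeZero N] :
    HasExp N f (affL (xi 1 0) N s) := by
  have := helper78.hasExp_comp_aff h N 1 1 N 0 one_pos one_pos (by ring)
  simpa only [affPt_one_one_zero] using this

theorem disc_inv_mul (τ : ℍ) : (Δ τ)⁻¹ * Δ τ = 1 :=
  inv_mul_cancel₀ (ModularForm.discriminant_ne_zero τ)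

namespace HData

variable {d : ℕ} [NeZero d] {γ : SL(2, ℤ)} (h : HData d γ)

theorem hasExp_u (N : ℕ) [NeZero N] (hd : d ∣ N) :
    HasExp N (fun τ => Δ (scaleH d (γ • τ)) / Δ (γ • τ)) (h.uSer N) := by
  have h1 := helper78.hasExp_comp_aff helper93.hasExp_disc N h.a h.D (h.e N) h.b h.ha h.hD
    (h.e_mul N hd)
  have h2 := hasExp_of_one helper93.hasExp_disc_inv N
  have h3 := (HasExp.const N (((h.D : ℂ)⁻¹) ^ 12)).mul (h1.mul h2)
  have e : (fun τ => Δ (scaleH d (γ • τ)) / Δ (γ • τ)) =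
      ((fun _ : ℍ => ((h.D : ℂ)⁻¹) ^ 12) * ((fun τ => Δ (affPt h.a h.D h.b h.ha h.hD τ)) *
        fun τ => (Δ τ)⁻¹)) := by
    funext τ
    rw [h.hΔ τ]
    simp only [Pi.mul_apply, div_eq_mul_inv]
  rw [e]
  exact h3

theorem hasExp_uinv (N : ℕ) [NeZero N] (hd : d ∣ N) :
    HasExp N (fun τ => Δ (γ • τ) / Δ (scaleH d (γ • τ))) (h.uinvSer N) := by
  have h1 := helper78.hasExp_comp_aff helper93.hasExp_disc_inv N h.a h.D (h.e N) h.b h.ha h.hD
    (h.e_mul N hd)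
  have h2 := hasExp_of_one helper93.hasExp_disc N
  have h3 := (HasExp.const N ((h.D : ℂ) ^ 12)).mul (h1.mul h2)
  have e : (fun τ => Δ (γ • τ) / Δ (scaleH d (γ • τ))) =
      ((fun _ : ℍ => (h.D : ℂ) ^ 12) * ((fun τ => (Δ (affPt h.a h.D h.b h.ha h.hD τ))⁻¹) *
        fun τ => Δ τ)) := by
    funext τ
    have hD0 : (h.D : ℂ) ≠ 0 := by exact_mod_cast h.hD.ne'
    have e1 := h.hΔ τ
    have n1 := ModularForm.discriminant_ne_zero (scaleH d (γ • τ))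
    have n2 := ModularForm.discriminant_ne_zero (γ • τ)
    have n3 := ModularForm.discriminant_ne_zero (affPt h.a h.D h.b h.ha h.hD τ)
    have n4 := ModularForm.discriminant_ne_zero τ
    simp only [Pi.mul_apply]
    rw [div_eq_iff n1]
    have e2 : Δ (scaleH d (γ • τ)) =
        ((h.D : ℂ)⁻¹) ^ 12 * (Δ (affPt h.a h.D h.b h.ha h.hD τ) / Δ τ) * Δ (γ • τ) := by
      rw [← e1]; field_simp
    rw [e2]
    field_simp
  rw [e]
  exact h3

end HData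

/-! ### the basic functions -/

theorem mdiff_disc : MDifferentiable 𝓘(ℂ) 𝓘(ℂ) (fun τ : ℍ => Δ τ) :=
  CuspForm.discriminant.holo'

theorem mdiff_disc_inv : MDifferentiable 𝓘(ℂ) 𝓘(ℂ) (fun τ : ℍ => (Δ τ)⁻¹) := by
  have h1 : MDifferentiable 𝓘(ℂ) 𝓘(ℂ) (fun _ : ℍ => (1 : ℂ)) := mdifferentiable_const
  have := h1.div mdiff_disc (fun τ => ModularForm.discriminant_ne_zero τ)
  have e : (fun τ : ℍ => (Δ τ)⁻¹) = ((fun _ : ℍ => (1 : ℂ)) / fun τ : ℍ => Δ τ) := by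
    funext τ
    simp
  rw [e]
  exact this

/-- `u_d(τ) = Δ(dτ)/Δ(τ)` -/
def uD (d : ℕ) [NeZero d] (τ : ℍ) : ℂ := Δ (scaleH d τ) / Δ τ

/-- `u_d⁻¹(τ) = Δ(τ)/Δ(dτ)` -/
def uDinv (d : ℕ) [NeZero d] (τ : ℍ) : ℂ := Δ τ / Δ (scaleH d τ)

theorem uD_mul_uDinv (d : ℕ) [NeZero d] (τ : ℍ) : uD d τ * uDinv d τ = 1 := by
  have n1 := ModularForm.discriminant_ne_zero (scaleH d τ)
  have n4 := ModularForm.discriminant_ne_zero τ
  unfold uD uDinv
  field_simp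

theorem qParam_affPt_of_D_eq_one (d a D : ℕ) [NeZero d] (b : ℤ) (ha : 0 < a) (hD : 0 < D)
    (hD1 : D = 1) (had : a * D = d) (τ : ℍ) :
    Function.Periodic.qParam 1 (affPt a D b ha hD τ) = Function.Periodic.qParam 1 (scaleH d τ) := by
  subst hD1
  subst had
  simp only [Function.Periodic.qParam, Fermat.Agent.S23.helper74.coe_affPt]
  have e1 : ((scaleH (a * 1) τ : ℍ) : ℂ) = ((a * 1 : ℕ) : ℂ) * (τ : ℂ) := rfl
  rw [e1]
  have e2 : 2 * (Real.pi : ℂ) * Complex.I * (((a : ℂ) * (τ : ℂ) + (b : ℂ)) / ((1 : ℕ) : ℂ)) / ((1 : ℝ) : ℂ) =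
      2 * (Real.pi : ℂ) * Complex.I * (((a * 1 : ℕ) : ℂ) * (τ : ℂ)) / ((1 : ℝ) : ℂ) +
        b * (2 * (Real.pi : ℂ) * Complex.I) := by
    push_cast
    ring
  rw [e2, Complex.exp_add, Complex.exp_int_mul_two_pi_mul_I, mul_one]

theorem disc_affPt_of_D_eq_one (d a D : ℕ) [NeZero d] (b : ℤ) (ha : 0 < a) (hD : 0 < D)
    (hD1 : D = 1) (had : a * D = d) (τ : ℍ) :
    Δ (affPt a D b ha hD τ) = Δ (scaleH d τ) := by
  rw [Fermat.Agent.S23.helper74.discriminant_eq_phi, Fermat.Agent.S23.helper74.discriminant_eq_phi,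
    qParam_affPt_of_D_eq_one d a D b ha hD hD1 had τ]

theorem dvd_lower_of_mem_Gamma0 {N : ℕ} {γ : SL(2, ℤ)} (hγ : γ ∈ Gamma0 N) :
    (N : ℤ) ∣ γ 1 0 := by
  rw [Gamma0_mem] at hγ
  exact (ZMod.intCast_zmod_eq_zero_iff_dvd _ _).mp hγ

theorem mem_Gamma0_of_dvd_lower {N : ℕ} {γ : SL(2, ℤ)} (h : (N : ℤ) ∣ γ 1 0) :
    γ ∈ Gamma0 N := by
  rw [Gamma0_mem]
  exact (ZMod.intCast_zmod_eq_zero_iff_dvd _ _).mpr h

theorem HData.D_eq_one_of_mem {N d : ℕ} [NeZero d] (hd : d ∣ N) {γ : SL(2, ℤ)} (h : HData d γ)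
    (hγ : γ ∈ Gamma0 N) : h.D = 1 := by
  have h1 : (d : ℤ) ∣ γ 1 0 := (Int.natCast_dvd_natCast.mpr hd).trans (dvd_lower_of_mem_Gamma0 hγ)
  have h2 : d ∣ (γ 1 0).natAbs := Int.natCast_dvd.mp h1
  have h3 : h.a = d := by rw [h.hgcd]; exact Nat.gcd_eq_left h2
  have h4 := h.had
  rw [h3] at h4
  have hd0 : 0 < d := Nat.pos_of_ne_zero (NeZero.ne d)
  exact Nat.eq_of_mul_eq_mul_left hd0 (by rw [h4, mul_one])

theorem uD_smul_of_mem_Gamma0 (N d : ℕ) [NeZero d] (hd : d ∣ N) (γ : SL(2, ℤ))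
    (hγ : γ ∈ Gamma0 N) (τ : ℍ) : uD d (γ • τ) = uD d τ := by
  have h := hData d γ
  have hD1 := h.D_eq_one_of_mem hd hγ
  unfold uD
  rw [h.hΔ τ, disc_affPt_of_D_eq_one d h.a h.D h.b h.ha h.hD hD1 h.had τ, hD1]
  simp

theorem uDinv_eq_inv (d : ℕ) [NeZero d] (τ : ℍ) : uDinv d τ = (uD d τ)⁻¹ := by
  unfold uD uDinv
  rw [inv_div]

theorem jfunD_mem (N d : ℕ) [NeZero N] [NeZero d] (hd : d ∣ N) : jfunD d ∈ GAlg N := by
  refine ⟨fun γ hγ τ => Fermat.Agent.S24.helper24.jfunD_smul_of_mem_Gamma0 N d hd γ hγ τ,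
    fun γ => ⟨?_, _, (hData d γ).hasExp_j N hd⟩⟩
  have e : (fun τ => jfunD d (γ • τ)) =
      fun τ => jfun (affPt (hData d γ).a (hData d γ).D (hData d γ).b (hData d γ).ha
        (hData d γ).hD τ) := funext (hData d γ).hj
  rw [e]
  exact helper78.mdiff_comp_affPt Fermat.Agent.S24.helper77.mdifferentiable_jfun _ _ _ _ _

theorem uD_mem (N d : ℕ) [NeZero N] [NeZero d] (hd : d ∣ N) : uD d ∈ GAlg N := by
  refine ⟨fun γ hγ τ => uD_smul_of_mem_Gamma0 N d hd γ hγ τ,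
    fun γ => ⟨?_, _, (hData d γ).hasExp_u N hd⟩⟩
  have h := hData d γ
  have e : (fun τ => uD d (γ • τ)) =
      fun τ => ((h.D : ℂ)⁻¹) ^ 12 * (Δ (affPt h.a h.D h.b h.ha h.hD τ) * (Δ τ)⁻¹) := by
    funext τ
    unfold uD
    rw [h.hΔ τ, div_eq_mul_inv]
  rw [e]
  exact (mdifferentiable_const (c := ((h.D : ℂ)⁻¹) ^ 12)).mul
    ((helper78.mdiff_comp_affPt mdiff_disc _ _ _ _ _).mul mdiff_disc_inv)

theorem uDinv_mem (N d : ℕ) [NeZero N] [NeZero d] (hd : d ∣ N) : uDinv d ∈ GAlg N := by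
  refine ⟨fun γ hγ τ => ?_, fun γ => ⟨?_, _, (hData d γ).hasExp_uinv N hd⟩⟩
  · rw [uDinv_eq_inv, uDinv_eq_inv, uD_smul_of_mem_Gamma0 N d hd γ hγ τ]
  have h := hData d γ
  have e : (fun τ => uDinv d (γ • τ)) =
      fun τ => (h.D : ℂ) ^ 12 * ((Δ (affPt h.a h.D h.b h.ha h.hD τ))⁻¹ * Δ τ) := by
    funext τ
    have hD0 : (h.D : ℂ) ≠ 0 := by exact_mod_cast h.hD.ne'
    have n3 := ModularForm.discriminant_ne_zero (affPt h.a h.D h.b h.ha h.hD τ)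
    have n4 := ModularForm.discriminant_ne_zero τ
    rw [uDinv_eq_inv]
    unfold uD
    rw [h.hΔ τ]
    field_simp
  rw [e]
  exact (mdifferentiable_const (c := (h.D : ℂ) ^ 12)).mul
    ((helper78.mdiff_comp_affPt mdiff_disc_inv _ _ _ _ _).mul mdiff_disc)

/-! ### cosets and representatives -/

/-- the index set `SL(2,ℤ) / Γ₀(N)` -/
abbrev IX (N : ℕ) : Type := SL(2, ℤ) ⧸ Gamma0 N

/-- the representative `γ_i = (out i)⁻¹` -/
def rep (N : ℕ) (i : IX N) : SL(2, ℤ) := (Quotient.out i)⁻¹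

/-- the identity coset -/
def i0 (N : ℕ) : IX N := ((1 : SL(2, ℤ)) : IX N)

theorem rep_i0_mem (N : ℕ) : rep N (i0 N) ∈ Gamma0 N := by
  have h : ((Quotient.out (i0 N) : SL(2, ℤ)) : IX N) = ((1 : SL(2, ℤ)) : IX N) :=
    QuotientGroup.out_eq' (i0 N)
  have := QuotientGroup.eq.mp h
  rwa [mul_one] at this

theorem eq_i0_of_rep_mem (N : ℕ) (i : IX N) (h : rep N i ∈ Gamma0 N) : i = i0 N := by
  have h1 : ((Quotient.out i : SL(2, ℤ)) : IX N) = ((1 : SL(2, ℤ)) : IX N) := by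
    rw [QuotientGroup.eq, mul_one]
    exact h
  rw [QuotientGroup.out_eq'] at h1
  exact h1

/-- the invariant `a_i = gcd(N, c_i)` -/
def aI (N : ℕ) (i : IX N) : ℕ := Nat.gcd N ((rep N i) 1 0).natAbs

theorem aI_dvd (N : ℕ) (i : IX N) : aI N i ∣ N := Nat.gcd_dvd_left _ _

theorem eq_i0_of_aI_eq (N : ℕ) (i : IX N) (h : aI N i = N) : i = i0 N := by
  apply eq_i0_of_rep_mem
  apply mem_Gamma0_of_dvd_lower
  have h1 : N ∣ ((rep N i) 1 0).natAbs := by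
    have := Nat.gcd_dvd_right N ((rep N i) 1 0).natAbs
    rwa [show Nat.gcd N ((rep N i) 1 0).natAbs = N from h] at this
  exact Int.natCast_dvd.mpr h1

/-- invariance of conjugates under change of representative -/
theorem GAlg_rep_eq {N : ℕ} [NeZero N] (g : GAlg N) (x y : SL(2, ℤ))
    (hxy : (x : IX N) = (y : IX N)) (τ : ℍ) :
    (g : ℍ → ℂ) (x⁻¹ • τ) = (g : ℍ → ℂ) (y⁻¹ • τ) := by
  have h := QuotientGroup.eq.mp hxy
  have h' : (x⁻¹ * y)⁻¹ ∈ Gamma0 N := inv_mem h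
  have e : y⁻¹ = (x⁻¹ * y)⁻¹ * x⁻¹ := by group
  rw [e, mul_smul, g.2.1 _ h']

/-- the expansion at the coset `i` -/
def EI (N : ℕ) [NeZero N] (i : IX N) : GAlg N →ₐ[ℂ] LaurentSeries ℂ := EAlg N (rep N i)

theorem EI_perm {N : ℕ} [NeZero N] (g : GAlg N) (γ : SL(2, ℤ)) (i : IX N) (τ : ℍ) :
    (g : ℍ → ℂ) (rep N i • γ • τ) = (g : ℍ → ℂ) (rep N (γ⁻¹ • i) • τ) := by
  have h1 : ((γ⁻¹ * Quotient.out i : SL(2, ℤ)) : IX N) =
      ((Quotient.out (γ⁻¹ • i) : SL(2, ℤ)) : IX N) := by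
    rw [QuotientGroup.out_eq']
    conv_rhs => rw [← QuotientGroup.out_eq' i]
    rfl
  have h2 := GAlg_rep_eq g _ _ h1 τ
  rw [rep, rep, ← h2, ← mul_smul]
  all_goals group

/-! ### roots of unity -/

theorem zetaC_pow_self (N : ℕ) [NeZero N] : zetaC N ^ N = 1 := by
  have hN : (N : ℂ) ≠ 0 := by exact_mod_cast NeZero.ne N
  rw [zetaC, ← Complex.exp_nat_mul]
  rw [show (N : ℂ) * (2 * Real.pi * Complex.I / N) = 2 * Real.pi * Complex.I by field_simp]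
  exact Complex.exp_two_pi_mul_I

theorem xi_eq_zetaC_zpow (N D : ℕ) [NeZero N] (b : ℤ) (hD : 0 < D) (hDN : D ∣ N) :
    xi D b = zetaC N ^ (b * (N / D : ℕ)) := by
  obtain ⟨k, rfl⟩ := hDN
  have hD0 : (D : ℂ) ≠ 0 := by exact_mod_cast hD.ne'
  have hN : ((D * k : ℕ) : ℂ) ≠ 0 := by exact_mod_cast NeZero.ne (D * k)
  rw [Nat.mul_div_cancel_left _ hD]
  rw [xi, zetaC, ← Complex.exp_int_mul]
  congr 1
  have hk : (k : ℂ) ≠ 0 := by
    intro h0
    apply hN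
    push_cast
    rw [h0, mul_zero]
  push_cast
  field_simp

theorem zetaC_ne_zero (N : ℕ) : zetaC N ≠ 0 := Complex.exp_ne_zero _

theorem exists_zetaC_pow_eq_zpow (N : ℕ) [NeZero N] (z : ℤ) :
    ∃ m : ℕ, zetaC N ^ m = zetaC N ^ z := by
  refine ⟨(z % N).toNat, ?_⟩
  have hN : (N : ℤ) ≠ 0 := by exact_mod_cast NeZero.ne N
  have h1 : ((z % N).toNat : ℤ) = z % N := Int.toNat_of_nonneg (Int.emod_nonneg z hN)
  rw [← zpow_natCast, h1]
  conv_rhs => rw [← Int.emod_add_mul_ediv z N]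
  rw [zpow_add₀ (zetaC_ne_zero N), zpow_mul, zpow_natCast, zetaC_pow_self, one_zpow,
    mul_one]

theorem exists_zetaC_pow_eq_xi (N D : ℕ) [NeZero N] (b : ℤ) (hD : 0 < D) (hDN : D ∣ N) :
    ∃ m : ℕ, zetaC N ^ m = xi D b := by
  obtain ⟨m, hm⟩ := exists_zetaC_pow_eq_zpow N (b * (N / D : ℕ))
  exact ⟨m, by rw [hm, xi_eq_zetaC_zpow N D b hD hDN]⟩

theorem exists_zetaC_pow_eq_xi_inv (N D : ℕ) [NeZero N] (b : ℤ) (hD : 0 < D) (hDN : D ∣ N) :
    ∃ m : ℕ, zetaC N ^ m = (xi D b)⁻¹ := by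
  obtain ⟨m, hm⟩ := exists_zetaC_pow_eq_zpow N (-(b * (N / D : ℕ)))
  exact ⟨m, by rw [hm, xi_eq_zetaC_zpow N D b hD hDN, zpow_neg]⟩

theorem xi_one_zero : xi 1 0 = 1 := by
  simp [xi]

/-! ### the elements `J`, `Jd`, `U` -/

theorem affL_xi_one (N : ℕ) [NeZero N] (s : LaurentSeries ℂ) :
    affL (xi 1 0) N s = qExpand ℂ N s := by
  rw [affL_of_ne_zero, xi_one_zero]
  congr 1
  ext k
  simp

theorem jfun_mem (N : ℕ) [NeZero N] : jfun ∈ GAlg N := by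
  refine ⟨fun γ _ τ => Fermat.Agent.S24.helper77.jfun_smul γ τ, fun γ => ?_⟩
  have e : (fun τ => jfun (γ • τ)) = jfun := funext (Fermat.Agent.S24.helper77.jfun_smul γ)
  rw [e]
  exact ⟨Fermat.Agent.S24.helper77.mdifferentiable_jfun, _, hasExp_of_one helper93.hasExp_jfun N⟩

/-- `J = j` -/
def JG (N : ℕ) [NeZero N] : GAlg N := ⟨jfun, jfun_mem N⟩

theorem EI_JG (N : ℕ) [NeZero N] (i : IX N) : EI N i (JG N) = xC N := by
  apply EAlg_eq
  have e : (fun τ => ((JG N : GAlg N) : ℍ → ℂ) (rep N i • τ)) = jfun :=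
    funext (Fermat.Agent.S24.helper77.jfun_smul (rep N i))
  rw [e, xC, ← affL_xi_one]
  exact hasExp_of_one helper93.hasExp_jfun N

/-- `Jd d = j(dτ)` (junk `0` if `d ∤ N`) -/
def JdG (N : ℕ) [NeZero N] (d : ℕ) : GAlg N :=
  if h : d ∣ N then
    haveI : NeZero d := ⟨ne_zero_of_dvd_ne_zero (NeZero.ne N) h⟩
    ⟨jfunD d, jfunD_mem N d h⟩
  else 0

theorem JdG_of_dvd (N : ℕ) [NeZero N] (d : ℕ) [NeZero d] (h : d ∣ N) :
    JdG N d = ⟨jfunD d, jfunD_mem N d h⟩ := by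
  unfold JdG
  rw [dif_pos h]

theorem EI_JdG (N : ℕ) [NeZero N] (d : ℕ) [NeZero d] (h : d ∣ N) (i : IX N) :
    EI N i (JdG N d) = (hData d (rep N i)).jSer N := by
  rw [JdG_of_dvd N d h]
  apply EAlg_eq
  exact (hData d (rep N i)).hasExp_j N h

/-- `U d = Δ(dτ)/Δ(τ)` (junk `1` if `d ∤ N`) -/
def UG (N : ℕ) [NeZero N] (d : ℕ) : (GAlg N)ˣ :=
  if h : d ∣ N then
    haveI : NeZero d := ⟨ne_zero_of_dvd_ne_zero (NeZero.ne N) h⟩
    ⟨⟨uD d, uD_mem N d h⟩, ⟨uDinv d, uDinv_mem N d h⟩,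
      Subtype.ext (funext fun τ => uD_mul_uDinv d τ),
      Subtype.ext (funext fun τ => by
        show uDinv d τ * uD d τ = 1
        rw [mul_comm]; exact uD_mul_uDinv d τ)⟩
  else 1

theorem UG_val (N : ℕ) [NeZero N] (d : ℕ) [NeZero d] (h : d ∣ N) :
    ((UG N d : (GAlg N)ˣ) : GAlg N) = ⟨uD d, uD_mem N d h⟩ := by
  unfold UG
  rw [dif_pos h]

theorem UG_inv (N : ℕ) [NeZero N] (d : ℕ) [NeZero d] (h : d ∣ N) :
    (((UG N d)⁻¹ : (GAlg N)ˣ) : GAlg N) = ⟨uDinv d, uDinv_mem N d h⟩ := by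
  unfold UG
  rw [dif_pos h]
  rfl

theorem EI_UG (N : ℕ) [NeZero N] (d : ℕ) [NeZero d] (h : d ∣ N) (i : IX N) :
    EI N i (UG N d : GAlg N) = (hData d (rep N i)).uSer N := by
  rw [UG_val N d h]
  apply EAlg_eq
  exact (hData d (rep N i)).hasExp_u N h

theorem EI_UG_inv (N : ℕ) [NeZero N] (d : ℕ) [NeZero d] (h : d ∣ N) (i : IX N) :
    EI N i (((UG N d)⁻¹ : (GAlg N)ˣ) : GAlg N) = (hData d (rep N i)).uinvSer N := by
  rw [UG_inv N d h]
  apply EAlg_eq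
  exact (hData d (rep N i)).hasExp_uinv N h

/-! ### item (2) -/

theorem affPt_one_zero_eq_scaleH (d : ℕ) [NeZero d] (hd : 0 < d) (τ : ℍ) :
    affPt d 1 0 hd one_pos τ = scaleH d τ := by
  apply UpperHalfPlane.ext
  have e1 : ((scaleH d τ : ℍ) : ℂ) = (d : ℂ) * (τ : ℂ) := rfl
  rw [e1]
  simp [affPt]

theorem hasExp_jfunD (N d : ℕ) [NeZero N] [NeZero d] (hNd : NeZero (N * d)) :
    HasExp N (jfunD d) (@qExpand ℂ _ (N * d) hNd (jqModC ℂ)) := by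
  have hd0 : 0 < d := Nat.pos_of_ne_zero (NeZero.ne d)
  have := helper78.hasExp_comp_aff helper93.hasExp_jfun N d 1 (N * d) 0 hd0 one_pos (by ring)
  rw [affL_xi_one] at this
  have e : (fun τ => jfun (affPt d 1 0 hd0 one_pos τ)) = jfunD d := by
    funext τ
    rw [affPt_one_zero_eq_scaleH]
    rfl
  rw [e] at this
  exact this

theorem EI_i0_JdG (N : ℕ) [NeZero N] (d : ℕ) (h : d ∣ N) (hNd : NeZero (N * d)) :
    EI N (i0 N) (JdG N d) = @qExpand ℂ _ (N * d) hNd (jqModC ℂ) := by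
  have : NeZero d := ⟨ne_zero_of_dvd_ne_zero (NeZero.ne N) h⟩
  rw [JdG_of_dvd N d h]
  apply EAlg_eq
  have e : (fun τ => ((⟨jfunD d, jfunD_mem N d h⟩ : GAlg N) : ℍ → ℂ) (rep N (i0 N) • τ)) =
      jfunD d := by
    funext τ
    exact Fermat.Agent.S24.helper24.jfunD_smul_of_mem_Gamma0 N d h _ (rep_i0_mem N) τ
  rw [e]
  exact hasExp_jfunD N d hNd

/-! ### constant coefficients -/

theorem constantCoeff_map_int (p : PowerSeries ℤ) (hp : PowerSeries.constantCoeff p = 1) :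
    PowerSeries.constantCoeff (p.map (Int.castRingHom ℂ)) = 1 := by
  rw [← PowerSeries.coeff_zero_eq_constantCoeff_apply, PowerSeries.coeff_map,
    PowerSeries.coeff_zero_eq_constantCoeff_apply, hp]
  simp

theorem jqModC_eq : jqModC ℂ = HahnSeries.single (-1 : ℤ) (1 : ℂ) *
    HahnSeries.ofPowerSeries ℤ ℂ (jNum.map (Int.castRingHom ℂ)) := rfl

/-! ### item (4) -/

theorem HData.D_dvd {d : ℕ} [NeZero d] {γ : SL(2, ℤ)} (h : HData d γ) : h.D ∣ d :=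
  ⟨h.a, by have := h.had; rw [mul_comm] at this; exact this.symm⟩

theorem HData.e_self {N : ℕ} [NeZero N] {γ : SL(2, ℤ)} (h : HData N γ) : h.e N = h.a ^ 2 := by
  rw [HData.e, Nat.div_self (Nat.pos_of_ne_zero (NeZero.ne N)), one_mul]

/-- the exponent of `ζ_N` in the leading coefficient of `j(N γ_i τ)` -/
def mI (N : ℕ) [NeZero N] (i : IX N) : ℕ :=
  (exists_zetaC_pow_eq_xi_inv N (hData N (rep N i)).D (hData N (rep N i)).b
    (hData N (rep N i)).hD (hData N (rep N i)).D_dvd).choose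

theorem zetaC_pow_mI (N : ℕ) [NeZero N] (i : IX N) :
    zetaC N ^ mI N i = ((hData N (rep N i)).ξ)⁻¹ :=
  (exists_zetaC_pow_eq_xi_inv N (hData N (rep N i)).D (hData N (rep N i)).b
    (hData N (rep N i)).hD (hData N (rep N i)).D_dvd).choose_spec

theorem hData_a_eq (N : ℕ) [NeZero N] (i : IX N) : (hData N (rep N i)).a = aI N i :=
  (hData N (rep N i)).hgcd

theorem item4_lead (N : ℕ) [NeZero N] (i : IX N) :
    ∃ p : PowerSeries ℂ, PowerSeries.constantCoeff p = 1 ∧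
      EI N i (JdG N N) = HahnSeries.single (-((aI N i : ℤ) ^ 2)) (zetaC N ^ mI N i) *
        HahnSeries.ofPowerSeries ℤ ℂ p := by
  have h := hData N (rep N i)
  obtain ⟨p', hp', hl⟩ := helper25.affL_lead (hData N (rep N i)).ξ (hData N (rep N i)).ξ_ne_zero
    ((hData N (rep N i)).e N) ((hData N (rep N i)).e_ne_zero N dvd_rfl) (-1) 1
    (jNum.map (Int.castRingHom ℂ)) (constantCoeff_map_int _ constantCoeff_jNum)
  refine ⟨p', hp', ?_⟩
  rw [EI_JdG N N dvd_rfl i, HData.jSer, jqModC_eq, hl, zetaC_pow_mI, HData.e_self, hData_a_eq]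
  congr 2
  · push_cast; ring_nf
  · rw [one_mul, zpow_neg_one]

theorem item4_inj (N : ℕ) [NeZero N] (i i' : IX N) (ha : aI N i = aI N i')
    (hz : zetaC N ^ mI N i = zetaC N ^ mI N i') : i = i' := by
  have hξ : (hData N (rep N i)).ξ = (hData N (rep N i')).ξ := by
    rw [zetaC_pow_mI, zetaC_pow_mI] at hz
    exact inv_injective hz
  have he : (hData N (rep N i)).e N = (hData N (rep N i')).e N := by
    rw [HData.e_self, HData.e_self, hData_a_eq, hData_a_eq, ha]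
  have hs : (hData N (rep N i)).jSer N = (hData N (rep N i')).jSer N := by
    rw [HData.jSer, HData.jSer, hξ, he]
  have h1 := (hData N (rep N i)).hasExp_j N dvd_rfl
  have h2 := (hData N (rep N i')).hasExp_j N dvd_rfl
  rw [hs] at h1
  have h3 := h1.fun_unique h2
  have h4 : (Quotient.out i)⁻¹ * Quotient.out i' ∈ Gamma0 N := by
    apply Fermat.Agent.S24.helper24.inv_mul_mem_Gamma0_of_jfunDg_eq N
    intro τ
    exact congrFun h3 τ
  have h5 : ((Quotient.out i : SL(2, ℤ)) : IX N) = ((Quotient.out i' : SL(2, ℤ)) : IX N) :=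
    QuotientGroup.eq.mpr h4
  rwa [QuotientGroup.out_eq', QuotientGroup.out_eq'] at h5

/-! ### item (5) -/

theorem C_eq_single_mul (c : ℂ) : (HahnSeries.C c : LaurentSeries ℂ) =
    HahnSeries.single (0 : ℤ) c * HahnSeries.ofPowerSeries ℤ ℂ 1 := by
  rw [map_one, mul_one]
  rfl

theorem deltaS_eq : deltaS = HahnSeries.single (1 : ℤ) (1 : ℂ) *
    HahnSeries.ofPowerSeries ℤ ℂ (dedekindEtaUnit.map (Int.castRingHom ℂ)) := rfl

theorem deltaSinv_eq : deltaSinv = HahnSeries.single (-1 : ℤ) (1 : ℂ) *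
    HahnSeries.ofPowerSeries ℤ ℂ (dedekindEtaUnitInv.map (Int.castRingHom ℂ)) := rfl

theorem HData.gcd_eq {N d : ℕ} [NeZero d] (hd : d ∣ N) {γ : SL(2, ℤ)} (h : HData d γ) :
    h.a = Nat.gcd d (Nat.gcd N (γ 1 0).natAbs) := by
  rw [h.hgcd, ← Nat.gcd_assoc, Nat.gcd_eq_left hd]

theorem item5 (N : ℕ) [NeZero N] (d : ℕ) (hd : d ∣ N) (i : IX N) :
    ∃ (ε : ℂ) (p : PowerSeries ℂ), ε ≠ 0 ∧ PowerSeries.constantCoeff p = 1 ∧
      EI N i (UG N d : GAlg N) = HahnSeries.single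
          ((((N / d) * (Nat.gcd d (aI N i)) ^ 2 : ℕ) : ℤ) - N) ε *
        HahnSeries.ofPowerSeries ℤ ℂ p := by
  have : NeZero d := ⟨ne_zero_of_dvd_ne_zero (NeZero.ne N) hd⟩
  obtain ⟨p₁, hp₁, hl₁⟩ := helper25.affL_lead (hData d (rep N i)).ξ (hData d (rep N i)).ξ_ne_zero
    ((hData d (rep N i)).e N) ((hData d (rep N i)).e_ne_zero N hd) 1 1
    (dedekindEtaUnit.map (Int.castRingHom ℂ))
    (constantCoeff_map_int _ constantCoeff_dedekindEtaUnit)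
  obtain ⟨p₂, hp₂, hl₂⟩ := helper25.affL_lead (xi 1 0) (by rw [xi_one_zero]; exact one_ne_zero)
    N (NeZero.ne N) (-1) 1
    (dedekindEtaUnitInv.map (Int.castRingHom ℂ))
    (constantCoeff_map_int _ constantCoeff_dedekindEtaUnitInv)
  obtain ⟨r, hr, hm⟩ := helper25.lead_mul (((hData d (rep N i)).e N : ℕ) * 1) ((N : ℤ) * (-1))
    (1 * (hData d (rep N i)).ξ ^ (1 : ℤ)) (1 * (xi 1 0) ^ (-1 : ℤ)) p₁ p₂ hp₁ hp₂
  obtain ⟨r', hr', hm'⟩ := helper25.lead_mul 0 ((((hData d (rep N i)).e N : ℕ) : ℤ) * 1 + (N : ℤ) * (-1))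
    ((((hData d (rep N i)).D : ℂ)⁻¹) ^ 12)
    (1 * (hData d (rep N i)).ξ ^ (1 : ℤ) * (1 * (xi 1 0) ^ (-1 : ℤ))) 1 r (by simp) hr
  refine ⟨(((hData d (rep N i)).D : ℂ)⁻¹) ^ 12 *
    (1 * (hData d (rep N i)).ξ ^ (1 : ℤ) * (1 * (xi 1 0) ^ (-1 : ℤ))), r', ?_, hr', ?_⟩
  · have hD0 : ((hData d (rep N i)).D : ℂ) ≠ 0 := by exact_mod_cast (hData d (rep N i)).hD.ne'
    have hξ := (hData d (rep N i)).ξ_ne_zero
    rw [xi_one_zero]
    simp only [one_mul, zpow_one, one_zpow, mul_one, ne_eq, mul_eq_zero, pow_eq_zero_iff,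
      OfNat.ofNat_ne_zero, not_false_eq_true, inv_eq_zero, Nat.cast_eq_zero, not_or]
    exact ⟨by exact_mod_cast (hData d (rep N i)).hD.ne', hξ⟩
  · rw [EI_UG N d hd i, HData.uSer, deltaS_eq, deltaSinv_eq, hl₁, hl₂, hm, C_eq_single_mul, hm']
    congr 2
    rw [HData.e, (hData d (rep N i)).gcd_eq hd]
    simp only [aI]
    push_cast
    ring_nf

/-! ### item (6) -/

theorem C_coeff_mem (S : Subring ℂ) (c : ℂ) (hc : c ∈ S) (n : ℤ) :
    (HahnSeries.C c : LaurentSeries ℂ).coeff n ∈ S := by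
  rw [HahnSeries.C_apply, HahnSeries.coeff_single]
  split_ifs
  · exact hc
  · exact S.zero_mem

theorem zetaC_pow_mem (S : Subring ℂ) {N : ℕ} (hζ : zetaC N ∈ S) (m : ℕ) : zetaC N ^ m ∈ S :=
  S.pow_mem hζ m

theorem HData.ξ_mem {N d : ℕ} [NeZero N] [NeZero d] (hd : d ∣ N) {γ : SL(2, ℤ)} (h : HData d γ)
    (S : Subring ℂ) (hζ : zetaC N ∈ S) : h.ξ ∈ S ∧ h.ξ⁻¹ ∈ S := by
  obtain ⟨m, hm⟩ := exists_zetaC_pow_eq_xi N h.D h.b h.hD (h.D_dvd.trans hd)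
  obtain ⟨m', hm'⟩ := exists_zetaC_pow_eq_xi_inv N h.D h.b h.hD (h.D_dvd.trans hd)
  exact ⟨by rw [HData.ξ, ← hm]; exact S.pow_mem hζ m, by rw [HData.ξ, ← hm']; exact S.pow_mem hζ m'⟩

theorem natCast_inv_mem (S : Subring ℂ) {N D : ℕ} [NeZero N] (hN : (N : ℂ)⁻¹ ∈ S) (hD : D ∣ N) :
    ((D : ℂ))⁻¹ ∈ S := by
  obtain ⟨k, rfl⟩ := hD
  have hDk : ((D * k : ℕ) : ℂ) ≠ 0 := by exact_mod_cast NeZero.ne (D * k)
  have hD0 : (D : ℂ) ≠ 0 := by
    intro h0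
    apply hDk
    push_cast
    rw [h0, zero_mul]
  have hk0 : (k : ℂ) ≠ 0 := by
    intro h0
    apply hDk
    push_cast
    rw [h0, mul_zero]
  have e : ((D : ℂ))⁻¹ = (k : ℂ) * ((D * k : ℕ) : ℂ)⁻¹ := by
    push_cast
    field_simp
  rw [e]
  exact S.mul_mem (natCast_mem S k) hN

theorem xi_one_zero_mem (S : Subring ℂ) : xi 1 0 ∈ S ∧ (xi 1 0)⁻¹ ∈ S := by
  rw [xi_one_zero, inv_one]
  exact ⟨S.one_mem, S.one_mem⟩

theorem item6 (N : ℕ) [NeZero N] (S : Subring ℂ) (hζ : zetaC N ∈ S) (hN : (N : ℂ)⁻¹ ∈ S)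
    (i : IX N) (n : ℤ) :
    (EI N i (JG N)).coeff n ∈ S ∧ ∀ d, d ∣ N →
      (EI N i (JdG N d)).coeff n ∈ S ∧ (EI N i (UG N d : GAlg N)).coeff n ∈ S ∧
        (EI N i (((UG N d)⁻¹ : (GAlg N)ˣ) : GAlg N)).coeff n ∈ S := by
  refine ⟨?_, fun d hd => ?_⟩
  · rw [EI_JG, xC, ← affL_xi_one]
    exact helper25.affL_coeff_mem S _ (xi_one_zero_mem S).1 (xi_one_zero_mem S).2 N _
      (helper25.jqModC_coeff_mem S) n
  have : NeZero d := ⟨ne_zero_of_dvd_ne_zero (NeZero.ne N) hd⟩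
  obtain ⟨h1, h2⟩ := (hData d (rep N i)).ξ_mem hd S hζ
  have hDinv : (((hData d (rep N i)).D : ℂ))⁻¹ ∈ S :=
    natCast_inv_mem S hN ((hData d (rep N i)).D_dvd.trans hd)
  refine ⟨?_, ?_, ?_⟩
  · rw [EI_JdG N d hd i]
    exact helper25.affL_coeff_mem S _ h1 h2 _ _ (helper25.jqModC_coeff_mem S) n
  · rw [EI_UG N d hd i]
    refine helper25.mul_coeff_mem S _ _ (C_coeff_mem S _ (S.pow_mem hDinv 12)) ?_ n
    exact helper25.mul_coeff_mem S _ _
      (helper25.affL_coeff_mem S _ h1 h2 _ _ (helper25.deltaS_coeff_mem S))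
      (helper25.affL_coeff_mem S _ (xi_one_zero_mem S).1 (xi_one_zero_mem S).2 _ _
        (helper25.deltaSinv_coeff_mem S))
  · rw [EI_UG_inv N d hd i]
    refine helper25.mul_coeff_mem S _ _
      (C_coeff_mem S _ (S.pow_mem (natCast_mem S _) 12)) ?_ n
    exact helper25.mul_coeff_mem S _ _
      (helper25.affL_coeff_mem S _ h1 h2 _ _ (helper25.deltaSinv_coeff_mem S))
      (helper25.affL_coeff_mem S _ (xi_one_zero_mem S).1 (xi_one_zero_mem S).2 _ _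
        (helper25.deltaS_coeff_mem S))

/-! ### item (7) -/

/-- the statement of slice AT-E -/
def CharpolyCoeffs (N : ℕ) [NeZero N] : Prop :=
  ∀ (S : Subring ℂ) (I : Type) [Fintype I] [DecidableEq I] (F : I → ℍ → ℂ)
    (s : I → LaurentSeries ℂ)
    (_ : ∀ i, MDifferentiable 𝓘(ℂ) 𝓘(ℂ) (F i)) (_ : ∀ i, HasExp N (F i) (s i))
    (_ : ∀ i n, (s i).coeff n ∈ S)
    (_ : ∀ γ : SL(2, ℤ), ∃ σ : Equiv.Perm I, ∀ i τ, F i (γ • τ) = F (σ i) τ),
    ∃ P : Polynomial (Polynomial ℂ), (∀ k l, ((P.coeff k).coeff l) ∈ S) ∧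
      (∏ i, (Polynomial.X - Polynomial.C (s i))) =
        P.map ((Polynomial.aeval (xC N) : Polynomial ℂ →ₐ[ℂ] LaurentSeries ℂ) :
          Polynomial ℂ →+* LaurentSeries ℂ)

theorem item7 (N : ℕ) [NeZero N] (hcp : CharpolyCoeffs N) [Fintype (IX N)]
    [DecidableEq (IX N)] (S : Subring ℂ)
    (g : GAlg N) (hS : ∀ i n, (EI N i g).coeff n ∈ S) :
    ∃ P : Polynomial (Polynomial ℂ), (∀ k l, ((P.coeff k).coeff l) ∈ S) ∧
      (∏ i, (Polynomial.X - Polynomial.C (EI N i g))) =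
        P.map ((Polynomial.aeval (xC N) : Polynomial ℂ →ₐ[ℂ] LaurentSeries ℂ) :
          Polynomial ℂ →+* LaurentSeries ℂ) :=
  hcp S (IX N) (fun i τ => (g : ℍ → ℂ) (rep N i • τ)) (fun i => EI N i g)
    (fun i => (g.2.2 (rep N i)).1) (fun i => hasExp_EAlg N (rep N i) g) hS
    (fun γ => ⟨MulAction.toPerm γ⁻¹, fun i τ => EI_perm g γ i τ⟩)

/-! ### the analytic theorem -/

open Polynomial in
theorem analytic_conj_of_charpoly (N : ℕ) [NeZero N] (hcp : CharpolyCoeffs N) :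
    ∃ (I : Type) (_ : Fintype I) (_ : DecidableEq I) (i₀ : I)
      (G : Type) (_ : CommRing G) (_ : Algebra ℂ G)
      (E : I → G →ₐ[ℂ] LaurentSeries ℂ) (J : G) (Jd : ℕ → G) (U : ℕ → Gˣ) (a : I → ℕ),
      -- (1) `J = j` is invariant
      (∀ i, E i J = xC N) ∧
      -- (2) `Jd d = j(dτ)` at the identity coset
      (∀ d, d ∣ N → ∀ hd : NeZero (N * d), E i₀ (Jd d) = @qExpand ℂ _ (N * d) hd (jqModC ℂ)) ∧
      -- (3) the invariant `a i = gcd(N, lower-left entry)`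
      (∀ i, a i ∣ N) ∧ (∀ i, a i = N → i = i₀) ∧
      -- (4) leading terms of `Θ = Jd N` at all cosets
      (∃ m : I → ℕ, (∀ i i', a i = a i' → zetaC N ^ m i = zetaC N ^ m i' → i = i') ∧
        ∀ i, ∃ p : PowerSeries ℂ, PowerSeries.constantCoeff p = 1 ∧
          E i (Jd N) = HahnSeries.single (-((a i : ℤ) ^ 2)) (zetaC N ^ m i) *
            HahnSeries.ofPowerSeries ℤ ℂ p) ∧
      -- (5) leading terms of the modular units `U d = Δ(dτ)/Δ(τ)`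
      (∀ d, d ∣ N → ∀ i, ∃ (ε : ℂ) (p : PowerSeries ℂ), ε ≠ 0 ∧
          PowerSeries.constantCoeff p = 1 ∧
          E i (U d : G) = HahnSeries.single
              ((((N / d) * (Nat.gcd d (a i)) ^ 2 : ℕ) : ℤ) - N) ε *
            HahnSeries.ofPowerSeries ℤ ℂ p) ∧
      -- (6) coefficients of the basic functions lie in `ℤ[ζ_N, 1/N]`
      (∀ S : Subring ℂ, zetaC N ∈ S → (N : ℂ)⁻¹ ∈ S → ∀ i n,
        (E i J).coeff n ∈ S ∧ ∀ d, d ∣ N →
          (E i (Jd d)).coeff n ∈ S ∧ (E i (U d : G)).coeff n ∈ S ∧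
            (E i ((U d)⁻¹ : Gˣ)).coeff n ∈ S) ∧
      -- (7) characteristic polynomials
      (∀ (S : Subring ℂ) (g : G), (∀ i n, (E i g).coeff n ∈ S) →
        ∃ P : Polynomial (Polynomial ℂ), (∀ k l, ((P.coeff k).coeff l) ∈ S) ∧
          (∏ i, (X - C (E i g))) =
            P.map ((aeval (xC N) : Polynomial ℂ →ₐ[ℂ] LaurentSeries ℂ) :
              Polynomial ℂ →+* LaurentSeries ℂ)) := by
  have hfin : Finite (IX N) := Fermat.Agent.S24.helper37.finite_quotient_Gamma0 N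
  refine ⟨IX N, Fintype.ofFinite _, Classical.decEq _, i0 N, GAlg N, inferInstance, inferInstance,
    EI N, JG N, JdG N, UG N, aI N, ?_, ?_, ?_, ?_, ?_, ?_, ?_, ?_⟩
  · exact EI_JG N
  · exact fun d hd hNd => EI_i0_JdG N d hd hNd
  · exact aI_dvd N
  · exact eq_i0_of_aI_eq N
  · exact ⟨mI N, item4_inj N, item4_lead N⟩
  · exact item5 N
  · exact item6 N
  · exact fun S g hS => @item7 N _ hcp (Fintype.ofFinite _) (Classical.decEq _) S g hS

end Fermat.Agent.S28
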