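import Mathlib
import Fermat.Prelude.Def_ModularCurve_JqCoeff
import Fermat.Prelude.Def_ModularCurve_LaurentCoeff

/-!
# S28 (helper81): basic lemmas on Laurent series used in the assembly

* `order_eq_of_coeff` : the order from the lowest nonzero coefficient
* `isUnit_of_coeff` : a Laurent series with unit lowest coefficient is a unit
* `transcendental_of_order_neg` : a Laurent series over a field of negative order is
  transcendental
* `mem_range_coeffMap_iff` : the image of `coeffMap f`
* compatibilities of `coeffMap` with `qExpand`, `jqModC`, `C`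
-/

set_option autoImplicit false

noncomputable section

namespace Fermat.Agent.S28.helper81

open ModularCurve HahnSeries Polynomial

/-- order of a Laurent series from its lowest nonzero coefficient -/
theorem order_eq_of_coeff {R : Type*} [Zero R] (x : LaurentSeries R) (n : ℤ)
    (h1 : x.coeff n ≠ 0) (h2 : ∀ m < n, x.coeff m = 0) : x.order = n := by
  apply le_antisymm
  · exact HahnSeries.order_le_of_coeff_ne_zero h1
  · by_contra hlt
    push Not at hlt
    have hx : x ≠ 0 := fun h => h1 (by rw [h]; rfl)
    exact (HahnSeries.coeff_order_eq_zero.not.mpr hx) (h2 _ hlt)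

/-- a Laurent series over a commutative ring whose lowest coefficient is a unit is a unit -/
theorem isUnit_of_coeff {R : Type*} [CommRing R] (x : LaurentSeries R) (n : ℤ)
    (h1 : IsUnit (x.coeff n)) (h2 : ∀ m < n, x.coeff m = 0) : IsUnit x := by
  rcases subsingleton_or_nontrivial R with hR | hR
  · have : Subsingleton (LaurentSeries R) := ⟨fun a b => by ext k; exact Subsingleton.elim _ _⟩
    exact isUnit_of_subsingleton x
  have hn : x.order = n := order_eq_of_coeff x n h1.ne_zero h2
  rw [← LaurentSeries.single_order_mul_powerSeriesPart x]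
  refine IsUnit.mul ?_ ?_
  · refine IsUnit.of_mul_eq_one (HahnSeries.single (-x.order) (1 : R)) ?_
    rw [HahnSeries.single_mul_single]
    simp
  · have : IsUnit (LaurentSeries.powerSeriesPart x) := by
      rw [PowerSeries.isUnit_iff_constantCoeff, ← PowerSeries.coeff_zero_eq_constantCoeff_apply,
        LaurentSeries.powerSeriesPart_coeff, hn]
      simpa using h1
    exact this.map (HahnSeries.ofPowerSeries ℤ R)

theorem algebraMap_eq_C {R : Type*} [CommRing R] (c : R) :
    algebraMap R (LaurentSeries R) c = HahnSeries.C c := by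
  rw [HahnSeries.algebraMap_apply', PowerSeries.algebraMap_apply, HahnSeries.ofPowerSeries_C]
  rfl

theorem coeff_algebraMap_mul {R : Type*} [CommRing R] (c : R) (x : LaurentSeries R) (m : ℤ) :
    (algebraMap R (LaurentSeries R) c * x).coeff m = c * x.coeff m := by
  rw [algebraMap_eq_C, HahnSeries.C_mul_eq_smul]
  rfl

section Transc

variable {k : Type*} [Field k]

theorem coeff_aeval_top (x : LaurentSeries k) (hx : x.order < 0) (p : Polynomial k) :
    (Polynomial.aeval x p).coeff (p.natDegree • x.order) =
      p.leadingCoeff * x.leadingCoeff ^ p.natDegree := by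
  rw [Polynomial.aeval_eq_sum_range, HahnSeries.coeff_sum]
  rw [Finset.sum_eq_single p.natDegree]
  · rw [Algebra.smul_def, coeff_algebraMap_mul, Polynomial.leadingCoeff]
    congr 1
    have h := HahnSeries.leadingCoeff_eq (x := x ^ p.natDegree)
    rw [HahnSeries.order_pow] at h
    rw [← h]
    clear h
    induction p.natDegree with
    | zero => simp
    | succ d ih => rw [pow_succ, HahnSeries.leadingCoeff_mul, ih, pow_succ]
  · intro i hi hne
    rw [Algebra.smul_def, coeff_algebraMap_mul]
    have hlt : i < p.natDegree := lt_of_le_of_ne (Nat.lt_succ_iff.mp (Finset.mem_range.mp hi)) hne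
    have : (x ^ i).coeff (p.natDegree • x.order) = 0 := by
      apply HahnSeries.coeff_eq_zero_of_lt_order
      rw [HahnSeries.order_pow]
      simp only [nsmul_eq_mul]
      have : (i : ℤ) < p.natDegree := by exact_mod_cast hlt
      nlinarith
    rw [this, mul_zero]
  · intro h
    exact absurd (Finset.mem_range.mpr (Nat.lt_succ_self _)) h

theorem aeval_ne_zero_of_order_neg (x : LaurentSeries k) (hx : x.order < 0) (p : Polynomial k)
    (hp : p ≠ 0) : Polynomial.aeval x p ≠ 0 := by
  intro h
  have h1 := coeff_aeval_top x hx p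
  rw [h] at h1
  have hx0 : x ≠ 0 := by
    rintro rfl
    simp at hx
  have : p.leadingCoeff * x.leadingCoeff ^ p.natDegree ≠ 0 :=
    mul_ne_zero (Polynomial.leadingCoeff_ne_zero.mpr hp)
      (pow_ne_zero _ (HahnSeries.leadingCoeff_ne_zero.mpr hx0))
  exact this (by rw [← h1]; rfl)

/-- a Laurent series of negative order over a field is transcendental -/
theorem transcendental_of_order_neg (x : LaurentSeries k) (hx : x.order < 0) :
    Transcendental k x := by
  rw [Transcendental, IsAlgebraic]
  rintro ⟨p, hp, h⟩
  exact aeval_ne_zero_of_order_neg x hx p hp h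

theorem aeval_injective_of_order_neg (x : LaurentSeries k) (hx : x.order < 0) :
    Function.Injective (Polynomial.aeval x : Polynomial k →ₐ[k] LaurentSeries k) :=
  transcendental_iff_injective.mp (transcendental_of_order_neg x hx)

/-- order of a polynomial in a Laurent series of negative order -/
theorem order_aeval_of_order_neg (x : LaurentSeries k) (hx : x.order < 0) (p : Polynomial k)
    (hp : p ≠ 0) : (Polynomial.aeval x p).order = p.natDegree • x.order := by
  have hx0 : x ≠ 0 := by
    rintro rfl
    simp at hx
  apply order_eq_of_coeff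
  · rw [coeff_aeval_top x hx p]
    exact mul_ne_zero (Polynomial.leadingCoeff_ne_zero.mpr hp)
      (pow_ne_zero _ (HahnSeries.leadingCoeff_ne_zero.mpr hx0))
  · intro m hm
    rw [Polynomial.aeval_eq_sum_range, HahnSeries.coeff_sum]
    apply Finset.sum_eq_zero
    intro i hi
    rw [Algebra.smul_def, coeff_algebraMap_mul]
    have hle : i ≤ p.natDegree := Nat.lt_succ_iff.mp (Finset.mem_range.mp hi)
    have : (x ^ i).coeff m = 0 := by
      apply HahnSeries.coeff_eq_zero_of_lt_order
      rw [HahnSeries.order_pow]
      simp only [nsmul_eq_mul] at hm ⊢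
      have : (i : ℤ) ≤ p.natDegree := by exact_mod_cast hle
      nlinarith
    rw [this, mul_zero]

end Transc

section CoeffMap

variable {R S : Type*} [CommRing R] [CommRing S]

theorem coeffMap_injective' (f : R →+* S) (hf : Function.Injective f) :
    Function.Injective (coeffMap f) := by
  intro x y h
  ext n
  apply hf
  have := congrArg (fun z => z.coeff n) h
  simpa using this

/-- the image of `coeffMap f` for an injective `f` -/
theorem mem_range_coeffMap_iff (f : R →+* S) (x : LaurentSeries S) :
    x ∈ (coeffMap f).range ↔ ∀ n, x.coeff n ∈ f.range := by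
  constructor
  · rintro ⟨y, rfl⟩ n
    exact ⟨y.coeff n, rfl⟩
  · intro h
    classical
    choose g hg using h
    let g' : ℤ → R := fun n => if x.coeff n = 0 then 0 else g n
    have hg' : ∀ n, f (g' n) = x.coeff n := by
      intro n
      by_cases h0 : x.coeff n = 0
      · simp [g', h0]
      · simp [g', h0, hg]
    have hsupp : Function.support g' ⊆ x.support := by
      intro n hn
      rw [Function.mem_support] at hn
      rw [HahnSeries.mem_support]
      intro h0
      exact hn (by simp [g', h0])
    refine ⟨⟨g', x.isPWO_support.mono hsupp⟩, ?_⟩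
    ext n
    exact hg' n

theorem coeffMap_C' (f : R →+* S) (r : R) : coeffMap f (HahnSeries.C r) = HahnSeries.C (f r) := by
  rw [HahnSeries.C_apply, HahnSeries.C_apply]
  exact coeffMap_single f 0 r

theorem coeffMap_qExpand (f : R →+* S) (N : ℕ) [NeZero N] (x : LaurentSeries R) :
    coeffMap f (qExpand R N x) = qExpand S N (coeffMap f x) := by
  ext n
  rw [coeffMap_coeff]
  by_cases hn : (N : ℤ) ∣ n
  · obtain ⟨m, rfl⟩ := hn
    rw [qExpand_coeff_mul, qExpand_coeff_mul, coeffMap_coeff]
  · rw [qExpand_coeff_of_not_dvd N _ hn, qExpand_coeff_of_not_dvd N _ hn, map_zero]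

theorem coeffMap_jqModC (f : R →+* S) : coeffMap f (jqModC R) = jqModC S :=
  map_jqModC f

theorem coeffMap_ofPowerSeries (f : R →+* S) (p : PowerSeries R) :
    coeffMap f (HahnSeries.ofPowerSeries ℤ R p) = HahnSeries.ofPowerSeries ℤ S (p.map f) := by
  ext n
  rw [coeffMap_coeff]
  rcases le_or_gt 0 n with hn | hn
  · lift n to ℕ using hn
    rw [HahnSeries.ofPowerSeries_apply_coeff, HahnSeries.ofPowerSeries_apply_coeff,
      PowerSeries.coeff_map]
  · rw [ofPowerSeries_coeff_of_neg _ hn, ofPowerSeries_coeff_of_neg _ hn, map_zero]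

end CoeffMap

section Jq

variable (R : Type*) [CommRing R]

theorem coeff_jqModC_neg_one : (jqModC R).coeff (-1) = 1 := by
  have h := HahnSeries.coeff_single_mul_add (r := (1 : R))
    (x := HahnSeries.ofPowerSeries ℤ R (jNum.map (Int.castRingHom R))) (a := 0) (b := (-1 : ℤ))
  rw [zero_add] at h
  rw [jqModC, h, one_mul]
  have := HahnSeries.ofPowerSeries_apply_coeff (Γ := ℤ) (jNum.map (Int.castRingHom R)) 0
  simp only [Nat.cast_zero] at this
  rw [this, PowerSeries.coeff_map, PowerSeries.coeff_zero_eq_constantCoeff_apply,
    constantCoeff_jNum]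
  simp

theorem coeff_jqModC_of_lt {m : ℤ} (hm : m < -1) : (jqModC R).coeff m = 0 := by
  have h := HahnSeries.coeff_single_mul_add (r := (1 : R))
    (x := HahnSeries.ofPowerSeries ℤ R (jNum.map (Int.castRingHom R))) (a := m + 1) (b := (-1 : ℤ))
  rw [show m + 1 + -1 = m by ring] at h
  rw [jqModC, h, one_mul]
  exact ofPowerSeries_coeff_of_neg _ (by omega)

theorem isUnit_jqModC : IsUnit (jqModC R) :=
  isUnit_of_coeff _ (-1) (by rw [coeff_jqModC_neg_one]; exact isUnit_one)
    (fun _ hm => coeff_jqModC_of_lt R hm)

theorem order_jqModC [Nontrivial R] : (jqModC R).order = -1 :=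
  order_eq_of_coeff _ (-1) (by rw [coeff_jqModC_neg_one]; exact one_ne_zero)
    (fun _ hm => coeff_jqModC_of_lt R hm)

theorem order_qExpand_jqModC [Nontrivial R] (N : ℕ) [NeZero N] :
    (qExpand R N (jqModC R)).order = -(N : ℤ) := by
  apply order_eq_of_coeff
  · have := qExpand_coeff_mul (R := R) N (jqModC R) (-1)
    rw [show (N : ℤ) * -1 = -(N : ℤ) by ring] at this
    rw [this, coeff_jqModC_neg_one]
    exact one_ne_zero
  · intro m hm
    by_cases hd : (N : ℤ) ∣ m
    · obtain ⟨c, rfl⟩ := hd
      rw [qExpand_coeff_mul]
      apply coeff_jqModC_of_lt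
      have hN : (0 : ℤ) < N := by exact_mod_cast Nat.pos_of_ne_zero (NeZero.ne N)
      nlinarith
    · exact qExpand_coeff_of_not_dvd N _ hd

end Jq

end Fermat.Agent.S28.helper81
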