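import Mathlib
import Fermat.Agent.S28.ATDefs
import Fermat.Agent.S24.helper77_PolyInJ
import Fermat.Agent.S24.helper17_Bridge
import Fermat.Agent.S28.helper81_Laurent

/-!
# S28-AT-A (helper63): level one, with coefficient control

`levelOne_poly` : a holomorphic `SL(2,ℤ)`-invariant function on `ℍ` which has a meromorphic
`q_N`-expansion `s` at `∞` with coefficients in a subring `S ⊆ ℂ` is a polynomial in `j` with
coefficients in `S`; precisely `s = P(x)` with `x = j(t^N)` and `P ∈ S[X]`.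

Intermediate results:
* `hasExp_expand` : `HasExp 1 f s → HasExp N f (qExpand ℂ N s)`
* `hasExp_of_isQExp` : `IsQExp s f → HasExp 1 f s` (bridge to helper17's formalism)
* `hasExp_jfun_xC` : `HasExp N jfun (xC N)`
* `HasExp.isBigO` : growth bound from an expansion
* `hasExp_eval_jfun` : `HasExp N (P ∘ jfun) (aeval (xC N) P)`
* `coeff_mem_of_aeval_xC` : the formal integrality lemma
-/

set_option autoImplicit false

noncomputable section

namespace Fermat.Agent.S28.helper63

open ModularCurve UpperHalfPlane Fermat.Agent.S28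
open Fermat.Agent.S24 (jfun)
open scoped MatrixGroups Manifold

/-! ### Laurent series with coefficients in a subring -/

/-- Laurent series all of whose coefficients lie in the subring `S`. -/
def coeffSubring (S : Subring ℂ) : Subring (LaurentSeries ℂ) := (coeffMap S.subtype).range

theorem mem_coeffSubring_iff (S : Subring ℂ) (x : LaurentSeries ℂ) :
    x ∈ coeffSubring S ↔ ∀ n, x.coeff n ∈ S := by
  rw [coeffSubring, helper81.mem_range_coeffMap_iff]
  constructor
  · intro h n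
    obtain ⟨y, hy⟩ := h n
    rw [← hy]
    exact y.2
  · intro h n
    exact ⟨⟨_, h n⟩, rfl⟩

theorem xC_mem_coeffSubring (N : ℕ) [NeZero N] (S : Subring ℂ) : xC N ∈ coeffSubring S := by
  refine ⟨qExpand S N (jqModC S), ?_⟩
  rw [helper81.coeffMap_qExpand, helper81.coeffMap_jqModC]
  rfl

theorem C_mem_coeffSubring (S : Subring ℂ) {c : ℂ} (hc : c ∈ S) :
    (HahnSeries.C c : LaurentSeries ℂ) ∈ coeffSubring S := by
  refine ⟨HahnSeries.C ⟨c, hc⟩, ?_⟩
  rw [helper81.coeffMap_C']
  rfl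

theorem order_xC (N : ℕ) [NeZero N] : (xC N).order = -(N : ℤ) :=
  helper81.order_qExpand_jqModC ℂ N

theorem leadingCoeff_xC (N : ℕ) [NeZero N] : (xC N).leadingCoeff = 1 := by
  have hx : xC N ≠ 0 := by
    intro h
    have := order_xC N
    rw [h, HahnSeries.order_zero] at this
    have hN : (N : ℤ) ≠ 0 := by exact_mod_cast NeZero.ne N
    omega
  rw [HahnSeries.leadingCoeff_eq, order_xC]
  have := qExpand_coeff_mul (R := ℂ) N (jqModC ℂ) (-1)
  rw [show (N : ℤ) * -1 = -(N : ℤ) by ring] at this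
  rw [xC, this, helper81.coeff_jqModC_neg_one]

/-- **Formal integrality.** If `P(x)` has all its coefficients in `S`, then `P ∈ S[X]`. -/
theorem coeff_mem_of_aeval_xC (N : ℕ) [NeZero N] (S : Subring ℂ) :
    ∀ (n : ℕ) (P : Polynomial ℂ), P.support.card = n →
      (Polynomial.aeval (xC N) : Polynomial ℂ →ₐ[ℂ] LaurentSeries ℂ) P ∈ coeffSubring S →
      ∀ l, P.coeff l ∈ S := by
  intro n
  induction n using Nat.strong_induction_on with
  | _ n ih =>
    intro P hP hmem l
    by_cases hP0 : P = 0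
    · rw [hP0, Polynomial.coeff_zero]
      exact S.zero_mem
    have hN : (0 : ℤ) < (N : ℤ) := by exact_mod_cast Nat.pos_of_ne_zero (NeZero.ne N)
    have hord : (xC N).order < 0 := by rw [order_xC]; omega
    have hlc : P.leadingCoeff ∈ S := by
      have h1 := helper81.coeff_aeval_top (xC N) hord P
      rw [leadingCoeff_xC, one_pow, mul_one] at h1
      rw [← h1]
      exact (mem_coeffSubring_iff S _).mp hmem _
    have hQ : (Polynomial.aeval (xC N) : Polynomial ℂ →ₐ[ℂ] LaurentSeries ℂ) P.eraseLead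
        ∈ coeffSubring S := by
      have e : P.eraseLead = P - Polynomial.C P.leadingCoeff * Polynomial.X ^ P.natDegree :=
        eq_sub_of_add_eq (Polynomial.eraseLead_add_C_mul_X_pow P)
      rw [e, map_sub, map_mul, map_pow, Polynomial.aeval_C, Polynomial.aeval_X,
        helper81.algebraMap_eq_C]
      exact Subring.sub_mem _ hmem
        (Subring.mul_mem _ (C_mem_coeffSubring S hlc)
          (Subring.pow_mem _ (xC_mem_coeffSubring N S) _))
    have hlt : P.eraseLead.support.card < n := hP ▸ Polynomial.eraseLead_support_card_lt hP0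
    have hih := ih _ hlt P.eraseLead rfl hQ l
    rw [← Polynomial.eraseLead_add_C_mul_X_pow P, Polynomial.coeff_add,
      Polynomial.coeff_C_mul_X_pow]
    refine S.add_mem hih ?_
    split_ifs
    · exact hlc
    · exact S.zero_mem

/-! ### Expansions in `q_N` from expansions in `q` -/

theorem qN_pow_self (N : ℕ) [NeZero N] (τ : ℍ) : qN N τ ^ N = qN 1 τ := by
  unfold qN Function.Periodic.qParam
  rw [← Complex.exp_nat_mul]
  congr 1
  have hN : (N : ℂ) ≠ 0 := by exact_mod_cast NeZero.ne N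
  push_cast
  field_simp

theorem qExpand_lau (N : ℕ) [NeZero N] (M : ℕ) (p : PowerSeries ℂ) :
    qExpand ℂ N (lau M p) = lau (N * M) (Fermat.Agent.S24.helper17.expandPS N p) := by
  rw [lau, lau, map_mul, qExpand_single, Fermat.Agent.S24.helper17.ofPowerSeries_expandPS]
  congr 2
  rw [Nat.cast_mul, mul_neg]

theorem hasExpAt_expand {f : ℍ → ℂ} {M : ℕ} {p : PowerSeries ℂ} (h : HasExpAt 1 f M p)
    (N : ℕ) [NeZero N] :
    HasExpAt N f (N * M) (Fermat.Agent.S24.helper17.expandPS N p) := by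
  intro τ
  have hN : 0 < N := Nat.pos_of_ne_zero (NeZero.ne N)
  have h1 := h τ
  rw [pow_mul, qN_pow_self]
  have hinj : Function.Injective (fun m : ℕ => N * m) := fun a b hab =>
    Nat.eq_of_mul_eq_mul_left hN hab
  refine (Function.Injective.hasSum_iff hinj ?_).mp ?_
  · intro n hn
    rw [Fermat.Agent.S24.helper17.coeff_expandPS, if_neg, zero_mul]
    rintro ⟨m, rfl⟩
    exact hn ⟨m, rfl⟩
  · refine h1.congr_fun fun m => ?_
    simp only [Function.comp_apply]
    rw [Fermat.Agent.S24.helper17.coeff_expandPS, if_pos (dvd_mul_right N m),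
      Nat.mul_div_cancel_left _ hN, pow_mul, qN_pow_self]

/-- an expansion in `q` gives an expansion in `t = q^{1/N}` by `q = t^N`. -/
theorem hasExp_expand {f : ℍ → ℂ} {s : LaurentSeries ℂ} (h : HasExp 1 f s) (N : ℕ) [NeZero N] :
    HasExp N f (qExpand ℂ N s) := by
  obtain ⟨M, p, rfl, hp⟩ := h
  exact ⟨N * M, _, qExpand_lau N M p, hasExpAt_expand hp N⟩

/-- bridge from helper17's `IsQExp` to `HasExp 1`. -/
theorem hasExp_of_isQExp {f : ℍ → ℂ} {s : LaurentSeries ℂ}
    (h : Fermat.Agent.S24.helper17.IsQExp s f) : HasExp 1 f s := by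
  obtain ⟨M, hn, he⟩ := h
  refine ⟨M, qExpansion 1 (fun τ : ℍ => Function.Periodic.qParam 1 τ ^ M * f τ), ?_, ?_⟩
  · rw [lau, he, ← mul_assoc, HahnSeries.single_mul_single]
    simp
  · intro τ
    have := hn.hasSum τ
    simpa [qN, smul_eq_mul] using this

theorem hasExp_jfun_one : HasExp 1 jfun (jqModC ℂ) :=
  hasExp_of_isQExp Fermat.Agent.S24.helper17.isQExp_jfun

/-- the expansion of `j` in `t = q^{1/N}` is `x = j(t^N)`. -/
theorem hasExp_jfun_xC (N : ℕ) [NeZero N] : HasExp N jfun (xC N) :=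
  hasExp_expand hasExp_jfun_one N

theorem hasExp_pow {N : ℕ} [NeZero N] {f : ℍ → ℂ} {s : LaurentSeries ℂ} (h : HasExp N f s)
    (n : ℕ) : HasExp N (f ^ n) (s ^ n) := by
  induction n with
  | zero => simpa using HasExp.one N
  | succ n ih =>
    rw [pow_succ, pow_succ]
    exact ih.mul h

/-- the expansion of a polynomial in `j`. -/
theorem hasExp_eval_jfun (N : ℕ) [NeZero N] (P : Polynomial ℂ) :
    HasExp N (fun τ => P.eval (jfun τ))
      ((Polynomial.aeval (xC N) : Polynomial ℂ →ₐ[ℂ] LaurentSeries ℂ) P) := by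
  induction P using Polynomial.induction_on' with
  | add p q hp hq =>
    have := hp.add hq
    rw [map_add]
    refine Eq.mp ?_ this
    congr 1
    funext τ
    simp
  | monomial n a =>
    have h1 := (HasExp.const N a).mul (hasExp_pow (hasExp_jfun_xC N) n)
    rw [← Polynomial.C_mul_X_pow_eq_monomial, map_mul, map_pow, Polynomial.aeval_C,
      Polynomial.aeval_X, helper81.algebraMap_eq_C]
    refine Eq.mp ?_ h1
    congr 1
    funext τ
    simp

/-! ### Growth bound from an expansion -/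

theorem isBigO_of_hasExpAt {N : ℕ} [NeZero N] {f : ℍ → ℂ} {M : ℕ} {p : PowerSeries ℂ}
    (h : HasExpAt N f M p) :
    f =O[atImInfty] fun τ => Real.exp (2 * Real.pi * M * τ.im) := by
  have hN : (0 : ℝ) < (N : ℝ) := by exact_mod_cast Nat.pos_of_ne_zero (NeZero.ne N)
  have hN1 : (1 : ℝ) ≤ (N : ℝ) := by exact_mod_cast Nat.pos_of_ne_zero (NeZero.ne N)
  set r₀ : ℝ := ‖qN N UpperHalfPlane.I‖ with hr₀
  have hsum : Summable (fun n : ℕ => ‖p.coeff n‖ * r₀ ^ n) := by
    have := (h UpperHalfPlane.I).summable.norm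
    simpa [norm_mul, norm_pow] using this
  refine Asymptotics.IsBigO.of_bound (∑' n, ‖p.coeff n‖ * r₀ ^ n) ?_
  rw [Filter.eventually_iff, atImInfty_mem]
  refine ⟨1, fun τ hτ => ?_⟩
  show ‖f τ‖ ≤ (∑' n, ‖p.coeff n‖ * r₀ ^ n) * ‖Real.exp (2 * Real.pi * M * τ.im)‖
  have hq0 : qN N τ ≠ 0 := qN_ne_zero N τ
  have hqn : ‖qN N τ‖ = Real.exp (-2 * Real.pi * τ.im / N) := by
    unfold qN
    rw [Function.Periodic.norm_qParam]
    rfl
  have hr : ‖qN N τ‖ ≤ r₀ := by
    rw [hr₀, hqn]
    unfold qN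
    rw [Function.Periodic.norm_qParam]
    apply Real.exp_le_exp.mpr
    have h1 : ((UpperHalfPlane.I : ℍ) : ℂ).im = 1 := by simp
    rw [h1]
    have h2 : (1 : ℝ) ≤ τ.im := hτ
    have hpi := Real.pi_pos
    apply div_le_div_of_nonneg_right _ hN.le
    nlinarith
  have hbound : ‖qN N τ ^ M * f τ‖ ≤ ∑' n, ‖p.coeff n‖ * r₀ ^ n := by
    have h1 := h τ
    rw [← h1.tsum_eq]
    have hs1 : Summable (fun n : ℕ => ‖p.coeff n * qN N τ ^ n‖) := h1.summable.norm
    refine (norm_tsum_le_tsum_norm hs1).trans ?_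
    refine hs1.tsum_le_tsum (fun n => ?_) hsum
    rw [norm_mul, norm_pow]
    exact mul_le_mul_of_nonneg_left (pow_le_pow_left₀ (norm_nonneg _) hr n) (norm_nonneg _)
  have hC : 0 ≤ ∑' n, ‖p.coeff n‖ * r₀ ^ n :=
    tsum_nonneg fun n => mul_nonneg (norm_nonneg _) (pow_nonneg (norm_nonneg _) n)
  have hqpos : 0 < ‖qN N τ‖ ^ M := pow_pos (norm_pos_iff.mpr hq0) M
  have hf : ‖f τ‖ = ‖qN N τ ^ M * f τ‖ * (‖qN N τ‖ ^ M)⁻¹ := by
    rw [norm_mul, norm_pow]
    field_simp
  rw [hf, Real.norm_eq_abs, abs_of_pos (Real.exp_pos _)]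
  refine mul_le_mul hbound ?_ (inv_nonneg.mpr hqpos.le) hC
  rw [hqn, ← Real.exp_nat_mul, ← Real.exp_neg]
  apply Real.exp_le_exp.mpr
  have him : 0 < τ.im := τ.im_pos
  have hpi := Real.pi_pos
  have hM : (0 : ℝ) ≤ (M : ℝ) := Nat.cast_nonneg M
  have e : -((M : ℝ) * (-2 * Real.pi * τ.im / N)) = (2 * Real.pi * M * τ.im) / N := by
    field_simp
  rw [e]
  apply div_le_self _ hN1
  positivity

/-! ### The level one theorem -/

/-- **AT-A.** A holomorphic `SL(2,ℤ)`-invariant function with a `q_N`-expansion with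
coefficients in `S` is a polynomial in `j` with coefficients in `S`. -/
theorem levelOne_poly (N : ℕ) [NeZero N] (S : Subring ℂ) (f : ℍ → ℂ)
    (hf : MDifferentiable 𝓘(ℂ) 𝓘(ℂ) f) (hinv : ∀ (γ : SL(2, ℤ)) (τ : ℍ), f (γ • τ) = f τ)
    (s : LaurentSeries ℂ) (hs : HasExp N f s) (hS : ∀ n, s.coeff n ∈ S) :
    ∃ P : Polynomial ℂ, (∀ l, P.coeff l ∈ S) ∧
      s = (Polynomial.aeval (xC N) : Polynomial ℂ →ₐ[ℂ] LaurentSeries ℂ) P := by
  obtain ⟨M, p, hsp, hp⟩ := hs
  obtain ⟨P, -, hP⟩ :=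
    Fermat.Agent.S24.helper77.exists_poly_of_invariant f hf hinv M (isBigO_of_hasExpAt hp)
  have h1 : HasExp N f ((Polynomial.aeval (xC N) : Polynomial ℂ →ₐ[ℂ] LaurentSeries ℂ) P) := by
    have := hasExp_eval_jfun N P
    have e : (fun τ => P.eval (jfun τ)) = f := funext fun τ => (hP τ).symm
    rwa [e] at this
  have h2 : s = (Polynomial.aeval (xC N) : Polynomial ℂ →ₐ[ℂ] LaurentSeries ℂ) P :=
    HasExp.unique ⟨M, p, hsp, hp⟩ h1
  refine ⟨P, ?_, h2⟩
  apply coeff_mem_of_aeval_xC N S _ P rfl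
  rw [← h2]
  exact (mem_coeffSubring_iff S s).mpr hS

end Fermat.Agent.S28.helper63
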