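import Mathlib
import Fermat.Agent.S28.helper63_LevelOne
import Fermat.Agent.S28.ATAssembly

/-! # S28 analytic theorem, slice AT-E: characteristic polynomials of conjugate families,
and the final statement `analytic_conj`. -/

set_option autoImplicit false

noncomputable section

namespace Fermat.Agent.S28

open ModularCurve UpperHalfPlane Polynomial
open scoped MatrixGroups Manifold

/-- evaluation at `τ` as a ring hom on `Wring N` -/
def evW (N : ℕ) [NeZero N] (τ : ℍ) : Wring N →+* ℂ :=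
  (Pi.evalRingHom (fun _ : ℍ => ℂ) τ).comp (Wring N).subtype

theorem evW_apply (N : ℕ) [NeZero N] (τ : ℍ) (f : Wring N) : evW N τ f = (f : ℍ → ℂ) τ := rfl

theorem map_prod_X_sub_C {R R' : Type*} [CommRing R] [CommRing R'] (φ : R →+* R')
    {I : Type*} (t : Finset I) (f : I → R) :
    (∏ i ∈ t, (X - C (f i))).map φ = ∏ i ∈ t, (X - C (φ (f i))) := by
  rw [Polynomial.map_prod]
  refine Finset.prod_congr rfl fun i _ => ?_
  rw [Polynomial.map_sub, Polynomial.map_X, Polynomial.map_C]

theorem charpoly_coeffs (N : ℕ) [NeZero N] (S : Subring ℂ) {I : Type} [Fintype I]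
    [DecidableEq I] (F : I → ℍ → ℂ) (s : I → LaurentSeries ℂ)
    (hF : ∀ i, MDifferentiable 𝓘(ℂ) 𝓘(ℂ) (F i)) (hs : ∀ i, HasExp N (F i) (s i))
    (hS : ∀ i n, (s i).coeff n ∈ S)
    (hperm : ∀ γ : SL(2, ℤ), ∃ σ : Equiv.Perm I, ∀ i τ, F i (γ • τ) = F (σ i) τ) :
    ∃ P : Polynomial (Polynomial ℂ), (∀ k l, ((P.coeff k).coeff l) ∈ S) ∧
      (∏ i, (Polynomial.X - Polynomial.C (s i))) =
        P.map ((Polynomial.aeval (xC N) : Polynomial ℂ →ₐ[ℂ] LaurentSeries ℂ) :
          Polynomial ℂ →+* LaurentSeries ℂ) := by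
  classical
  -- the family as elements of `Wring N`
  let f : I → Wring N := fun i => ⟨F i, hF i, s i, hs i⟩
  have hf : ∀ i, expHom N (f i) = s i := fun i => expW_eq N (f i) (hs i)
  -- the characteristic polynomial over `Wring N`
  let Q : Polynomial (Wring N) := ∏ i, (X - C (f i))
  have hQ1 : Q.map (expHom N) = ∏ i, (X - C (s i)) := by
    rw [map_prod_X_sub_C]
    exact Finset.prod_congr rfl fun i _ => by rw [hf i]
  have hQ2 : ∀ τ : ℍ, Q.map (evW N τ) = ∏ i, (X - C (F i τ)) := by
    intro τ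
    rw [map_prod_X_sub_C]
    rfl
  -- invariance of the coefficients
  have hinv : ∀ (k : ℕ) (γ : SL(2, ℤ)) (τ : ℍ),
      ((Q.coeff k : Wring N) : ℍ → ℂ) (γ • τ) = ((Q.coeff k : Wring N) : ℍ → ℂ) τ := by
    intro k γ τ
    obtain ⟨σ, hσ⟩ := hperm γ
    have h1 : ((Q.coeff k : Wring N) : ℍ → ℂ) (γ • τ) = (Q.map (evW N (γ • τ))).coeff k := by
      rw [Polynomial.coeff_map]; rfl
    have h2 : ((Q.coeff k : Wring N) : ℍ → ℂ) τ = (Q.map (evW N τ)).coeff k := by
      rw [Polynomial.coeff_map]; rfl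
    rw [h1, h2, hQ2, hQ2]
    congr 1
    have : ∀ i, (X - C (F i (γ • τ)) : Polynomial ℂ) = X - C (F (σ i) τ) := fun i => by
      rw [hσ i τ]
    rw [Finset.prod_congr rfl fun i _ => this i]
    exact Equiv.prod_comp σ (fun j => (X - C (F j τ) : Polynomial ℂ))
  -- coefficients of the expansions lie in `S`
  have hmem : ∀ k, expHom N (Q.coeff k) ∈ helper63.coeffSubring S := by
    intro k
    have h1 : expHom N (Q.coeff k) = (∏ i, (X - C (s i))).coeff k := by
      rw [← hQ1, Polynomial.coeff_map]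
    rw [h1]
    let s' : I → helper63.coeffSubring S :=
      fun i => ⟨s i, (helper63.mem_coeffSubring_iff S (s i)).mpr (hS i)⟩
    have h2 : (∏ i, (X - C (s i))) =
        (∏ i, (X - C (s' i))).map (helper63.coeffSubring S).subtype := by
      rw [map_prod_X_sub_C]
      rfl
    rw [h2, Polynomial.coeff_map]
    exact Subtype.property _
  -- apply the level one theorem to each coefficient
  have hex : ∀ k, ∃ P : Polynomial ℂ, (∀ l, P.coeff l ∈ S) ∧
      expHom N (Q.coeff k) =
        (Polynomial.aeval (xC N) : Polynomial ℂ →ₐ[ℂ] LaurentSeries ℂ) P := fun k =>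
    helper63.levelOne_poly N S _ (Q.coeff k).2.1 (hinv k) _ (hasExp_expW N (Q.coeff k))
      ((helper63.mem_coeffSubring_iff S _).mp (hmem k))
  choose Pk hPk1 hPk2 using hex
  refine ⟨∑ k ∈ Finset.range (Q.natDegree + 1), Polynomial.monomial k (Pk k), ?_, ?_⟩
  · intro k l
    rw [Polynomial.finsetSum_coeff]
    simp only [Polynomial.coeff_monomial]
    rw [Finset.sum_ite_eq' (Finset.range (Q.natDegree + 1)) k]
    split_ifs
    · exact hPk1 k l
    · simp
  · rw [Polynomial.map_sum, ← hQ1]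
    conv_lhs => rw [Polynomial.as_sum_range' (Q.map (expHom N)) (Q.natDegree + 1)
      (lt_of_le_of_lt Polynomial.natDegree_map_le (Nat.lt_succ_self _))]
    refine Finset.sum_congr rfl fun k _ => ?_
    rw [Polynomial.map_monomial, Polynomial.coeff_map, hPk2 k]
    rfl

/-- slice AT-E in the packaged form used by `ATAssembly` -/
theorem charpolyCoeffs (N : ℕ) [NeZero N] : CharpolyCoeffs N :=
  fun S _ _ _ F s hF hs hS hperm => charpoly_coeffs N S F s hF hs hS hperm

end Fermat.Agent.S28
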