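import Mathlib
import Fermat.Agent.S28.CharPoly
import Fermat.Agent.S28.helper81_ATStatement

/-! # S28: the analytic theorem on conjugate expansions (final statement) -/

set_option autoImplicit false

noncomputable section

namespace Fermat.Agent.S28

open ModularCurve Polynomial

theorem analytic_conj (N : ℕ) [NeZero N] :
    ∃ (I : Type) (_ : Fintype I) (_ : DecidableEq I) (i₀ : I)
      (G : Type) (_ : CommRing G) (_ : Algebra ℂ G)
      (E : I → G →ₐ[ℂ] LaurentSeries ℂ) (J : G) (Jd : ℕ → G) (U : ℕ → Gˣ) (a : I → ℕ),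
      -- (1) `J = j` is invariant
      (∀ i, E i J = xC N) ∧
      -- (2) `Jd d = j(dτ)` at the identity coset
      (∀ d, d ∣ N → ∀ hd : NeZero (N * d), E i₀ (Jd d) = @qExpand ℂ _ (N * d) hd (jqModC ℂ)) ∧
      -- (3) the invariant `a i = gcd(N, lower-left entry)`
      (∀ i, a i ∣ N) ∧ (∀ i, a i = N → i = i₀) ∧
      -- (4) leading terms of `Θ = Jd N` at all cosets
      (∃ m : I → ℕ, (∀ i i', a i = a i' → zetaC N ^ m i = zetaC N ^ m i' → i = i') ∧
        ∀ i, ∃ p : PowerSeries ℂ, PowerSeries.constantCoeff p = 1 ∧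
          E i (Jd N) = HahnSeries.single (-((a i : ℤ) ^ 2)) (zetaC N ^ m i) *
            HahnSeries.ofPowerSeries ℤ ℂ p) ∧
      -- (5) leading terms of the modular units `U d = Δ(dτ)/Δ(τ)`
      (∀ d, d ∣ N → ∀ i, ∃ (ε : ℂ) (p : PowerSeries ℂ), ε ≠ 0 ∧
          PowerSeries.constantCoeff p = 1 ∧
          E i (U d : G) = HahnSeries.single
              ((((N / d) * (Nat.gcd d (a i)) ^ 2 : ℕ) : ℤ) - N) ε *
            HahnSeries.ofPowerSeries ℤ ℂ p) ∧
      -- (6) coefficients of the basic functions lie in `ℤ[ζ_N, 1/N]`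
      (∀ S : Subring ℂ, zetaC N ∈ S → (N : ℂ)⁻¹ ∈ S → ∀ i n,
        (E i J).coeff n ∈ S ∧ ∀ d, d ∣ N →
          (E i (Jd d)).coeff n ∈ S ∧ (E i (U d : G)).coeff n ∈ S ∧
            (E i ((U d)⁻¹ : Gˣ)).coeff n ∈ S) ∧
      -- (7) characteristic polynomials
      (∀ (S : Subring ℂ) (g : G), (∀ i n, (E i g).coeff n ∈ S) →
        ∃ P : Polynomial (Polynomial ℂ), (∀ k l, ((P.coeff k).coeff l) ∈ S) ∧
          (∏ i, (X - C (E i g))) =
            P.map ((aeval (xC N) : Polynomial ℂ →ₐ[ℂ] LaurentSeries ℂ) :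
              Polynomial ℂ →+* LaurentSeries ℂ)) :=
  analytic_conj_of_charpoly N (charpolyCoeffs N)

/-- the analytic theorem in the form used by the assembly of helper81 -/
theorem atStatement (N : ℕ) [NeZero N] : helper81.ATStatement N :=
  analytic_conj N

end Fermat.Agent.S28
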