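import Mathlib
import Fermat.Prelude.Def_ModularCurve_LaurentCoeff
import Fermat.Agent.S28.helper81_Laurent
import Fermat.Agent.S23.helper87_GaloisDescent

/-!
# S28-ASM-D (helper56): minimality and descent of rationality

* `minimality`: if `P ∈ k[X][T]` is monic irreducible with `P(x, θ) = 0` in `k((q))`, where
  `x` has negative order, then every `R ∈ k[X][T]` of smaller `T`-degree with `R(x, θ) = 0`
  vanishes.
* `rational_of_eval_rational`: if `x, θ, y ∈ ℚ((q))`, `P ∈ ℂ[X][T]` is monic irreducible with
  `P(x, θ) = 0` and `R(x, θ) = y` with `deg R < deg P` (or `R` monic of the same degree), then `R`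
  has rational coefficients.
-/

set_option autoImplicit false

noncomputable section

namespace Fermat.Agent.S28.helper56

open Polynomial ModularCurve

/-- Abstract minimality: a monic irreducible polynomial over an integrally closed domain `A`
with a root `θ` in a field `L ⊇ A` is of minimal degree among the polynomials over `A`
vanishing at `θ`. -/
theorem eq_zero_of_eval₂_eq_zero_of_natDegree_lt {A L : Type*} [CommRing A] [IsDomain A]
    [IsIntegrallyClosed A] [Field L] (ι : A →+* L) (hinj : Function.Injective ι) (θ : L)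
    (P : Polynomial A) (hPm : P.Monic) (hPirr : Irreducible P) (hP0 : eval₂ ι θ P = 0)
    (R : Polynomial A) (hR0 : eval₂ ι θ R = 0) (hdeg : R.natDegree < P.natDegree) : R = 0 := by
  classical
  have hφ : (IsFractionRing.lift (K := FractionRing A) hinj).comp
      (algebraMap A (FractionRing A)) = ι :=
    RingHom.ext fun a => IsFractionRing.lift_algebraMap hinj a
  have hP'0 : eval₂ (IsFractionRing.lift (K := FractionRing A) hinj) θ
      (P.map (algebraMap A (FractionRing A))) = 0 := by
    rw [eval₂_map, hφ]; exact hP0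
  have hR'0 : eval₂ (IsFractionRing.lift (K := FractionRing A) hinj) θ
      (R.map (algebraMap A (FractionRing A))) = 0 := by
    rw [eval₂_map, hφ]; exact hR0
  have hP'irr : Irreducible (P.map (algebraMap A (FractionRing A))) :=
    (Polynomial.Monic.irreducible_iff_irreducible_map_fraction_map hPm).mp hPirr
  have hdvd : P.map (algebraMap A (FractionRing A)) ∣ R.map (algebraMap A (FractionRing A)) := by
    by_contra hnd
    obtain ⟨a, b, hab⟩ := (Irreducible.coprime_iff_not_dvd hP'irr).mpr hnd
    have := congrArg (eval₂ (IsFractionRing.lift (K := FractionRing A) hinj) θ) hab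
    rw [eval₂_add, eval₂_mul, eval₂_mul, hP'0, hR'0, mul_zero, mul_zero, add_zero,
      eval₂_one] at this
    exact zero_ne_one this
  have hR'z : R.map (algebraMap A (FractionRing A)) = 0 := by
    by_contra hne
    have h1 := Polynomial.natDegree_le_of_dvd hdvd hne
    have h2 : (P.map (algebraMap A (FractionRing A))).natDegree = P.natDegree :=
      hPm.natDegree_map (algebraMap A (FractionRing A))
    have h3 : (R.map (algebraMap A (FractionRing A))).natDegree ≤ R.natDegree :=
      Polynomial.natDegree_map_le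
    omega
  exact Polynomial.map_injective _ (IsFractionRing.injective A (FractionRing A))
    (by rw [hR'z, Polynomial.map_zero])

/-- D1 (minimality). -/
theorem minimality {k : Type} [Field k] (x θ : LaurentSeries k) (hx : x.order < 0)
    (P : Polynomial (Polynomial k)) (hPm : P.Monic) (hPirr : Irreducible P)
    (hP0 : eval₂ ((aeval x : Polynomial k →ₐ[k] LaurentSeries k) :
      Polynomial k →+* LaurentSeries k) θ P = 0)
    (R : Polynomial (Polynomial k))
    (hR0 : eval₂ ((aeval x : Polynomial k →ₐ[k] LaurentSeries k) :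
      Polynomial k →+* LaurentSeries k) θ R = 0)
    (hdeg : R.natDegree < P.natDegree) : R = 0 :=
  eq_zero_of_eval₂_eq_zero_of_natDegree_lt _ (helper81.aeval_injective_of_order_neg x hx) θ P hPm
    hPirr hP0 R hR0 hdeg

/-- `coeffMap σ` commutes with `aeval X₀` up to applying `σ` to the coefficients, when `X₀` is
fixed by `coeffMap σ`. -/
theorem coeffMap_comp_aeval {k : Type} [Field k] (σ : k →+* k) (X₀ : LaurentSeries k)
    (hX : coeffMap σ X₀ = X₀) :
    (coeffMap σ).comp ((aeval X₀ : Polynomial k →ₐ[k] LaurentSeries k) :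
        Polynomial k →+* LaurentSeries k) =
      ((aeval X₀ : Polynomial k →ₐ[k] LaurentSeries k) :
        Polynomial k →+* LaurentSeries k).comp (Polynomial.mapRingHom σ) := by
  refine Polynomial.ringHom_ext (fun a => ?_) ?_
  · simp only [RingHom.comp_apply, RingHom.coe_coe, aeval_C, Polynomial.coe_mapRingHom,
      Polynomial.map_C]
    rw [helper81.algebraMap_eq_C, helper81.algebraMap_eq_C]
    ext n
    simp only [coeffMap_coeff, HahnSeries.C_apply, HahnSeries.coeff_single]
    split_ifs <;> simp
  · simp only [RingHom.comp_apply, RingHom.coe_coe, aeval_X, Polynomial.coe_mapRingHom,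
      Polynomial.map_X]
    exact hX

/-- Evaluating the coefficientwise conjugate of `R`. -/
theorem eval₂_map_mapRingHom {k : Type} [Field k] (σ : k →+* k) (X₀ θ : LaurentSeries k)
    (hX : coeffMap σ X₀ = X₀) (hθ : coeffMap σ θ = θ) (R : Polynomial (Polynomial k)) :
    eval₂ ((aeval X₀ : Polynomial k →ₐ[k] LaurentSeries k) :
        Polynomial k →+* LaurentSeries k) θ (R.map (Polynomial.mapRingHom σ)) =
      coeffMap σ (eval₂ ((aeval X₀ : Polynomial k →ₐ[k] LaurentSeries k) :
        Polynomial k →+* LaurentSeries k) θ R) := by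
  rw [eval₂_map, Polynomial.hom_eval₂, hθ, coeffMap_comp_aeval σ X₀ hX]

/-- A ring automorphism of `ℂ` fixes the image of `coeffEmb`. -/
theorem coeffMap_ringEquiv_coeffEmb (σ : ℂ ≃+* ℂ) (z : LaurentSeries ℚ) :
    coeffMap (σ : ℂ →+* ℂ) (coeffEmb ℂ z) = coeffEmb ℂ z := by
  ext n
  simp [coeffEmb]

/-- D2 (rationality by descent). -/
theorem rational_of_eval_rational (x θ y : LaurentSeries ℚ) (hx : x.order < 0)
    (P : Polynomial (Polynomial ℂ)) (hPm : P.Monic) (hPirr : Irreducible P)
    (hP0 : eval₂ ((aeval (coeffEmb ℂ x) : Polynomial ℂ →ₐ[ℂ] LaurentSeries ℂ) :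
      Polynomial ℂ →+* LaurentSeries ℂ) (coeffEmb ℂ θ) P = 0)
    (R : Polynomial (Polynomial ℂ))
    (hR : eval₂ ((aeval (coeffEmb ℂ x) : Polynomial ℂ →ₐ[ℂ] LaurentSeries ℂ) :
      Polynomial ℂ →+* LaurentSeries ℂ) (coeffEmb ℂ θ) R = coeffEmb ℂ y)
    (hdeg : R.natDegree < P.natDegree ∨ (R.Monic ∧ R.natDegree = P.natDegree)) :
    ∃ R₀ : Polynomial (Polynomial ℚ),
      R₀.map (Polynomial.mapRingHom (algebraMap ℚ ℂ)) = R := by
  classical
  -- the order of `coeffEmb ℂ x` is negative
  have hxC : (coeffEmb ℂ x).order < 0 := by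
    have hx0 : x ≠ 0 := by
      rintro rfl
      simp at hx
    have hc : x.coeff x.order ≠ 0 := fun h => hx0 (HahnSeries.coeff_order_eq_zero.mp h)
    have hc' : (coeffEmb ℂ x).coeff x.order ≠ 0 := by
      rw [coeffEmb_coeff]
      simpa using hc
    exact lt_of_le_of_lt (HahnSeries.order_le_of_coeff_ne_zero hc') hx
  -- positivity of the degree of `P`
  have hPpos : 0 < P.natDegree := by
    rcases Nat.eq_zero_or_pos P.natDegree with h0 | h0
    · exfalso
      have : P = 1 := hPm.natDegree_eq_zero.mp h0
      exact hPirr.not_isUnit (this ▸ isUnit_one)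
    · exact h0
  -- every conjugate of `R` equals `R`
  have hfix : ∀ σ : ℂ ≃+* ℂ, R.map (Polynomial.mapRingHom (σ : ℂ →+* ℂ)) = R := by
    intro σ
    set Rσ := R.map (Polynomial.mapRingHom (σ : ℂ →+* ℂ)) with hRσ
    have hev : eval₂ ((aeval (coeffEmb ℂ x) : Polynomial ℂ →ₐ[ℂ] LaurentSeries ℂ) :
        Polynomial ℂ →+* LaurentSeries ℂ) (coeffEmb ℂ θ) Rσ = coeffEmb ℂ y := by
      rw [hRσ, eval₂_map_mapRingHom (σ : ℂ →+* ℂ) _ _ (coeffMap_ringEquiv_coeffEmb σ x)
        (coeffMap_ringEquiv_coeffEmb σ θ), hR, coeffMap_ringEquiv_coeffEmb]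
    have hinjσ : Function.Injective (Polynomial.mapRingHom (σ : ℂ →+* ℂ)) :=
      Polynomial.map_injective _ σ.injective
    have hdegσ : Rσ.natDegree = R.natDegree :=
      Polynomial.natDegree_map_eq_of_injective hinjσ R
    have hD0 : eval₂ ((aeval (coeffEmb ℂ x) : Polynomial ℂ →ₐ[ℂ] LaurentSeries ℂ) :
        Polynomial ℂ →+* LaurentSeries ℂ) (coeffEmb ℂ θ) (Rσ - R) = 0 := by
      rw [eval₂_sub, hev, hR, sub_self]
    have hDdeg : (Rσ - R).natDegree < P.natDegree := by
      rcases hdeg with h | ⟨hm, hd⟩
      · calc (Rσ - R).natDegree ≤ max Rσ.natDegree R.natDegree := Polynomial.natDegree_sub_le _ _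
          _ < P.natDegree := by rw [hdegσ, max_self]; exact h
      · have hmσ : Rσ.Monic := hm.map _
        by_cases hz : Rσ - R = 0
        · rw [hz, Polynomial.natDegree_zero]; exact hPpos
        · have hlt : (Rσ - R).degree < Rσ.degree :=
            Polynomial.degree_sub_lt_left
              (by rw [Polynomial.degree_eq_natDegree hmσ.ne_zero,
                Polynomial.degree_eq_natDegree hm.ne_zero, hdegσ])
              hmσ.ne_zero (by rw [hmσ.leadingCoeff, hm.leadingCoeff])
          have := Polynomial.natDegree_lt_natDegree hz hlt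
          rw [hdegσ, hd] at this
          exact this
    have := minimality (coeffEmb ℂ x) (coeffEmb ℂ θ) hxC P hPm hPirr hP0 (Rσ - R) hD0 hDdeg
    exact sub_eq_zero.mp this
  -- hence all coefficients are rational
  have hcoef : ∀ i j, ∃ r : ℚ, (R.coeff i).coeff j = (r : ℂ) := by
    intro i j
    refine Fermat.Agent.S23.helper87.exists_rat_of_forall_ringEquiv_fixed _ fun σ => ?_
    have := congrArg (fun Q : Polynomial (Polynomial ℂ) => (Q.coeff i).coeff j) (hfix σ)
    simpa [Polynomial.coeff_map] using this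
  -- lift
  have hlift : R ∈ Polynomial.lifts (Polynomial.mapRingHom (algebraMap ℚ ℂ)) := by
    rw [Polynomial.lifts_iff_coeff_lifts]
    intro i
    have : R.coeff i ∈ Polynomial.lifts (algebraMap ℚ ℂ) := by
      rw [Polynomial.lifts_iff_coeff_lifts]
      intro j
      obtain ⟨r, hr⟩ := hcoef i j
      exact ⟨r, by rw [hr]; rfl⟩
    obtain ⟨q, hq⟩ := (Polynomial.mem_lifts _).mp this
    exact ⟨q, hq⟩
  exact (Polynomial.mem_lifts _).mp hlift

end Fermat.Agent.S28.helper56
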