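import Mathlib

/-!
# S28 assembly: Lagrange interpolation for conjugate tuples (task S28-ASM-L)

`lagrange_conj`: let `E i : G →+* L` (`i ∈ I`) be ring homomorphisms into a field `L`, and let
`A₀` be the range of a ring homomorphism `φ : A →+* L`.  Assume that for every `g : G` the
polynomial `∏ i, (T - E i g)` has coefficients in `A₀`.  Then for all `Θ g : G` there is a
polynomial `R` over `A`, of degree `< |I|`, with
`E i₀ g * P'(E i₀ Θ) = R(E i₀ Θ)`, where `P` (over `A`) lifts `∏ i, (T - E i Θ)`.
-/

set_option autoImplicit false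

namespace Fermat.Agent.S28.helper72

open Polynomial Finset

section General

variable {A L : Type*} [CommRing A] [Field L] (φ : A →+* L)
variable {I : Type*} [Fintype I] [DecidableEq I]

/-- The divided difference of a polynomial given by its first `n + 1` coefficients. -/
noncomputable def divDiff (c : ℕ → L) (n : ℕ) (a b : L) : L :=
  ∑ l ∈ range (n + 1), c l * ∑ m ∈ range l, b ^ m * a ^ (l - 1 - m)

lemma divDiff_mul (F : L[X]) (n : ℕ) (hn : F.natDegree < n + 1) (a b : L) :
    divDiff F.coeff n a b * (b - a) = F.eval b - F.eval a := by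
  have hF := F.as_sum_range_C_mul_X_pow' hn
  have hb : F.eval b = ∑ l ∈ range (n + 1), F.coeff l * b ^ l := by
    conv_lhs => rw [hF]
    simp [eval_finsetSum]
  have ha : F.eval a = ∑ l ∈ range (n + 1), F.coeff l * a ^ l := by
    conv_lhs => rw [hF]
    simp [eval_finsetSum]
  rw [hb, ha, divDiff, Finset.sum_mul, ← Finset.sum_sub_distrib]
  refine Finset.sum_congr rfl fun l _ => ?_
  rw [mul_assoc, geom_sum₂_mul, mul_sub]

lemma divDiff_self (F : L[X]) (n : ℕ) (hn : F.natDegree < n + 1) (a : L) :
    divDiff F.coeff n a a = F.derivative.eval a := by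
  rw [derivative_eval, F.sum_over_range' (by intro k; simp) (n + 1) hn, divDiff]
  refine Finset.sum_congr rfl fun l _ => ?_
  rcases Nat.eq_zero_or_pos l with hl | hl
  · subst hl; simp
  · have : ∀ m ∈ range l, a ^ m * a ^ (l - 1 - m) = a ^ (l - 1) := by
      intro m hm
      rw [← pow_add]
      congr 1
      have := Finset.mem_range.mp hm
      omega
    rw [Finset.sum_congr rfl this, Finset.sum_const, Finset.card_range, nsmul_eq_mul]
    ring

/-- The derivative of `∏ i, (X - C (θ i))` vanishes at a double root. -/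
lemma eval_derivative_prod_eq_zero (θ : I → L) {i i₀ : I} (hne : i ≠ i₀) (h : θ i = θ i₀) :
    (derivative (∏ j, (X - C (θ j)))).eval (θ i₀) = 0 := by
  rw [derivative_prod_finset, eval_finsetSum]
  refine Finset.sum_eq_zero fun a _ => ?_
  rw [eval_mul, eval_prod]
  by_cases ha : a = i₀
  · subst ha
    have hmem : i ∈ (Finset.univ : Finset I).erase a := Finset.mem_erase.mpr ⟨hne, Finset.mem_univ _⟩
    rw [Finset.prod_eq_zero hmem (by simp [h]), zero_mul]
  · have hmem : i₀ ∈ (Finset.univ : Finset I).erase a :=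
      Finset.mem_erase.mpr ⟨fun h' => ha h'.symm, Finset.mem_univ _⟩
    rw [Finset.prod_eq_zero hmem (by simp), zero_mul]

/-- **Lagrange interpolation for conjugate tuples**, general form. -/
theorem lagrange_gen (i₀ : I) {G : Type*} [CommRing G] (E : I → G →+* L)
    (htr : ∀ h : G, ∃ a : A, φ a = ∑ i, E i h)
    (Θ g : G) (P : A[X]) (hP : (∏ i, (X - C (E i Θ))) = P.map φ) :
    ∃ R : A[X], R.natDegree < Fintype.card I ∧
      E i₀ g * eval₂ φ (E i₀ Θ) (derivative P) = eval₂ φ (E i₀ Θ) R := by
  classical
  set n := Fintype.card I with hn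
  have hnpos : 0 < n := Fintype.card_pos_iff.mpr ⟨i₀⟩
  set PL : L[X] := ∏ i, (X - C (E i Θ)) with hPL
  have hdeg : PL.natDegree < n + 1 := by
    have : PL.natDegree = n := by
      rw [hPL, natDegree_prod_of_monic _ _ (fun i _ => monic_X_sub_C _)]
      simp [hn]
    omega
  have hcoeff : ∀ l, PL.coeff l = φ (P.coeff l) := by
    intro l; rw [hP, coeff_map]
  have hroot : ∀ i, PL.eval (E i Θ) = 0 := by
    intro i
    rw [hPL, eval_prod]
    exact Finset.prod_eq_zero (Finset.mem_univ i) (by simp)
  -- traces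
  choose t ht using fun j : ℕ => htr (g * Θ ^ j)
  have ht' : ∀ j, φ (t j) = ∑ i, E i g * E i Θ ^ j := by
    intro j; rw [ht j]; simp
  -- the interpolating polynomial
  set R : A[X] := ∑ l ∈ range (n + 1), ∑ m ∈ range l, C (P.coeff l * t (l - 1 - m)) * X ^ m
    with hR
  refine ⟨R, ?_, ?_⟩
  · have hle : R.natDegree ≤ n - 1 := by
      rw [hR]
      refine natDegree_sum_le_of_forall_le _ _ fun l hl => ?_
      refine natDegree_sum_le_of_forall_le _ _ fun m hm => ?_
      refine (natDegree_C_mul_X_pow_le _ _).trans ?_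
      have := Finset.mem_range.mp hl
      have := Finset.mem_range.mp hm
      omega
    omega
  · have hRev : eval₂ φ (E i₀ Θ) R = ∑ i, E i g * divDiff PL.coeff n (E i Θ) (E i₀ Θ) := by
      rw [hR, eval₂_finsetSum]
      simp_rw [eval₂_finsetSum, eval₂_mul, eval₂_C, eval₂_pow, eval₂_X, map_mul, ht', divDiff,
        Finset.mul_sum, Finset.sum_mul, hcoeff]
      conv_rhs => rw [Finset.sum_comm]
      refine Finset.sum_congr rfl fun l _ => ?_
      conv_rhs => rw [Finset.sum_comm]
      refine Finset.sum_congr rfl fun m _ => ?_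
      refine Finset.sum_congr rfl fun i _ => ?_
      ring
    have hD : ∀ i, E i g * divDiff PL.coeff n (E i Θ) (E i₀ Θ) =
        if i = i₀ then E i₀ g * PL.derivative.eval (E i₀ Θ) else 0 := by
      intro i
      by_cases hi : i = i₀
      · subst hi
        rw [if_pos rfl, divDiff_self PL n hdeg]
      · rw [if_neg hi]
        by_cases hθ : E i Θ = E i₀ Θ
        · rw [hθ, divDiff_self PL n hdeg, hPL, eval_derivative_prod_eq_zero (fun j => E j Θ) hi hθ,
            mul_zero]
        · have h1 := divDiff_mul PL n hdeg (E i Θ) (E i₀ Θ)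
          rw [hroot, hroot, sub_zero] at h1
          have h2 : E i₀ Θ - E i Θ ≠ 0 := sub_ne_zero.mpr (Ne.symm hθ)
          rw [(mul_eq_zero.mp h1).resolve_right h2, mul_zero]
    rw [hRev, Finset.sum_congr rfl fun i _ => hD i, Finset.sum_ite_eq' Finset.univ i₀,
      if_pos (Finset.mem_univ _)]
    congr 1
    rw [hP, derivative_map, eval_map]

end General

section Laurent

/-- **Lagrange interpolation for conjugate tuples** (task S28-ASM-L, exact statement of
`helper81_Plan.lean`). -/
theorem lagrange_conj {k : Type} [Field k] {I : Type} [Fintype I] [DecidableEq I] (i₀ : I)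
    {G : Type} [CommRing G] (E : I → G →+* LaurentSeries k) (x : LaurentSeries k)
    (hchar : ∀ g : G, ∃ P : Polynomial (Polynomial k),
      (∏ i, (X - C (E i g))) = P.map ((aeval x : Polynomial k →ₐ[k] LaurentSeries k) :
        Polynomial k →+* LaurentSeries k))
    (Θ g : G) (P : Polynomial (Polynomial k))
    (hP : (∏ i, (X - C (E i Θ))) = P.map ((aeval x : Polynomial k →ₐ[k] LaurentSeries k) :
        Polynomial k →+* LaurentSeries k)) :
    ∃ R : Polynomial (Polynomial k), R.natDegree < Fintype.card I ∧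
      E i₀ g * eval₂ ((aeval x : Polynomial k →ₐ[k] LaurentSeries k) :
        Polynomial k →+* LaurentSeries k) (E i₀ Θ) (derivative P) =
      eval₂ ((aeval x : Polynomial k →ₐ[k] LaurentSeries k) :
        Polynomial k →+* LaurentSeries k) (E i₀ Θ) R := by
  refine lagrange_gen _ i₀ E (fun h => ?_) Θ g P hP
  obtain ⟨Ph, hPh⟩ := hchar h
  have hpos : 0 < (Finset.univ : Finset I).card := Finset.card_pos.mpr ⟨i₀, Finset.mem_univ _⟩
  have h1 := prod_X_sub_C_coeff_card_pred (Finset.univ : Finset I) (fun i => E i h) hpos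
  rw [hPh, coeff_map] at h1
  refine ⟨-(Ph.coeff ((Finset.univ : Finset I).card - 1)), ?_⟩
  rw [map_neg, h1, neg_neg]

end Laurent

end Fermat.Agent.S28.helper72
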