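import Mathlib

/-!
# S28 (helper81): a saturation lemma for integral closures

`isIntegral_of_prime_smul_of_smul`: let `B` be an integrally closed domain with fraction field
`E`, `F` a field extension of `E`, `ℓ ∈ B` prime and `D ∈ B` with `ℓ ∤ D`.  If `ℓ • b` and `D • b`
are integral over `B` then so is `b`.
-/

set_option autoImplicit false

namespace Fermat.Agent.S28.helper81

open Polynomial

/-- In a domain `B` with fraction field `E`: if `ℓ ^ n * e` and `D ^ n * e` lie in `B` with `ℓ`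
prime, `ℓ ∤ D`, then `e ∈ B`. -/
theorem mem_range_of_prime_pow_mul_of_pow_mul {B E : Type*} [CommRing B] [IsDomain B] [Field E]
    [Algebra B E] [IsFractionRing B E] (ℓ D : B) (hℓ : Prime ℓ) (hD : ¬ ℓ ∣ D) (n : ℕ) (e : E)
    (h1 : ∃ c : B, algebraMap B E c = e * algebraMap B E ℓ ^ n)
    (h2 : ∃ d : B, algebraMap B E d = e * algebraMap B E D ^ n) :
    ∃ c : B, algebraMap B E c = e := by
  obtain ⟨c, hc⟩ := h1
  obtain ⟨d, hd⟩ := h2
  have hinj := IsFractionRing.injective B E
  have hℓ0 : algebraMap B E ℓ ≠ 0 := by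
    rw [Ne, map_eq_zero_iff _ hinj]; exact hℓ.ne_zero
  have key : D ^ n * c = ℓ ^ n * d := by
    apply hinj
    rw [map_mul, map_mul, map_pow, map_pow, hc, hd]
    ring
  have hdvd : ℓ ^ n ∣ c := by
    have h : ℓ ^ n ∣ D ^ n * c := ⟨d, key⟩
    exact hℓ.pow_dvd_of_dvd_mul_left n (fun h' => hD (hℓ.dvd_of_dvd_pow h')) h
  obtain ⟨c', rfl⟩ := hdvd
  refine ⟨c', ?_⟩
  have : algebraMap B E ℓ ^ n * algebraMap B E c' = algebraMap B E ℓ ^ n * e := by
    rw [← map_pow, ← map_mul, hc, map_pow]; ring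
  exact mul_left_cancel₀ (pow_ne_zero n hℓ0) this

/-- Saturation lemma: over an integrally closed domain `B`, if `ℓ • b` and `D • b` are integral
with `ℓ` prime and `ℓ ∤ D`, then `b` is integral. -/
theorem isIntegral_of_prime_smul_of_smul {B E F : Type*} [CommRing B] [IsDomain B]
    [IsIntegrallyClosed B] [Field E] [Algebra B E] [IsFractionRing B E] [Field F] [Algebra B F]
    [Algebra E F] [IsScalarTower B E F] (ℓ D : B) (hℓ : Prime ℓ) (hD : ¬ ℓ ∣ D) (b : F)
    (h1 : IsIntegral B (ℓ • b)) (h2 : IsIntegral B (D • b)) : IsIntegral B b := by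
  have hinj := IsFractionRing.injective B E
  have hℓ0 : algebraMap B E ℓ ≠ 0 := by
    rw [Ne, map_eq_zero_iff _ hinj]; exact hℓ.ne_zero
  have hD0' : D ≠ 0 := fun h => hD (h ▸ dvd_zero _)
  have hD0 : algebraMap B E D ≠ 0 := by
    rw [Ne, map_eq_zero_iff _ hinj]; exact hD0'
  -- `b` is integral over `E`
  have hbE : IsIntegral E b := by
    have h3 : IsIntegral E (ℓ • b) := h1.tower_top
    have h4 : ℓ • b = algebraMap E F (algebraMap B E ℓ) * b := by
      rw [← IsScalarTower.algebraMap_apply, Algebra.smul_def]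
    have h5 : b = algebraMap E F (algebraMap B E ℓ)⁻¹ * (ℓ • b) := by
      rw [h4, ← mul_assoc, ← map_mul, inv_mul_cancel₀ hℓ0, map_one, one_mul]
    rw [h5]
    exact isIntegral_algebraMap.mul h3
  set m := minpoly E b with hm
  have hsmul : ∀ c : B, c ≠ 0 → IsIntegral B (c • b) → ∀ i,
      ∃ x : B, algebraMap B E x = m.coeff i * algebraMap B E c ^ (m.natDegree - i) := by
    intro c hc hint i
    have e1 : minpoly E (c • b) = (minpoly B (c • b)).map (algebraMap B E) :=
      minpoly.isIntegrallyClosed_eq_field_fractions' E hint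
    have e2 : c • b = (algebraMap B E c) • b := by
      rw [algebraMap_smul]
    have hc0 : algebraMap B E c ≠ 0 := by
      rw [Ne, map_eq_zero_iff _ hinj]; exact hc
    have e3 : minpoly E ((algebraMap B E c) • b) = m.scaleRoots (algebraMap B E c) :=
      IsIntegrallyClosed.minpoly_smul hc0 hbE
    refine ⟨(minpoly B (c • b)).coeff i, ?_⟩
    rw [← coeff_map, ← e1, e2, e3, coeff_scaleRoots]
  have hcoeff : ∀ i, ∃ x : B, algebraMap B E x = m.coeff i := by
    intro i
    exact mem_range_of_prime_pow_mul_of_pow_mul ℓ D hℓ hD (m.natDegree - i) (m.coeff i)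
      (hsmul ℓ hℓ.ne_zero h1 i) (hsmul D hD0' h2 i)
  have hlift : m ∈ Polynomial.lifts (algebraMap B E) := by
    rw [Polynomial.lifts_iff_coeff_lifts]
    intro i
    obtain ⟨x, hx⟩ := hcoeff i
    exact ⟨x, hx⟩
  obtain ⟨p, hp, -, hpm⟩ := Polynomial.lifts_and_natDegree_eq_and_monic hlift (minpoly.monic hbE)
  refine ⟨p, hpm, ?_⟩
  have : Polynomial.aeval b (p.map (algebraMap B E)) = 0 := by
    rw [hp]; exact minpoly.aeval E b
  rwa [aeval_map_algebraMap, aeval_def] at this

end Fermat.Agent.S28.helper81
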