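import Mathlib
import Fermat.Prelude.Def_ModularCurve_IgusaScheme
import Fermat.Prelude.Def_ModularCurve_X0ModL
import Fermat.Agent.S28.helper94_Zl
import Fermat.Agent.S28.helper81_Saturate
import Fermat.Agent.S28.helper81_Laurent

/-!
# S28 (helper81): transfer of the q-expansion property from the chart at finite `j` to the chart
at `j = ∞` and to the overlap chart.

`HasQexp N ℓ A` : the subalgebra `A ⊆ F` has `ℓ`-integral q-expansions, and an element of `A`
whose q-expansion vanishes mod `ℓ` is divisible by `ℓ` in `A`.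

Main results: `hasQexp_inf_of_fin`, `exists_qexp_mid_of_fin`.
-/

set_option autoImplicit false

open ModularCurve ModularCurve.IgusaScheme HahnSeries

noncomputable section

namespace Fermat.Agent.S28.helper81

open Fermat.Agent.S28.helper94

variable (N : ℕ) [NeZero N] (ℓ : ℕ) [Fact ℓ.Prime]

/-- the subring of `ℚ((q))` of series with `ℓ`-integral coefficients -/
def intSeries : Subring (LaurentSeries ℚ) := (coeffMap (algebraMap (Zl ℓ) ℚ)).range

theorem mem_intSeries_iff (x : LaurentSeries ℚ) :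
    x ∈ intSeries ℓ ↔ ∀ n, x.coeff n ∈ GaloisRep.ratLocalizedAt ℓ := by
  rw [intSeries, mem_range_coeffMap_iff]
  constructor
  · intro h n
    obtain ⟨y, hy⟩ := h n
    rw [← hy]
    exact y.2
  · intro h n
    exact ⟨⟨x.coeff n, h n⟩, rfl⟩

/-- the q-expansion property of a subalgebra of the function field -/
def HasQexp (A : Subalgebra (Zl ℓ) ↥(modularFunctionFieldFull N)) : Prop :=
  ∃ φ : A →+* LaurentSeries (Zl ℓ),
    (∀ a, coeffMap (algebraMap (Zl ℓ) ℚ) (φ a) =
      ((a : ↥(modularFunctionFieldFull N)) : LaurentSeries ℚ)) ∧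
    (∀ a, coeffMap (resZl ℓ) (φ a) = 0 → ∃ b : A, a = (ℓ : Zl ℓ) • b)

/-- a general lifting lemma for ring homomorphisms through an injective ring homomorphism -/
theorem exists_lift_ringHom {A B C : Type*} [CommRing A] [CommRing B] [CommRing C]
    (ι : B →+* C) (hι : Function.Injective ι) (g : A →+* C) (h : ∀ a, g a ∈ ι.range) :
    ∃ φ : A →+* B, ∀ a, ι (φ a) = g a := by
  choose f hf using h
  refine ⟨{ toFun := f, map_one' := ?_, map_mul' := ?_, map_zero' := ?_, map_add' := ?_ }, hf⟩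
  · apply hι; rw [hf, map_one, map_one]
  · intro x y; apply hι; rw [hf, map_mul, map_mul, hf, hf]
  · apply hι; rw [hf, map_zero, map_zero]
  · intro x y; apply hι; rw [hf, map_add, map_add, hf, hf]

variable {N ℓ}

theorem coeff_C_mul' {R : Type*} [CommRing R] (c : R) (x : LaurentSeries R) (n : ℤ) :
    (HahnSeries.C c * x).coeff n = c * x.coeff n := by
  rw [HahnSeries.C_mul_eq_smul]
  rfl

/-- for an integral series `s` whose reduction vanishes, `ℓ⁻¹ s` is integral -/
theorem inv_ell_mul_mem_intSeries (s : LaurentSeries (Zl ℓ))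
    (hs : coeffMap (resZl ℓ) s = 0) :
    HahnSeries.C ((ℓ : ℚ)⁻¹) * coeffMap (algebraMap (Zl ℓ) ℚ) s ∈ intSeries ℓ := by
  rw [mem_intSeries_iff]
  intro n
  rw [coeff_C_mul', coeffMap_coeff]
  have h1 : resZl ℓ (s.coeff n) = 0 := by
    have := congrArg (fun z => z.coeff n) hs
    simpa using this
  obtain ⟨b, hb⟩ := (resZl_eq_zero_iff ℓ _).mp h1
  rw [hb]
  have hℓ0 : (ℓ : ℚ) ≠ 0 := by exact_mod_cast (Fact.out : ℓ.Prime).ne_zero
  have : (ℓ : ℚ)⁻¹ * algebraMap (Zl ℓ) ℚ ((ℓ : Zl ℓ) * b) = (b : ℚ) := by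
    rw [map_mul, map_natCast]
    rw [← mul_assoc, inv_mul_cancel₀ hℓ0, one_mul]
    rfl
  rw [this]
  exact b.2

/-- for an integral series `s` with `ℓ⁻¹ s` integral, the reduction of `s` vanishes -/
theorem coeffMap_res_eq_zero_of (s : LaurentSeries (Zl ℓ))
    (hs : HahnSeries.C ((ℓ : ℚ)⁻¹) * coeffMap (algebraMap (Zl ℓ) ℚ) s ∈ intSeries ℓ) :
    coeffMap (resZl ℓ) s = 0 := by
  obtain ⟨t, ht⟩ := hs
  have hℓ0 : (ℓ : ℚ) ≠ 0 := by exact_mod_cast (Fact.out : ℓ.Prime).ne_zero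
  have h1 : s = HahnSeries.C (ℓ : Zl ℓ) * t := by
    apply coeffMap_injective' (algebraMap (Zl ℓ) ℚ) (FaithfulSMul.algebraMap_injective _ _)
    rw [map_mul, ht, coeffMap_C', ← mul_assoc, ← map_mul, map_natCast, mul_inv_cancel₀ hℓ0,
      map_one, one_mul]
  rw [h1, map_mul, coeffMap_C', map_natCast, ZMod.natCast_self, map_zero, zero_mul]

variable (N ℓ)

/-- criterion for `HasQexp` in terms of the subring of integral series -/
theorem hasQexp_of (A : Subalgebra (Zl ℓ) ↥(modularFunctionFieldFull N))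
    (h1 : ∀ a : A, ((a : ↥(modularFunctionFieldFull N)) : LaurentSeries ℚ) ∈ intSeries ℓ)
    (h2 : ∀ a : A, HahnSeries.C ((ℓ : ℚ)⁻¹) *
        ((a : ↥(modularFunctionFieldFull N)) : LaurentSeries ℚ) ∈ intSeries ℓ →
      ∃ b : A, a = (ℓ : Zl ℓ) • b) : HasQexp N ℓ A := by
  let g : A →+* LaurentSeries ℚ :=
    ((modularFunctionFieldFull N).val : ↥(modularFunctionFieldFull N) →+* LaurentSeries ℚ).comp
      (A.val : A →+* ↥(modularFunctionFieldFull N))
  obtain ⟨φ, hφ⟩ := exists_lift_ringHom (coeffMap (algebraMap (Zl ℓ) ℚ))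
    (coeffMap_injective' _ (FaithfulSMul.algebraMap_injective _ _)) g (fun a => h1 a)
  refine ⟨φ, fun a => hφ a, fun a ha => h2 a ?_⟩
  have := inv_ell_mul_mem_intSeries (φ a) ha
  rw [hφ a] at this
  exact this

variable {N ℓ}

theorem HasQexp.mem_intSeries {A : Subalgebra (Zl ℓ) ↥(modularFunctionFieldFull N)}
    (h : HasQexp N ℓ A) (a : A) :
    ((a : ↥(modularFunctionFieldFull N)) : LaurentSeries ℚ) ∈ intSeries ℓ := by
  obtain ⟨φ, h1, -⟩ := h
  exact ⟨φ a, h1 a⟩

theorem HasQexp.sat {A : Subalgebra (Zl ℓ) ↥(modularFunctionFieldFull N)}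
    (h : HasQexp N ℓ A) (a : A)
    (ha : HahnSeries.C ((ℓ : ℚ)⁻¹) *
        ((a : ↥(modularFunctionFieldFull N)) : LaurentSeries ℚ) ∈ intSeries ℓ) :
    ∃ b : A, a = (ℓ : Zl ℓ) • b := by
  obtain ⟨φ, h1, h2⟩ := h
  apply h2
  apply coeffMap_res_eq_zero_of
  rw [h1]
  exact ha

end Fermat.Agent.S28.helper81

namespace Fermat.Agent.S28.helper81

open Fermat.Agent.S28.helper94

variable (N : ℕ) [NeZero N] (ℓ : ℕ) [Fact ℓ.Prime]

theorem jq_mem_intSeries : jq ∈ intSeries ℓ :=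
  ⟨jqModC (Zl ℓ), by rw [coeffMap_jqModC]; rfl⟩

theorem jq_inv_mem_intSeries : jq⁻¹ ∈ intSeries ℓ := by
  obtain ⟨u, hu⟩ := isUnit_jqModC (Zl ℓ)
  refine ⟨((u⁻¹ : (LaurentSeries (Zl ℓ))ˣ) : LaurentSeries (Zl ℓ)), ?_⟩
  apply eq_inv_of_mul_eq_one_left
  have h1 : coeffMap (algebraMap (Zl ℓ) ℚ) (u : LaurentSeries (Zl ℓ)) = jq := by
    rw [hu, coeffMap_jqModC]; rfl
  rw [← h1, ← map_mul, Units.inv_mul, map_one]

theorem transcendental_jq : Transcendental ℚ jq := by
  have h : (jqModC ℚ).order < 0 := by rw [order_jqModC]; norm_num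
  exact transcendental_of_order_neg (jqModC ℚ) h

theorem transcendental_jFull : Transcendental ℚ (jFull N) := by
  have h := transcendental_jq
  refine Transcendental.of_ringHom_of_comp_eq (RingHom.id ℚ)
    ((modularFunctionFieldFull N).val : ↥(modularFunctionFieldFull N) →+* LaurentSeries ℚ)
    (a := jFull N) h Function.injective_id ?_
  exact Subsingleton.elim _ _

theorem transcendental_jFull_inv : Transcendental ℚ (jFull N)⁻¹ := by
  intro h
  exact transcendental_jFull N (IsAlgebraic.inv_iff.mp h)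

theorem transcendental_Zl_jFull : Transcendental (Zl ℓ) (jFull N) :=
  (transcendental_jFull N).restrictScalars (FaithfulSMul.algebraMap_injective (Zl ℓ) ℚ)

theorem transcendental_Zl_jFull_inv : Transcendental (Zl ℓ) (jFull N)⁻¹ :=
  (transcendental_jFull_inv N).restrictScalars (FaithfulSMul.algebraMap_injective (Zl ℓ) ℚ)

variable {N ℓ}

/-- membership in `chartAlg {u}` as integrality over the polynomial ring via `aeval u` -/
theorem mem_chartAlg_singleton_iff (u y : ↥(modularFunctionFieldFull N)) :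
    y ∈ chartAlg N ℓ {u} ↔
      ((Polynomial.aeval u : Polynomial (Zl ℓ) →ₐ[Zl ℓ] ↥(modularFunctionFieldFull N)) :
        Polynomial (Zl ℓ) →+* ↥(modularFunctionFieldFull N)).IsIntegralElem y := by
  rw [mem_chartAlg_iff]
  have hrange : ∀ z : ↥(modularFunctionFieldFull N), z ∈ Algebra.adjoin (Zl ℓ) {u} ↔
      ∃ p : Polynomial (Zl ℓ), Polynomial.aeval u p = z := by
    intro z
    rw [Algebra.adjoin_singleton_eq_range_aeval]
    rfl
  let ψ : Polynomial (Zl ℓ) →ₐ[Zl ℓ] Algebra.adjoin (Zl ℓ) {u} :=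
    (Polynomial.aeval u).codRestrict (Algebra.adjoin (Zl ℓ) {u})
      (fun p => (hrange _).mpr ⟨p, rfl⟩)
  have hψ : Function.Surjective ψ := by
    rintro ⟨z, hz⟩
    obtain ⟨p, hp⟩ := (hrange z).mp hz
    exact ⟨p, Subtype.ext hp⟩
  have hcomp : (algebraMap (Algebra.adjoin (Zl ℓ) {u}) ↥(modularFunctionFieldFull N)).comp
      (ψ : Polynomial (Zl ℓ) →+* Algebra.adjoin (Zl ℓ) {u}) =
      ((Polynomial.aeval u : Polynomial (Zl ℓ) →ₐ[Zl ℓ] ↥(modularFunctionFieldFull N)) :
        Polynomial (Zl ℓ) →+* ↥(modularFunctionFieldFull N)) := by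
    ext <;> rfl
  constructor
  · rintro ⟨p, hp, hp0⟩
    obtain ⟨q, hq⟩ := Polynomial.map_surjective (ψ : Polynomial (Zl ℓ) →+* _) hψ p
    have hlift : p ∈ Polynomial.lifts (ψ : Polynomial (Zl ℓ) →+* Algebra.adjoin (Zl ℓ) {u}) :=
      ⟨q, hq⟩
    obtain ⟨q', hq', -, hq'm⟩ := Polynomial.lifts_and_natDegree_eq_and_monic hlift hp
    refine ⟨q', hq'm, ?_⟩
    rw [← hcomp, ← Polynomial.eval₂_map, hq']
    exact hp0
  · rintro ⟨q, hq, hq0⟩
    refine ⟨q.map (ψ : Polynomial (Zl ℓ) →+* Algebra.adjoin (Zl ℓ) {u}), hq.map _, ?_⟩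
    rw [Polynomial.eval₂_map, hcomp]
    exact hq0

/-- the saturation lemma for the charts: if `ℓ b` and `u ^ k b` are integral over `ℤ_(ℓ)[u]`
(`u` transcendental), then so is `b`. -/
theorem mem_chartAlg_singleton_of_smul (u : ↥(modularFunctionFieldFull N))
    (hu : Transcendental (Zl ℓ) u) (b : ↥(modularFunctionFieldFull N)) (k : ℕ)
    (h1 : (ℓ : Zl ℓ) • b ∈ chartAlg N ℓ {u}) (h2 : u ^ k * b ∈ chartAlg N ℓ {u}) :
    b ∈ chartAlg N ℓ {u} := by
  classical
  haveI := isPrincipalIdealRing_Zl ℓ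
  rw [mem_chartAlg_singleton_iff] at h1 h2 ⊢
  let f : Polynomial (Zl ℓ) →+* ↥(modularFunctionFieldFull N) :=
    ((Polynomial.aeval u : Polynomial (Zl ℓ) →ₐ[Zl ℓ] ↥(modularFunctionFieldFull N)) :
        Polynomial (Zl ℓ) →+* ↥(modularFunctionFieldFull N))
  have hf : Function.Injective f := transcendental_iff_injective.mp hu
  letI algBF : Algebra (Polynomial (Zl ℓ)) ↥(modularFunctionFieldFull N) := f.toAlgebra
  letI algEF : Algebra (FractionRing (Polynomial (Zl ℓ))) ↥(modularFunctionFieldFull N) :=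
    (IsFractionRing.lift (g := f) hf).toAlgebra
  haveI : IsScalarTower (Polynomial (Zl ℓ)) (FractionRing (Polynomial (Zl ℓ)))
      ↥(modularFunctionFieldFull N) :=
    IsScalarTower.of_algebraMap_eq (fun x => (IsFractionRing.lift_algebraMap hf x).symm)
  have hprime : Prime (Polynomial.C (ℓ : Zl ℓ)) := Polynomial.prime_C_iff.mpr (prime_ell_Zl ℓ)
  have hndvd : ¬ Polynomial.C (ℓ : Zl ℓ) ∣ (Polynomial.X : Polynomial (Zl ℓ)) ^ k := by
    intro h
    rw [Polynomial.C_dvd_iff_dvd_coeff] at h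
    have := h k
    rw [Polynomial.coeff_X_pow, if_pos rfl] at this
    exact (prime_ell_Zl ℓ).not_unit (isUnit_of_dvd_one this)
  have e1 : Polynomial.C (ℓ : Zl ℓ) • b = (ℓ : Zl ℓ) • b := by
    rw [Algebra.smul_def, Algebra.smul_def]
    congr 1
    show f (Polynomial.C (ℓ : Zl ℓ)) = _
    exact Polynomial.aeval_C u _
  have e2 : ((Polynomial.X : Polynomial (Zl ℓ)) ^ k) • b = u ^ k * b := by
    rw [Algebra.smul_def]
    congr 1
    show f (Polynomial.X ^ k) = _
    rw [map_pow]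
    congr 1
    exact Polynomial.aeval_X u
  have h1' : IsIntegral (Polynomial (Zl ℓ)) (Polynomial.C (ℓ : Zl ℓ) • b) := by
    rw [e1]; exact h1
  have h2' : IsIntegral (Polynomial (Zl ℓ)) (((Polynomial.X : Polynomial (Zl ℓ)) ^ k) • b) := by
    rw [e2]; exact h2
  exact isIntegral_of_prime_smul_of_smul (E := FractionRing (Polynomial (Zl ℓ)))
    (Polynomial.C (ℓ : Zl ℓ)) (Polynomial.X ^ k) hprime hndvd b h1' h2'

end Fermat.Agent.S28.helper81

namespace Fermat.Agent.S28.helper81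

open Fermat.Agent.S28.helper94

variable {N : ℕ} [NeZero N] {ℓ : ℕ} [Fact ℓ.Prime]

/-- elements of the overlap chart have `ℓ`-integral q-expansions, if those of the finite chart
do -/
theorem mem_intSeries_of_mem_mid (h : HasQexp N ℓ (chartAlgFin N ℓ))
    (a : ↥(modularFunctionFieldFull N)) (ha : a ∈ chartAlgMid N ℓ) :
    (a : LaurentSeries ℚ) ∈ intSeries ℓ := by
  have hz : a ∈ chartAlg N ℓ (insert (jFull N)⁻¹ {jFull N}) := by
    rw [show insert (jFull N)⁻¹ ({jFull N} : Set ↥(modularFunctionFieldFull N)) =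
      {jFull N, (jFull N)⁻¹} from Set.pair_comm _ _]
    exact ha
  obtain ⟨n, hn⟩ := exists_pow_mul_mem_chartAlg (Set.mem_singleton _) (jFull_ne_zero N) hz
  have h1 := h.mem_intSeries ⟨_, hn⟩
  have h2 : (a : LaurentSeries ℚ) = (jq⁻¹) ^ n * (jq ^ n * (a : LaurentSeries ℚ)) := by
    rw [← mul_assoc, ← mul_pow, inv_mul_cancel₀ jq_ne_zero, one_pow, one_mul]
  rw [h2]
  refine mul_mem (pow_mem (jq_inv_mem_intSeries ℓ) n) ?_
  exact h1

theorem exists_qexp_mid_of_fin (h : HasQexp N ℓ (chartAlgFin N ℓ)) :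
    ∃ φ : chartAlgMid N ℓ →+* LaurentSeries (Zl ℓ),
      ∀ a, coeffMap (algebraMap (Zl ℓ) ℚ) (φ a) =
        ((a : ↥(modularFunctionFieldFull N)) : LaurentSeries ℚ) := by
  let g : chartAlgMid N ℓ →+* LaurentSeries ℚ :=
    ((modularFunctionFieldFull N).val : ↥(modularFunctionFieldFull N) →+* LaurentSeries ℚ).comp
      ((chartAlgMid N ℓ).val : chartAlgMid N ℓ →+* ↥(modularFunctionFieldFull N))
  exact exists_lift_ringHom (coeffMap (algebraMap (Zl ℓ) ℚ))
    (coeffMap_injective' _ (FaithfulSMul.algebraMap_injective _ _)) g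
    (fun a => mem_intSeries_of_mem_mid h a a.2)

/-- **Transfer to the chart at infinity.** -/
theorem hasQexp_inf_of_fin (h : HasQexp N ℓ (chartAlgFin N ℓ)) :
    HasQexp N ℓ (chartAlgInf N ℓ) := by
  have hℓ0 : (ℓ : ℚ) ≠ 0 := by exact_mod_cast (Fact.out : ℓ.Prime).ne_zero
  apply hasQexp_of
  · intro a
    exact mem_intSeries_of_mem_mid h a (chartAlg_mono N ℓ (sInf_subset N) a.2)
  · intro a ha
    have hamid : (a : ↥(modularFunctionFieldFull N)) ∈ chartAlgMid N ℓ :=
      chartAlg_mono N ℓ (sInf_subset N) a.2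
    have hz : (a : ↥(modularFunctionFieldFull N)) ∈
        chartAlg N ℓ (insert (jFull N)⁻¹ {jFull N}) := by
      rw [show insert (jFull N)⁻¹ ({jFull N} : Set ↥(modularFunctionFieldFull N)) =
        {jFull N, (jFull N)⁻¹} from Set.pair_comm _ _]
      exact hamid
    obtain ⟨n, hn⟩ := exists_pow_mul_mem_chartAlg (Set.mem_singleton _) (jFull_ne_zero N) hz
    -- the element `j ^ n * a` of the finite chart is divisible by `ℓ`
    have h3 : HahnSeries.C ((ℓ : ℚ)⁻¹) *
        (((⟨_, hn⟩ : chartAlgFin N ℓ) : ↥(modularFunctionFieldFull N)) : LaurentSeries ℚ) ∈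
          intSeries ℓ := by
      have : HahnSeries.C ((ℓ : ℚ)⁻¹) *
          (((⟨_, hn⟩ : chartAlgFin N ℓ) : ↥(modularFunctionFieldFull N)) : LaurentSeries ℚ) =
          jq ^ n * (HahnSeries.C ((ℓ : ℚ)⁻¹) *
            ((a : ↥(modularFunctionFieldFull N)) : LaurentSeries ℚ)) := by
        show HahnSeries.C ((ℓ : ℚ)⁻¹) * (jq ^ n * _) = _
        ring
      rw [this]
      exact mul_mem (pow_mem (jq_mem_intSeries ℓ) n) ha
    obtain ⟨b', hb'⟩ := h.sat ⟨_, hn⟩ h3
    have hb'' : (jFull N) ^ n * (a : ↥(modularFunctionFieldFull N)) =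
        (ℓ : Zl ℓ) • (b' : ↥(modularFunctionFieldFull N)) := congrArg Subtype.val hb'
    have hcast : algebraMap (Zl ℓ) ↥(modularFunctionFieldFull N) (ℓ : Zl ℓ) =
        algebraMap ℚ ↥(modularFunctionFieldFull N) (ℓ : ℚ) := by
      rw [map_natCast, map_natCast]
    have hne : algebraMap ℚ ↥(modularFunctionFieldFull N) (ℓ : ℚ) ≠ 0 := by
      rw [Ne, map_eq_zero]; exact hℓ0
    -- the candidate quotient
    set b : ↥(modularFunctionFieldFull N) :=
      (algebraMap ℚ ↥(modularFunctionFieldFull N) (ℓ : ℚ))⁻¹ * a with hb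
    have hab : (a : ↥(modularFunctionFieldFull N)) = (ℓ : Zl ℓ) • b := by
      rw [Algebra.smul_def, hcast, hb, ← mul_assoc, mul_inv_cancel₀ hne, one_mul]
    have hjb : (jFull N) ^ n * b = b' := by
      have h5 : algebraMap ℚ ↥(modularFunctionFieldFull N) (ℓ : ℚ) * ((jFull N) ^ n * b) =
          algebraMap ℚ ↥(modularFunctionFieldFull N) (ℓ : ℚ) * b' := by
        rw [Algebra.smul_def, hcast] at hb''
        rw [← hb'', hb]
        field_simp
      exact mul_left_cancel₀ hne h5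
    -- `b` lies in the overlap chart
    have hbmid : b ∈ chartAlgMid N ℓ := by
      have h6 : b = (jFull N)⁻¹ ^ n * b' := by
        rw [← hjb, ← mul_assoc, ← mul_pow, inv_mul_cancel₀ (jFull_ne_zero N), one_pow, one_mul]
      rw [h6]
      refine mul_mem (pow_mem (subset_chartAlg N ℓ _ (by simp)) n) ?_
      exact chartAlg_mono N ℓ (sFin_subset N) b'.2
    have hz' : b ∈ chartAlg N ℓ (insert (jFull N)⁻¹⁻¹ {(jFull N)⁻¹}) := by
      rw [inv_inv]; exact hbmid
    obtain ⟨k, hk⟩ := exists_pow_mul_mem_chartAlg (Set.mem_singleton _)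
      (inv_ne_zero (jFull_ne_zero N)) hz'
    have hbinf : b ∈ chartAlgInf N ℓ := by
      refine mem_chartAlg_singleton_of_smul (jFull N)⁻¹ (transcendental_Zl_jFull_inv N ℓ) b k
        ?_ hk
      rw [← hab]
      exact a.2
    exact ⟨⟨b, hbinf⟩, Subtype.ext hab⟩

end Fermat.Agent.S28.helper81
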