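import Mathlib

/-!
# S28-T5: the combinatorial orbit lemma (helper93)

If `c : I → ℕ` takes values in the divisors of `N` and, for every `d ∣ N`,
`∑ i ∈ O, ((N / d) * gcd(d, c i) ^ 2 - N) = 0`, then some `c i` equals `N`.
-/

open Finset ArithmeticFunction
open scoped ArithmeticFunction.Moebius ArithmeticFunction.zeta

namespace Fermat.Agent.S28.helper93

/-- Jordan's totient `J₂ = n² * μ` as an integer valued function. -/
noncomputable def jordanTwo (n : ℕ) : ℤ :=
  (((ArithmeticFunction.pow 2 : ArithmeticFunction ℕ) : ArithmeticFunction ℤ) * μ) n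

theorem sum_divisors_jordanTwo {n : ℕ} (hn : n ≠ 0) :
    ∑ e ∈ n.divisors, jordanTwo e = (n : ℤ) ^ 2 := by
  have h1 : ∑ e ∈ n.divisors, jordanTwo e =
      ((((ArithmeticFunction.pow 2 : ArithmeticFunction ℕ) : ArithmeticFunction ℤ) * μ) * ζ) n := by
    rw [coe_mul_zeta_apply]
    rfl
  rw [h1, mul_assoc, moebius_mul_coe_zeta, mul_one]
  simp [ArithmeticFunction.pow_apply, hn]

theorem sum_divisors_ite_dvd {d c : ℕ} (hd : d ≠ 0) :
    ∑ e ∈ d.divisors, (if e ∣ c then jordanTwo e else 0) = ((Nat.gcd d c : ℕ) : ℤ) ^ 2 := by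
  have hg : Nat.gcd d c ≠ 0 := Nat.gcd_ne_zero_left hd
  rw [← sum_divisors_jordanTwo hg, ← Finset.sum_filter]
  apply Finset.sum_congr _ (fun _ _ => rfl)
  ext e
  simp only [Finset.mem_filter, Nat.mem_divisors, Nat.dvd_gcd_iff]
  constructor
  · rintro ⟨⟨h1, _⟩, h2⟩
    exact ⟨⟨h1, h2⟩, hg⟩
  · rintro ⟨⟨h1, h2⟩, _⟩
    exact ⟨⟨h1, hd⟩, h2⟩

/-- **S28-T5** (exact statement of the task board). -/
theorem comb_orbit (N : ℕ) (hN : 0 < N) {I : Type} [DecidableEq I] (O : Finset I)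
    (hO : O.Nonempty) (c : I → ℕ) (hc : ∀ i, c i ∣ N)
    (h : ∀ d, d ∣ N → ∑ i ∈ O, ((((N / d) * (Nat.gcd d (c i)) ^ 2 : ℕ) : ℤ) - N) = 0) :
    ∃ i ∈ O, c i = N := by
  classical
  -- Step 1: `∑_i gcd(d, c i)² = d * |O|` for `d ∣ N`.
  have key1 : ∀ d, d ∣ N → ∑ i ∈ O, ((Nat.gcd d (c i) : ℕ) : ℤ) ^ 2 = (d : ℤ) * O.card := by
    intro d hd
    have hd0 : d ≠ 0 := fun h0 => by subst h0; simp at hd; omega
    have hNd : (N / d) * d = N := Nat.div_mul_cancel hd
    have hNdpos : 0 < N / d := Nat.div_pos (Nat.le_of_dvd hN hd) (Nat.pos_of_ne_zero hd0)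
    have h1 := h d hd
    rw [Finset.sum_sub_distrib, Finset.sum_const, nsmul_eq_mul] at h1
    have h2 : ((N / d : ℕ) : ℤ) * ∑ i ∈ O, ((Nat.gcd d (c i) : ℕ) : ℤ) ^ 2 =
        ((N / d : ℕ) : ℤ) * ((d : ℤ) * O.card) := by
      rw [Finset.mul_sum]
      have h3 : ∑ i ∈ O, ((N / d : ℕ) : ℤ) * ((Nat.gcd d (c i) : ℕ) : ℤ) ^ 2 =
          ∑ i ∈ O, (((N / d) * (Nat.gcd d (c i)) ^ 2 : ℕ) : ℤ) := by
        apply Finset.sum_congr rfl
        intro i _
        push_cast
        ring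
      rw [h3]
      have h4 : ((N / d : ℕ) : ℤ) * ((d : ℤ) * O.card) = (O.card : ℤ) * (N : ℤ) := by
        have : ((N / d : ℕ) : ℤ) * (d : ℤ) = (N : ℤ) := by exact_mod_cast hNd
        calc ((N / d : ℕ) : ℤ) * ((d : ℤ) * O.card)
            = (((N / d : ℕ) : ℤ) * (d : ℤ)) * O.card := by ring
          _ = (O.card : ℤ) * (N : ℤ) := by rw [this]; ring
      rw [h4]
      linarith
    have hne : ((N / d : ℕ) : ℤ) ≠ 0 := by exact_mod_cast hNdpos.ne'
    exact mul_left_cancel₀ hne h2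
  -- Step 2: with `m e := #{i ∈ O | e ∣ c i}`: `∑_{e ∣ d} J₂(e) m(e) = d |O|`.
  set m : ℕ → ℤ := fun e => ((O.filter (fun i => e ∣ c i)).card : ℤ) with hm
  have key2 : ∀ d, d ∣ N → ∑ e ∈ d.divisors, (jordanTwo e * m e - (Nat.totient e : ℤ) * O.card)
      = 0 := by
    intro d hd
    have hd0 : d ≠ 0 := fun h0 => by subst h0; simp at hd; omega
    rw [Finset.sum_sub_distrib, ← Finset.sum_mul]
    have htot : ∑ e ∈ d.divisors, (Nat.totient e : ℤ) = (d : ℤ) := by
      have := Nat.sum_totient d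
      exact_mod_cast this
    rw [htot, ← key1 d hd]
    have hswap : ∑ e ∈ d.divisors, jordanTwo e * m e =
        ∑ i ∈ O, ∑ e ∈ d.divisors, (if e ∣ c i then jordanTwo e else 0) := by
      rw [Finset.sum_comm]
      apply Finset.sum_congr rfl
      intro e _
      rw [hm]
      simp only
      rw [Finset.card_filter, Nat.cast_sum, Finset.mul_sum]
      apply Finset.sum_congr rfl
      intro i _
      split_ifs <;> simp
    rw [hswap]
    have : ∑ i ∈ O, ∑ e ∈ d.divisors, (if e ∣ c i then jordanTwo e else 0) =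
        ∑ i ∈ O, ((Nat.gcd d (c i) : ℕ) : ℤ) ^ 2 := by
      apply Finset.sum_congr rfl
      intro i _
      exact sum_divisors_ite_dvd hd0
    rw [this, sub_self]
  -- Step 3: strong induction: `J₂(d) m(d) = φ(d) |O|` for `d ∣ N`.
  have key3 : ∀ d, d ∣ N → jordanTwo d * m d - (Nat.totient d : ℤ) * O.card = 0 := by
    intro d
    induction d using Nat.strong_induction_on with
    | _ d ih =>
      intro hd
      have hd0 : d ≠ 0 := fun h0 => by subst h0; simp at hd; omega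
      have h2 := key2 d hd
      rw [← Nat.insert_self_properDivisors hd0,
        Finset.sum_insert Nat.self_notMem_properDivisors] at h2
      have h3 : ∑ e ∈ d.properDivisors,
          (jordanTwo e * m e - (Nat.totient e : ℤ) * O.card) = 0 := by
        apply Finset.sum_eq_zero
        intro e he
        rw [Nat.mem_properDivisors] at he
        exact ih e he.2 (he.1.trans hd)
      rw [h3, add_zero] at h2
      exact h2
  -- Step 4: conclude at `d = N`.
  have h4 := key3 N dvd_rfl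
  have hcard : (0 : ℤ) < O.card := by exact_mod_cast Finset.card_pos.mpr hO
  have htot : (0 : ℤ) < (Nat.totient N : ℤ) := by exact_mod_cast Nat.totient_pos.mpr hN
  have hmN : m N ≠ 0 := by
    intro h0
    rw [h0, mul_zero, zero_sub, neg_eq_zero] at h4
    have := mul_pos htot hcard
    omega
  rw [hm] at hmN
  simp only [ne_eq, Nat.cast_eq_zero, Finset.card_eq_zero] at hmN
  obtain ⟨i, hi⟩ := Finset.nonempty_iff_ne_empty.mpr hmN
  rw [Finset.mem_filter] at hi
  exact ⟨i, hi.1, Nat.dvd_antisymm (hc i) hi.2⟩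

end Fermat.Agent.S28.helper93
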