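import Mathlib
import Fermat.Agent.S28.helper93_Comb

/-!
# S28-T4: formal irreducibility via the unit argument (helper93)

Setting: `k` a field, `L = k((q))`, `x ∈ L` of negative order (so `k[X] → L`, `X ↦ x` is
injective), a commutative ring `G` with finitely many "expansion" homomorphisms
`E i : G →+* L` (`i ∈ I`) such that every characteristic polynomial
`∏ i, (T - E i g)` has coefficients in `k[x]`.  If `Θ ∈ G` has pairwise distinct expansions and
there are units `U d ∈ Gˣ` (`d ∣ N`) whose expansions have the orders of the Siegel-type units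
at the cusps, then the characteristic polynomial of `Θ` is irreducible over `k[X]`.

Main result: `Fermat.Agent.S28.helper93.formal_irreducible`.
-/

set_option autoImplicit false
open Polynomial

namespace Fermat.Agent.S28.helper93

/-- A Laurent series of negative order is transcendental over the coefficient field. -/
theorem aeval_injective_of_order_neg {k : Type} [Field k] (x : LaurentSeries k)
    (hx : x.order < 0) :
    Function.Injective ((aeval x : Polynomial k →ₐ[k] LaurentSeries k) :
      Polynomial k →+* LaurentSeries k) := by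
  have hx0 : x ≠ 0 := by
    rintro rfl
    simp at hx
  change Function.Injective (aeval x : Polynomial k →ₐ[k] LaurentSeries k)
  rw [← transcendental_iff_injective]
  intro halg
  obtain ⟨p, hpm, hp⟩ := halg.isIntegral
  have h2 : IsIntegral (PowerSeries k) x := by
    refine ⟨p.map (algebraMap k (PowerSeries k)), hpm.map _, ?_⟩
    rw [Polynomial.eval₂_map]
    exact hp
  obtain ⟨y, hy⟩ := IsIntegrallyClosed.isIntegral_iff.mp h2
  have h3 : x.coeff x.order ≠ 0 := fun h => hx0 (HahnSeries.coeff_order_eq_zero.mp h)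
  have h4 : ∀ i : ℤ, i < 0 → x.coeff i = 0 := by
    intro i hi
    rw [← hy]
    change ((y : PowerSeries k) : LaurentSeries k).coeff i = 0
    rw [PowerSeries.coeff_coe, if_pos hi]
  exact h3 (h4 _ hx)

section General

variable {A L : Type*} [CommRing A] [Field L]

/-- An element of a field `L` which is integral over an integrally closed domain `A ⊆ L` and
which is a quotient of two elements of `A` lies in `A`. -/
theorem mem_range_of_isIntegralElem [IsDomain A] [IsIntegrallyClosed A] (φ : A →+* L) (hφ : Function.Injective φ) (c : L)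
    (hc : φ.IsIntegralElem c) (p₀ p₁ : A) (h0 : φ p₀ ≠ 0) (h : c * φ p₀ = φ p₁) :
    ∃ p : A, φ p = c := by
  let K := FractionRing A
  let ψ : K →+* L := IsFractionRing.lift hφ
  have hψ : ∀ a : A, ψ (algebraMap A K a) = φ a := fun a => IsFractionRing.lift_algebraMap hφ a
  have hψinj : Function.Injective ψ := ψ.injective
  let z : K := algebraMap A K p₁ / algebraMap A K p₀
  have hz : ψ z = c := by
    change ψ (algebraMap A K p₁ / algebraMap A K p₀) = c
    rw [map_div₀, hψ, hψ, ← h, mul_div_assoc, div_self h0, mul_one]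
  obtain ⟨m, hm, hmc⟩ := hc
  have hzint : IsIntegral A z := by
    refine ⟨m, hm, ?_⟩
    apply hψinj
    rw [Polynomial.hom_eval₂, map_zero, hz]
    have : ψ.comp (algebraMap A K) = φ := RingHom.ext hψ
    rw [this]
    exact hmc
  obtain ⟨y, hy⟩ := IsIntegrallyClosed.isIntegral_iff.mp hzint
  exact ⟨y, by rw [← hψ, hy, hz]⟩

variable {I : Type*} [Fintype I] {G : Type*} [CommRing G]

/-- The "norm" `∏ i, E i g` lies in the base ring. -/
theorem norm_mem_range (φ : A →+* L) (E : I → G →+* L)
    (hchar : ∀ g : G, ∃ P : Polynomial A, (∏ i, (X - C (E i g))) = P.map φ) (g : G) :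
    ∃ p : A, φ p = ∏ i, E i g := by
  obtain ⟨m, hm⟩ := hchar (-g)
  refine ⟨m.eval 0, ?_⟩
  rw [← Polynomial.eval_zero_map, ← hm, Polynomial.eval_prod]
  simp

/-- Every expansion is integral over the base ring. -/
theorem isIntegralElem_E (φ : A →+* L) (hφ : Function.Injective φ) (E : I → G →+* L)
    (hchar : ∀ g : G, ∃ P : Polynomial A, (∏ i, (X - C (E i g))) = P.map φ) (g : G) (i : I) :
    φ.IsIntegralElem (E i g) := by
  obtain ⟨m, hm⟩ := hchar g
  have hmon : m.Monic := by
    apply Polynomial.monic_of_injective hφ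
    rw [← hm]
    exact Polynomial.monic_prod_of_monic _ _ (fun i _ => Polynomial.monic_X_sub_C _)
  refine ⟨m, hmon, ?_⟩
  rw [← Polynomial.eval_map, ← hm, Polynomial.eval_prod]
  exact Finset.prod_eq_zero (Finset.mem_univ i) (by simp)

/-- Key lemma: if `a, b ∈ G` have complementary vanishing sets `O`, `Oᶜ` then for every
`u ∈ G` the partial norm `∏ i ∈ O, E i u` lies in the base ring. -/
theorem prod_mem_range [IsDomain A] [IsIntegrallyClosed A] [DecidableEq I] (φ : A →+* L) (hφ : Function.Injective φ) (E : I → G →+* L)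
    (hchar : ∀ g : G, ∃ P : Polynomial A, (∏ i, (X - C (E i g))) = P.map φ) (a b : G)
    (O : Finset I)
    (hab : ∀ i, (i ∈ O ∧ E i a = 0 ∧ E i b ≠ 0) ∨ (i ∉ O ∧ E i a ≠ 0 ∧ E i b = 0)) (u : G) :
    ∃ p : A, φ p = ∏ i ∈ O, E i u := by
  obtain ⟨p₀, hp₀⟩ := norm_mem_range φ E hchar (b + a)
  obtain ⟨p₁, hp₁⟩ := norm_mem_range φ E hchar (u * b + a)
  have h0 : φ p₀ ≠ 0 := by
    rw [hp₀, Finset.prod_ne_zero_iff]
    intro i _
    rcases hab i with ⟨_, h1, h2⟩ | ⟨_, h1, h2⟩ <;> simp [h1, h2]
  have h1 : (∏ i ∈ O, E i u) * φ p₀ = φ p₁ := by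
    have hO : ∏ i ∈ O, E i u = ∏ i, (if i ∈ O then E i u else 1) := by
      rw [Finset.prod_ite_mem, Finset.univ_inter]
    rw [hp₀, hp₁, hO, ← Finset.prod_mul_distrib]
    refine Finset.prod_congr rfl (fun i _ => ?_)
    rcases hab i with ⟨h3, h1, h2⟩ | ⟨h3, h1, h2⟩ <;> simp [h1, h2, h3]
  have hint : φ.IsIntegralElem (∏ i ∈ O, E i u) := by
    let _ := φ.toAlgebra
    exact IsIntegral.prod _ (fun i _ => isIntegralElem_E φ hφ E hchar u i)
  exact mem_range_of_isIntegralElem φ hφ _ hint p₀ p₁ h0 h1

end General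

section Laurent

variable {k : Type} [Field k]

/-- order of a finite product of nonzero Laurent series -/
theorem order_prod_of_ne_zero {I : Type*} (s : Finset I) (f : I → LaurentSeries k)
    (hf : ∀ i ∈ s, f i ≠ 0) : (∏ i ∈ s, f i).order = ∑ i ∈ s, (f i).order := by
  classical
  induction s using Finset.induction_on with
  | empty => simp
  | insert j s hj ih =>
    rw [Finset.prod_insert hj, Finset.sum_insert hj,
      HahnSeries.order_mul (hf j (Finset.mem_insert_self j s))
        (Finset.prod_ne_zero_iff.mpr (fun i hi => hf i (Finset.mem_insert_of_mem hi))),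
      ih (fun i hi => hf i (Finset.mem_insert_of_mem hi))]

variable {I : Type} {G : Type} [CommRing G]

/-- For a unit `u`, the partial norm over a "factor" `O` has order zero. -/
theorem sum_order_unit_eq_zero [Fintype I] [DecidableEq I] (E : I → G →+* LaurentSeries k) (x : LaurentSeries k)
    (hx : x.order < 0)
    (hchar : ∀ g : G, ∃ P : Polynomial (Polynomial k),
      (∏ i, (X - C (E i g))) = P.map ((aeval x : Polynomial k →ₐ[k] LaurentSeries k) :
        Polynomial k →+* LaurentSeries k))
    (a b : G) (O : Finset I)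
    (hab : ∀ i, (i ∈ O ∧ E i a = 0 ∧ E i b ≠ 0) ∨ (i ∉ O ∧ E i a ≠ 0 ∧ E i b = 0)) (u : Gˣ) :
    ∑ i ∈ O, (E i (u : G)).order = 0 := by
  have hφ := aeval_injective_of_order_neg x hx
  obtain ⟨p, hp⟩ := prod_mem_range _ hφ E hchar a b O hab (u : G)
  obtain ⟨q, hq⟩ := prod_mem_range _ hφ E hchar a b O hab ((u⁻¹ : Gˣ) : G)
  have hpq : p * q = 1 := by
    apply hφ
    rw [map_mul, map_one, hp, hq, ← Finset.prod_mul_distrib]
    apply Finset.prod_eq_one
    intro i _
    rw [← map_mul, Units.mul_inv, map_one]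
  have hu : IsUnit p := IsUnit.of_mul_eq_one q hpq
  obtain ⟨r, hr, rfl⟩ := Polynomial.isUnit_iff.mp hu
  have hne : ∀ i ∈ O, E i (u : G) ≠ 0 := fun i _ => ((u.isUnit.map (E i)).ne_zero)
  rw [← order_prod_of_ne_zero O _ hne, ← hp]
  have hC : ((aeval x : Polynomial k →ₐ[k] LaurentSeries k) :
      Polynomial k →+* LaurentSeries k) (C r) = HahnSeries.C r := by
    change (aeval x : Polynomial k →ₐ[k] LaurentSeries k) (C r) = HahnSeries.C r
    rw [aeval_C]
    exact HahnSeries.ofPowerSeries_C r
  rw [hC, HahnSeries.order_C]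

/-- constants and `x` generate: every polynomial in `x` is a common expansion -/
theorem exists_E_eq_aeval (E : I → G →+* LaurentSeries k)
    (hconst : ∀ c : k, ∃ g : G, ∀ i, E i g = HahnSeries.C c)
    (J : G) (x : LaurentSeries k) (hJ : ∀ i, E i J = x) (p : Polynomial k) :
    ∃ g : G, ∀ i, E i g = ((aeval x : Polynomial k →ₐ[k] LaurentSeries k) :
        Polynomial k →+* LaurentSeries k) p := by
  induction p using Polynomial.induction_on with
  | C c =>
    obtain ⟨g, hg⟩ := hconst c
    refine ⟨g, fun i => ?_⟩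
    rw [hg]
    change _ = (aeval x : Polynomial k →ₐ[k] LaurentSeries k) (C c)
    rw [aeval_C]
    exact (HahnSeries.ofPowerSeries_C c).symm
  | add p q hp hq =>
    obtain ⟨g1, h1⟩ := hp
    obtain ⟨g2, h2⟩ := hq
    exact ⟨g1 + g2, fun i => by rw [map_add, map_add, h1, h2]⟩
  | monomial n c h =>
    obtain ⟨g, hg⟩ := h
    refine ⟨g * J, fun i => ?_⟩
    have hX : ((aeval x : Polynomial k →ₐ[k] LaurentSeries k) :
        Polynomial k →+* LaurentSeries k) X = x := by
      change (aeval x : Polynomial k →ₐ[k] LaurentSeries k) X = x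
      exact aeval_X x
    rw [map_mul, hg, hJ, pow_succ, ← mul_assoc, map_mul _ (C c * X ^ n) X, hX]

/-- every polynomial expression in `Θ` with coefficients in `k[x]` is a common expansion -/
theorem exists_E_eq_eval (E : I → G →+* LaurentSeries k)
    (hconst : ∀ c : k, ∃ g : G, ∀ i, E i g = HahnSeries.C c)
    (J Θ : G) (x : LaurentSeries k) (hJ : ∀ i, E i J = x) (F : Polynomial (Polynomial k)) :
    ∃ g : G, ∀ i, E i g = (F.map ((aeval x : Polynomial k →ₐ[k] LaurentSeries k) :
        Polynomial k →+* LaurentSeries k)).eval (E i Θ) := by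
  induction F using Polynomial.induction_on with
  | C c =>
    obtain ⟨g, hg⟩ := exists_E_eq_aeval E hconst J x hJ c
    exact ⟨g, fun i => by rw [hg, Polynomial.map_C, eval_C]⟩
  | add p q hp hq =>
    obtain ⟨g1, h1⟩ := hp
    obtain ⟨g2, h2⟩ := hq
    exact ⟨g1 + g2, fun i => by rw [map_add, Polynomial.map_add, eval_add, h1, h2]⟩
  | monomial n c h =>
    obtain ⟨g, hg⟩ := h
    refine ⟨g * Θ, fun i => ?_⟩
    rw [map_mul, hg, pow_succ, ← mul_assoc, Polynomial.map_mul _ (p := C c * X ^ n), eval_mul,
      Polynomial.map_X, eval_X]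

end Laurent

/-- **S28-T4** (formal irreducibility).  -/
theorem formal_irreducible {k : Type} [Field k] (N : ℕ) [NeZero N]
    {I : Type} [Fintype I] [DecidableEq I] (i₀ : I)
    {G : Type} [CommRing G] (E : I → G →+* LaurentSeries k)
    (hconst : ∀ c : k, ∃ g : G, ∀ i, E i g = HahnSeries.C c)
    (J Θ : G) (x : LaurentSeries k) (hJ : ∀ i, E i J = x) (hx : x.order < 0)
    (hchar : ∀ g : G, ∃ P : Polynomial (Polynomial k),
      (∏ i, (X - C (E i g))) = P.map ((aeval x : Polynomial k →ₐ[k] LaurentSeries k) : Polynomial k →+* LaurentSeries k))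
    (hdist : ∀ i i', i ≠ i' → E i Θ ≠ E i' Θ)
    (U : ℕ → Gˣ) (c : I → ℕ) (hcN : ∀ i, c i ∣ N) (hc₀ : ∀ i, c i = N → i = i₀)
    (hord : ∀ d, d ∣ N → ∀ i,
      (E i (U d : G)).order = (((N / d) * (Nat.gcd d (c i)) ^ 2 : ℕ) : ℤ) - N)
    (P : Polynomial (Polynomial k))
    (hP : (∏ i, (X - C (E i Θ))) = P.map ((aeval x : Polynomial k →ₐ[k] LaurentSeries k) : Polynomial k →+* LaurentSeries k)) :
    Irreducible P := by
  classical
  have hφ := aeval_injective_of_order_neg x hx
  set φ : Polynomial k →+* LaurentSeries k :=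
    ((aeval x : Polynomial k →ₐ[k] LaurentSeries k) : Polynomial k →+* LaurentSeries k) with hφdef
  set r : I → LaurentSeries k := fun i => E i Θ with hr
  have hrinj : Function.Injective r := by
    intro i i' h
    by_contra hne
    exact hdist i i' hne h
  have hPmon : P.Monic := by
    apply Polynomial.monic_of_injective hφ
    rw [← hP]
    exact Polynomial.monic_prod_of_monic _ _ (fun i _ => Polynomial.monic_X_sub_C _)
  have hdeg : P.natDegree = Fintype.card I := by
    rw [← Polynomial.natDegree_map_eq_of_injective hφ, ← hP,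
      Polynomial.natDegree_finsetProd_X_sub_C_eq_card, Finset.card_univ]
  rw [hPmon.irreducible_iff_natDegree]
  refine ⟨?_, ?_⟩
  · intro h1
    rw [h1, natDegree_one] at hdeg
    exact (Fintype.card_pos_iff.mpr ⟨i₀⟩).ne hdeg
  · intro f g hf hg hfg
    by_contra hcon
    obtain ⟨hfd, hgd⟩ := not_or.mp hcon
    obtain ⟨a, ha⟩ := exists_E_eq_eval E hconst J Θ x hJ f
    obtain ⟨b, hb⟩ := exists_E_eq_eval E hconst J Θ x hJ g
    -- the roots
    have hfLmon : (f.map φ).Monic := hf.map φ
    have hgLmon : (g.map φ).Monic := hg.map φ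
    have hprod : f.map φ * g.map φ = ∏ a ∈ Finset.univ.image r, (X - C a) := by
      rw [← Polynomial.map_mul, hfg, ← hP, Finset.prod_image (fun i _ j _ h => hrinj h)]
    have hroots : (f.map φ).roots + (g.map φ).roots = (Finset.univ.image r).val := by
      rw [← Polynomial.roots_mul (hfLmon.mul hgLmon).ne_zero, hprod,
        Polynomial.roots_prod_X_sub_C]
    have hnodup : ((f.map φ).roots + (g.map φ).roots).Nodup := by
      rw [hroots]
      exact (Finset.univ.image r).nodup
    have hdisj := (Multiset.nodup_add.mp hnodup).2.2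
    have hcard : Multiset.card (f.map φ).roots + Multiset.card (g.map φ).roots
        = f.natDegree + g.natDegree := by
      rw [← Multiset.card_add, hroots, ← hf.natDegree_mul hg, hfg, hdeg, ← Finset.card_def,
        Finset.card_image_of_injective _ hrinj, Finset.card_univ]
    have hcf : Multiset.card (f.map φ).roots ≤ f.natDegree := by
      have := Polynomial.card_roots' (f.map φ)
      rwa [hf.natDegree_map] at this
    have hcg : Multiset.card (g.map φ).roots ≤ g.natDegree := by
      have := Polynomial.card_roots' (g.map φ)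
      rwa [hg.natDegree_map] at this
    have hmemf : ∀ i, E i a = 0 ↔ r i ∈ (f.map φ).roots := by
      intro i
      rw [Polynomial.mem_roots hfLmon.ne_zero, Polynomial.IsRoot, ha i]
    have hmemg : ∀ i, E i b = 0 ↔ r i ∈ (g.map φ).roots := by
      intro i
      rw [Polynomial.mem_roots hgLmon.ne_zero, Polynomial.IsRoot, hb i]
    have hall : ∀ i, r i ∈ (f.map φ).roots + (g.map φ).roots := by
      intro i
      rw [hroots, Finset.mem_val]
      exact Finset.mem_image_of_mem r (Finset.mem_univ i)
    have hexcl : ∀ i, (E i a = 0 ∧ E i b ≠ 0) ∨ (E i a ≠ 0 ∧ E i b = 0) := by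
      intro i
      rcases Multiset.mem_add.mp (hall i) with h | h
      · left
        refine ⟨(hmemf i).mpr h, fun h' => ?_⟩
        exact Multiset.disjoint_left.mp hdisj h ((hmemg i).mp h')
      · right
        refine ⟨fun h' => ?_, (hmemg i).mpr h⟩
        exact Multiset.disjoint_left.mp hdisj ((hmemf i).mp h') h
    -- the two orbits
    have hO₁ : ∃ i, E i a = 0 := by
      have h1 : 0 < Multiset.card (f.map φ).roots := by omega
      obtain ⟨y, hy⟩ := Multiset.card_pos_iff_exists_mem.mp h1
      have h2 : y ∈ (Finset.univ.image r).val := by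
        rw [← hroots]
        exact Multiset.mem_add.mpr (Or.inl hy)
      obtain ⟨i, _, rfl⟩ := Finset.mem_image.mp (Finset.mem_val.mp h2)
      exact ⟨i, (hmemf i).mpr hy⟩
    have hO₂ : ∃ i, E i b = 0 := by
      have h1 : 0 < Multiset.card (g.map φ).roots := by omega
      obtain ⟨y, hy⟩ := Multiset.card_pos_iff_exists_mem.mp h1
      have h2 : y ∈ (Finset.univ.image r).val := by
        rw [← hroots]
        exact Multiset.mem_add.mpr (Or.inr hy)
      obtain ⟨i, _, rfl⟩ := Finset.mem_image.mp (Finset.mem_val.mp h2)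
      exact ⟨i, (hmemg i).mpr hy⟩
    -- general step
    have key : ∀ (a b : G), (∀ i, (E i a = 0 ∧ E i b ≠ 0) ∨ (E i a ≠ 0 ∧ E i b = 0)) →
        (∃ i, E i a = 0) → E i₀ a = 0 := by
      intro a b hab hne
      set O : Finset I := Finset.univ.filter (fun i => E i a = 0) with hOdef
      have hOmem : ∀ i, i ∈ O ↔ E i a = 0 := by
        intro i
        rw [hOdef, Finset.mem_filter]
        exact ⟨fun h => h.2, fun h => ⟨Finset.mem_univ i, h⟩⟩
      have hab' : ∀ i, (i ∈ O ∧ E i a = 0 ∧ E i b ≠ 0) ∨ (i ∉ O ∧ E i a ≠ 0 ∧ E i b = 0) := by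
        intro i
        rcases hab i with ⟨h1, h2⟩ | ⟨h1, h2⟩
        · exact Or.inl ⟨(hOmem i).mpr h1, h1, h2⟩
        · exact Or.inr ⟨fun h => h1 ((hOmem i).mp h), h1, h2⟩
      have hOne : O.Nonempty := by
        obtain ⟨i, hi⟩ := hne
        exact ⟨i, (hOmem i).mpr hi⟩
      have hsum : ∀ d, d ∣ N →
          ∑ i ∈ O, ((((N / d) * (Nat.gcd d (c i)) ^ 2 : ℕ) : ℤ) - N) = 0 := by
        intro d hd
        rw [← sum_order_unit_eq_zero E x hx hchar a b O hab' (U d)]
        exact Finset.sum_congr rfl (fun i _ => (hord d hd i).symm)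
      obtain ⟨i, hiO, hci⟩ := comb_orbit N (Nat.pos_of_ne_zero (NeZero.ne N)) O hOne c hcN hsum
      rw [← hc₀ i hci]
      exact (hOmem i).mp hiO
    have h1 := key a b hexcl hO₁
    have h2 := key b a (fun i => (hexcl i).symm.imp And.symm And.symm) hO₂
    rcases hexcl i₀ with ⟨_, h⟩ | ⟨h, _⟩
    · exact h h2
    · exact h h1

end Fermat.Agent.S28.helper93
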