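import Mathlib
import Fermat.Prelude.Def_ModularCurve_IgusaScheme
import Fermat.Prelude.Def_ModularCurve_X0ModL
import Fermat.Agent.S28.helper81_Laurent
import Fermat.Agent.S28.helper81_InfMid
import Fermat.Agent.S28.helper81_ATStatement
import Fermat.Agent.S28.helper93_Formal

/-!
# S28 (helper81): reduction of the conjugate data and irreducibility of the modular equation

From the data `D : ConjData N` of the analytic theorem, a subring `S ⊆ ℂ` containing `ζ_N`, `1/N`
and a surjective ring homomorphism `ρ : S → k` onto a field in which `N ≠ 0`, we construct the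
reduced conjugate data over `k` and apply the formal irreducibility theorem (T4, helper93):
the reduction of the characteristic polynomial of `Θ = j(Nτ)` is irreducible in `k[X][T]`.
-/

set_option autoImplicit false

open Polynomial ModularCurve

noncomputable section

namespace Fermat.Agent.S28.helper81

section General

/-- compatibility of `aeval` with change of coefficients -/
theorem coeffMap_comp_aeval {R R' : Type*} [CommRing R] [CommRing R'] (f : R →+* R')
    (x : LaurentSeries R) :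
    (coeffMap f).comp
        ((aeval x : Polynomial R →ₐ[R] LaurentSeries R) : Polynomial R →+* LaurentSeries R) =
      ((aeval (coeffMap f x) : Polynomial R' →ₐ[R'] LaurentSeries R') :
        Polynomial R' →+* LaurentSeries R').comp (Polynomial.mapRingHom f) := by
  apply Polynomial.ringHom_ext
  · intro a
    simp only [RingHom.comp_apply, RingHom.coe_coe, aeval_C, coe_mapRingHom, Polynomial.map_C,
      algebraMap_eq_C, coeffMap_C']
  · simp only [RingHom.comp_apply, RingHom.coe_coe, aeval_X, coe_mapRingHom, map_X]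

theorem coeff_single_mul_ofPowerSeries {R : Type*} [CommRing R] (n : ℤ) (c : R)
    (p : PowerSeries R) (k : ℕ) :
    (HahnSeries.single n c * HahnSeries.ofPowerSeries ℤ R p).coeff (n + k) =
      c * PowerSeries.coeff k p := by
  have h := HahnSeries.coeff_single_mul_add (r := c)
    (x := HahnSeries.ofPowerSeries ℤ R p) (a := (k : ℤ)) (b := n)
  rw [add_comm] at h
  rw [h, HahnSeries.ofPowerSeries_apply_coeff]

theorem coeff_single_mul_ofPowerSeries_self {R : Type*} [CommRing R] (n : ℤ) (c : R)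
    (p : PowerSeries R) :
    (HahnSeries.single n c * HahnSeries.ofPowerSeries ℤ R p).coeff n =
      c * PowerSeries.constantCoeff p := by
  have := coeff_single_mul_ofPowerSeries n c p 0
  simpa using this

theorem coeff_single_mul_ofPowerSeries_of_lt {R : Type*} [CommRing R] (n : ℤ) (c : R)
    (p : PowerSeries R) {m : ℤ} (hm : m < n) :
    (HahnSeries.single n c * HahnSeries.ofPowerSeries ℤ R p).coeff m = 0 := by
  have h := HahnSeries.coeff_single_mul_add (r := c)
    (x := HahnSeries.ofPowerSeries ℤ R p) (a := m - n) (b := n)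
  rw [sub_add_cancel] at h
  rw [h, ofPowerSeries_coeff_of_neg _ (by omega), mul_zero]

/-- reduction is injective on `N`-th roots of unity if `N` is invertible in the residue field -/
theorem pow_eq_of_map_pow_eq {S : Type*} [CommRing S] [IsDomain S] {k : Type*} [Field k]
    (ρ : S →+* k) (N : ℕ) (hN : (N : k) ≠ 0) (ζ : S) (hζ : ζ ^ N = 1) (m m' : ℕ)
    (h : ρ (ζ ^ m) = ρ (ζ ^ m')) : ζ ^ m = ζ ^ m' := by
  wlog hle : m ≤ m' generalizing m m'
  · exact (this m' m h.symm (le_of_not_ge hle)).symm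
  obtain ⟨d, rfl⟩ := Nat.exists_eq_add_of_le hle
  have hN0 : N ≠ 0 := by
    rintro rfl
    simp at hN
  have hunit : IsUnit (ρ (ζ ^ m)) := by
    have hζu : IsUnit ζ := IsUnit.of_pow_eq_one hζ hN0
    exact (hζu.pow m).map ρ
  have h1 : ρ (ζ ^ d) = 1 := by
    rw [_root_.pow_add, map_mul] at h
    have := hunit.mul_left_cancel (a := ρ (ζ ^ m)) (b := 1) (c := ρ (ζ ^ d)) (by rw [mul_one, ← h])
    exact this.symm
  have h2 : (ζ ^ d) ^ N = 1 := by rw [← pow_mul, mul_comm, pow_mul, hζ, one_pow]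
  have h3 : (∑ i ∈ Finset.range N, (ζ ^ d) ^ i) * (ζ ^ d - 1) = 0 := by
    rw [geom_sum_mul, h2, sub_self]
  rcases mul_eq_zero.mp h3 with h4 | h4
  · exfalso
    have := congrArg ρ h4
    rw [map_sum, map_zero] at this
    simp only [map_pow, h1, one_pow, Finset.sum_const, Finset.card_range, nsmul_eq_mul,
      mul_one] at this
    exact hN this
  · rw [_root_.pow_add, sub_eq_zero.mp h4, mul_one]

/-- the coefficient of the inverse at the opposite of the order -/
theorem coeff_inv_of_eq_single_mul {k : Type*} [Field k] (y : LaurentSeries k) (n : ℤ) (ε : k)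
    (hε : ε ≠ 0) (p : PowerSeries k) (hp : PowerSeries.constantCoeff p = 1)
    (hy : y = HahnSeries.single n ε * HahnSeries.ofPowerSeries ℤ k p) :
    y⁻¹.coeff (-n) = ε⁻¹ := by
  have hcoef : y.coeff n = ε := by
    rw [hy, coeff_single_mul_ofPowerSeries_self, hp, mul_one]
  have hlow : ∀ m < n, y.coeff m = 0 := fun m hm => by
    rw [hy]; exact coeff_single_mul_ofPowerSeries_of_lt n ε p hm
  have hord : y.order = n := order_eq_of_coeff y n (by rw [hcoef]; exact hε) hlow
  have hy0 : y ≠ 0 := by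
    intro h
    rw [h] at hcoef
    exact hε hcoef.symm
  have hinv0 : y⁻¹ ≠ 0 := inv_ne_zero hy0
  have h1 : y * y⁻¹ = 1 := mul_inv_cancel₀ hy0
  have hord' : y⁻¹.order = -n := by
    have := HahnSeries.order_mul hy0 hinv0
    rw [h1, HahnSeries.order_one, hord] at this
    omega
  have hlc := HahnSeries.leadingCoeff_mul y y⁻¹
  rw [h1, HahnSeries.leadingCoeff_one, HahnSeries.leadingCoeff_eq, HahnSeries.leadingCoeff_eq,
    hord, hord', hcoef] at hlc
  exact eq_inv_of_mul_eq_one_right hlc.symm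

/-- lifting a polynomial in two variables with coefficients in a subring -/
theorem exists_lift_poly₂ {A : Type*} [CommRing A] (S : Subring A)
    (P : Polynomial (Polynomial A)) (h : ∀ k l, (P.coeff k).coeff l ∈ S) :
    ∃ Q : Polynomial (Polynomial S), Q.map (Polynomial.mapRingHom S.subtype) = P := by
  have h1 : P ∈ Polynomial.lifts (Polynomial.mapRingHom S.subtype) := by
    rw [Polynomial.lifts_iff_coeff_lifts]
    intro k
    have h2 : P.coeff k ∈ Polynomial.lifts S.subtype := by
      rw [Polynomial.lifts_iff_coeff_lifts]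
      intro l
      exact ⟨⟨_, h k l⟩, rfl⟩
    obtain ⟨q, hq⟩ := h2
    exact ⟨q, hq⟩
  exact h1

theorem zetaC_pow (N : ℕ) [NeZero N] : zetaC N ^ N = 1 := by
  have hN : (N : ℂ) ≠ 0 := by exact_mod_cast NeZero.ne N
  rw [zetaC, ← Complex.exp_nat_mul]
  rw [show (N : ℂ) * (2 * Real.pi * Complex.I / N) = 2 * Real.pi * Complex.I by field_simp]
  exact Complex.exp_two_pi_mul_I

/-- series over `ℂ` with coefficients in the subring `S` -/
def seriesIn (S : Subring ℂ) : Subring (LaurentSeries ℂ) := (coeffMap S.subtype).range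

theorem mem_seriesIn_iff (S : Subring ℂ) (x : LaurentSeries ℂ) :
    x ∈ seriesIn S ↔ ∀ n, x.coeff n ∈ S := by
  rw [seriesIn, mem_range_coeffMap_iff]
  constructor
  · intro h n
    obtain ⟨y, hy⟩ := h n
    rw [← hy]
    exact y.2
  · intro h n
    exact ⟨⟨_, h n⟩, rfl⟩

theorem coeffMap_subtype_injective (S : Subring ℂ) :
    Function.Injective (coeffMap S.subtype) :=
  coeffMap_injective' _ Subtype.val_injective

/-- transfer of a characteristic polynomial identity from `ℂ` to `S` and to the residue field -/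
theorem charpoly_transfer {I : Type} [Fintype I] (S : Subring ℂ) {k : Type} [Field k]
    (ρ : S →+* k) (N : ℕ) [NeZero N] (e : I → LaurentSeries S)
    (Q : Polynomial (Polynomial S))
    (h : (∏ i, (X - C (coeffMap S.subtype (e i)))) =
      (Q.map (Polynomial.mapRingHom S.subtype)).map
        ((aeval (xC N) : Polynomial ℂ →ₐ[ℂ] LaurentSeries ℂ) :
          Polynomial ℂ →+* LaurentSeries ℂ)) :
    (∏ i, (X - C (e i))) = Q.map ((aeval (qExpand S N (jqModC S)) :
        Polynomial S →ₐ[S] LaurentSeries S) : Polynomial S →+* LaurentSeries S) ∧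
    (∏ i, (X - C (coeffMap ρ (e i)))) =
      (Q.map (Polynomial.mapRingHom ρ)).map
        ((aeval (qExpand k N (jqModC k)) : Polynomial k →ₐ[k] LaurentSeries k) :
          Polynomial k →+* LaurentSeries k) := by
  have hxS : coeffMap S.subtype (qExpand S N (jqModC S)) = xC N := by
    rw [coeffMap_qExpand, coeffMap_jqModC]; rfl
  have hxk : coeffMap ρ (qExpand S N (jqModC S)) = qExpand k N (jqModC k) := by
    rw [coeffMap_qExpand, coeffMap_jqModC]
  have step1 : (∏ i, (X - C (e i))) = Q.map ((aeval (qExpand S N (jqModC S)) :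
        Polynomial S →ₐ[S] LaurentSeries S) : Polynomial S →+* LaurentSeries S) := by
    apply Polynomial.map_injective (coeffMap S.subtype) (coeffMap_subtype_injective S)
    rw [Polynomial.map_prod, Polynomial.map_map, coeffMap_comp_aeval, hxS, ← Polynomial.map_map]
    rw [← h]
    apply Finset.prod_congr rfl
    intro i _
    rw [Polynomial.map_sub, Polynomial.map_X, Polynomial.map_C]
  refine ⟨step1, ?_⟩
  have := congrArg (Polynomial.map (coeffMap ρ)) step1
  rw [Polynomial.map_prod, Polynomial.map_map, coeffMap_comp_aeval, hxk,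
    ← Polynomial.map_map] at this
  rw [← this]
  apply Finset.prod_congr rfl
  intro i _
  rw [Polynomial.map_sub, Polynomial.map_X, Polynomial.map_C]

end General

section Main

variable {N : ℕ} [NeZero N] (D : ConjData N) (S : Subring ℂ)

/-- the subring of elements all of whose conjugate expansions have coefficients in `S` -/
def ConjData.GS : Subring D.G where
  carrier := {g | ∀ i, D.E i g ∈ seriesIn S}
  mul_mem' ha hb i := by rw [map_mul]; exact mul_mem (ha i) (hb i)
  one_mem' i := by rw [map_one]; exact one_mem _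
  add_mem' ha hb i := by rw [map_add]; exact add_mem (ha i) (hb i)
  zero_mem' i := by rw [map_zero]; exact zero_mem _
  neg_mem' ha i := by rw [map_neg]; exact neg_mem (ha i)

theorem ConjData.mem_GS_iff (g : D.G) : g ∈ D.GS S ↔ ∀ i n, (D.E i g).coeff n ∈ S := by
  constructor
  · intro h i n
    exact (mem_seriesIn_iff S _).mp (h i) n
  · intro h i
    exact (mem_seriesIn_iff S _).mpr (h i)

theorem ConjData.exists_ES : ∃ ES : D.I → D.GS S →+* LaurentSeries S,
    ∀ i (g : D.GS S), coeffMap S.subtype (ES i g) = D.E i g := by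
  have : ∀ i, ∃ φ : D.GS S →+* LaurentSeries S,
      ∀ g : D.GS S, coeffMap S.subtype (φ g) = D.E i g := by
    intro i
    exact exists_lift_ringHom (coeffMap S.subtype) (coeffMap_subtype_injective S)
      (((D.E i : D.G →+* LaurentSeries ℂ)).comp (D.GS S).subtype) (fun g => g.2 i)
  choose ES hES using this
  exact ⟨ES, hES⟩

/-- **Reduction + T4.**  The reduction of the characteristic polynomial of `Θ = j(Nτ)` modulo
any prime of `S` not dividing `N` is irreducible. -/
theorem ConjData.irreducible_reduction (hζ : zetaC N ∈ S) (hN : (N : ℂ)⁻¹ ∈ S)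
    {k : Type} [Field k] (ρ : S →+* k) (hρ : Function.Surjective ρ) (hNk : (N : k) ≠ 0)
    (P : Polynomial (Polynomial S))
    (hP : (∏ i, (X - C (D.E i (D.Jd N)))) =
      (P.map (Polynomial.mapRingHom S.subtype)).map
        ((aeval (xC N) : Polynomial ℂ →ₐ[ℂ] LaurentSeries ℂ) :
          Polynomial ℂ →+* LaurentSeries ℂ)) :
    Irreducible (P.map (Polynomial.mapRingHom ρ)) := by
  classical
  obtain ⟨ES, hES⟩ := D.exists_ES S
  have hinj := coeffMap_subtype_injective S
  -- membership facts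
  have hmemJ : D.J ∈ D.GS S :=
    (D.mem_GS_iff S _).mpr fun i n => (D.hS S hζ hN i n).1
  have hmemJd : ∀ d, d ∣ N → D.Jd d ∈ D.GS S := fun d hd =>
    (D.mem_GS_iff S _).mpr fun i n => ((D.hS S hζ hN i n).2 d hd).1
  have hmemU : ∀ d, d ∣ N → (D.U d : D.G) ∈ D.GS S := fun d hd =>
    (D.mem_GS_iff S _).mpr fun i n => ((D.hS S hζ hN i n).2 d hd).2.1
  have hmemUinv : ∀ d, d ∣ N → (((D.U d)⁻¹ : D.Gˣ) : D.G) ∈ D.GS S := fun d hd =>
    (D.mem_GS_iff S _).mpr fun i n => ((D.hS S hζ hN i n).2 d hd).2.2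
  -- the units
  let U' : ℕ → (D.GS S)ˣ := fun d =>
    if hd : d ∣ N then
      ⟨⟨D.U d, hmemU d hd⟩, ⟨((D.U d)⁻¹ : D.Gˣ), hmemUinv d hd⟩,
        Subtype.ext (by simp), Subtype.ext (by simp)⟩
    else 1
  have hU' : ∀ d, d ∣ N → ((U' d : D.GS S) : D.G) = D.U d := by
    intro d hd
    simp only [U', dif_pos hd]
  -- the reduced expansions
  let Ebar : D.I → D.GS S →+* LaurentSeries k := fun i => (coeffMap ρ).comp (ES i)
  have hEbar : ∀ i g, Ebar i g = coeffMap ρ (ES i g) := fun i g => rfl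
  -- coefficients of the reduced expansions
  have hcoeff : ∀ i (g : D.GS S) (n : ℤ) (hs : (D.E i g).coeff n ∈ S),
      (Ebar i g).coeff n = ρ ⟨_, hs⟩ := by
    intro i g n hs
    rw [hEbar, coeffMap_coeff]
    congr 1
    apply Subtype.ext
    have := congrArg (fun z => z.coeff n) (hES i g)
    simpa using this
  have hcoeff0 : ∀ i (g : D.GS S) (n : ℤ), (D.E i g).coeff n = 0 → (Ebar i g).coeff n = 0 := by
    intro i g n h0
    have hs : (D.E i g).coeff n ∈ S := by rw [h0]; exact zero_mem S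
    rw [hcoeff i g n hs]
    have : (⟨_, hs⟩ : S) = 0 := Subtype.ext h0
    rw [this, map_zero]
  have hζN : (⟨zetaC N, hζ⟩ : S) ^ N = 1 := Subtype.ext (by simpa using zetaC_pow N)
  have hN0 : N ≠ 0 := NeZero.ne N
  refine helper93.formal_irreducible (k := k) N D.i₀ Ebar ?_ ⟨D.J, hmemJ⟩
    ⟨D.Jd N, hmemJd N dvd_rfl⟩ (qExpand k N (jqModC k)) ?_ ?_ ?_ ?_ U' D.a D.ha D.ha₀ ?_
    (P.map (Polynomial.mapRingHom ρ)) ?_
  · -- hconst
    intro c
    obtain ⟨s, rfl⟩ := hρ c
    have hmem : algebraMap ℂ D.G (s : ℂ) ∈ D.GS S := by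
      intro i
      rw [AlgHom.commutes, algebraMap_eq_C]
      exact ⟨HahnSeries.C s, coeffMap_C' _ _⟩
    refine ⟨⟨_, hmem⟩, fun i => ?_⟩
    have h1 : ES i ⟨_, hmem⟩ = HahnSeries.C s := by
      apply hinj
      rw [hES, coeffMap_C']
      show D.E i (algebraMap ℂ D.G (s : ℂ)) = _
      rw [AlgHom.commutes, algebraMap_eq_C]
      rfl
    rw [hEbar, h1, coeffMap_C']
  · -- hJ
    intro i
    have h1 : ES i ⟨D.J, hmemJ⟩ = qExpand S N (jqModC S) := by
      apply hinj
      rw [hES, coeffMap_qExpand, coeffMap_jqModC]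
      exact D.hJ i
    rw [hEbar, h1, coeffMap_qExpand, coeffMap_jqModC]
  · -- hx
    rw [order_qExpand_jqModC]
    have : (0 : ℤ) < N := by exact_mod_cast Nat.pos_of_ne_zero hN0
    omega
  · -- hchar
    intro g
    obtain ⟨Pg, hPg1, hPg2⟩ := D.hchar S g.1 ((D.mem_GS_iff S _).mp g.2)
    obtain ⟨Q, hQ⟩ := exists_lift_poly₂ S Pg hPg1
    refine ⟨Q.map (Polynomial.mapRingHom ρ), ?_⟩
    refine (charpoly_transfer S ρ N (fun i => ES i g) Q ?_).2
    rw [hQ, ← hPg2]
    apply Finset.prod_congr rfl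
    intro i _
    rw [hES]
  · -- hdist
    intro i i' hne heq
    apply hne
    obtain ⟨p, hp, hpE⟩ := D.hΘ i
    obtain ⟨p', hp', hpE'⟩ := D.hΘ i'
    have hc : ∀ j (q : PowerSeries ℂ), PowerSeries.constantCoeff q = 1 →
        D.E j (D.Jd N) = HahnSeries.single (-((D.a j : ℤ) ^ 2)) (zetaC N ^ D.m j) *
            HahnSeries.ofPowerSeries ℤ ℂ q →
        (Ebar j ⟨D.Jd N, hmemJd N dvd_rfl⟩).coeff (-((D.a j : ℤ) ^ 2)) =
            ρ (⟨zetaC N, hζ⟩ ^ D.m j) ∧
          ∀ n < -((D.a j : ℤ) ^ 2), (Ebar j ⟨D.Jd N, hmemJd N dvd_rfl⟩).coeff n = 0 := by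
      intro j q hq hqE
      constructor
      · have h1 : (D.E j (D.Jd N)).coeff (-((D.a j : ℤ) ^ 2)) = zetaC N ^ D.m j := by
          rw [hqE, coeff_single_mul_ofPowerSeries_self, hq, mul_one]
        have hs : (D.E j (D.Jd N)).coeff (-((D.a j : ℤ) ^ 2)) ∈ S := by
          rw [h1]; exact pow_mem hζ _
        rw [hcoeff j ⟨D.Jd N, hmemJd N dvd_rfl⟩ _ hs]
        congr 1
        exact Subtype.ext h1
      · intro n hn
        apply hcoeff0
        show (D.E j (D.Jd N)).coeff n = 0
        rw [hqE]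
        exact coeff_single_mul_ofPowerSeries_of_lt _ _ _ hn
    obtain ⟨h1, h2⟩ := hc i p hp hpE
    obtain ⟨h1', h2'⟩ := hc i' p' hp' hpE'
    have hunit : ∀ j, ρ (⟨zetaC N, hζ⟩ ^ D.m j) ≠ 0 := by
      intro j
      have : IsUnit (⟨zetaC N, hζ⟩ : S) := IsUnit.of_pow_eq_one hζN hN0
      exact ((this.pow _).map ρ).ne_zero
    have ho : (Ebar i ⟨D.Jd N, hmemJd N dvd_rfl⟩).order = -((D.a i : ℤ) ^ 2) :=
      order_eq_of_coeff _ _ (by rw [h1]; exact hunit i) h2
    have ho' : (Ebar i' ⟨D.Jd N, hmemJd N dvd_rfl⟩).order = -((D.a i' : ℤ) ^ 2) :=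
      order_eq_of_coeff _ _ (by rw [h1']; exact hunit i') h2'
    rw [heq, ho'] at ho
    have ha : D.a i = D.a i' := by
      have h3 : ((D.a i' : ℤ)) ^ 2 = (D.a i : ℤ) ^ 2 := by omega
      have h4 : (D.a i') ^ 2 = (D.a i) ^ 2 := by exact_mod_cast h3
      exact (Nat.pow_left_injective (by norm_num : (2 : ℕ) ≠ 0) h4).symm
    have hz : ρ (⟨zetaC N, hζ⟩ ^ D.m i) = ρ (⟨zetaC N, hζ⟩ ^ D.m i') := by
      rw [← h1, ← h1', heq, ha]
    have := pow_eq_of_map_pow_eq ρ N hNk ⟨zetaC N, hζ⟩ hζN _ _ hz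
    have hz' : zetaC N ^ D.m i = zetaC N ^ D.m i' := by
      have := congrArg Subtype.val this
      simpa using this
    exact D.hm i i' ha hz'
  · -- hord
    intro d hd i
    obtain ⟨ε, p, hε, hp, hE⟩ := D.hU d hd i
    set n : ℤ := (((N / d) * (Nat.gcd d (D.a i)) ^ 2 : ℕ) : ℤ) - N with hn
    have hUd : ((U' d : D.GS S) : D.G) = D.U d := hU' d hd
    have hE' : D.E i ((U' d : D.GS S) : D.G) =
        HahnSeries.single n ε * HahnSeries.ofPowerSeries ℤ ℂ p := by
      rw [hUd]; exact hE
    have h1 : (D.E i ((U' d : D.GS S) : D.G)).coeff n = ε := by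
      rw [hE', coeff_single_mul_ofPowerSeries_self, hp, mul_one]
    have h2 : ∀ m < n, (D.E i ((U' d : D.GS S) : D.G)).coeff m = 0 := by
      intro m hm
      rw [hE']
      exact coeff_single_mul_ofPowerSeries_of_lt _ _ _ hm
    have hεS : ε ∈ S := by
      rw [← h1, hUd]
      exact ((D.hS S hζ hN i n).2 d hd).2.1
    have hεinvS : ε⁻¹ ∈ S := by
      have h3 : (D.E i (((D.U d)⁻¹ : D.Gˣ) : D.G)).coeff (-n) = ε⁻¹ := by
        have h4 : D.E i (((D.U d)⁻¹ : D.Gˣ) : D.G) = (D.E i (D.U d : D.G))⁻¹ := by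
          apply eq_inv_of_mul_eq_one_left
          rw [← map_mul, Units.inv_mul, map_one]
        rw [h4]
        exact coeff_inv_of_eq_single_mul _ n ε hε p hp hE
      rw [← h3]
      exact ((D.hS S hζ hN i (-n)).2 d hd).2.2
    have hρε : ρ ⟨ε, hεS⟩ ≠ 0 := by
      intro h0
      have h5 : (⟨ε, hεS⟩ : S) * ⟨ε⁻¹, hεinvS⟩ = 1 := Subtype.ext (mul_inv_cancel₀ hε)
      have := congrArg ρ h5
      rw [map_mul, h0, zero_mul, map_one] at this
      exact zero_ne_one this
    apply order_eq_of_coeff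
    · have hs : (D.E i ((U' d : D.GS S) : D.G)).coeff n ∈ S := by rw [h1]; exact hεS
      rw [hcoeff i (U' d : D.GS S) n hs]
      have : (⟨_, hs⟩ : S) = ⟨ε, hεS⟩ := Subtype.ext h1
      rw [this]
      exact hρε
    · intro m hm
      exact hcoeff0 i _ m (h2 m hm)
  · -- hP
    refine (charpoly_transfer S ρ N (fun i => ES i ⟨D.Jd N, hmemJd N dvd_rfl⟩) P ?_).2
    rw [← hP]
    apply Finset.prod_congr rfl
    intro i _
    rw [hES]

end Main

end Fermat.Agent.S28.helper81
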