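import Mathlib
import Fermat.Prelude.Def_ModularCurve_LaurentCoeff
import Fermat.Prelude.Def_ModularCurve_JqCoeff
import Fermat.Agent.S28.helper93_Formal

/-!
# S28 assembly, step (a): reduction of the analytic data modulo a prime (helper93)

Input: the data `(I, i₀, G, E, J, Θ = Jd N, U, a)` produced by `analytic_conj`
(`helper28_Plan.lean`), a subring `S ⊆ ℂ` containing `ζ_N` and `1/N`, and a surjective ring
homomorphism `r : S →+* k` onto a field.  Output: the characteristic polynomial of `Θ`, which has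
coefficients in `S[x]`, reduces to an *irreducible* polynomial in `k[X][T]`
(`reduce_irreducible`, `reduce_irreducible_of_AT`, `exists_charpoly_reduce_irreducible`).
The proof applies `formal_irreducible` (S28-T4) to the subring `GS ⊆ G` of functions with
`S`-integral expansions and the reduced expansions `Ebar i : GS →+* k((t))`.
-/

set_option autoImplicit false
open Polynomial ModularCurve

namespace Fermat.Agent.S28.helper93

section CoeffTools

variable {R S : Type*} [CommRing R] [CommRing S]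

theorem coeffMap_injective' (f : R →+* S) (hf : Function.Injective f) :
    Function.Injective (coeffMap f) := by
  intro x y h
  ext n
  have h2 := congrArg (fun z : LaurentSeries S => z.coeff n) h
  simp only [coeffMap_coeff] at h2
  exact hf h2

theorem algebraMap_laurent_eq_C (c : R) :
    algebraMap R (LaurentSeries R) c = HahnSeries.C c := by
  have h1 : algebraMap R (PowerSeries R) c = PowerSeries.C c := by simp
  rw [HahnSeries.algebraMap_apply', h1, HahnSeries.ofPowerSeries_C]

theorem coeffMap_C' (f : R →+* S) (c : R) :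
    coeffMap f (HahnSeries.C c) = HahnSeries.C (f c) := by
  rw [HahnSeries.C_apply, HahnSeries.C_apply]
  exact coeffMap_single f 0 c

/-- compatibility of `coeffMap` with `aeval`, as an identity of ring homomorphisms -/
theorem coeffMap_comp_aeval (f : R →+* S) (x₀ : LaurentSeries R) :
    (coeffMap f).comp ((aeval x₀ : R[X] →ₐ[R] LaurentSeries R) : R[X] →+* LaurentSeries R) =
      (((aeval (coeffMap f x₀) : S[X] →ₐ[S] LaurentSeries S) :
        S[X] →+* LaurentSeries S)).comp (mapRingHom f) := by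
  apply Polynomial.ringHom_ext
  · intro a
    simp [algebraMap_laurent_eq_C]
  · simp

/-- a Laurent series all of whose coefficients lie in the range of `f` lifts -/
theorem exists_coeffMap_eq (f : R →+* S) (y : LaurentSeries S)
    (hy : ∀ n, y.coeff n ∈ Set.range f) : ∃ x : LaurentSeries R, coeffMap f x = y := by
  classical
  choose c hc using hy
  let c' : ℤ → R := fun n => if y.coeff n = 0 then 0 else c n
  have hc' : ∀ n, f (c' n) = y.coeff n := by
    intro n
    by_cases h : y.coeff n = 0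
    · simp [c', h]
    · simp [c', h, hc n]
  have hsupp : Function.support c' ⊆ y.support := by
    intro n hn
    rw [Function.mem_support] at hn
    rw [HahnSeries.mem_support]
    intro h
    exact hn (by simp [c', h])
  refine ⟨⟨c', y.isPWO_support.mono hsupp⟩, ?_⟩
  ext n
  rw [coeffMap_coeff]
  exact hc' n

theorem mem_range_coeffMap_iff (f : R →+* S) (y : LaurentSeries S) :
    y ∈ (coeffMap f).range ↔ ∀ n, y.coeff n ∈ Set.range f := by
  constructor
  · rintro ⟨x, rfl⟩ n
    exact ⟨x.coeff n, (coeffMap_coeff f x n).symm⟩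
  · intro h
    obtain ⟨x, hx⟩ := exists_coeffMap_eq f y h
    exact ⟨x, hx⟩

end CoeffTools

section Order

variable {k : Type*} [Field k]

/-- order of a Laurent series from its lowest coefficient -/
theorem order_eq_of_coeff {f : LaurentSeries k} {e : ℤ} (he : f.coeff e ≠ 0)
    (hlt : ∀ n, n < e → f.coeff n = 0) : f.order = e := by
  have hf : f ≠ 0 := by
    rintro rfl
    simp at he
  apply le_antisymm
  · exact HahnSeries.order_le_of_coeff_ne_zero he
  · by_contra hcon
    push Not at hcon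
    exact (fun h => hf (HahnSeries.coeff_order_eq_zero.mp h)) (hlt _ hcon)

theorem coeff_eq_zero_of_lt_order' {f : LaurentSeries k} {n : ℤ} (h : n < f.order) :
    f.coeff n = 0 := HahnSeries.coeff_eq_zero_of_lt_order h

/-- coefficients of `single e ε * ofPowerSeries p` -/
theorem coeff_single_mul_ofPowerSeries (e : ℤ) (ε : k) (p : PowerSeries k) (n : ℤ) :
    (HahnSeries.single e ε * HahnSeries.ofPowerSeries ℤ k p).coeff n =
      if n < e then 0 else ε * PowerSeries.coeff (n - e).toNat p := by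
  rw [HahnSeries.coeff_single_mul]
  split_ifs with h
  · rw [ModularCurve.ofPowerSeries_coeff_of_neg p (by omega), mul_zero]
  · have h2 : n - e = ((n - e).toNat : ℤ) := by omega
    conv_lhs => rw [h2]
    rw [HahnSeries.ofPowerSeries_apply_coeff]

end Order


section Roots

/-- distinct `N`-th roots of unity stay distinct under a ring hom in which `N` stays nonzero -/
theorem map_ne_map_of_pow_eq_one {A B : Type*} [CommRing A] [IsDomain A] [CommRing B]
    (r : A →+* B) (N : ℕ) (hN : r (N : A) ≠ 0) {ω ω' : A} (hω : ω ^ N = 1) (hω' : ω' ^ N = 1)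
    (hne : ω ≠ ω') : r ω ≠ r ω' := by
  intro heq
  have hN0 : N ≠ 0 := by
    rintro rfl
    simp at hN
  obtain ⟨M, rfl⟩ : ∃ M, N = M + 1 := ⟨N - 1, by omega⟩
  set u : A := ω * ω' ^ M with hu
  have huN : u ^ (M + 1) = 1 := by
    rw [hu, mul_pow, hω, one_mul, ← pow_mul, mul_comm, pow_mul, hω', one_pow]
  have hu1 : u ≠ 1 := by
    intro h
    apply hne
    calc ω = ω * ω' ^ (M + 1) := by rw [hω', mul_one]
      _ = u * ω' := by rw [hu, pow_succ, mul_assoc]
      _ = ω' := by rw [h, one_mul]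
  have hru : r u = 1 := by
    rw [hu, map_mul, map_pow, heq, ← pow_succ', ← map_pow, hω', map_one]
  have hgeom : ∑ j ∈ Finset.range (M + 1), u ^ j = 0 := by
    have h := mul_geom_sum u (M + 1)
    rw [huN, sub_self] at h
    rcases mul_eq_zero.mp h with h1 | h1
    · exact absurd (sub_eq_zero.mp h1) hu1
    · exact h1
  have h := congrArg r hgeom
  rw [map_sum, map_zero] at h
  simp only [map_pow, hru, one_pow, Finset.sum_const, Finset.card_range, nsmul_eq_mul,
    mul_one] at h
  apply hN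
  rw [map_natCast]
  exact h

end Roots

section Reduce

variable {I : Type} {G : Type} [CommRing G] [Algebra ℂ G]
  (E : I → G →ₐ[ℂ] LaurentSeries ℂ)
  (S : Subring ℂ) {k : Type} [Field k] (r : S →+* k)

/-- the subring of `G` of elements all of whose expansions have coefficients in `S` -/
noncomputable def GS : Subring G :=
  ⨅ i, (coeffMap S.subtype).range.comap ((E i : G →ₐ[ℂ] LaurentSeries ℂ) : G →+* LaurentSeries ℂ)

theorem mem_GS_iff (g : G) : g ∈ GS E S ↔ ∀ i n, (E i g).coeff n ∈ S := by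
  unfold GS
  rw [Subring.mem_iInf]
  refine forall_congr' (fun i => ?_)
  rw [Subring.mem_comap, mem_range_coeffMap_iff]
  refine forall_congr' (fun n => ?_)
  constructor
  · rintro ⟨s, hs⟩
    have : (E i g).coeff n = (s : ℂ) := hs.symm
    rw [this]
    exact s.2
  · intro h
    exact ⟨⟨_, h⟩, rfl⟩

theorem exists_lift_GS (g : GS E S) (i : I) :
    ∃ f : LaurentSeries S, coeffMap S.subtype f = E i (g : G) := by
  have h := (mem_GS_iff E S (g : G)).mp g.2 i
  exact exists_coeffMap_eq S.subtype _ (fun n => ⟨⟨_, h n⟩, rfl⟩)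

/-- the `S`-integral expansion -/
noncomputable def ES (i : I) : GS E S →+* LaurentSeries S where
  toFun g := (exists_lift_GS E S g i).choose
  map_one' := by
    apply coeffMap_injective' S.subtype Subtype.val_injective
    rw [(exists_lift_GS E S 1 i).choose_spec]
    simp
  map_mul' x y := by
    apply coeffMap_injective' S.subtype Subtype.val_injective
    rw [(exists_lift_GS E S (x * y) i).choose_spec, map_mul,
      (exists_lift_GS E S x i).choose_spec, (exists_lift_GS E S y i).choose_spec]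
    simp
  map_zero' := by
    apply coeffMap_injective' S.subtype Subtype.val_injective
    rw [(exists_lift_GS E S 0 i).choose_spec]
    simp
  map_add' x y := by
    apply coeffMap_injective' S.subtype Subtype.val_injective
    rw [(exists_lift_GS E S (x + y) i).choose_spec, map_add,
      (exists_lift_GS E S x i).choose_spec, (exists_lift_GS E S y i).choose_spec]
    simp

theorem coeffMap_ES (i : I) (g : GS E S) : coeffMap S.subtype (ES E S i g) = E i (g : G) :=
  (exists_lift_GS E S g i).choose_spec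

theorem ES_coeff (i : I) (g : GS E S) (n : ℤ) :
    ((ES E S i g).coeff n : ℂ) = (E i (g : G)).coeff n := by
  rw [← coeffMap_ES E S i g, coeffMap_coeff]
  rfl

/-- the reduced expansion -/
noncomputable def Ebar (i : I) : GS E S →+* LaurentSeries k :=
  (coeffMap r).comp (ES E S i)

theorem Ebar_coeff (i : I) (g : GS E S) (n : ℤ) :
    (Ebar E S r i g).coeff n = r ((ES E S i g).coeff n) := rfl

theorem Ebar_coeff_eq_zero (i : I) (g : GS E S) (n : ℤ) (h : (E i (g : G)).coeff n = 0) :
    (Ebar E S r i g).coeff n = 0 := by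
  rw [Ebar_coeff]
  have : (ES E S i g).coeff n = 0 := by
    apply Subtype.ext
    rw [ES_coeff, h]
    rfl
  rw [this, map_zero]

end Reduce


section Main

/-- **S28 assembly (a): reduction.**  From the analytic data over `ℂ` with coefficients in a
subring `S ⊆ ℂ` and a surjection `r : S →+* k` onto a field in which `N` is invertible, the
characteristic polynomial of `Θ` reduces to an irreducible polynomial over `k[X]`. -/
theorem reduce_irreducible (N : ℕ) [NeZero N]
    {I : Type} [Fintype I] [DecidableEq I] (i₀ : I)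
    {G : Type} [CommRing G] [Algebra ℂ G]
    (E : I → G →ₐ[ℂ] LaurentSeries ℂ) (J Θ : G) (U : ℕ → Gˣ) (a : I → ℕ)
    (x : LaurentSeries ℂ) (hx1 : x.coeff (-(N : ℤ)) = 1)
    (ζ : ℂ) (hζ : ζ ^ N = 1)
    (h1 : ∀ i, E i J = x)
    (h3 : ∀ i, a i ∣ N) (h3' : ∀ i, a i = N → i = i₀)
    (h4 : ∃ m : I → ℕ, (∀ i i', a i = a i' → ζ ^ m i = ζ ^ m i' → i = i') ∧
        ∀ i, ∃ p : PowerSeries ℂ, PowerSeries.constantCoeff p = 1 ∧
          E i Θ = HahnSeries.single (-((a i : ℤ) ^ 2)) (ζ ^ m i) *
            HahnSeries.ofPowerSeries ℤ ℂ p)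
    (h5 : ∀ d, d ∣ N → ∀ i, ∃ (ε : ℂ) (p : PowerSeries ℂ), ε ≠ 0 ∧
          PowerSeries.constantCoeff p = 1 ∧
          E i (U d : G) = HahnSeries.single
              ((((N / d) * (Nat.gcd d (a i)) ^ 2 : ℕ) : ℤ) - N) ε *
            HahnSeries.ofPowerSeries ℤ ℂ p)
    (S : Subring ℂ) (hζS : ζ ∈ S) (hNS : (N : ℂ)⁻¹ ∈ S)
    (h6J : ∀ i n, (E i J).coeff n ∈ S)
    (h6Θ : ∀ i n, (E i Θ).coeff n ∈ S)
    (h6U : ∀ d, d ∣ N → ∀ i n,
      (E i (U d : G)).coeff n ∈ S ∧ (E i ((U d)⁻¹ : Gˣ)).coeff n ∈ S)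
    (h7 : ∀ (g : G), (∀ i n, (E i g).coeff n ∈ S) →
        ∃ P : Polynomial (Polynomial ℂ), (∀ k l, ((P.coeff k).coeff l) ∈ S) ∧
          (∏ i, (X - C (E i g))) =
            P.map ((aeval x : Polynomial ℂ →ₐ[ℂ] LaurentSeries ℂ) :
              Polynomial ℂ →+* LaurentSeries ℂ))
    {k : Type} [Field k] (r : S →+* k) (hr : Function.Surjective r)
    (PS : Polynomial (Polynomial S))
    (hP : (∏ i, (X - C (E i Θ))) =
        (PS.map (mapRingHom S.subtype)).map
          ((aeval x : Polynomial ℂ →ₐ[ℂ] LaurentSeries ℂ) :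
              Polynomial ℂ →+* LaurentSeries ℂ)) :
    Irreducible (PS.map (mapRingHom r)) := by
  classical
  have hιinj : Function.Injective (coeffMap S.subtype) :=
    coeffMap_injective' S.subtype Subtype.val_injective
  have hN0 : (N : ℂ) ≠ 0 := Nat.cast_ne_zero.mpr (NeZero.ne N)
  -- `N` is invertible in `S`, hence nonzero in `k`
  have hrN : r (N : S) ≠ 0 := by
    intro h
    have h2 : (N : S) * ⟨(N : ℂ)⁻¹, hNS⟩ = 1 := by
      apply Subtype.ext
      push_cast
      exact mul_inv_cancel₀ hN0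
    have h3 := congrArg r h2
    rw [map_mul, h, zero_mul, map_one] at h3
    exact zero_ne_one h3
  -- the lift of `x`
  obtain ⟨xS, hxS⟩ := exists_coeffMap_eq S.subtype x
    (fun n => ⟨⟨x.coeff n, by rw [← h1 i₀]; exact h6J i₀ n⟩, rfl⟩)
  have hxScoeff : ∀ n, ((xS.coeff n : S) : ℂ) = x.coeff n := by
    intro n
    rw [← hxS, coeffMap_coeff]
    rfl
  set xbar : LaurentSeries k := coeffMap r xS with hxbar
  -- elements of `GS`
  let J' : GS E S := ⟨J, (mem_GS_iff E S J).mpr h6J⟩
  let Θ' : GS E S := ⟨Θ, (mem_GS_iff E S Θ).mpr h6Θ⟩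
  have hUmem : ∀ d, d ∣ N → (U d : G) ∈ GS E S := fun d hd =>
    (mem_GS_iff E S _).mpr (fun i n => (h6U d hd i n).1)
  have hUinvmem : ∀ d, d ∣ N → (((U d)⁻¹ : Gˣ) : G) ∈ GS E S := fun d hd =>
    (mem_GS_iff E S _).mpr (fun i n => (h6U d hd i n).2)
  let U' : ℕ → (GS E S)ˣ := fun d =>
    if hd : d ∣ N then
      ⟨⟨(U d : G), hUmem d hd⟩, ⟨(((U d)⁻¹ : Gˣ) : G), hUinvmem d hd⟩,
        Subtype.ext (by simp), Subtype.ext (by simp)⟩
    else 1
  have hU'val : ∀ d (hd : d ∣ N), ((U' d : GS E S) : G) = (U d : G) := by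
    intro d hd
    simp only [U', dif_pos hd]
  have hU'inv : ∀ d (hd : d ∣ N), (((U' d)⁻¹ : (GS E S)ˣ) : G) = (((U d)⁻¹ : Gˣ) : G) := by
    intro d hd
    simp only [U', dif_pos hd]
    rfl
  -- hconst
  have hconst : ∀ c : k, ∃ g : GS E S, ∀ i, Ebar E S r i g = HahnSeries.C c := by
    intro c
    obtain ⟨s, rfl⟩ := hr c
    have hE : ∀ i, E i (algebraMap ℂ G (s : ℂ)) = coeffMap S.subtype (HahnSeries.C s) := by
      intro i
      rw [AlgHom.commutes, coeffMap_C', algebraMap_laurent_eq_C]
      rfl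
    have hmem : algebraMap ℂ G (s : ℂ) ∈ GS E S := by
      rw [mem_GS_iff]
      intro i n
      rw [hE i, coeffMap_coeff]
      exact (HahnSeries.coeff (HahnSeries.C s) n).2
    refine ⟨⟨_, hmem⟩, fun i => ?_⟩
    have : ES E S i ⟨_, hmem⟩ = HahnSeries.C s := by
      apply hιinj
      rw [coeffMap_ES]
      exact hE i
    show coeffMap r (ES E S i ⟨_, hmem⟩) = _
    rw [this, coeffMap_C']
  -- hJ
  have hJ : ∀ i, Ebar E S r i J' = xbar := by
    intro i
    have : ES E S i J' = xS := by
      apply hιinj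
      rw [coeffMap_ES, hxS]
      exact h1 i
    show coeffMap r (ES E S i J') = _
    rw [this]
  -- hx
  have hx : xbar.order < 0 := by
    have hc : xbar.coeff (-(N : ℤ)) ≠ 0 := by
      rw [hxbar, coeffMap_coeff]
      have : xS.coeff (-(N : ℤ)) = 1 := Subtype.ext (by rw [hxScoeff, hx1]; rfl)
      rw [this, map_one]
      exact one_ne_zero
    have h := HahnSeries.order_le_of_coeff_ne_zero hc
    have hNpos : (0 : ℤ) < N := by exact_mod_cast Nat.pos_of_ne_zero (NeZero.ne N)
    omega
  -- hchar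
  have hcharS : ∀ (g : GS E S) (QS : Polynomial (Polynomial S)),
      (∏ i, (X - C (E i (g : G)))) =
        (QS.map (mapRingHom S.subtype)).map
          ((aeval x : Polynomial ℂ →ₐ[ℂ] LaurentSeries ℂ) :
              Polynomial ℂ →+* LaurentSeries ℂ) →
      (∏ i, (X - C (Ebar E S r i g))) =
        (QS.map (mapRingHom r)).map
          ((aeval xbar : Polynomial k →ₐ[k] LaurentSeries k) :
              Polynomial k →+* LaurentSeries k) := by
    intro g QS hQ
    have hS : (∏ i, (X - C (ES E S i g))) =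
        QS.map ((aeval xS : Polynomial S →ₐ[S] LaurentSeries S) :
              Polynomial S →+* LaurentSeries S) := by
      apply Polynomial.map_injective (coeffMap S.subtype) hιinj
      rw [Polynomial.map_prod, Polynomial.map_map, coeffMap_comp_aeval, hxS,
        ← Polynomial.map_map, ← hQ]
      refine Finset.prod_congr rfl (fun i _ => ?_)
      rw [Polynomial.map_sub, Polynomial.map_X, Polynomial.map_C, coeffMap_ES]
    have h2 := congrArg (Polynomial.map (coeffMap r)) hS
    rw [Polynomial.map_prod, Polynomial.map_map, coeffMap_comp_aeval,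
      ← Polynomial.map_map] at h2
    rw [← h2]
    refine Finset.prod_congr rfl (fun i _ => ?_)
    rw [Polynomial.map_sub, Polynomial.map_X, Polynomial.map_C]
    rfl
  have hchar : ∀ g : GS E S, ∃ P : Polynomial (Polynomial k),
      (∏ i, (X - C (Ebar E S r i g))) =
        P.map ((aeval xbar : Polynomial k →ₐ[k] LaurentSeries k) :
              Polynomial k →+* LaurentSeries k) := by
    intro g
    obtain ⟨P, hPS, hP⟩ := h7 (g : G) ((mem_GS_iff E S _).mp g.2)
    -- lift `P` to `S[X][T]`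
    have hlift : ∃ QS : Polynomial (Polynomial S), QS.map (mapRingHom S.subtype) = P := by
      have h : P ∈ Polynomial.lifts (mapRingHom S.subtype) := by
        rw [Polynomial.lifts_iff_coeff_lifts]
        intro n
        have h' : P.coeff n ∈ Polynomial.lifts S.subtype := by
          rw [Polynomial.lifts_iff_coeff_lifts]
          intro l
          exact ⟨⟨_, hPS n l⟩, rfl⟩
        obtain ⟨q, hq⟩ := (Polynomial.mem_lifts _).mp h'
        exact ⟨q, hq⟩
      exact (Polynomial.mem_lifts _).mp h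
    obtain ⟨QS, rfl⟩ := hlift
    exact ⟨_, hcharS g QS hP⟩
  -- hdist
  have hdist : ∀ i i', i ≠ i' → Ebar E S r i Θ' ≠ Ebar E S r i' Θ' := by
    obtain ⟨m, hminj, hm⟩ := h4
    let ζS : S := ⟨ζ, hζS⟩
    have hζSN : ζS ^ N = 1 := Subtype.ext (by push_cast; exact hζ)
    -- coefficients of the reduction of `E i Θ`
    have hlow : ∀ i n, n < -((a i : ℤ) ^ 2) → (Ebar E S r i Θ').coeff n = 0 := by
      intro i n hn
      apply Ebar_coeff_eq_zero
      obtain ⟨p, hp1, hEi⟩ := hm i
      show (E i Θ).coeff n = 0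
      rw [hEi, coeff_single_mul_ofPowerSeries, if_pos hn]
    have hlead : ∀ i, (Ebar E S r i Θ').coeff (-((a i : ℤ) ^ 2)) = r (ζS ^ m i) := by
      intro i
      rw [Ebar_coeff]
      congr 1
      apply Subtype.ext
      rw [ES_coeff]
      obtain ⟨p, hp1, hEi⟩ := hm i
      show (E i Θ).coeff _ = _
      rw [hEi, coeff_single_mul_ofPowerSeries, if_neg (lt_irrefl _), sub_self, Int.toNat_zero,
        PowerSeries.coeff_zero_eq_constantCoeff_apply, hp1, mul_one]
      push_cast
      rfl
    have hleadne : ∀ i, r (ζS ^ m i) ≠ 0 := by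
      intro i h
      have h2 : (r (ζS ^ m i)) ^ N = 1 := by
        rw [← map_pow, ← pow_mul, mul_comm, pow_mul, hζSN, one_pow, map_one]
      rw [h, zero_pow (NeZero.ne N)] at h2
      exact zero_ne_one h2
    intro i i' hii' heq
    have hcoeff : ∀ n, (Ebar E S r i Θ').coeff n = (Ebar E S r i' Θ').coeff n := fun n => by
      rw [heq]
    rcases lt_trichotomy (a i) (a i') with hlt | heq' | hgt
    · have h1 : -((a i' : ℤ) ^ 2) < -((a i : ℤ) ^ 2) := by
        have : (a i : ℤ) < a i' := by exact_mod_cast hlt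
        nlinarith [Int.natCast_nonneg (a i)]
      have := hcoeff (-((a i' : ℤ) ^ 2))
      rw [hlow i _ h1, hlead i'] at this
      exact hleadne i' this.symm
    · have := hcoeff (-((a i : ℤ) ^ 2))
      rw [hlead i] at this
      have h2 : (Ebar E S r i' Θ').coeff (-((a i : ℤ) ^ 2)) = r (ζS ^ m i') := by
        rw [heq']
        exact hlead i'
      rw [h2] at this
      have h3 : ζS ^ m i = ζS ^ m i' := by
        by_contra hne
        refine map_ne_map_of_pow_eq_one r N hrN ?_ ?_ hne this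
        · rw [← pow_mul, mul_comm, pow_mul, hζSN, one_pow]
        · rw [← pow_mul, mul_comm, pow_mul, hζSN, one_pow]
      have h4 : ζ ^ m i = ζ ^ m i' := by
        have := congrArg (Subtype.val) h3
        simpa [ζS] using this
      exact hii' (hminj i i' heq' h4)
    · have h1 : -((a i : ℤ) ^ 2) < -((a i' : ℤ) ^ 2) := by
        have : (a i' : ℤ) < a i := by exact_mod_cast hgt
        nlinarith [Int.natCast_nonneg (a i')]
      have := hcoeff (-((a i : ℤ) ^ 2))
      rw [hlow i' _ h1, hlead i] at this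
      exact hleadne i this
  -- hord
  have hord : ∀ d, d ∣ N → ∀ i,
      (Ebar E S r i (U' d : GS E S)).order =
        (((N / d) * (Nat.gcd d (a i)) ^ 2 : ℕ) : ℤ) - N := by
    intro d hd i
    obtain ⟨ε, p, hε, hp1, hEU⟩ := h5 d hd i
    set e : ℤ := (((N / d) * (Nat.gcd d (a i)) ^ 2 : ℕ) : ℤ) - N with he
    -- orders over `ℂ`
    have hAe : (E i (U d : G)).coeff e = ε := by
      rw [hEU, coeff_single_mul_ofPowerSeries, if_neg (lt_irrefl _), sub_self, Int.toNat_zero,
        PowerSeries.coeff_zero_eq_constantCoeff_apply, hp1, mul_one]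
    have hAlow : ∀ n, n < e → (E i (U d : G)).coeff n = 0 := by
      intro n hn
      rw [hEU, coeff_single_mul_ofPowerSeries, if_pos hn]
    have hAord : (E i (U d : G)).order = e :=
      order_eq_of_coeff (by rw [hAe]; exact hε) hAlow
    have hAB : E i (U d : G) * E i (((U d)⁻¹ : Gˣ) : G) = 1 := by
      rw [← map_mul, Units.mul_inv, map_one]
    have hA0 : E i (U d : G) ≠ 0 := left_ne_zero_of_mul_eq_one hAB
    have hB0 : E i (((U d)⁻¹ : Gˣ) : G) ≠ 0 := right_ne_zero_of_mul_eq_one hAB
    have hBord : (E i (((U d)⁻¹ : Gˣ) : G)).order = -e := by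
      have h := HahnSeries.order_mul hA0 hB0
      rw [hAB, HahnSeries.order_one, hAord] at h
      omega
    have hBlow : ∀ n, n < -e → (E i (((U d)⁻¹ : Gˣ) : G)).coeff n = 0 := by
      intro n hn
      exact HahnSeries.coeff_eq_zero_of_lt_order (by rw [hBord]; exact hn)
    -- reductions
    have hAbarlow : ∀ n, n < e → (Ebar E S r i (U' d : GS E S)).coeff n = 0 := by
      intro n hn
      apply Ebar_coeff_eq_zero
      rw [hU'val d hd]
      exact hAlow n hn
    have hBbarlow : ∀ n, n < -e →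
        (Ebar E S r i (((U' d)⁻¹ : (GS E S)ˣ) : GS E S)).coeff n = 0 := by
      intro n hn
      apply Ebar_coeff_eq_zero
      rw [hU'inv d hd]
      exact hBlow n hn
    have hABbar : Ebar E S r i (U' d : GS E S) *
        Ebar E S r i (((U' d)⁻¹ : (GS E S)ˣ) : GS E S) = 1 := by
      rw [← map_mul, Units.mul_inv, map_one]
    have hAbar0 := left_ne_zero_of_mul_eq_one hABbar
    have hBbar0 := right_ne_zero_of_mul_eq_one hABbar
    have h1 : e ≤ (Ebar E S r i (U' d : GS E S)).order := by
      by_contra hcon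
      push Not at hcon
      exact hAbar0 (HahnSeries.coeff_order_eq_zero.mp (hAbarlow _ hcon))
    have h2 : -e ≤ (Ebar E S r i (((U' d)⁻¹ : (GS E S)ˣ) : GS E S)).order := by
      by_contra hcon
      push Not at hcon
      exact hBbar0 (HahnSeries.coeff_order_eq_zero.mp (hBbarlow _ hcon))
    have h3 := HahnSeries.order_mul hAbar0 hBbar0
    rw [hABbar, HahnSeries.order_one] at h3
    omega
  exact formal_irreducible N i₀ (Ebar E S r) hconst J' Θ' xbar hJ hx hchar hdist U' a h3 h3'
    hord (PS.map (mapRingHom r)) (hcharS Θ' PS hP)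

/-- a two-variable polynomial over `ℂ` with coefficients in a subring `S` lifts to `S[X][T]` -/
theorem exists_lift_poly (S : Subring ℂ) (P : Polynomial (Polynomial ℂ))
    (hPS : ∀ k l, ((P.coeff k).coeff l) ∈ S) :
    ∃ QS : Polynomial (Polynomial S), QS.map (mapRingHom S.subtype) = P := by
  have h : P ∈ Polynomial.lifts (mapRingHom S.subtype) := by
    rw [Polynomial.lifts_iff_coeff_lifts]
    intro n
    have h' : P.coeff n ∈ Polynomial.lifts S.subtype := by
      rw [Polynomial.lifts_iff_coeff_lifts]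
      intro l
      exact ⟨⟨_, hPS n l⟩, rfl⟩
    obtain ⟨q, hq⟩ := (Polynomial.mem_lifts _).mp h'
    exact ⟨q, hq⟩
  exact (Polynomial.mem_lifts _).mp h

theorem coeff_qExpand_jqModC (N : ℕ) [NeZero N] :
    (qExpand ℂ N (jqModC ℂ)).coeff (-(N : ℤ)) = 1 := by
  have h : (-(N : ℤ)) = (N : ℤ) * (-1) := by ring
  rw [h, qExpand_coeff_mul, jqModC, coeff_single_mul_ofPowerSeries, if_neg (lt_irrefl _),
    sub_self, Int.toNat_zero, PowerSeries.coeff_zero_eq_constantCoeff_apply, one_mul]
  rw [← PowerSeries.coeff_zero_eq_constantCoeff_apply, PowerSeries.coeff_map,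
    PowerSeries.coeff_zero_eq_constantCoeff_apply, constantCoeff_jNum]
  simp

theorem exp_two_pi_div_pow (N : ℕ) [NeZero N] :
    Complex.exp (2 * Real.pi * Complex.I / N) ^ N = 1 := by
  have hN0 : (N : ℂ) ≠ 0 := Nat.cast_ne_zero.mpr (NeZero.ne N)
  rw [← Complex.exp_nat_mul, mul_div_cancel₀ _ hN0]
  exact Complex.exp_two_pi_mul_I

/-- **S28 assembly (a)** in the shape of the conclusion of `analytic_conj`
(with `xC N = qExpand ℂ N (jqModC ℂ)` and `zetaC N = exp (2πi/N)` unfolded). -/
theorem reduce_irreducible_of_AT (N : ℕ) [NeZero N]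
    {I : Type} [Fintype I] [DecidableEq I] (i₀ : I)
    {G : Type} [CommRing G] [Algebra ℂ G]
    (E : I → G →ₐ[ℂ] LaurentSeries ℂ) (J : G) (Jd : ℕ → G) (U : ℕ → Gˣ) (a : I → ℕ)
    (h1 : ∀ i, E i J = qExpand ℂ N (jqModC ℂ))
    (h3 : ∀ i, a i ∣ N) (h3' : ∀ i, a i = N → i = i₀)
    (h4 : ∃ m : I → ℕ, (∀ i i', a i = a i' →
          Complex.exp (2 * Real.pi * Complex.I / N) ^ m i =
            Complex.exp (2 * Real.pi * Complex.I / N) ^ m i' → i = i') ∧
        ∀ i, ∃ p : PowerSeries ℂ, PowerSeries.constantCoeff p = 1 ∧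
          E i (Jd N) = HahnSeries.single (-((a i : ℤ) ^ 2))
              (Complex.exp (2 * Real.pi * Complex.I / N) ^ m i) *
            HahnSeries.ofPowerSeries ℤ ℂ p)
    (h5 : ∀ d, d ∣ N → ∀ i, ∃ (ε : ℂ) (p : PowerSeries ℂ), ε ≠ 0 ∧
          PowerSeries.constantCoeff p = 1 ∧
          E i (U d : G) = HahnSeries.single
              ((((N / d) * (Nat.gcd d (a i)) ^ 2 : ℕ) : ℤ) - N) ε *
            HahnSeries.ofPowerSeries ℤ ℂ p)
    (h6 : ∀ S : Subring ℂ, Complex.exp (2 * Real.pi * Complex.I / N) ∈ S → (N : ℂ)⁻¹ ∈ S →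
        ∀ i n, (E i J).coeff n ∈ S ∧ ∀ d, d ∣ N →
          (E i (Jd d)).coeff n ∈ S ∧ (E i (U d : G)).coeff n ∈ S ∧
            (E i ((U d)⁻¹ : Gˣ)).coeff n ∈ S)
    (h7 : ∀ (S : Subring ℂ) (g : G), (∀ i n, (E i g).coeff n ∈ S) →
        ∃ P : Polynomial (Polynomial ℂ), (∀ k l, ((P.coeff k).coeff l) ∈ S) ∧
          (∏ i, (X - C (E i g))) =
            P.map ((aeval (qExpand ℂ N (jqModC ℂ)) : Polynomial ℂ →ₐ[ℂ] LaurentSeries ℂ) :
              Polynomial ℂ →+* LaurentSeries ℂ))
    (S : Subring ℂ) (hζS : Complex.exp (2 * Real.pi * Complex.I / N) ∈ S)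
    (hNS : (N : ℂ)⁻¹ ∈ S)
    {k : Type} [Field k] (r : S →+* k) (hr : Function.Surjective r)
    (PS : Polynomial (Polynomial S))
    (hP : (∏ i, (X - C (E i (Jd N)))) =
        (PS.map (mapRingHom S.subtype)).map
          ((aeval (qExpand ℂ N (jqModC ℂ)) : Polynomial ℂ →ₐ[ℂ] LaurentSeries ℂ) :
              Polynomial ℂ →+* LaurentSeries ℂ)) :
    Irreducible (PS.map (mapRingHom r)) :=
  reduce_irreducible N i₀ E J (Jd N) U a (qExpand ℂ N (jqModC ℂ)) (coeff_qExpand_jqModC N)
    (Complex.exp (2 * Real.pi * Complex.I / N)) (exp_two_pi_div_pow N) h1 h3 h3' h4 h5 S hζS hNS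
    (fun i n => (h6 S hζS hNS i n).1)
    (fun i n => ((h6 S hζS hNS i n).2 N dvd_rfl).1)
    (fun d hd i n => ⟨((h6 S hζS hNS i n).2 d hd).2.1, ((h6 S hζS hNS i n).2 d hd).2.2⟩)
    (h7 S) r hr PS hP

/-- Packaged form: the characteristic polynomial of `Θ = Jd N` lifts to a monic polynomial over
`S[X]` of degree `card I` whose reduction along every surjection onto a field is irreducible. -/
theorem exists_charpoly_reduce_irreducible (N : ℕ) [NeZero N]
    {I : Type} [Fintype I] [DecidableEq I] (i₀ : I)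
    {G : Type} [CommRing G] [Algebra ℂ G]
    (E : I → G →ₐ[ℂ] LaurentSeries ℂ) (J : G) (Jd : ℕ → G) (U : ℕ → Gˣ) (a : I → ℕ)
    (h1 : ∀ i, E i J = qExpand ℂ N (jqModC ℂ))
    (h3 : ∀ i, a i ∣ N) (h3' : ∀ i, a i = N → i = i₀)
    (h4 : ∃ m : I → ℕ, (∀ i i', a i = a i' →
          Complex.exp (2 * Real.pi * Complex.I / N) ^ m i =
            Complex.exp (2 * Real.pi * Complex.I / N) ^ m i' → i = i') ∧
        ∀ i, ∃ p : PowerSeries ℂ, PowerSeries.constantCoeff p = 1 ∧
          E i (Jd N) = HahnSeries.single (-((a i : ℤ) ^ 2))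
              (Complex.exp (2 * Real.pi * Complex.I / N) ^ m i) *
            HahnSeries.ofPowerSeries ℤ ℂ p)
    (h5 : ∀ d, d ∣ N → ∀ i, ∃ (ε : ℂ) (p : PowerSeries ℂ), ε ≠ 0 ∧
          PowerSeries.constantCoeff p = 1 ∧
          E i (U d : G) = HahnSeries.single
              ((((N / d) * (Nat.gcd d (a i)) ^ 2 : ℕ) : ℤ) - N) ε *
            HahnSeries.ofPowerSeries ℤ ℂ p)
    (h6 : ∀ S : Subring ℂ, Complex.exp (2 * Real.pi * Complex.I / N) ∈ S → (N : ℂ)⁻¹ ∈ S →
        ∀ i n, (E i J).coeff n ∈ S ∧ ∀ d, d ∣ N →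
          (E i (Jd d)).coeff n ∈ S ∧ (E i (U d : G)).coeff n ∈ S ∧
            (E i ((U d)⁻¹ : Gˣ)).coeff n ∈ S)
    (h7 : ∀ (S : Subring ℂ) (g : G), (∀ i n, (E i g).coeff n ∈ S) →
        ∃ P : Polynomial (Polynomial ℂ), (∀ k l, ((P.coeff k).coeff l) ∈ S) ∧
          (∏ i, (X - C (E i g))) =
            P.map ((aeval (qExpand ℂ N (jqModC ℂ)) : Polynomial ℂ →ₐ[ℂ] LaurentSeries ℂ) :
              Polynomial ℂ →+* LaurentSeries ℂ))
    (S : Subring ℂ) (hζS : Complex.exp (2 * Real.pi * Complex.I / N) ∈ S)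
    (hNS : (N : ℂ)⁻¹ ∈ S) :
    ∃ PS : Polynomial (Polynomial S),
      (∏ i, (X - C (E i (Jd N)))) =
        (PS.map (mapRingHom S.subtype)).map
          ((aeval (qExpand ℂ N (jqModC ℂ)) : Polynomial ℂ →ₐ[ℂ] LaurentSeries ℂ) :
              Polynomial ℂ →+* LaurentSeries ℂ) ∧
      PS.Monic ∧ PS.natDegree = Fintype.card I ∧
      ∀ {k : Type} [Field k] (r : S →+* k), Function.Surjective r →
        Irreducible (PS.map (mapRingHom r)) := by
  obtain ⟨P, hPS, hP⟩ := h7 S (Jd N) (fun i n => ((h6 S hζS hNS i n).2 N dvd_rfl).1)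
  obtain ⟨PS, rfl⟩ := exists_lift_poly S P hPS
  have hxord : (qExpand ℂ N (jqModC ℂ)).order < 0 := by
    have hc : (qExpand ℂ N (jqModC ℂ)).coeff (-(N : ℤ)) ≠ 0 := by
      rw [coeff_qExpand_jqModC]
      exact one_ne_zero
    have h := HahnSeries.order_le_of_coeff_ne_zero hc
    have hNpos : (0 : ℤ) < N := by exact_mod_cast Nat.pos_of_ne_zero (NeZero.ne N)
    omega
  have hφ := aeval_injective_of_order_neg _ hxord
  have hinj : Function.Injective
      ((((aeval (qExpand ℂ N (jqModC ℂ)) : Polynomial ℂ →ₐ[ℂ] LaurentSeries ℂ) :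
        Polynomial ℂ →+* LaurentSeries ℂ)).comp (mapRingHom S.subtype)) :=
    hφ.comp (Polynomial.map_injective _ Subtype.val_injective)
  have hP' : (∏ i, (X - C (E i (Jd N)))) = PS.map
      ((((aeval (qExpand ℂ N (jqModC ℂ)) : Polynomial ℂ →ₐ[ℂ] LaurentSeries ℂ) :
        Polynomial ℂ →+* LaurentSeries ℂ)).comp (mapRingHom S.subtype)) := by
    rw [hP, Polynomial.map_map]
  refine ⟨PS, hP, ?_, ?_, ?_⟩
  · apply Polynomial.monic_of_injective hinj
    rw [← hP']
    exact Polynomial.monic_prod_of_monic _ _ (fun i _ => Polynomial.monic_X_sub_C _)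
  · rw [← Polynomial.natDegree_map_eq_of_injective hinj, ← hP',
      Polynomial.natDegree_finsetProd_X_sub_C_eq_card, Finset.card_univ]
  · intro k _ r hr
    exact reduce_irreducible_of_AT N i₀ E J Jd U a h1 h3 h3' h4 h5 h6 h7 S hζS hNS r hr PS hP

end Main

end Fermat.Agent.S28.helper93
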