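import Mathlib
import Fermat.Prelude.Def_ModularCurve_IgusaScheme
import Fermat.Prelude.Def_ModularCurve_X0ModL
import Fermat.Agent.S28.helper94_Zl
import Fermat.Agent.S28.helper81_ATStatement
import Fermat.Agent.S28.helper81_Reduce

/-!
# S28 (helper81): the ring `S₀` of `ℓ`-integral algebraic numbers and a residue field

`intClosureC ℓ` is the integral closure of `ℤ_(ℓ)` in `ℂ` (as a subring of `ℂ`).  It contains
`ζ_N` and `1/N` (for `ℓ ∤ N`), meets `ℚ` in `ℤ_(ℓ)`, and has a residue field of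
characteristic `ℓ`.
-/

set_option autoImplicit false

open Polynomial ModularCurve

noncomputable section

namespace Fermat.Agent.S28.helper81

open Fermat.Agent.S28.helper94

variable (ℓ : ℕ) [Fact ℓ.Prime]

/-- the integral closure of `ℤ_(ℓ)` in `ℂ` -/
def intClosureC : Subring ℂ := (integralClosure (Zl ℓ) ℂ).toSubring

theorem mem_intClosureC_iff (z : ℂ) : z ∈ intClosureC ℓ ↔ IsIntegral (Zl ℓ) z := Iff.rfl

theorem algebraMap_mem_intClosureC (a : Zl ℓ) : algebraMap (Zl ℓ) ℂ a ∈ intClosureC ℓ :=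
  isIntegral_algebraMap

theorem zetaC_mem_intClosureC (N : ℕ) [NeZero N] : zetaC N ∈ intClosureC ℓ := by
  rw [mem_intClosureC_iff]
  apply IsIntegral.of_pow (Nat.pos_of_ne_zero (NeZero.ne N))
  rw [zetaC_pow]
  exact isIntegral_one

theorem natCast_inv_mem_intClosureC (N : ℕ) (hℓN : ¬ ℓ ∣ N) : (N : ℂ)⁻¹ ∈ intClosureC ℓ := by
  have h : ((N : ℤ) : ℚ)⁻¹ ∈ GaloisRep.ratLocalizedAt ℓ :=
    intCast_inv_mem ℓ (N : ℤ) (by exact_mod_cast hℓN)
  have : (N : ℂ)⁻¹ = algebraMap (Zl ℓ) ℂ ⟨_, h⟩ := by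
    show (N : ℂ)⁻¹ = ((((N : ℤ) : ℚ)⁻¹ : ℚ) : ℂ)
    push_cast
    rfl
  rw [this]
  exact algebraMap_mem_intClosureC ℓ _

/-- a rational number which is integral over `ℤ_(ℓ)` lies in `ℤ_(ℓ)` -/
theorem ratCast_mem_intClosureC_iff (r : ℚ) :
    (r : ℂ) ∈ intClosureC ℓ ↔ r ∈ GaloisRep.ratLocalizedAt ℓ := by
  constructor
  · intro h
    rw [mem_intClosureC_iff] at h
    have h1 : IsIntegral (Zl ℓ) r := by
      have h2 : (r : ℂ) = algebraMap ℚ ℂ r := by simp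
      rw [h2] at h
      exact (isIntegral_algebraMap_iff (algebraMap ℚ ℂ).injective).mp h
    haveI := isIntegrallyClosed_Zl ℓ
    haveI := isFractionRing_Zl ℓ
    obtain ⟨y, hy⟩ := (IsIntegrallyClosed.isIntegral_iff (R := Zl ℓ) (K := ℚ)).mp h1
    rw [← hy]
    exact y.2
  · intro h
    exact algebraMap_mem_intClosureC ℓ ⟨r, h⟩

theorem ell_not_isUnit_intClosureC : ¬ IsUnit ((ℓ : ℕ) : intClosureC ℓ) := by
  rintro ⟨u, hu⟩
  have h1 : ((u⁻¹ : (intClosureC ℓ)ˣ) : intClosureC ℓ) * (ℓ : intClosureC ℓ) = 1 := by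
    rw [← hu]; exact u.inv_mul
  have hℓ0 : (ℓ : ℂ) ≠ 0 := by exact_mod_cast (Fact.out : ℓ.Prime).ne_zero
  have h2 : (((u⁻¹ : (intClosureC ℓ)ˣ) : intClosureC ℓ) : ℂ) = ((((ℓ : ℚ))⁻¹ : ℚ) : ℂ) := by
    have := congrArg Subtype.val h1
    simp only [Subring.coe_mul, Subring.coe_natCast, Subring.coe_one] at this
    push_cast
    exact eq_inv_of_mul_eq_one_left this
  have h3 : (((ℓ : ℚ))⁻¹ : ℚ) ∈ GaloisRep.ratLocalizedAt ℓ := by
    rw [← ratCast_mem_intClosureC_iff, ← h2]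
    exact Subtype.mem _
  have h4 : IsUnit (ℓ : Zl ℓ) := by
    refine IsUnit.of_mul_eq_one ⟨_, h3⟩ (Subtype.ext ?_)
    have hℓ0' : (ℓ : ℚ) ≠ 0 := by exact_mod_cast (Fact.out : ℓ.Prime).ne_zero
    simp [hℓ0']
  exact (prime_ell_Zl ℓ).not_unit h4

/-- a residue field of `intClosureC ℓ` of characteristic `ℓ` -/
theorem exists_residue_field :
    ∃ (k : Type) (_ : Field k) (_ : CharP k ℓ) (ρ : intClosureC ℓ →+* k),
      Function.Surjective ρ := by
  have hne : Ideal.span {((ℓ : ℕ) : intClosureC ℓ)} ≠ ⊤ := by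
    rw [Ne, Ideal.span_singleton_eq_top]
    exact ell_not_isUnit_intClosureC ℓ
  obtain ⟨m, hm, hle⟩ := Ideal.exists_le_maximal _ hne
  letI := Ideal.Quotient.field m
  have hℓm : ((ℓ : ℕ) : intClosureC ℓ) ∈ m := hle (Ideal.subset_span rfl)
  have h0 : ((ℓ : ℕ) : intClosureC ℓ ⧸ m) = 0 := by
    have := Ideal.Quotient.eq_zero_iff_mem.mpr hℓm
    simpa using this
  have hchar : CharP (intClosureC ℓ ⧸ m) ℓ :=
    (CharP.charP_iff_prime_eq_zero (Fact.out : ℓ.Prime)).mpr h0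
  exact ⟨intClosureC ℓ ⧸ m, inferInstance, hchar, Ideal.Quotient.mk m,
    Ideal.Quotient.mk_surjective⟩

end Fermat.Agent.S28.helper81
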