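import Mathlib
import Fermat.Prelude.Def_ModularCurve_IgusaScheme

/-!
# S28-T1 : gluing step

The base change of the Igusa scheme (a pushout of two affine charts along a common
open) to a field `K` is integral as soon as the two base-changed chart algebras are
domains and the base-changed overlap algebra is nontrivial.

Main results (all in namespace `Fermat.Agent.S28.helper58`):

* `irreducibleSpace_of_two_opens` : a space covered by two preirreducible opens that meet is
  irreducible.
* `isIntegral_of_two_charts` : a scheme covered by two integral open subschemes that meet is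
  integral.
* `glue` : the statement S28-T1 of the S28 plan.
-/

set_option autoImplicit false

open AlgebraicGeometry CategoryTheory CategoryTheory.Limits ModularCurve ModularCurve.IgusaScheme
open scoped TensorProduct

noncomputable section

namespace Fermat.Agent.S28.helper58

universe u

/-! ## A topological lemma -/

/-- A space covered by two preirreducible open subsets with nonempty intersection is
irreducible. -/
theorem irreducibleSpace_of_two_opens {X : Type*} [TopologicalSpace X] {U V : Set X}
    (hU : IsOpen U) (hV : IsOpen V) (hUi : IsPreirreducible U) (hVi : IsPreirreducible V)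
    (hUV : U ∪ V = Set.univ) (hne : (U ∩ V).Nonempty) : IrreducibleSpace X := by
  have hW : IsIrreducible (U ∩ V) :=
    ⟨hne, hUi.open_subset (hU.inter hV) Set.inter_subset_left⟩
  have h1 : U ⊆ closure (U ∩ V) :=
    subset_closure_inter_of_isPreirreducible_of_isOpen hUi hV hne
  have h2 : V ⊆ closure (U ∩ V) := by
    have := subset_closure_inter_of_isPreirreducible_of_isOpen hVi hU
      (by rwa [Set.inter_comm] : (V ∩ U).Nonempty)
    rwa [Set.inter_comm] at this
  have h3 : closure (U ∩ V) = Set.univ :=
    Set.eq_univ_of_univ_subset (hUV ▸ Set.union_subset h1 h2)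
  rw [irreducibleSpace_def]
  have := hW.closure
  rwa [h3] at this

/-! ## Integrality of a scheme covered by two integral charts -/

/-- A scheme which is the union of (the images of) two integral open subschemes with
nonempty intersection is integral. -/
theorem isIntegral_of_two_charts {X U V : Scheme.{u}} (f : U ⟶ X) (g : V ⟶ X)
    [IsOpenImmersion f] [IsOpenImmersion g] [IsIntegral U] [IsIntegral V]
    (hcov : ∀ x : X, x ∈ Set.range f ∨ x ∈ Set.range g)
    (hne : (Set.range f ∩ Set.range g).Nonempty) : IsIntegral X := by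
  have : IsReduced X := by
    have : ∀ x : X, _root_.IsReduced (X.presheaf.stalk x) := by
      intro x
      rcases hcov x with ⟨u, rfl⟩ | ⟨v, rfl⟩
      · exact isReduced_of_injective (f.stalkMap u).hom
          (ConcreteCategory.bijective_of_isIso (f.stalkMap u)).1
      · exact isReduced_of_injective (g.stalkMap v).hom
          (ConcreteCategory.bijective_of_isIso (g.stalkMap v)).1
    exact isReduced_of_isReduced_stalk X
  have : IrreducibleSpace X := by
    refine irreducibleSpace_of_two_opens (U := Set.range f) (V := Set.range g)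
      f.isOpenEmbedding.isOpen_range g.isOpenEmbedding.isOpen_range ?_ ?_ ?_ hne
    · rw [← Set.image_univ]
      exact ((IrreducibleSpace.isIrreducible_univ _).image _
        f.continuous.continuousOn).isPreirreducible
    · rw [← Set.image_univ]
      exact ((IrreducibleSpace.isIrreducible_univ _).image _
        g.continuous.continuousOn).isPreirreducible
    · exact Set.eq_univ_of_forall fun x => hcov x
  exact isIntegral_of_irreducibleSpace_of_isReduced X

/-! ## Base change of affine charts -/

/-- The base change of an affine chart is the spectrum of the tensor product. -/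
def chartIso (R S K : Type) [CommRing R] [CommRing S] [CommRing K] [Algebra R S] [Algebra R K]
    (φ : Spec (.of S) ⟶ Spec (.of R))
    (hφ : φ = Spec.map (CommRingCat.ofHom (algebraMap R S))) :
    pullback φ (Spec.map (CommRingCat.ofHom (algebraMap R K))) ≅ Spec (.of (S ⊗[R] K)) :=
  pullback.congrHom hφ rfl ≪≫ pullbackSpecIso R S K

set_option backward.isDefEq.respectTransparency false in
/-- Functoriality of base change, in the form needed below. -/
theorem pullback_map_comp_aux {C : Type*} [Category C] [HasPullbacks C] {M F X B Y : C}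
    (a : M ⟶ F) (ι : F ⟶ X) (m : M ⟶ X) (h : a ≫ ι = m) (t : X ⟶ B) (g : Y ⟶ B) :
    pullback.map (m ≫ t) g (ι ≫ t) g a (𝟙 Y) (𝟙 B)
        (by rw [Category.comp_id, ← h, Category.assoc])
        (by rw [Category.comp_id, Category.id_comp]) ≫
      pullback.map (ι ≫ t) g t g ι (𝟙 Y) (𝟙 B) (by rw [Category.comp_id])
        (by rw [Category.comp_id, Category.id_comp]) =
    pullback.map (m ≫ t) g t g m (𝟙 Y) (𝟙 B) (by rw [Category.comp_id])
        (by rw [Category.comp_id, Category.id_comp]) := by
  subst h
  apply pullback.hom_ext <;> simp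

/-! ## The gluing theorem -/

variable (N : ℕ) [NeZero N] (ℓ : ℕ) [Fact ℓ.Prime]

/-- **S28-T1 (glue).**  The base change of the Igusa scheme to a field `K` is integral as soon as
the base changes of the two chart algebras are domains and the base change of the overlap
algebra is nontrivial. -/
theorem glue (K : Type) [Field K] [Algebra ↥(GaloisRep.ratLocalizedAt ℓ) K]
    (hFin : IsDomain ((chartAlgFin N ℓ) ⊗[↥(GaloisRep.ratLocalizedAt ℓ)] K))
    (hInf : IsDomain ((chartAlgInf N ℓ) ⊗[↥(GaloisRep.ratLocalizedAt ℓ)] K))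
    (hMid : Nontrivial ((chartAlgMid N ℓ) ⊗[↥(GaloisRep.ratLocalizedAt ℓ)] K)) :
    IsIntegral (pullback (igusaTo N ℓ)
      (Spec.map (CommRingCat.ofHom (algebraMap ↥(GaloisRep.ratLocalizedAt ℓ) K)))) := by
  set g := Spec.map (CommRingCat.ofHom (algebraMap ↥(GaloisRep.ratLocalizedAt ℓ) K)) with hg
  -- the structure maps of the three charts
  have hF : ιFin N ℓ ≫ igusaTo N ℓ =
      Spec.map (CommRingCat.ofHom
        (algebraMap ↥(GaloisRep.ratLocalizedAt ℓ) (chartAlgFin N ℓ))) := ιFin_igusaTo N ℓ
  have hI : ιInf N ℓ ≫ igusaTo N ℓ =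
      Spec.map (CommRingCat.ofHom
        (algebraMap ↥(GaloisRep.ratLocalizedAt ℓ) (chartAlgInf N ℓ))) := ιInf_igusaTo N ℓ
  have hM : (fFin N ℓ ≫ ιFin N ℓ) ≫ igusaTo N ℓ =
      Spec.map (CommRingCat.ofHom
        (algebraMap ↥(GaloisRep.ratLocalizedAt ℓ) (chartAlgMid N ℓ))) := by
    have h : (inclFin N ℓ).toRingHom.comp
        (algebraMap ↥(GaloisRep.ratLocalizedAt ℓ) (chartAlgFin N ℓ)) =
        algebraMap ↥(GaloisRep.ratLocalizedAt ℓ) (chartAlgMid N ℓ) :=
      RingHom.ext fun a => (inclFin N ℓ).commutes a
    rw [Category.assoc, ιFin_igusaTo, ← Spec.map_comp, ← CommRingCat.ofHom_comp, h]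
  -- the three base-changed charts, as open subschemes of the base change
  let pF : pullback (ιFin N ℓ ≫ igusaTo N ℓ) g ⟶ pullback (igusaTo N ℓ) g :=
    pullback.map _ _ _ _ (ιFin N ℓ) (𝟙 _) (𝟙 _) (by simp) (by simp)
  let pI : pullback (ιInf N ℓ ≫ igusaTo N ℓ) g ⟶ pullback (igusaTo N ℓ) g :=
    pullback.map _ _ _ _ (ιInf N ℓ) (𝟙 _) (𝟙 _) (by simp) (by simp)
  let pM : pullback ((fFin N ℓ ≫ ιFin N ℓ) ≫ igusaTo N ℓ) g ⟶ pullback (igusaTo N ℓ) g :=
    pullback.map _ _ _ _ (fFin N ℓ ≫ ιFin N ℓ) (𝟙 _) (𝟙 _) (by simp) (by simp)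
  have iF : IsIntegral (pullback (ιFin N ℓ ≫ igusaTo N ℓ) g) :=
    IsIntegral.of_isIso (chartIso _ _ _ _ hF).inv
  have iI : IsIntegral (pullback (ιInf N ℓ ≫ igusaTo N ℓ) g) :=
    IsIntegral.of_isIso (chartIso _ _ _ _ hI).inv
  have nM : Nonempty ↥(pullback ((fFin N ℓ ≫ ιFin N ℓ) ≫ igusaTo N ℓ) g : Scheme.{0}) :=
    ⟨(chartIso _ _ K _ hM).inv (Classical.arbitrary _)⟩
  refine isIntegral_of_two_charts pF pI ?_ ?_
  · -- the two charts cover
    intro x
    rw [Scheme.Pullback.range_map, Scheme.Pullback.range_map]
    have := mem_range_ιFin_or_mem_range_ιInf N ℓ (pullback.fst (igusaTo N ℓ) g x)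
    simpa using this
  · -- the two charts meet
    obtain ⟨z⟩ := nM
    refine ⟨pM z, ⟨pullback.map _ _ _ _ (fFin N ℓ) (𝟙 _) (𝟙 _)
        (by rw [Category.comp_id, Category.assoc]) (by rw [Category.comp_id, Category.id_comp]) z,
        ?_⟩, ⟨pullback.map _ _ _ _ (fInf N ℓ) (𝟙 _) (𝟙 _)
        (by rw [Category.comp_id, glue_condition, Category.assoc])
        (by rw [Category.comp_id, Category.id_comp]) z, ?_⟩⟩
    · rw [← Scheme.Hom.comp_apply]
      exact congrArg (fun φ => (Scheme.Hom.toLRSHom φ).base z)
        (pullback_map_comp_aux (fFin N ℓ) (ιFin N ℓ) _ rfl (igusaTo N ℓ) g)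
    · rw [← Scheme.Hom.comp_apply]
      exact congrArg (fun φ => (Scheme.Hom.toLRSHom φ).base z)
        (pullback_map_comp_aux (fInf N ℓ) (ιInf N ℓ) _ (glue_condition N ℓ).symm
          (igusaTo N ℓ) g)

end Fermat.Agent.S28.helper58
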