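import Mathlib

/-!
# S28-T3 (helper25): an abstract "q-expansion principle" for integral closures

Pure commutative algebra (Mathlib only).  Main result: `qexp_principle`.

Setting: `A` an integrally closed domain with a prime element `π`, reduction map
`red : A → Abar` (surjective, kernel `(π)`), `F` a field of characteristic zero generated over
`Frac A` by one element `θ`, a root of a monic `Φ ∈ A[T]` whose reduction is irreducible.
Given "expansion" ring homs `ev₀ : A[T] → L₀`, `ι : L₀ → L`, `j : F → L`, `ρ : L₀ → Lbar`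
compatible with evaluation at `θ` resp. `θbar`, and `Φ'(θ)` expanding to a unit of `L₀`,
every `a ∈ F` integral over `A` has an expansion `c ∈ L₀`, and if `c` reduces to `0`
then `a = π h` with `h` integral over `A`.
-/

set_option autoImplicit false

namespace Fermat.Agent.S28.helper25

open Polynomial

attribute [local instance] FractionRing.liftAlgebra FractionRing.isScalarTower_liftAlgebra

section TwoMultiples

variable {A : Type*} [CommRing A] [IsDomain A]
variable {F : Type*} [Field F] [Algebra A F] [FaithfulSMul A F]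

theorem isIntegral_fractionRing_of_isIntegral_mul {h : F} {s : A} (hs : s ≠ 0)
    (hint : IsIntegral A (algebraMap A F s * h)) : IsIntegral (FractionRing A) h := by
  have hsF : algebraMap A F s ≠ 0 := by
    simpa using (FaithfulSMul.algebraMap_injective A F).ne hs
  have h1 : IsIntegral (FractionRing A) (algebraMap A F s * h) := hint.tower_top
  have h2 : IsIntegral (FractionRing A) ((algebraMap A F s)⁻¹) := by
    rw [IsScalarTower.algebraMap_apply A (FractionRing A) F, ← map_inv₀]
    exact isIntegral_algebraMap
  have := h2.mul h1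
  rwa [inv_mul_cancel_left₀ hsF] at this

variable [IsIntegrallyClosed A]

/-- coefficients of the minimal polynomial over the fraction field of an element `h` such that
`s h` is integral. -/
theorem exists_coeff_mul_pow_of_isIntegral_mul {h : F} {s : A} (hs : s ≠ 0)
    (hint : IsIntegral A (algebraMap A F s * h)) (i : ℕ) :
    ∃ c : A, algebraMap A (FractionRing A) c =
      (minpoly (FractionRing A) h).coeff i *
        (algebraMap A (FractionRing A) s) ^ ((minpoly (FractionRing A) h).natDegree - i) := by
  have hsK : algebraMap A (FractionRing A) s ≠ 0 := by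
    simpa using (IsFractionRing.injective A (FractionRing A)).ne hs
  have hK : IsIntegral (FractionRing A) h := isIntegral_fractionRing_of_isIntegral_mul hs hint
  have h1 : minpoly (FractionRing A) (algebraMap A (FractionRing A) s • h) =
      (minpoly (FractionRing A) h).scaleRoots (algebraMap A (FractionRing A) s) :=
    IsIntegrallyClosed.minpoly_smul hsK hK
  have h2 : algebraMap A (FractionRing A) s • h = algebraMap A F s * h := by
    rw [Algebra.smul_def, ← IsScalarTower.algebraMap_apply]
  have h3 : minpoly (FractionRing A) (algebraMap A F s * h) =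
      (minpoly A (algebraMap A F s * h)).map (algebraMap A (FractionRing A)) :=
    minpoly.isIntegrallyClosed_eq_field_fractions' (FractionRing A) hint
  refine ⟨(minpoly A (algebraMap A F s * h)).coeff i, ?_⟩
  rw [← coeff_map, ← h3, ← h2, h1, coeff_scaleRoots]

/-- If `s` is prime, `s ∤ t`, and both `s h` and `t h` are integral over the integrally closed
domain `A`, then `h` is integral over `A`. -/
theorem isIntegral_of_isIntegral_mul_of_prime {h : F} {s t : A} (hs : Prime s) (hst : ¬ s ∣ t)
    (h1 : IsIntegral A (algebraMap A F s * h)) (h2 : IsIntegral A (algebraMap A F t * h)) :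
    IsIntegral A h := by
  have ht : t ≠ 0 := fun h0 => hst (h0 ▸ dvd_zero s)
  have hK : IsIntegral (FractionRing A) h := isIntegral_fractionRing_of_isIntegral_mul ht h2
  have key : ∀ i, (minpoly (FractionRing A) h).coeff i ∈
      (algebraMap A (FractionRing A)).range := by
    intro i
    obtain ⟨c, hc⟩ := exists_coeff_mul_pow_of_isIntegral_mul hs.ne_zero h1 i
    obtain ⟨c', hc'⟩ := exists_coeff_mul_pow_of_isIntegral_mul ht h2 i
    generalize (minpoly (FractionRing A) h).natDegree - i = e at hc hc'
    have hcc : c * t ^ e = c' * s ^ e := by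
      apply IsFractionRing.injective A (FractionRing A)
      simp only [map_mul, map_pow, hc, hc']; ring
    have hdvd : s ^ e ∣ c := by
      have : s ^ e ∣ t ^ e * c := ⟨c', by rw [mul_comm, hcc, mul_comm]⟩
      exact hs.pow_dvd_of_dvd_mul_left e (fun hd => hst (hs.dvd_of_dvd_pow hd)) this
    obtain ⟨d, hd⟩ := hdvd
    refine ⟨d, ?_⟩
    have hsK : algebraMap A (FractionRing A) s ^ e ≠ 0 :=
      pow_ne_zero _ (by simpa using (IsFractionRing.injective A (FractionRing A)).ne hs.ne_zero)
    apply mul_right_cancel₀ hsK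
    rw [← hc, hd, map_mul, map_pow, mul_comm]
  have hl : minpoly (FractionRing A) h ∈ lifts (algebraMap A (FractionRing A)) :=
    (lifts_iff_coeff_lifts _).mpr key
  obtain ⟨q, hq, -, hqm⟩ := lifts_and_natDegree_eq_and_monic hl (minpoly.monic hK)
  refine ⟨q, hqm, ?_⟩
  have := minpoly.aeval (FractionRing A) h
  rw [← hq, aeval_map_algebraMap] at this
  exact this

end TwoMultiples

section Irr

variable {A : Type*} [CommRing A] [IsDomain A] [IsIntegrallyClosed A]
variable {F : Type*} [Field F] [Algebra A F] [FaithfulSMul A F]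

theorem map_eq_minpoly_of_irreducible {θ : F} {P : A[X]} (hm : P.Monic) (hirr : Irreducible P)
    (h0 : aeval θ P = 0) :
    P.map (algebraMap A (FractionRing A)) = minpoly (FractionRing A) θ := by
  have hirrK : Irreducible (P.map (algebraMap A (FractionRing A))) :=
    (Monic.irreducible_iff_irreducible_map_fraction_map hm).mp hirr
  refine minpoly.eq_of_irreducible_of_monic hirrK ?_ (hm.map _)
  rw [aeval_map_algebraMap]; exact h0

theorem eq_minpoly_of_irreducible {θ : F} {P : A[X]} (hm : P.Monic) (hirr : Irreducible P)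
    (h0 : aeval θ P = 0) : P = minpoly A θ := by
  have hint : IsIntegral A θ := ⟨P, hm, h0⟩
  apply map_injective _ (IsFractionRing.injective A (FractionRing A))
  rw [map_eq_minpoly_of_irreducible hm hirr h0,
    minpoly.isIntegrallyClosed_eq_field_fractions' (FractionRing A) hint]

theorem dvd_of_aeval_eq_zero_of_irreducible {θ : F} {P : A[X]} (hm : P.Monic)
    (hirr : Irreducible P) (h0 : aeval θ P = 0) {G : A[X]} (hG : aeval θ G = 0) : P ∣ G := by
  have hint : IsIntegral A θ := ⟨P, hm, h0⟩
  rw [eq_minpoly_of_irreducible hm hirr h0]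
  exact minpoly.isIntegrallyClosed_dvd hint hG

theorem eq_zero_of_aeval_eq_zero_of_degree_lt {θ : F} {P : A[X]} (hm : P.Monic)
    (hirr : Irreducible P) (h0 : aeval θ P = 0) {G : A[X]} (hG : aeval θ G = 0)
    (hdeg : G.degree < P.degree) : G = 0 :=
  eq_zero_of_dvd_of_degree_lt (dvd_of_aeval_eq_zero_of_irreducible hm hirr h0 hG) hdeg

/-- Bezout with cleared denominators: if `P` is monic irreducible with root `θ` and
`Q(θ) ≠ 0` then `U Q + V P = d` for some nonzero constant `d`. -/
theorem exists_bezout_of_irreducible {θ : F} {P : A[X]} (hm : P.Monic) (hirr : Irreducible P)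
    (h0 : aeval θ P = 0) {Q : A[X]} (hQ : aeval θ Q ≠ 0) :
    ∃ (U V : A[X]) (d : A), d ≠ 0 ∧ U * Q + V * P = C d := by
  have hirrK : Irreducible (P.map (algebraMap A (FractionRing A))) :=
    (Monic.irreducible_iff_irreducible_map_fraction_map hm).mp hirr
  have hnd : ¬ P.map (algebraMap A (FractionRing A)) ∣
      Q.map (algebraMap A (FractionRing A)) := by
    rintro ⟨R, hR⟩
    apply hQ
    have := congrArg (aeval θ) hR
    rw [aeval_map_algebraMap, map_mul, aeval_map_algebraMap, h0, zero_mul] at this
    exact this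
  obtain ⟨v, u, huv⟩ := (hirrK.coprime_iff_not_dvd).mpr hnd
  obtain ⟨bu, hbu, hu⟩ := IsLocalization.integerNormalization_spec (nonZeroDivisors A) u
  obtain ⟨bv, hbv, hv⟩ := IsLocalization.integerNormalization_spec (nonZeroDivisors A) v
  refine ⟨C bv * IsLocalization.integerNormalization (nonZeroDivisors A) u,
    C bu * IsLocalization.integerNormalization (nonZeroDivisors A) v, bu * bv,
    mul_ne_zero (nonZeroDivisors.ne_zero hbu) (nonZeroDivisors.ne_zero hbv), ?_⟩
  apply map_injective _ (IsFractionRing.injective A (FractionRing A))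
  simp only [Polynomial.map_add, Polynomial.map_mul, hu, hv, map_C, Algebra.smul_def,
    Polynomial.algebraMap_apply]
  have : C ((algebraMap A (FractionRing A)) (bu * bv)) =
    C ((algebraMap A (FractionRing A)) bu) * C ((algebraMap A (FractionRing A)) bv) *
      (v * P.map (algebraMap A (FractionRing A)) + u * Q.map (algebraMap A (FractionRing A))) := by
    rw [huv, mul_one, map_mul, C_mul]
  rw [this]
  ring

end Irr

section Euler

variable {A : Type*} [CommRing A] [IsDomain A] [IsIntegrallyClosed A]
variable {F : Type*} [Field F] [CharZero F] [Algebra A F] [FaithfulSMul A F]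

/-- Euler's lemma: `Φ'(θ) · (integral closure) ⊆ A[θ]`. -/
theorem mul_aeval_derivative_mem_adjoin {θ : F}
    (hgen : Algebra.adjoin (FractionRing A) {θ} = ⊤)
    {P : A[X]} (hm : P.Monic) (hirr : Irreducible P) (h0 : aeval θ P = 0)
    {a : F} (ha : IsIntegral A a) :
    a * aeval θ (derivative P) ∈ Algebra.adjoin A {θ} := by
  have : CharZero (FractionRing A) := RingHom.charZero (algebraMap (FractionRing A) F)
  have hθ : IsIntegral A θ := ⟨P, hm, h0⟩
  have hθK : IsIntegral (FractionRing A) θ := hθ.tower_top
  have : FiniteDimensional (FractionRing A) F := by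
    have h1 : Module.Finite (FractionRing A) (Algebra.adjoin (FractionRing A) {θ}) :=
      Algebra.finite_adjoin_simple_of_isIntegral hθK
    rw [hgen] at h1
    exact Module.Finite.equiv
      (Subalgebra.topEquiv : (⊤ : Subalgebra (FractionRing A) F) ≃ₐ[_] F).toLinearEquiv
  have : Algebra.IsSeparable (FractionRing A) F := Algebra.IsSeparable.of_integral _ _
  have hdual := traceForm_dualSubmodule_adjoin A (FractionRing A) hgen hθ
  have hmin : minpoly (FractionRing A) θ = P.map (algebraMap A (FractionRing A)) :=
    (map_eq_minpoly_of_irreducible hm hirr h0).symm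
  have hder : aeval θ (derivative (minpoly (FractionRing A) θ)) = aeval θ (derivative P) := by
    rw [hmin, derivative_map, aeval_map_algebraMap]
  have hne : aeval θ (derivative P) ≠ 0 := by
    rw [← hder]
    exact (Algebra.IsSeparable.isSeparable (FractionRing A) θ).aeval_derivative_ne_zero
      (minpoly.aeval _ _)
  have hmem : a ∈ (Algebra.traceForm (FractionRing A) F).dualSubmodule
      (Subalgebra.toSubmodule (Algebra.adjoin A {θ})) := by
    rw [LinearMap.BilinForm.mem_dualSubmodule]
    intro y hy
    have hy' : IsIntegral A y :=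
      (Algebra.adjoin_le (S := integralClosure A F) (Set.singleton_subset_iff.mpr hθ)) hy
    rw [Algebra.traceForm_apply, Submodule.mem_one]
    exact IsIntegrallyClosed.isIntegral_iff.mp (Algebra.isIntegral_trace (ha.mul hy'))
  rw [hdual, hder, Submodule.mem_smul_iff_inv_mul_mem (inv_ne_zero hne), inv_inv] at hmem
  rw [mul_comm]
  exact hmem

theorem exists_polynomial_eq_mul_aeval_derivative {θ : F}
    (hgen : Algebra.adjoin (FractionRing A) {θ} = ⊤)
    {P : A[X]} (hm : P.Monic) (hirr : Irreducible P) (h0 : aeval θ P = 0)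
    {a : F} (ha : IsIntegral A a) :
    ∃ G : A[X], G.degree < P.degree ∧ aeval θ G = a * aeval θ (derivative P) := by
  have h := mul_aeval_derivative_mem_adjoin hgen hm hirr h0 ha
  rw [Algebra.adjoin_singleton_eq_range_aeval] at h
  obtain ⟨G₀, hG₀⟩ := h
  refine ⟨G₀ %ₘ P, degree_modByMonic_lt _ hm, ?_⟩
  rw [← hG₀]
  exact aeval_modByMonic_eq_self_of_root h0

end Euler

section Main

variable {A Abar : Type*} [CommRing A] [IsDomain A] [IsIntegrallyClosed A]
  [CommRing Abar] [IsDomain Abar] [IsIntegrallyClosed Abar]
variable {F : Type*} [Field F] [CharZero F] [Algebra A F] [FaithfulSMul A F]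
variable {Lbar : Type*} [Field Lbar] [Algebra Abar Lbar] [FaithfulSMul Abar Lbar]
variable {L₀ L : Type*} [CommRing L₀] [CommRing L]

/-- **Abstract q-expansion principle.** -/
theorem qexp_principle
    (red : A →+* Abar) (hred : Function.Surjective red) (π : A) (hπ : Prime π)
    (hker : ∀ a, red a = 0 ↔ π ∣ a)
    (θ : F) (hgen : Algebra.adjoin (FractionRing A) {θ} = ⊤)
    (θbar : Lbar)
    (ev₀ : A[X] →+* L₀) (ι : L₀ →+* L) (j : F →+* L) (hj : Function.Injective j)
    (hι : ∀ G : A[X], ι (ev₀ G) = j (aeval θ G))
    (ρ : L₀ →+* Lbar) (hρ : ∀ G : A[X], ρ (ev₀ G) = aeval θbar (G.map red))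
    (Φ : A[X]) (hΦm : Φ.Monic) (hΦ0 : ev₀ Φ = 0) (hΦirr : Irreducible (Φ.map red))
    (hunit : IsUnit (ev₀ (derivative Φ)))
    (a : F) (ha : IsIntegral A a) :
    ∃ c : L₀, ι c = j a ∧
      (ρ c = 0 → ∃ h : F, IsIntegral A h ∧ a = algebraMap A F π * h) := by
  have h0 : aeval θ Φ = 0 := hj (by rw [← hι, hΦ0, map_zero, map_zero])
  have hθ : IsIntegral A θ := ⟨Φ, hΦm, h0⟩
  have hθint : ∀ G : A[X], IsIntegral A (aeval θ G) := fun G =>
    (Algebra.adjoin_le (S := integralClosure A F) (Set.singleton_subset_iff.mpr hθ))
      (aeval_mem_adjoin_singleton A θ)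
  have hirr : Irreducible Φ := Monic.irreducible_of_irreducible_map red Φ hΦm hΦirr
  obtain ⟨G, hGdeg, hG⟩ := exists_polynomial_eq_mul_aeval_derivative hgen hΦm hirr h0 ha
  obtain ⟨u, hu⟩ := hunit
  refine ⟨ev₀ G * ↑u⁻¹, ?_, ?_⟩
  · have h1 : ι (ev₀ G) = j a * ι (ev₀ (derivative Φ)) := by rw [hι, hG, map_mul, hι]
    rw [map_mul, h1, ← hu, mul_assoc, ← map_mul, Units.mul_inv, map_one, mul_one]
  · intro hc
    have h2 : ρ (ev₀ G) = 0 := by
      have := congrArg (· * ρ (u : L₀)) hc
      simpa [← map_mul, mul_assoc] using this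
    rw [hρ] at h2
    have hbar0 : aeval θbar (Φ.map red) = 0 := by rw [← hρ, hΦ0, map_zero]
    have hGbar : G.map red = 0 :=
      eq_zero_of_aeval_eq_zero_of_degree_lt (hΦm.map red) hΦirr hbar0 h2
        (lt_of_le_of_lt degree_map_le (by rw [hΦm.degree_map]; exact hGdeg))
    have hdvd : C π ∣ G := by
      rw [C_dvd_iff_dvd_coeff]
      intro i
      apply (hker _).mp
      rw [← coeff_map, hGbar, coeff_zero]
    obtain ⟨G₁, hG₁⟩ := hdvd
    have hπF : algebraMap A F π ≠ 0 := by
      simpa using (FaithfulSMul.algebraMap_injective A F).ne hπ.ne_zero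
    have hah : a = algebraMap A F π * ((algebraMap A F π)⁻¹ * a) := by
      rw [mul_inv_cancel_left₀ hπF]
    generalize (algebraMap A F π)⁻¹ * a = h at hah
    have hh1 : h * aeval θ (derivative Φ) = aeval θ G₁ := by
      apply mul_left_cancel₀ hπF
      rw [← mul_assoc, ← hah, ← hG, hG₁, map_mul, aeval_C]
    have hder : aeval θbar ((derivative Φ).map red) ≠ 0 := by
      rw [← hρ, ← hu]; exact (u.isUnit.map ρ).ne_zero
    obtain ⟨U, V, d, hd, hUV⟩ := exists_bezout_of_irreducible (hΦm.map red) hΦirr hbar0 hder
    obtain ⟨B, rfl⟩ := map_surjective red hred U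
    obtain ⟨C', rfl⟩ := map_surjective red hred V
    obtain ⟨D, rfl⟩ := hred d
    have hE : C π ∣ B * derivative Φ + C' * Φ - C D := by
      rw [C_dvd_iff_dvd_coeff]
      intro i
      apply (hker _).mp
      rw [← coeff_map]
      simp [hUV]
    obtain ⟨E, hE⟩ := hE
    have hDh : IsIntegral A (algebraMap A F D * h) := by
      have key : algebraMap A F D * h = aeval θ B * aeval θ G₁ - aeval θ E * a := by
        have := congrArg (aeval θ) hE
        simp only [map_sub, map_add, map_mul, h0, aeval_C, mul_zero, add_zero] at this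
        rw [← hh1, hah]
        linear_combination (-h) * this
      rw [key]
      exact ((hθint B).mul (hθint G₁)).sub ((hθint E).mul ha)
    have hπh : IsIntegral A (algebraMap A F π * h) := hah ▸ ha
    have hnd : ¬ π ∣ D := fun hdvd => hd ((hker _).mpr hdvd)
    exact ⟨h, isIntegral_of_isIntegral_mul_of_prime hπ hnd hπh hDh, hah⟩

end Main

end Fermat.Agent.S28.helper25
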