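import Mathlib
import Fermat.Prelude.Def_ModularCurve_IgusaScheme
import Fermat.Prelude.Def_ModularCurve_X0ModL
import Fermat.Agent.S28.helper94_Zl
import Fermat.Agent.S28.helper25_QexpPrinciple

/-!
# S28-T3 `chart_qexp` (helper25)

For `x, θ` generating the modular function field `F = modularFunctionFieldFull N` over `ℚ`,
with `ℓ`-integral `q`-expansions `x₀, θ₀`, a monic relation `Φ(x₀, θ₀) = 0` over `ℤ_(ℓ)`
whose reduction mod `ℓ` is irreducible, `x₀ mod ℓ` transcendental and `Φ'(x₀, θ₀)` a unit: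
the integral closure `chartAlg N ℓ {x}` of `ℤ_(ℓ)[x]` in `F` has `ℓ`-integral `q`-expansions
(`φ`), and an element whose `q`-expansion vanishes mod `ℓ` is `ℓ` times an element of
`chartAlg N ℓ {x}`.

Main results: `chart_qexp_of_res` (any reduction map `r`), `chart_qexp` (with `helper94.resZl`),
`chart_qexp_pointwise`.  The algebra is in `helper25_QexpPrinciple.lean` (`qexp_principle`).
-/

set_option autoImplicit false
set_option linter.style.haveILetI false
set_option linter.unusedSectionVars false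
open ModularCurve ModularCurve.IgusaScheme Polynomial

noncomputable section
namespace Fermat.Agent.S28.helper25

open helper94 (Zl)

attribute [local instance] FractionRing.liftAlgebra FractionRing.isScalarTower_liftAlgebra

theorem algebraMap_laurent_eq_single {R : Type*} [CommRing R] (c : R) :
    algebraMap R (LaurentSeries R) c = HahnSeries.single 0 c := by
  have h1 : algebraMap R (PowerSeries R) c = PowerSeries.C c := by simp
  rw [HahnSeries.algebraMap_apply', h1, HahnSeries.ofPowerSeries_C]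
  rfl

theorem coeffMap_algebraMap_laurent {R S : Type*} [CommRing R] [CommRing S] (f : R →+* S) (c : R) :
    coeffMap f (algebraMap R (LaurentSeries R) c) = algebraMap S (LaurentSeries S) (f c) := by
  rw [algebraMap_laurent_eq_single, algebraMap_laurent_eq_single, coeffMap_single]

/-- compatibility of `coeffMap` with evaluation of polynomials -/
theorem coeffMap_aeval {R S : Type*} [CommRing R] [CommRing S] (f : R →+* S)
    (x₀ : LaurentSeries R) (p : R[X]) :
    coeffMap f (aeval x₀ p) = aeval (coeffMap f x₀) (p.map f) := by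
  have : (coeffMap f).comp (aeval x₀ : R[X] →ₐ[R] LaurentSeries R).toRingHom =
      ((aeval (coeffMap f x₀) : S[X] →ₐ[S] LaurentSeries S).toRingHom).comp (mapRingHom f) := by
    apply Polynomial.ringHom_ext
    · intro a
      simp [coeffMap_algebraMap_laurent]
    · simp
  exact congrArg (fun g => g p) this

/-- compatibility of `coeffMap` with evaluation of two-variable polynomials -/
theorem coeffMap_eval₂_aeval {R S : Type*} [CommRing R] [CommRing S] (f : R →+* S)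
    (x₀ θ₀ : LaurentSeries R) (G : R[X][X]) :
    coeffMap f (eval₂ ((aeval x₀ : R[X] →ₐ[R] LaurentSeries R) : R[X] →+* LaurentSeries R) θ₀ G) =
      eval₂ ((aeval (coeffMap f x₀) : S[X] →ₐ[S] LaurentSeries S) : S[X] →+* LaurentSeries S)
        (coeffMap f θ₀) (G.map (mapRingHom f)) := by
  rw [eval₂_map, hom_eval₂]
  congr 1
  apply Polynomial.ringHom_ext
  · intro a
    simp [coeffMap_algebraMap_laurent]
  · simp

/-- integrality only depends on the image of the base ring -/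
theorem isIntegralElem_of_range_le {R S T : Type*} [CommRing R] [CommRing S] [CommRing T]
    (f : R →+* T) (g : S →+* T) (h : ∀ r, f r ∈ Set.range g) {a : T}
    (ha : f.IsIntegralElem a) : g.IsIntegralElem a := by
  obtain ⟨p, hp, hpa⟩ := ha
  have hl : p.map f ∈ lifts g :=
    (lifts_iff_coeff_lifts _).mpr fun i => by rw [coeff_map]; exact h _
  obtain ⟨q, hq, -, hqm⟩ := lifts_and_natDegree_eq_and_monic hl (hp.map f)
  refine ⟨q, hqm, ?_⟩
  rw [← eval_map, hq, eval_map]; exact hpa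

section Concrete

variable (N : ℕ) [NeZero N] (ℓ : ℕ) [Fact ℓ.Prime]

/-- the kernel of reduction of polynomials is generated by `ℓ` -/
theorem mapRingHom_eq_zero_iff (r : Zl ℓ →+* ZMod ℓ)
    (hr0 : ∀ a : Zl ℓ, r a = 0 ↔ ∃ b : Zl ℓ, a = (ℓ : Zl ℓ) * b) (p : (Zl ℓ)[X]) :
    mapRingHom r p = 0 ↔ C (ℓ : Zl ℓ) ∣ p := by
  rw [C_dvd_iff_dvd_coeff, Polynomial.ext_iff]
  refine forall_congr' fun i => ?_
  rw [coe_mapRingHom, coeff_map, coeff_zero, hr0]
  rfl

theorem coe_algebraMap_igusa (a : Zl ℓ) :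
    ((algebraMap (Zl ℓ) ↥(modularFunctionFieldFull N) a : ↥(modularFunctionFieldFull N)) :
      LaurentSeries ℚ) = algebraMap ℚ (LaurentSeries ℚ) (algebraMap (Zl ℓ) ℚ a) := by
  rw [IsScalarTower.algebraMap_apply (Zl ℓ) ℚ ↥(modularFunctionFieldFull N)]
  simp

/-- the inclusion of the modular function field into Laurent series is compatible with
polynomial evaluation. -/
theorem coe_aeval_igusa (x : ↥(modularFunctionFieldFull N)) (p : (Zl ℓ)[X]) :
    ((aeval x p : ↥(modularFunctionFieldFull N)) : LaurentSeries ℚ) =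
      aeval (x : LaurentSeries ℚ) (p.map (algebraMap (Zl ℓ) ℚ)) := by
  have : (algebraMap ↥(modularFunctionFieldFull N) (LaurentSeries ℚ)).comp
      (aeval x : (Zl ℓ)[X] →ₐ[Zl ℓ] ↥(modularFunctionFieldFull N)).toRingHom =
      ((aeval (x : LaurentSeries ℚ) : ℚ[X] →ₐ[ℚ] LaurentSeries ℚ).toRingHom).comp
        (mapRingHom (algebraMap (Zl ℓ) ℚ)) := by
    apply Polynomial.ringHom_ext
    · intro a
      simp only [AlgHom.toRingHom_eq_coe, RingHom.coe_comp, RingHom.coe_coe, Function.comp_apply,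
        aeval_C, coe_mapRingHom, map_C, IntermediateField.algebraMap_apply]
      exact coe_algebraMap_igusa N ℓ a
    · simp [IntermediateField.algebraMap_apply]
  exact congrArg (fun g => g p) this

/-- the image of `x` under the inclusion is transcendental over `ℤ_(ℓ)` as soon as the
reduction of its expansion is transcendental over `𝔽_ℓ`. -/
theorem aeval_injective_of_transcendental_mod (r : Zl ℓ →+* ZMod ℓ)
    (hr0 : ∀ a : Zl ℓ, r a = 0 ↔ ∃ b : Zl ℓ, a = (ℓ : Zl ℓ) * b)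
    (x : ↥(modularFunctionFieldFull N)) (x₀ : LaurentSeries (Zl ℓ))
    (hx₀ : coeffMap (algebraMap (Zl ℓ) ℚ) x₀ = (x : LaurentSeries ℚ))
    (hxtr : Transcendental (ZMod ℓ) (coeffMap r x₀)) :
    Function.Injective (aeval x : (Zl ℓ)[X] →ₐ[Zl ℓ] ↥(modularFunctionFieldFull N)) := by
  have hPID := helper94.isPrincipalIdealRing_Zl ℓ
  rw [injective_iff_map_eq_zero]
  intro p hp
  by_contra hp0
  have hprime : Prime (C (ℓ : Zl ℓ)) := prime_C_iff.mpr (helper94.prime_ell_Zl ℓ)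
  obtain ⟨n, p', hp', rfl⟩ := WfDvdMonoid.max_power_factor hp0 hprime.irreducible
  apply hp'
  rw [← mapRingHom_eq_zero_iff ℓ r hr0]
  -- aeval x p' = 0
  have hℓF : (algebraMap (Zl ℓ) ↥(modularFunctionFieldFull N)) (ℓ : Zl ℓ) ≠ 0 := by
    rw [map_natCast]
    exact_mod_cast (Fact.out : ℓ.Prime).ne_zero
  have h1 : aeval x p' = 0 := by
    rw [map_mul, map_pow, aeval_C] at hp
    exact (mul_eq_zero.mp hp).resolve_left (pow_ne_zero _ hℓF)
  -- aeval x₀ p' = 0
  have h2 : aeval x₀ p' = 0 := by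
    apply helper94.coeffMap_algebraMap_injective ℓ
    rw [coeffMap_aeval, map_zero, hx₀, ← coe_aeval_igusa, h1, ZeroMemClass.coe_zero]
  have h3 := congrArg (coeffMap r) h2
  rw [coeffMap_aeval, map_zero] at h3
  exact transcendental_iff_injective.mp hxtr (by rw [coe_mapRingHom, h3, map_zero])

/-- generation over the fraction field of `ℤ_(ℓ)[X]` -/
theorem adjoin_fractionRing_eq_top (x θ : ↥(modularFunctionFieldFull N))
    (hgen : ∀ f : ↥(modularFunctionFieldFull N),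
      (f : LaurentSeries ℚ) ∈ IntermediateField.adjoin ℚ
        {(x : LaurentSeries ℚ), (θ : LaurentSeries ℚ)})
    (hinj : Function.Injective (aeval x : (Zl ℓ)[X] →ₐ[Zl ℓ] ↥(modularFunctionFieldFull N)))
    (hθ : (aeval x : (Zl ℓ)[X] →ₐ[Zl ℓ] ↥(modularFunctionFieldFull N)).toRingHom.IsIntegralElem θ) :
    letI : Algebra (Zl ℓ)[X] ↥(modularFunctionFieldFull N) :=
      (aeval x : (Zl ℓ)[X] →ₐ[Zl ℓ] ↥(modularFunctionFieldFull N)).toRingHom.toAlgebra
    haveI : FaithfulSMul (Zl ℓ)[X] ↥(modularFunctionFieldFull N) :=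
      (faithfulSMul_iff_algebraMap_injective _ _).mpr hinj
    Algebra.adjoin (FractionRing (Zl ℓ)[X]) {θ} = ⊤ := by
  letI : Algebra (Zl ℓ)[X] ↥(modularFunctionFieldFull N) :=
    (aeval x : (Zl ℓ)[X] →ₐ[Zl ℓ] ↥(modularFunctionFieldFull N)).toRingHom.toAlgebra
  haveI : FaithfulSMul (Zl ℓ)[X] ↥(modularFunctionFieldFull N) :=
    (faithfulSMul_iff_algebraMap_injective _ _).mpr hinj
  have hθint : IsIntegral (Zl ℓ)[X] θ := hθ
  have hθK : IsIntegral (FractionRing (Zl ℓ)[X]) θ := hθint.tower_top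
  rw [← IntermediateField.adjoin_simple_toSubalgebra_of_isAlgebraic hθK.isAlgebraic]
  rw [eq_top_iff]
  intro f _
  rw [IntermediateField.mem_toSubalgebra]
  -- the image subfield
  set S : Subfield (LaurentSeries ℚ) :=
    ((IntermediateField.adjoin (FractionRing (Zl ℓ)[X]) {θ}).toSubfield).map
      (algebraMap ↥(modularFunctionFieldFull N) (LaurentSeries ℚ)) with hS
  have hle : Subfield.closure (Set.range (algebraMap ℚ (LaurentSeries ℚ)) ∪
      {(x : LaurentSeries ℚ), (θ : LaurentSeries ℚ)}) ≤ S := by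
    rw [Subfield.closure_le]
    rintro y (⟨q, rfl⟩ | hy)
    · rw [eq_ratCast]
      exact SubfieldClass.ratCast_mem S q
    · rcases hy with rfl | rfl
      · refine ⟨x, ?_, rfl⟩
        change x ∈ IntermediateField.adjoin (FractionRing (Zl ℓ)[X]) {θ}
        have hx : x = algebraMap (FractionRing (Zl ℓ)[X]) ↥(modularFunctionFieldFull N)
            (algebraMap (Zl ℓ)[X] (FractionRing (Zl ℓ)[X]) X) := by
          rw [← IsScalarTower.algebraMap_apply]
          exact (aeval_X x).symm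
        rw [hx]
        exact IntermediateField.algebraMap_mem _ _
      · refine ⟨θ, ?_, rfl⟩
        exact IntermediateField.mem_adjoin_simple_self _ _
  obtain ⟨g, hg, hgf⟩ := hle (hgen f)
  have : g = f := Subtype.val_injective hgf
  rw [← this]
  exact hg

/-- pointwise form of `chart_qexp` -/
theorem chart_qexp_pointwise (r : Zl ℓ →+* ZMod ℓ) (hr : Function.Surjective r)
    (hr0 : ∀ a : Zl ℓ, r a = 0 ↔ ∃ b : Zl ℓ, a = (ℓ : Zl ℓ) * b)
    (x θ : ↥(modularFunctionFieldFull N))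
    (hgen : ∀ f : ↥(modularFunctionFieldFull N),
      (f : LaurentSeries ℚ) ∈ IntermediateField.adjoin ℚ
        {(x : LaurentSeries ℚ), (θ : LaurentSeries ℚ)})
    (x₀ θ₀ : LaurentSeries (Zl ℓ))
    (hx₀ : coeffMap (algebraMap (Zl ℓ) ℚ) x₀ = (x : LaurentSeries ℚ))
    (hθ₀ : coeffMap (algebraMap (Zl ℓ) ℚ) θ₀ = (θ : LaurentSeries ℚ))
    (hxtr : Transcendental (ZMod ℓ) (coeffMap r x₀))
    (Φ : Polynomial (Polynomial (Zl ℓ))) (hΦm : Φ.Monic)
    (hΦ0 : eval₂ ((aeval x₀ : Polynomial (Zl ℓ) →ₐ[Zl ℓ] LaurentSeries (Zl ℓ)) :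
        Polynomial (Zl ℓ) →+* LaurentSeries (Zl ℓ)) θ₀ Φ = 0)
    (hΦirr : Irreducible (Φ.map (Polynomial.mapRingHom r)))
    (hunit : IsUnit (eval₂ ((aeval x₀ : Polynomial (Zl ℓ) →ₐ[Zl ℓ] LaurentSeries (Zl ℓ)) :
        Polynomial (Zl ℓ) →+* LaurentSeries (Zl ℓ)) θ₀ (derivative Φ)))
    (a : ↥(modularFunctionFieldFull N)) (ha : a ∈ chartAlg N ℓ {x}) :
    ∃ c : LaurentSeries (Zl ℓ),
      coeffMap (algebraMap (Zl ℓ) ℚ) c = (a : LaurentSeries ℚ) ∧
      (coeffMap r c = 0 → ∃ h : ↥(modularFunctionFieldFull N),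
        h ∈ chartAlg N ℓ {x} ∧ a = (ℓ : Zl ℓ) • h) := by
  have hPID := helper94.isPrincipalIdealRing_Zl ℓ
  have hinj := aeval_injective_of_transcendental_mod N ℓ r hr0 x x₀ hx₀ hxtr
  letI algA : Algebra (Zl ℓ)[X] ↥(modularFunctionFieldFull N) :=
    (aeval x : (Zl ℓ)[X] →ₐ[Zl ℓ] ↥(modularFunctionFieldFull N)).toRingHom.toAlgebra
  haveI : FaithfulSMul (Zl ℓ)[X] ↥(modularFunctionFieldFull N) :=
    (faithfulSMul_iff_algebraMap_injective _ _).mpr hinj
  letI algAbar : Algebra (ZMod ℓ)[X] (LaurentSeries (ZMod ℓ)) :=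
    (aeval (coeffMap r x₀) : (ZMod ℓ)[X] →ₐ[ZMod ℓ] LaurentSeries (ZMod ℓ)).toRingHom.toAlgebra
  haveI : FaithfulSMul (ZMod ℓ)[X] (LaurentSeries (ZMod ℓ)) :=
    (faithfulSMul_iff_algebraMap_injective _ _).mpr (transcendental_iff_injective.mp hxtr)
  have halg : ∀ p : (Zl ℓ)[X], algebraMap (Zl ℓ)[X] ↥(modularFunctionFieldFull N) p =
      aeval x p := fun p => rfl
  -- compatibility of expansions
  have hι : ∀ G : (Zl ℓ)[X][X],
      coeffMap (algebraMap (Zl ℓ) ℚ)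
        (eval₂RingHom ((aeval x₀ : (Zl ℓ)[X] →ₐ[Zl ℓ] LaurentSeries (Zl ℓ)) :
          (Zl ℓ)[X] →+* LaurentSeries (Zl ℓ)) θ₀ G) =
      algebraMap ↥(modularFunctionFieldFull N) (LaurentSeries ℚ) (aeval θ G) := by
    intro G
    rw [coe_eval₂RingHom, coeffMap_eval₂_aeval, hx₀, hθ₀, aeval_def, hom_eval₂, eval₂_map]
    congr 1
    apply Polynomial.ringHom_ext
    · intro c
      simp only [RingHom.coe_comp, Function.comp_apply, coe_mapRingHom, map_C,
        RingHom.coe_coe, aeval_C, IntermediateField.algebraMap_apply]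
      rw [halg, aeval_C]
      exact (coe_algebraMap_igusa N ℓ c).symm
    · simp only [RingHom.coe_comp, Function.comp_apply, coe_mapRingHom, map_X,
        RingHom.coe_coe, aeval_X, IntermediateField.algebraMap_apply]
      rw [halg, aeval_X]
  have hρ : ∀ G : (Zl ℓ)[X][X],
      coeffMap r
        (eval₂RingHom ((aeval x₀ : (Zl ℓ)[X] →ₐ[Zl ℓ] LaurentSeries (Zl ℓ)) :
          (Zl ℓ)[X] →+* LaurentSeries (Zl ℓ)) θ₀ G) =
      aeval (coeffMap r θ₀) (G.map (mapRingHom r)) := by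
    intro G
    rw [coe_eval₂RingHom, coeffMap_eval₂_aeval, aeval_def]
    rfl
  have hθint : IsIntegral (Zl ℓ)[X] θ := by
    refine ⟨Φ, hΦm, ?_⟩
    have h1 := hι Φ
    rw [coe_eval₂RingHom, hΦ0, map_zero] at h1
    have h2 : aeval θ Φ = 0 := by
      apply Subtype.val_injective
      rw [IntermediateField.algebraMap_apply] at h1
      rw [← h1]; rfl
    exact h2
  have hgen' := adjoin_fractionRing_eq_top N ℓ x θ hgen hinj hθint
  have haA : IsIntegral (Zl ℓ)[X] a := by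
    refine isIntegralElem_of_range_le (algebraMap (Algebra.adjoin (Zl ℓ) {x}) _) _ ?_ ha
    rintro ⟨y, hy⟩
    rw [Algebra.adjoin_singleton_eq_range_aeval] at hy
    obtain ⟨p, rfl⟩ := hy
    exact ⟨p, rfl⟩
  obtain ⟨c, hc1, hc2⟩ := qexp_principle (mapRingHom r) (map_surjective r hr) (C (ℓ : Zl ℓ))
    (prime_C_iff.mpr (helper94.prime_ell_Zl ℓ)) (mapRingHom_eq_zero_iff ℓ r hr0) θ hgen'
    (coeffMap r θ₀)
    (eval₂RingHom ((aeval x₀ : (Zl ℓ)[X] →ₐ[Zl ℓ] LaurentSeries (Zl ℓ)) :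
          (Zl ℓ)[X] →+* LaurentSeries (Zl ℓ)) θ₀)
    (coeffMap (algebraMap (Zl ℓ) ℚ))
    (algebraMap ↥(modularFunctionFieldFull N) (LaurentSeries ℚ))
    (algebraMap ↥(modularFunctionFieldFull N) (LaurentSeries ℚ)).injective
    hι (coeffMap r) hρ Φ hΦm (by rw [coe_eval₂RingHom]; exact hΦ0) hΦirr
    (by rw [coe_eval₂RingHom]; exact hunit) a haA
  refine ⟨c, by rw [hc1, IntermediateField.algebraMap_apply], fun hc => ?_⟩
  obtain ⟨h, hh1, hh2⟩ := hc2 hc
  refine ⟨h, ?_, ?_⟩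
  · rw [mem_chartAlg_iff]
    refine isIntegralElem_of_range_le (algebraMap (Zl ℓ)[X] _)
      (algebraMap (Algebra.adjoin (Zl ℓ) {x}) ↥(modularFunctionFieldFull N)) ?_ hh1
    intro p
    refine ⟨⟨aeval x p, ?_⟩, rfl⟩
    rw [Algebra.adjoin_singleton_eq_range_aeval]
    exact ⟨p, rfl⟩
  · rw [hh2, Algebra.smul_def]
    congr 1
    exact aeval_C x _

/-- **S28-T3 `chart_qexp`**, for an arbitrary reduction map `r : ℤ_(ℓ) → 𝔽_ℓ` with kernel
`ℓ ℤ_(ℓ)`: the integral closure `chartAlg N ℓ {x}` of `ℤ_(ℓ)[x]` in the modular function field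
has `ℓ`-integral `q`-expansions, and the kernel of the reduction of the `q`-expansion
is `ℓ · chartAlg`. -/
theorem chart_qexp_of_res (r : Zl ℓ →+* ZMod ℓ) (hr : Function.Surjective r)
    (hr0 : ∀ a : Zl ℓ, r a = 0 ↔ ∃ b : Zl ℓ, a = (ℓ : Zl ℓ) * b)
    (x θ : ↥(modularFunctionFieldFull N))
    (hgen : ∀ f : ↥(modularFunctionFieldFull N),
      (f : LaurentSeries ℚ) ∈ IntermediateField.adjoin ℚ
        {(x : LaurentSeries ℚ), (θ : LaurentSeries ℚ)})
    (x₀ θ₀ : LaurentSeries (Zl ℓ))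
    (hx₀ : coeffMap (algebraMap (Zl ℓ) ℚ) x₀ = (x : LaurentSeries ℚ))
    (hθ₀ : coeffMap (algebraMap (Zl ℓ) ℚ) θ₀ = (θ : LaurentSeries ℚ))
    (hxtr : Transcendental (ZMod ℓ) (coeffMap r x₀))
    (Φ : Polynomial (Polynomial (Zl ℓ))) (hΦm : Φ.Monic)
    (hΦ0 : eval₂ ((aeval x₀ : Polynomial (Zl ℓ) →ₐ[Zl ℓ] LaurentSeries (Zl ℓ)) :
        Polynomial (Zl ℓ) →+* LaurentSeries (Zl ℓ)) θ₀ Φ = 0)
    (hΦirr : Irreducible (Φ.map (Polynomial.mapRingHom r)))
    (hunit : IsUnit (eval₂ ((aeval x₀ : Polynomial (Zl ℓ) →ₐ[Zl ℓ] LaurentSeries (Zl ℓ)) :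
        Polynomial (Zl ℓ) →+* LaurentSeries (Zl ℓ)) θ₀ (derivative Φ))) :
    ∃ φ : chartAlg N ℓ {x} →+* LaurentSeries (Zl ℓ),
      (∀ a, coeffMap (algebraMap (Zl ℓ) ℚ) (φ a) =
        ((a : ↥(modularFunctionFieldFull N)) : LaurentSeries ℚ)) ∧
      (∀ a, coeffMap r (φ a) = 0 → ∃ b : chartAlg N ℓ {x}, a = (ℓ : Zl ℓ) • b) := by
  have key := fun (a : chartAlg N ℓ {x}) =>
    chart_qexp_pointwise N ℓ r hr hr0 x θ hgen x₀ θ₀ hx₀ hθ₀ hxtr Φ hΦm hΦ0 hΦirr hunit a.1 a.2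
  choose f hf1 hf2 using key
  have hinj := helper94.coeffMap_algebraMap_injective ℓ
  refine ⟨{ toFun := f, map_one' := ?_, map_mul' := ?_, map_zero' := ?_, map_add' := ?_ },
    ?_, ?_⟩
  · apply hinj
    rw [hf1, map_one]; rfl
  · intro a b
    apply hinj
    rw [hf1, map_mul, hf1, hf1]; rfl
  · apply hinj
    rw [hf1, map_zero]; rfl
  · intro a b
    apply hinj
    rw [hf1, map_add, hf1, hf1]; rfl
  · intro a
    exact hf1 a
  · intro a ha
    obtain ⟨h, hh1, hh2⟩ := hf2 a ha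
    exact ⟨⟨h, hh1⟩, Subtype.ext hh2⟩

/-- **S28-T3 `chart_qexp`** in the form of `helper28_Plan` (with `resZl` of `helper94`). -/
theorem chart_qexp (x θ : ↥(modularFunctionFieldFull N))
    (hgen : ∀ f : ↥(modularFunctionFieldFull N),
      (f : LaurentSeries ℚ) ∈ IntermediateField.adjoin ℚ
        {(x : LaurentSeries ℚ), (θ : LaurentSeries ℚ)})
    (x₀ θ₀ : LaurentSeries (Zl ℓ))
    (hx₀ : coeffMap (algebraMap (Zl ℓ) ℚ) x₀ = (x : LaurentSeries ℚ))
    (hθ₀ : coeffMap (algebraMap (Zl ℓ) ℚ) θ₀ = (θ : LaurentSeries ℚ))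
    (hxtr : Transcendental (ZMod ℓ) (coeffMap (helper94.resZl ℓ) x₀))
    (Φ : Polynomial (Polynomial (Zl ℓ))) (hΦm : Φ.Monic)
    (hΦ0 : eval₂ ((aeval x₀ : Polynomial (Zl ℓ) →ₐ[Zl ℓ] LaurentSeries (Zl ℓ)) :
        Polynomial (Zl ℓ) →+* LaurentSeries (Zl ℓ)) θ₀ Φ = 0)
    (hΦirr : Irreducible (Φ.map (Polynomial.mapRingHom (helper94.resZl ℓ))))
    (hunit : IsUnit (eval₂ ((aeval x₀ : Polynomial (Zl ℓ) →ₐ[Zl ℓ] LaurentSeries (Zl ℓ)) :
        Polynomial (Zl ℓ) →+* LaurentSeries (Zl ℓ)) θ₀ (derivative Φ))) :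
    ∃ φ : chartAlg N ℓ {x} →+* LaurentSeries (Zl ℓ),
      (∀ a, coeffMap (algebraMap (Zl ℓ) ℚ) (φ a) =
        ((a : ↥(modularFunctionFieldFull N)) : LaurentSeries ℚ)) ∧
      (∀ a, coeffMap (helper94.resZl ℓ) (φ a) = 0 →
        ∃ b : chartAlg N ℓ {x}, a = (ℓ : Zl ℓ) • b) :=
  chart_qexp_of_res N ℓ (helper94.resZl ℓ) (helper94.resZl_surjective ℓ)
    (helper94.resZl_eq_zero_iff ℓ) x θ hgen x₀ θ₀ hx₀ hθ₀ hxtr Φ hΦm hΦ0 hΦirr hunit

end Concrete

end Fermat.Agent.S28.helper25
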