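import Mathlib
import Fermat.Prelude.Def_ModularCurve_IgusaScheme
import Fermat.Prelude.Def_ModularCurve_X0ModL
import Fermat.Agent.S28.helper81_Laurent
import Fermat.Agent.S28.helper81_ATStatement
import Fermat.Agent.S28.helper81_Reduce

/-!
# S28 (helper81): the derivative of the modular equation at `Θ` has leading coefficient `1`

For the data `D : ConjData N`, with `∏ i, (T - E i Θ) = P(x, T)`, the value
`P_T(x, E i₀ Θ) = ∏_{i ≠ i₀} (E i₀ Θ - E i Θ)` has lowest term `t ^ (-N² (n - 1))` with
coefficient `1`.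
-/

set_option autoImplicit false

open Polynomial ModularCurve

noncomputable section

namespace Fermat.Agent.S28.helper81

section General

variable (R : Type*) [CommRing R]

theorem coeff_qExpand_jqModC_top (M : ℕ) [NeZero M] :
    (qExpand R M (jqModC R)).coeff (-(M : ℤ)) = 1 := by
  have := qExpand_coeff_mul (R := R) M (jqModC R) (-1)
  rw [show (M : ℤ) * -1 = -(M : ℤ) by ring] at this
  rw [this, coeff_jqModC_neg_one]

theorem coeff_qExpand_jqModC_of_lt (M : ℕ) [NeZero M] {m : ℤ} (hm : m < -(M : ℤ)) :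
    (qExpand R M (jqModC R)).coeff m = 0 := by
  by_cases hd : (M : ℤ) ∣ m
  · obtain ⟨c, rfl⟩ := hd
    rw [qExpand_coeff_mul]
    apply coeff_jqModC_of_lt
    have hM : (0 : ℤ) < M := by exact_mod_cast Nat.pos_of_ne_zero (NeZero.ne M)
    nlinarith
  · exact qExpand_coeff_of_not_dvd M _ hd

/-- `qExpand` commutes with `aeval` -/
theorem qExpand_comp_aeval (M : ℕ) [NeZero M] (x : LaurentSeries R) :
    (qExpand R M).comp
        ((aeval x : Polynomial R →ₐ[R] LaurentSeries R) : Polynomial R →+* LaurentSeries R) =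
      ((aeval (qExpand R M x) : Polynomial R →ₐ[R] LaurentSeries R) :
        Polynomial R →+* LaurentSeries R) := by
  apply Polynomial.ringHom_ext
  · intro a
    simp only [RingHom.comp_apply, RingHom.coe_coe, aeval_C, algebraMap_eq_C, qExpand_C]
  · simp only [RingHom.comp_apply, RingHom.coe_coe, aeval_X]

end General

section LeadingProd

variable {k : Type*} [Field k]

/-- a finite product of Laurent series of order `n₀` with leading coefficient `1` -/
theorem order_leadingCoeff_prod {ι : Type*} (s : Finset ι) (f : ι → LaurentSeries k) (n₀ : ℤ)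
    (h1 : ∀ b ∈ s, (f b).coeff n₀ = 1) (h2 : ∀ b ∈ s, ∀ m < n₀, (f b).coeff m = 0) :
    (∏ b ∈ s, f b).coeff (s.card • n₀) = 1 ∧ ∀ m < s.card • n₀, (∏ b ∈ s, f b).coeff m = 0 := by
  classical
  have key : ∀ b ∈ s, (f b).order = n₀ ∧ (f b).leadingCoeff = 1 := by
    intro b hb
    have ho : (f b).order = n₀ :=
      order_eq_of_coeff _ _ (by rw [h1 b hb]; exact one_ne_zero) (h2 b hb)
    exact ⟨ho, by rw [HahnSeries.leadingCoeff_eq, ho, h1 b hb]⟩
  have main : (∏ b ∈ s, f b).order = s.card • n₀ ∧ (∏ b ∈ s, f b).leadingCoeff = 1 := by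
    clear h1 h2
    induction s using Finset.induction_on with
    | empty => simp
    | insert a s ha ih =>
      have iha := ih (fun b hb => key b (Finset.mem_insert_of_mem hb))
      have hka := key a (Finset.mem_insert_self a s)
      rw [Finset.prod_insert ha, Finset.card_insert_of_notMem ha]
      have hfa : f a ≠ 0 := by
        intro h0
        have := hka.2
        rw [h0, HahnSeries.leadingCoeff_zero] at this
        exact zero_ne_one this
      have hprod : ∏ b ∈ s, f b ≠ 0 := by
        intro h0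
        have := iha.2
        rw [h0, HahnSeries.leadingCoeff_zero] at this
        exact zero_ne_one this
      constructor
      · rw [HahnSeries.order_mul hfa hprod, hka.1, iha.1, succ_nsmul]
        ring
      · rw [HahnSeries.leadingCoeff_mul, hka.2, iha.2, one_mul]
  constructor
  · have := main.2
    rw [HahnSeries.leadingCoeff_eq, main.1] at this
    exact this
  · intro m hm
    apply HahnSeries.coeff_eq_zero_of_lt_order
    rw [main.1]
    exact hm

end LeadingProd

section Deriv

variable {N : ℕ} [NeZero N] (D : ConjData N)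

theorem ConjData.E_i₀_Theta : D.E D.i₀ (D.Jd N) = qExpand ℂ (N * N) (jqModC ℂ) :=
  D.hJd N dvd_rfl inferInstance

/-- the value of the derivative of the characteristic polynomial at the root `E i₀ Θ` -/
theorem ConjData.eval_derivative (P : Polynomial (Polynomial ℂ))
    (hP : (∏ i, (X - C (D.E i (D.Jd N)))) =
      P.map ((aeval (xC N) : Polynomial ℂ →ₐ[ℂ] LaurentSeries ℂ) :
          Polynomial ℂ →+* LaurentSeries ℂ)) :
    eval₂ ((aeval (xC N) : Polynomial ℂ →ₐ[ℂ] LaurentSeries ℂ) :
          Polynomial ℂ →+* LaurentSeries ℂ) (D.E D.i₀ (D.Jd N)) (derivative P) =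
      ∏ i ∈ Finset.univ.erase D.i₀, (D.E D.i₀ (D.Jd N) - D.E i (D.Jd N)) := by
  classical
  rw [← Polynomial.eval_map, ← Polynomial.derivative_map, ← hP, Polynomial.derivative_prod_finset,
    Polynomial.eval_finset_sum]
  rw [Finset.sum_eq_single D.i₀]
  · simp [Polynomial.eval_prod]
  · intro b _ hb
    rw [Polynomial.eval_mul, Polynomial.eval_prod]
    rw [Finset.prod_eq_zero (i := D.i₀) (Finset.mem_erase.mpr ⟨hb.symm, Finset.mem_univ _⟩)
      (by simp), zero_mul]
  · intro h
    exact absurd (Finset.mem_univ _) h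

/-- the root `E i₀ Θ` of the characteristic polynomial -/
theorem ConjData.eval_root (P : Polynomial (Polynomial ℂ))
    (hP : (∏ i, (X - C (D.E i (D.Jd N)))) =
      P.map ((aeval (xC N) : Polynomial ℂ →ₐ[ℂ] LaurentSeries ℂ) :
          Polynomial ℂ →+* LaurentSeries ℂ)) :
    eval₂ ((aeval (xC N) : Polynomial ℂ →ₐ[ℂ] LaurentSeries ℂ) :
          Polynomial ℂ →+* LaurentSeries ℂ) (D.E D.i₀ (D.Jd N)) P = 0 := by
  classical
  rw [← Polynomial.eval_map, ← hP, Polynomial.eval_prod]
  exact Finset.prod_eq_zero (i := D.i₀) (Finset.mem_univ _) (by simp)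

theorem ConjData.coeff_eval_derivative (P : Polynomial (Polynomial ℂ))
    (hP : (∏ i, (X - C (D.E i (D.Jd N)))) =
      P.map ((aeval (xC N) : Polynomial ℂ →ₐ[ℂ] LaurentSeries ℂ) :
          Polynomial ℂ →+* LaurentSeries ℂ)) :
    (eval₂ ((aeval (xC N) : Polynomial ℂ →ₐ[ℂ] LaurentSeries ℂ) :
          Polynomial ℂ →+* LaurentSeries ℂ) (D.E D.i₀ (D.Jd N)) (derivative P)).coeff
        ((Fintype.card D.I - 1) • (-((N * N : ℕ) : ℤ))) = 1 ∧
    ∀ m < (Fintype.card D.I - 1) • (-((N * N : ℕ) : ℤ)),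
      (eval₂ ((aeval (xC N) : Polynomial ℂ →ₐ[ℂ] LaurentSeries ℂ) :
          Polynomial ℂ →+* LaurentSeries ℂ) (D.E D.i₀ (D.Jd N)) (derivative P)).coeff m = 0 := by
  classical
  rw [D.eval_derivative P hP]
  have hcard : (Finset.univ.erase D.i₀).card = Fintype.card D.I - 1 := by
    rw [Finset.card_erase_of_mem (Finset.mem_univ _), Finset.card_univ]
  rw [← hcard]
  have hN0 : 0 < N := Nat.pos_of_ne_zero (NeZero.ne N)
  have hlow : ∀ i, i ≠ D.i₀ → ∀ m ≤ -((N * N : ℕ) : ℤ), (D.E i (D.Jd N)).coeff m = 0 := by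
    intro i hi m hm
    obtain ⟨p, hp, hpE⟩ := D.hΘ i
    rw [hpE]
    apply coeff_single_mul_ofPowerSeries_of_lt
    have ha : D.a i < N := by
      have hle := Nat.le_of_dvd hN0 (D.ha i)
      exact lt_of_le_of_ne hle (fun h => hi (D.ha₀ i h))
    have : ((D.a i : ℤ)) ^ 2 < ((N * N : ℕ) : ℤ) := by
      have h1 : (D.a i) ^ 2 < N * N := by nlinarith
      exact_mod_cast h1
    omega
  apply order_leadingCoeff_prod
  · intro b hb
    have hb' : b ≠ D.i₀ := (Finset.mem_erase.mp hb).1
    rw [HahnSeries.coeff_sub, hlow b hb' _ le_rfl, sub_zero, D.E_i₀_Theta]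
    exact coeff_qExpand_jqModC_top ℂ (N * N)
  · intro b hb m hm
    have hb' : b ≠ D.i₀ := (Finset.mem_erase.mp hb).1
    rw [HahnSeries.coeff_sub, hlow b hb' _ hm.le, sub_zero, D.E_i₀_Theta]
    exact coeff_qExpand_jqModC_of_lt ℂ (N * N) hm

end Deriv

end Fermat.Agent.S28.helper81
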