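import Mathlib
import Fermat.Prelude.Def_ModularCurve_IgusaScheme
import Fermat.Prelude.Def_ModularCurve_X0ModL
import Fermat.Agent.S28.helper94_Zl
import Fermat.Agent.S28.helper25_ChartQexp
import Fermat.Agent.S28.helper81_Laurent
import Fermat.Agent.S28.helper81_InfMid
import Fermat.Agent.S28.helper81_ATStatement
import Fermat.Agent.S28.helper81_Reduce
import Fermat.Agent.S28.helper81_ResidueField
import Fermat.Agent.S28.helper81_Deriv

/-!
# S28 (helper81): assembly — from the analytic theorem to the q-expansion property of the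
finite chart

Inputs (as hypotheses, to be discharged by the landed theorems):
* `DescentStatement` (task 201), `LagrangeStatement` (task 202),
* the analytic data `D : ConjData N`.

Output: `HasQexp N ℓ (chartAlgFin N ℓ)`.
-/

set_option autoImplicit false

open Polynomial ModularCurve ModularCurve.IgusaScheme

noncomputable section

namespace Fermat.Agent.S28.helper81

open Fermat.Agent.S28.helper94

/-- the statement of the descent lemma (task 201, `rational_of_eval_rational`) -/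
def DescentStatement : Prop :=
  ∀ (x θ y : LaurentSeries ℚ), x.order < 0 →
    ∀ (P : Polynomial (Polynomial ℂ)), P.Monic → Irreducible P →
    eval₂ ((aeval (coeffEmb ℂ x) : Polynomial ℂ →ₐ[ℂ] LaurentSeries ℂ) :
      Polynomial ℂ →+* LaurentSeries ℂ) (coeffEmb ℂ θ) P = 0 →
    ∀ (R : Polynomial (Polynomial ℂ)),
    eval₂ ((aeval (coeffEmb ℂ x) : Polynomial ℂ →ₐ[ℂ] LaurentSeries ℂ) :
      Polynomial ℂ →+* LaurentSeries ℂ) (coeffEmb ℂ θ) R = coeffEmb ℂ y →
    (R.natDegree < P.natDegree ∨ (R.Monic ∧ R.natDegree = P.natDegree)) →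
    ∃ R₀ : Polynomial (Polynomial ℚ),
      R₀.map (Polynomial.mapRingHom (algebraMap ℚ ℂ)) = R

/-- the statement of the Lagrange interpolation lemma (task 202, `lagrange_conj`) -/
def LagrangeStatement : Prop :=
  ∀ {k : Type} [Field k] {I : Type} [Fintype I] [DecidableEq I] (i₀ : I)
    {G : Type} [CommRing G] (E : I → G →+* LaurentSeries k) (x : LaurentSeries k),
    (∀ g : G, ∃ P : Polynomial (Polynomial k),
      (∏ i, (X - C (E i g))) = P.map ((aeval x : Polynomial k →ₐ[k] LaurentSeries k) :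
        Polynomial k →+* LaurentSeries k)) →
    ∀ (Θ g : G) (P : Polynomial (Polynomial k)),
    (∏ i, (X - C (E i Θ))) = P.map ((aeval x : Polynomial k →ₐ[k] LaurentSeries k) :
        Polynomial k →+* LaurentSeries k) →
    ∃ R : Polynomial (Polynomial k), R.natDegree < Fintype.card I ∧
      E i₀ g * eval₂ ((aeval x : Polynomial k →ₐ[k] LaurentSeries k) :
        Polynomial k →+* LaurentSeries k) (E i₀ Θ) (derivative P) =
      eval₂ ((aeval x : Polynomial k →ₐ[k] LaurentSeries k) :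
        Polynomial k →+* LaurentSeries k) (E i₀ Θ) R

section General

theorem map_mapRingHom_comp {A B C : Type*} [CommRing A] [CommRing B] [CommRing C]
    (f : A →+* B) (g : B →+* C) (P : Polynomial (Polynomial A)) :
    (P.map (Polynomial.mapRingHom f)).map (Polynomial.mapRingHom g) =
      P.map (Polynomial.mapRingHom (g.comp f)) := by
  rw [Polynomial.map_map]
  congr 1
  exact RingHom.ext fun p => Polynomial.map_map f g p

theorem coeffEmb_qExpand_jq (M : ℕ) [NeZero M] :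
    coeffEmb ℂ (qExpand ℚ M jq) = qExpand ℂ M (jqModC ℂ) := by
  rw [coeffEmb, coeffMap_qExpand, ← jqModC_rat, coeffMap_jqModC]

end General

variable {N : ℕ} [NeZero N] (D : ConjData N) (ℓ : ℕ) [Fact ℓ.Prime]

theorem xC_order_neg (N : ℕ) [NeZero N] : (xC N).order < 0 := by
  rw [xC, order_qExpand_jqModC]
  have : (0 : ℤ) < N := by exact_mod_cast Nat.pos_of_ne_zero (NeZero.ne N)
  omega

/-- the characteristic polynomial of `Θ` over `ℂ`, with its basic properties -/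
theorem ConjData.exists_charpoly (hℓN : ¬ ℓ ∣ N) :
    ∃ P : Polynomial (Polynomial ℂ),
      (∀ k l, (P.coeff k).coeff l ∈ intClosureC ℓ) ∧
      (∏ i, (X - C (D.E i (D.Jd N)))) =
        P.map ((aeval (xC N) : Polynomial ℂ →ₐ[ℂ] LaurentSeries ℂ) :
          Polynomial ℂ →+* LaurentSeries ℂ) ∧
      P.Monic ∧ P.natDegree = Fintype.card D.I ∧ Irreducible P := by
  classical
  have hN0 : N ≠ 0 := NeZero.ne N
  have hζ := zetaC_mem_intClosureC ℓ N
  have hNinv := natCast_inv_mem_intClosureC ℓ N hℓN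
  have hmemΘ : ∀ i n, (D.E i (D.Jd N)).coeff n ∈ intClosureC ℓ := fun i n =>
    ((D.hS (intClosureC ℓ) hζ hNinv i n).2 N dvd_rfl).1
  obtain ⟨P, hPc, hP⟩ := D.hchar (intClosureC ℓ) (D.Jd N) hmemΘ
  have hinj : Function.Injective ((aeval (xC N) : Polynomial ℂ →ₐ[ℂ] LaurentSeries ℂ) :
          Polynomial ℂ →+* LaurentSeries ℂ) :=
    aeval_injective_of_order_neg (xC N) (xC_order_neg N)
  have hmonic' : (∏ i, (X - C (D.E i (D.Jd N)))).Monic :=
    Polynomial.monic_prod_of_monic _ _ (fun i _ => Polynomial.monic_X_sub_C _)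
  have hmonic : P.Monic := by
    apply Polynomial.monic_of_injective hinj
    rw [← hP]
    exact hmonic'
  have hdeg : P.natDegree = Fintype.card D.I := by
    rw [← Polynomial.natDegree_map_eq_of_injective hinj, ← hP,
      Polynomial.natDegree_prod_of_monic _ _ (fun i _ => Polynomial.monic_X_sub_C _)]
    simp
  refine ⟨P, hPc, hP, hmonic, hdeg, ?_⟩
  -- irreducibility over `ℂ` via `S = ⊤`
  obtain ⟨Q, hQ⟩ := exists_lift_poly₂ (⊤ : Subring ℂ) P (fun _ _ => Subring.mem_top _)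
  have hNC : ((N : ℕ) : ℂ) ≠ 0 := by exact_mod_cast hN0
  have h := D.irreducible_reduction (⊤ : Subring ℂ) (Subring.mem_top _) (Subring.mem_top _)
    (ρ := (Subring.topEquiv : (⊤ : Subring ℂ) ≃+* ℂ).toRingHom)
    (Subring.topEquiv : (⊤ : Subring ℂ) ≃+* ℂ).surjective hNC Q (by rw [hQ]; exact hP)
  have heq : ((Subring.topEquiv : (⊤ : Subring ℂ) ≃+* ℂ).toRingHom) =
      (⊤ : Subring ℂ).subtype := rfl
  rw [heq, hQ] at h
  exact h

theorem order_qExpand_jq_neg (M : ℕ) [NeZero M] : (qExpand ℚ M jq).order < 0 := by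
  rw [← jqModC_rat, order_qExpand_jqModC]
  have : (0 : ℤ) < M := by exact_mod_cast Nat.pos_of_ne_zero (NeZero.ne M)
  omega

theorem ConjData.coeffEmb_theta : coeffEmb ℂ (qExpand ℚ (N * N) jq) = D.E D.i₀ (D.Jd N) := by
  rw [coeffEmb_qExpand_jq, D.E_i₀_Theta]

/-- the modular equation with coefficients in `ℤ_(ℓ)` -/
theorem ConjData.exists_Phi (hℓN : ¬ ℓ ∣ N) (hD : DescentStatement) :
    ∃ Φ : Polynomial (Polynomial (Zl ℓ)),
      (∏ i, (X - C (D.E i (D.Jd N)))) =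
        (Φ.map (Polynomial.mapRingHom (algebraMap (Zl ℓ) ℂ))).map
          ((aeval (xC N) : Polynomial ℂ →ₐ[ℂ] LaurentSeries ℂ) :
            Polynomial ℂ →+* LaurentSeries ℂ) ∧
      Φ.Monic ∧ Φ.natDegree = Fintype.card D.I ∧
      Irreducible (Φ.map (Polynomial.mapRingHom (algebraMap (Zl ℓ) ℂ))) := by
  classical
  obtain ⟨P, hPc, hP, hPm, hPdeg, hPirr⟩ := D.exists_charpoly ℓ hℓN
  have hroot := D.eval_root P hP
  have hP0 : eval₂ ((aeval (coeffEmb ℂ (qExpand ℚ N jq)) : Polynomial ℂ →ₐ[ℂ] LaurentSeries ℂ) :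
      Polynomial ℂ →+* LaurentSeries ℂ) (coeffEmb ℂ (qExpand ℚ (N * N) jq)) P = 0 := by
    rw [D.coeffEmb_theta, coeffEmb_qExpand_jq]
    exact hroot
  obtain ⟨P₀, hP₀⟩ := hD (qExpand ℚ N jq) (qExpand ℚ (N * N) jq) 0 (order_qExpand_jq_neg N)
    P hPm hPirr hP0 P (by rw [hP0, map_zero]) (Or.inr ⟨hPm, rfl⟩)
  have hcoef : ∀ k l, (P₀.coeff k).coeff l ∈ GaloisRep.ratLocalizedAt ℓ := by
    intro k l
    rw [← ratCast_mem_intClosureC_iff]
    have := hPc k l
    rw [← hP₀, Polynomial.coeff_map, Polynomial.coe_mapRingHom, Polynomial.coeff_map] at this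
    simpa using this
  obtain ⟨Φ, hΦ⟩ := exists_lift_poly₂ (GaloisRep.ratLocalizedAt ℓ) P₀ hcoef
  have hΦP : Φ.map (Polynomial.mapRingHom (algebraMap (Zl ℓ) ℂ)) = P := by
    rw [← hP₀, ← hΦ, map_mapRingHom_comp]
    rfl
  have hinj : Function.Injective (Polynomial.mapRingHom (algebraMap (Zl ℓ) ℂ)) :=
    Polynomial.map_injective _ (FaithfulSMul.algebraMap_injective (Zl ℓ) ℂ)
  refine ⟨Φ, by rw [hΦP]; exact hP, ?_, ?_, by rw [hΦP]; exact hPirr⟩
  · apply Polynomial.monic_of_injective hinj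
    rw [hΦP]; exact hPm
  · rw [← Polynomial.natDegree_map_eq_of_injective hinj, hΦP, hPdeg]

section Psi

variable (N)

/-- the embedding `ℤ_(ℓ)((q)) → ℂ((t))`, `q ↦ t ^ N` -/
def psiMap : LaurentSeries (Zl ℓ) →+* LaurentSeries ℂ :=
  (qExpand ℂ N).comp (coeffMap (algebraMap (Zl ℓ) ℂ))

omit [Fact ℓ.Prime] in
theorem psiMap_injective : Function.Injective (psiMap N ℓ) :=
  (qExpand_injective (R := ℂ) N).comp
    (coeffMap_injective' _ (FaithfulSMul.algebraMap_injective (Zl ℓ) ℂ))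

omit [Fact ℓ.Prime] in
theorem psiMap_jqModC : psiMap N ℓ (jqModC (Zl ℓ)) = xC N := by
  rw [psiMap, RingHom.comp_apply, coeffMap_jqModC, xC]

omit [Fact ℓ.Prime] in
theorem psiMap_qExpand_jqModC :
    psiMap N ℓ (qExpand (Zl ℓ) N (jqModC (Zl ℓ))) = qExpand ℂ (N * N) (jqModC ℂ) := by
  rw [psiMap, RingHom.comp_apply, coeffMap_qExpand, coeffMap_jqModC, qExpand_qExpand]

omit [Fact ℓ.Prime] in
theorem psiMap_coeff (y : LaurentSeries (Zl ℓ)) (m : ℤ) :
    (psiMap N ℓ y).coeff ((N : ℤ) * m) = algebraMap (Zl ℓ) ℂ (y.coeff m) := by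
  rw [psiMap, RingHom.comp_apply, qExpand_coeff_mul, coeffMap_coeff]

omit [Fact ℓ.Prime] in
theorem psiMap_comp_aeval (x₀ : LaurentSeries (Zl ℓ)) :
    (psiMap N ℓ).comp ((aeval x₀ : Polynomial (Zl ℓ) →ₐ[Zl ℓ] LaurentSeries (Zl ℓ)) :
        Polynomial (Zl ℓ) →+* LaurentSeries (Zl ℓ)) =
      ((aeval (psiMap N ℓ x₀) : Polynomial ℂ →ₐ[ℂ] LaurentSeries ℂ) :
        Polynomial ℂ →+* LaurentSeries ℂ).comp
        (Polynomial.mapRingHom (algebraMap (Zl ℓ) ℂ)) := by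
  rw [psiMap, RingHom.comp_assoc, coeffMap_comp_aeval, ← RingHom.comp_assoc,
    qExpand_comp_aeval]
  rfl

omit [Fact ℓ.Prime] in
theorem psiMap_eval₂ (x₀ θ₀ : LaurentSeries (Zl ℓ)) (Q : Polynomial (Polynomial (Zl ℓ))) :
    psiMap N ℓ (eval₂ ((aeval x₀ : Polynomial (Zl ℓ) →ₐ[Zl ℓ] LaurentSeries (Zl ℓ)) :
        Polynomial (Zl ℓ) →+* LaurentSeries (Zl ℓ)) θ₀ Q) =
      eval₂ ((aeval (psiMap N ℓ x₀) : Polynomial ℂ →ₐ[ℂ] LaurentSeries ℂ) :
        Polynomial ℂ →+* LaurentSeries ℂ) (psiMap N ℓ θ₀)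
        (Q.map (Polynomial.mapRingHom (algebraMap (Zl ℓ) ℂ))) := by
  rw [Polynomial.hom_eval₂, psiMap_comp_aeval, Polynomial.eval₂_map]

end Psi

include D in
/-- **The finite chart has the q-expansion property** (given the analytic data, the descent
statement and the generation statement). -/
theorem hasQexp_fin_of_conjData (hℓN : ¬ ℓ ∣ N) (hD : DescentStatement)
    (hgen : ∀ f : ↥(modularFunctionFieldFull N),
      (f : LaurentSeries ℚ) ∈ IntermediateField.adjoin ℚ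
        {((jFull N : ↥(modularFunctionFieldFull N)) : LaurentSeries ℚ),
          (((⟨qExpand ℚ N jq, jqd_mem_full N dvd_rfl⟩ : ↥(modularFunctionFieldFull N))) :
            LaurentSeries ℚ)}) :
    HasQexp N ℓ (chartAlgFin N ℓ) := by
  classical
  obtain ⟨Φ, hΦ, hΦm, hΦdeg, hΦirrC⟩ := D.exists_Phi ℓ hℓN hD
  have hN0 : N ≠ 0 := NeZero.ne N
  have hNpos : (0 : ℤ) < N := by exact_mod_cast Nat.pos_of_ne_zero hN0
  -- the root
  have hΦ0 : eval₂ ((aeval (jqModC (Zl ℓ)) : Polynomial (Zl ℓ) →ₐ[Zl ℓ] LaurentSeries (Zl ℓ)) :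
        Polynomial (Zl ℓ) →+* LaurentSeries (Zl ℓ)) (qExpand (Zl ℓ) N (jqModC (Zl ℓ))) Φ = 0 := by
    apply psiMap_injective N ℓ
    rw [psiMap_eval₂, psiMap_jqModC, psiMap_qExpand_jqModC, ← D.E_i₀_Theta, map_zero]
    exact D.eval_root _ hΦ
  -- the derivative is a unit
  have hunit : IsUnit (eval₂ ((aeval (jqModC (Zl ℓ)) :
        Polynomial (Zl ℓ) →ₐ[Zl ℓ] LaurentSeries (Zl ℓ)) :
        Polynomial (Zl ℓ) →+* LaurentSeries (Zl ℓ)) (qExpand (Zl ℓ) N (jqModC (Zl ℓ)))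
        (derivative Φ)) := by
    set y := eval₂ ((aeval (jqModC (Zl ℓ)) :
        Polynomial (Zl ℓ) →ₐ[Zl ℓ] LaurentSeries (Zl ℓ)) :
        Polynomial (Zl ℓ) →+* LaurentSeries (Zl ℓ)) (qExpand (Zl ℓ) N (jqModC (Zl ℓ)))
        (derivative Φ) with hy
    have hψ : psiMap N ℓ y = eval₂ ((aeval (xC N) : Polynomial ℂ →ₐ[ℂ] LaurentSeries ℂ) :
          Polynomial ℂ →+* LaurentSeries ℂ) (D.E D.i₀ (D.Jd N))
          (derivative (Φ.map (Polynomial.mapRingHom (algebraMap (Zl ℓ) ℂ)))) := by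
      rw [hy, psiMap_eval₂, psiMap_jqModC, psiMap_qExpand_jqModC, ← D.E_i₀_Theta,
        Polynomial.derivative_map]
    obtain ⟨h1, h2⟩ := D.coeff_eval_derivative _ hΦ
    rw [← hψ] at h1 h2
    have hinjalg := FaithfulSMul.algebraMap_injective (Zl ℓ) ℂ
    have hidx : (Fintype.card D.I - 1) • (-((N * N : ℕ) : ℤ)) =
        (N : ℤ) * ((Fintype.card D.I - 1) • (-(N : ℤ))) := by
      simp only [nsmul_eq_mul]
      push_cast
      ring
    refine isUnit_of_coeff y ((Fintype.card D.I - 1) • (-(N : ℤ))) ?_ ?_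
    · rw [hidx, psiMap_coeff] at h1
      have : y.coeff ((Fintype.card D.I - 1) • (-(N : ℤ))) = 1 := by
        apply hinjalg
        rw [h1, map_one]
      rw [this]
      exact isUnit_one
    · intro m hm
      have h3 := h2 ((N : ℤ) * m) (by rw [hidx]; exact mul_lt_mul_of_pos_left hm hNpos)
      rw [psiMap_coeff] at h3
      apply hinjalg
      rw [h3, map_zero]
  -- irreducibility mod `ℓ`
  have hirr : Irreducible (Φ.map (Polynomial.mapRingHom (resZl ℓ))) := by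
    obtain ⟨k, fk, ck, ρ, hρ⟩ := exists_residue_field ℓ
    have hNk : ((N : ℕ) : k) ≠ 0 := by
      rw [Ne, CharP.cast_eq_zero_iff k ℓ N]
      exact hℓN
    let ι₀ : Zl ℓ →+* intClosureC ℓ :=
      (algebraMap (Zl ℓ) ℂ).codRestrict (intClosureC ℓ) (algebraMap_mem_intClosureC ℓ)
    have hι₀ : (intClosureC ℓ).subtype.comp ι₀ = algebraMap (Zl ℓ) ℂ := rfl
    have h := D.irreducible_reduction (intClosureC ℓ) (zetaC_mem_intClosureC ℓ N)
      (natCast_inv_mem_intClosureC ℓ N hℓN) ρ hρ hNk (Φ.map (Polynomial.mapRingHom ι₀))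
      (by rw [map_mapRingHom_comp, hι₀]; exact hΦ)
    rw [map_mapRingHom_comp] at h
    have hcomp : ρ.comp ι₀ = (ZMod.castHom (dvd_refl ℓ) k).comp (resZl ℓ) :=
      ringHom_ext_Zl ℓ _ _
    rw [hcomp, ← map_mapRingHom_comp] at h
    exact Polynomial.Monic.irreducible_of_irreducible_map
      (Polynomial.mapRingHom (ZMod.castHom (dvd_refl ℓ) k)) _ (hΦm.map _) h
  -- transcendence of `j` mod `ℓ`
  have hxtr : Transcendental (ZMod ℓ) (coeffMap (resZl ℓ) (jqModC (Zl ℓ))) := by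
    rw [coeffMap_jqModC]
    apply transcendental_of_order_neg
    rw [order_jqModC]
    norm_num
  have hx₀ : coeffMap (algebraMap (Zl ℓ) ℚ) (jqModC (Zl ℓ)) =
      ((jFull N : ↥(modularFunctionFieldFull N)) : LaurentSeries ℚ) := by
    rw [coeffMap_jqModC]; rfl
  have hθ₀ : coeffMap (algebraMap (Zl ℓ) ℚ) (qExpand (Zl ℓ) N (jqModC (Zl ℓ))) =
      (((⟨qExpand ℚ N jq, jqd_mem_full N dvd_rfl⟩ : ↥(modularFunctionFieldFull N))) :
            LaurentSeries ℚ) := by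
    rw [coeffMap_qExpand, coeffMap_jqModC]; rfl
  exact helper25.chart_qexp N ℓ (jFull N) ⟨qExpand ℚ N jq, jqd_mem_full N dvd_rfl⟩ hgen
    (jqModC (Zl ℓ)) (qExpand (Zl ℓ) N (jqModC (Zl ℓ))) hx₀ hθ₀ hxtr Φ hΦm hΦ0 hirr hunit

section Gen

theorem eval₂_mem_of_subringClass {A L : Type*} [CommRing A] [CommRing L] {S : Type*}
    [SetLike S L] [SubringClass S L] (K : S) (f : A →+* L) (hf : ∀ a, f a ∈ K) (θ : L)
    (hθ : θ ∈ K) (Q : Polynomial A) : eval₂ f θ Q ∈ K := by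
  rw [Polynomial.eval₂_eq_sum_range]
  exact sum_mem (fun i _ => mul_mem (hf _) (pow_mem hθ i))

theorem eval₂_aeval_mem (K : IntermediateField ℚ (LaurentSeries ℚ)) (x θ : LaurentSeries ℚ)
    (hx : x ∈ K) (hθ : θ ∈ K) (Q : Polynomial (Polynomial ℚ)) :
    eval₂ ((aeval x : Polynomial ℚ →ₐ[ℚ] LaurentSeries ℚ) :
      Polynomial ℚ →+* LaurentSeries ℚ) θ Q ∈ K := by
  apply eval₂_mem_of_subringClass K _ _ θ hθ Q
  intro p
  show aeval x p ∈ K
  rw [Polynomial.aeval_def]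
  exact eval₂_mem_of_subringClass K _ (fun c => K.algebraMap_mem c) x hx p

theorem coeffEmb_eval₂ (x θ : LaurentSeries ℚ) (Q : Polynomial (Polynomial ℚ)) :
    coeffEmb ℂ (eval₂ ((aeval x : Polynomial ℚ →ₐ[ℚ] LaurentSeries ℚ) :
      Polynomial ℚ →+* LaurentSeries ℚ) θ Q) =
    eval₂ ((aeval (coeffEmb ℂ x) : Polynomial ℂ →ₐ[ℂ] LaurentSeries ℂ) :
      Polynomial ℂ →+* LaurentSeries ℂ) (coeffEmb ℂ θ)
      (Q.map (Polynomial.mapRingHom (algebraMap ℚ ℂ))) := by
  rw [coeffEmb, Polynomial.hom_eval₂, coeffMap_comp_aeval, Polynomial.eval₂_map]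

theorem qExpand_eval₂ {R : Type*} [CommRing R] (M : ℕ) [NeZero M] (x θ : LaurentSeries R)
    (Q : Polynomial (Polynomial R)) :
    qExpand R M (eval₂ ((aeval x : Polynomial R →ₐ[R] LaurentSeries R) :
      Polynomial R →+* LaurentSeries R) θ Q) =
    eval₂ ((aeval (qExpand R M x) : Polynomial R →ₐ[R] LaurentSeries R) :
      Polynomial R →+* LaurentSeries R) (qExpand R M θ) Q := by
  rw [Polynomial.hom_eval₂, qExpand_comp_aeval]

theorem coeffEmb_injective : Function.Injective (coeffEmb ℂ) :=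
  coeffMap_injective' _ (algebraMap ℚ ℂ).injective

include D in
/-- `j(q^d)` lies in `ℚ(j, j(q^N))` for `d ∣ N` -/
theorem qExpand_jq_mem_of_conjData (hℓN : ¬ ℓ ∣ N) (hD : DescentStatement)
    (hL : LagrangeStatement) (d : ℕ) [NeZero d] (hd : d ∣ N) :
    qExpand ℚ d jq ∈ IntermediateField.adjoin ℚ {jq, qExpand ℚ N jq} := by
  classical
  obtain ⟨Φ, hΦ, hΦm, hΦdeg, hΦirrC⟩ := D.exists_Phi ℓ hℓN hD
  set P : Polynomial (Polynomial ℂ) := Φ.map (Polynomial.mapRingHom (algebraMap (Zl ℓ) ℂ))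
    with hPdef
  set P₀ : Polynomial (Polynomial ℚ) := Φ.map (Polynomial.mapRingHom (algebraMap (Zl ℓ) ℚ))
    with hP₀def
  have hPP₀ : P₀.map (Polynomial.mapRingHom (algebraMap ℚ ℂ)) = P := by
    rw [hP₀def, map_mapRingHom_comp]
    rfl
  have hPm : P.Monic := hΦm.map _
  have hPdeg : P.natDegree = Fintype.card D.I := by
    rw [hPdef, hΦm.natDegree_map, hΦdeg]
  -- Lagrange interpolation over `ℂ`
  have hchar : ∀ g : D.G, ∃ Pg : Polynomial (Polynomial ℂ),
      (∏ i, (X - C ((D.E i : D.G →+* LaurentSeries ℂ) g))) =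
        Pg.map ((aeval (xC N) : Polynomial ℂ →ₐ[ℂ] LaurentSeries ℂ) :
          Polynomial ℂ →+* LaurentSeries ℂ) := by
    intro g
    obtain ⟨Pg, -, hPg⟩ := D.hchar ⊤ g (fun _ _ => Subring.mem_top _)
    exact ⟨Pg, hPg⟩
  obtain ⟨R, hRdeg, hR⟩ := hL (k := ℂ) D.i₀ (fun i => (D.E i : D.G →+* LaurentSeries ℂ))
    (xC N) hchar (D.Jd N) (D.Jd d) P hΦ
  -- rewrite everything in terms of rational series
  have hx : coeffEmb ℂ (qExpand ℚ N jq) = xC N := coeffEmb_qExpand_jq N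
  have hθ : coeffEmb ℂ (qExpand ℚ (N * N) jq) = D.E D.i₀ (D.Jd N) := D.coeffEmb_theta
  have hJd : D.E D.i₀ (D.Jd d) = coeffEmb ℂ (qExpand ℚ (N * d) jq) := by
    rw [coeffEmb_qExpand_jq]
    exact D.hJd d hd inferInstance
  have hder : eval₂ ((aeval (xC N) : Polynomial ℂ →ₐ[ℂ] LaurentSeries ℂ) :
        Polynomial ℂ →+* LaurentSeries ℂ) (D.E D.i₀ (D.Jd N)) (derivative P) =
      coeffEmb ℂ (eval₂ ((aeval (qExpand ℚ N jq) : Polynomial ℚ →ₐ[ℚ] LaurentSeries ℚ) :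
        Polynomial ℚ →+* LaurentSeries ℚ) (qExpand ℚ (N * N) jq) (derivative P₀)) := by
    rw [coeffEmb_eval₂, hx, hθ, ← Polynomial.derivative_map, hPP₀]
  have hR' : eval₂ ((aeval (coeffEmb ℂ (qExpand ℚ N jq)) : Polynomial ℂ →ₐ[ℂ] LaurentSeries ℂ) :
      Polynomial ℂ →+* LaurentSeries ℂ) (coeffEmb ℂ (qExpand ℚ (N * N) jq)) R =
      coeffEmb ℂ (qExpand ℚ (N * d) jq *
        eval₂ ((aeval (qExpand ℚ N jq) : Polynomial ℚ →ₐ[ℚ] LaurentSeries ℚ) :
        Polynomial ℚ →+* LaurentSeries ℚ) (qExpand ℚ (N * N) jq) (derivative P₀)) := by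
    rw [hx, hθ, map_mul, ← hder, ← hJd]
    exact hR.symm
  have hP0 : eval₂ ((aeval (coeffEmb ℂ (qExpand ℚ N jq)) : Polynomial ℂ →ₐ[ℂ] LaurentSeries ℂ) :
      Polynomial ℂ →+* LaurentSeries ℂ) (coeffEmb ℂ (qExpand ℚ (N * N) jq)) P = 0 := by
    rw [hx, hθ]
    exact D.eval_root P hΦ
  obtain ⟨R₀, hR₀⟩ := hD (qExpand ℚ N jq) (qExpand ℚ (N * N) jq) _ (order_qExpand_jq_neg N)
    P hPm hΦirrC hP0 R hR' (Or.inl (by rw [hPdeg]; exact hRdeg))
  -- the identity over `ℚ((t))`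
  have hQt : eval₂ ((aeval (qExpand ℚ N jq) : Polynomial ℚ →ₐ[ℚ] LaurentSeries ℚ) :
        Polynomial ℚ →+* LaurentSeries ℚ) (qExpand ℚ (N * N) jq) R₀ =
      qExpand ℚ (N * d) jq *
        eval₂ ((aeval (qExpand ℚ N jq) : Polynomial ℚ →ₐ[ℚ] LaurentSeries ℚ) :
        Polynomial ℚ →+* LaurentSeries ℚ) (qExpand ℚ (N * N) jq) (derivative P₀) := by
    apply coeffEmb_injective
    rw [← hR', coeffEmb_eval₂, hR₀]
  -- the identity over `ℚ((q))`
  have hQq : eval₂ ((aeval jq : Polynomial ℚ →ₐ[ℚ] LaurentSeries ℚ) :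
        Polynomial ℚ →+* LaurentSeries ℚ) (qExpand ℚ N jq) R₀ =
      qExpand ℚ d jq *
        eval₂ ((aeval jq : Polynomial ℚ →ₐ[ℚ] LaurentSeries ℚ) :
        Polynomial ℚ →+* LaurentSeries ℚ) (qExpand ℚ N jq) (derivative P₀) := by
    apply qExpand_injective (R := ℚ) N
    rw [map_mul, qExpand_eval₂, qExpand_eval₂, qExpand_qExpand, qExpand_qExpand]
    exact hQt
  -- the denominator does not vanish
  have hne : eval₂ ((aeval jq : Polynomial ℚ →ₐ[ℚ] LaurentSeries ℚ) :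
        Polynomial ℚ →+* LaurentSeries ℚ) (qExpand ℚ N jq) (derivative P₀) ≠ 0 := by
    intro h0
    have h1 := (D.coeff_eval_derivative P hΦ).1
    rw [hder, ← qExpand_qExpand, ← qExpand_eval₂, h0, map_zero, map_zero] at h1
    exact zero_ne_one h1
  have hK1 : jq ∈ IntermediateField.adjoin ℚ {jq, qExpand ℚ N jq} :=
    IntermediateField.subset_adjoin ℚ _ (Set.mem_insert _ _)
  have hK2 : qExpand ℚ N jq ∈ IntermediateField.adjoin ℚ {jq, qExpand ℚ N jq} :=
    IntermediateField.subset_adjoin ℚ _ (Set.mem_insert_of_mem _ rfl)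
  have hfin : qExpand ℚ d jq =
      eval₂ ((aeval jq : Polynomial ℚ →ₐ[ℚ] LaurentSeries ℚ) :
        Polynomial ℚ →+* LaurentSeries ℚ) (qExpand ℚ N jq) R₀ *
      (eval₂ ((aeval jq : Polynomial ℚ →ₐ[ℚ] LaurentSeries ℚ) :
        Polynomial ℚ →+* LaurentSeries ℚ) (qExpand ℚ N jq) (derivative P₀))⁻¹ := by
    rw [hQq, mul_assoc, mul_inv_cancel₀ hne, mul_one]
  rw [hfin]
  exact mul_mem (eval₂_aeval_mem _ _ _ hK1 hK2 R₀) (inv_mem (eval₂_aeval_mem _ _ _ hK1 hK2 _))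

include D in
/-- the generation hypothesis of `chart_qexp` -/
theorem gen_of_conjData (hℓN : ¬ ℓ ∣ N) (hD : DescentStatement) (hL : LagrangeStatement)
    (f : ↥(modularFunctionFieldFull N)) :
    (f : LaurentSeries ℚ) ∈ IntermediateField.adjoin ℚ
        {((jFull N : ↥(modularFunctionFieldFull N)) : LaurentSeries ℚ),
          (((⟨qExpand ℚ N jq, jqd_mem_full N dvd_rfl⟩ : ↥(modularFunctionFieldFull N))) :
            LaurentSeries ℚ)} := by
  have hle : modularFunctionFieldFull N ≤ IntermediateField.adjoin ℚ {jq, qExpand ℚ N jq} := by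
    rw [modularFunctionFieldFull, IntermediateField.adjoin_le_iff]
    rintro x ⟨d, hne, hdvd, rfl⟩
    haveI := hne
    exact qExpand_jq_mem_of_conjData D ℓ hℓN hD hL d hdvd
  exact hle f.2

include D in
/-- **Assembly**: the three charts of the special fibre from the analytic data. -/
theorem hasQexp_fin_of_conjData' (hℓN : ¬ ℓ ∣ N) (hD : DescentStatement)
    (hL : LagrangeStatement) : HasQexp N ℓ (chartAlgFin N ℓ) :=
  hasQexp_fin_of_conjData D ℓ hℓN hD (gen_of_conjData D ℓ hℓN hD hL)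

end Gen

end Fermat.Agent.S28.helper81
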