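import Mathlib
import Fermat.Prelude.Def_ModularCurve_LaurentCoeff

/-!
# S28, task T2 (helper78): `A ⊗ K` is a domain from a q-expansion embedding mod `ℓ`

General form: `R` any commutative ring with a surjection `r : R → ZMod ℓ` whose kernel is `ℓ R`
(e.g. `R = ℤ_(ℓ)`), `A` an `R`-algebra with a "q-expansion" ring hom `φ : A → R((q))` compatible
with constants, such that `φ a ≡ 0 mod ℓ` implies `a ∈ ℓ A`.  Then `A ⊗[R] K` is a domain for every
field `K` of characteristic `ℓ`.
-/

set_option autoImplicit false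

open scoped TensorProduct
open ModularCurve

noncomputable section

namespace Fermat.Agent.S28.helper78

section General

variable {R : Type} [CommRing R] {ℓ : ℕ} [Fact ℓ.Prime] (r : R →+* ZMod ℓ)

/-- Any ring hom from `R` to a ring of characteristic `ℓ` factors through `r`. -/
theorem ringHom_eq_cast (hr0 : ∀ a : R, r a = 0 ↔ ∃ b : R, a = (ℓ : R) * b)
    (K : Type) [Ring K] [CharP K ℓ] (f : R →+* K) (x : R) :
    f x = ZMod.castHom (dvd_refl ℓ) K (r x) := by
  have hx : r (x - ((r x).val : R)) = 0 := by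
    rw [map_sub, map_natCast, ZMod.natCast_zmod_val, sub_self]
  obtain ⟨b, hb⟩ := (hr0 _).mp hx
  have hx' : x = ((r x).val : R) + (ℓ : R) * b := by rw [← hb]; ring
  have h1 : f x = (((r x).val : ℕ) : K) := by
    conv_lhs => rw [hx']
    rw [map_add, map_mul, map_natCast, map_natCast, CharP.cast_eq_zero K ℓ, zero_mul, add_zero]
  rw [h1]
  conv_rhs => rw [← ZMod.natCast_zmod_val (r x)]
  rw [map_natCast]

variable {A : Type} [CommRing A] [Algebra R A] (φ : A →+* LaurentSeries R)
  (K : Type) [Field K] [Algebra R K]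

omit [Fact ℓ.Prime] in
theorem coeffMap_C {S T : Type} [CommRing S] [CommRing T] (f : S →+* T) (x : S) :
    coeffMap f (HahnSeries.C x) = HahnSeries.C (f x) := by
  rw [HahnSeries.C_apply, HahnSeries.C_apply]
  exact coeffMap_single f 0 x

theorem algebraMap_laurent (x : R) :
    algebraMap R (LaurentSeries K) x = HahnSeries.C (algebraMap R K x) := by
  rw [HahnSeries.algebraMap_apply', PowerSeries.algebraMap_apply, HahnSeries.ofPowerSeries_C]

/-- The `R`-algebra hom `A → K((q))` obtained from `φ` by mapping coefficients to `K`. -/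
def qexpK (hφ : ∀ x : R, φ (algebraMap R A x) = HahnSeries.C x) :
    A →ₐ[R] LaurentSeries K where
  toRingHom := (coeffMap (algebraMap R K)).comp φ
  commutes' x := by
    show coeffMap (algebraMap R K) (φ (algebraMap R A x)) = _
    rw [hφ, coeffMap_C, algebraMap_laurent]

theorem qexpK_apply (hφ : ∀ x : R, φ (algebraMap R A x) = HahnSeries.C x) (a : A) :
    qexpK φ K hφ a = coeffMap (algebraMap R K) (φ a) := rfl

/-- Constants `K → K((q))` as an `R`-algebra hom. -/
def constK : K →ₐ[R] LaurentSeries K where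
  toRingHom := HahnSeries.C
  commutes' x := by
    show HahnSeries.C (algebraMap R K x) = _
    rw [algebraMap_laurent]

theorem constK_apply (c : K) : constK (R := R) K c = HahnSeries.C c := rfl

/-- The comparison map `A ⊗[R] K → K((q))`. -/
def tensorToLaurent (hφ : ∀ x : R, φ (algebraMap R A x) = HahnSeries.C x) :
    A ⊗[R] K →ₐ[R] LaurentSeries K :=
  Algebra.TensorProduct.productMap (qexpK φ K hφ) (constK K)

theorem tensorToLaurent_tmul (hφ : ∀ x : R, φ (algebraMap R A x) = HahnSeries.C x)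
    (a : A) (c : K) :
    tensorToLaurent φ K hφ (a ⊗ₜ[R] c) = HahnSeries.C c * coeffMap (algebraMap R K) (φ a) := by
  rw [tensorToLaurent, Algebra.TensorProduct.productMap_apply_tmul, qexpK_apply, constK_apply,
    mul_comm]

theorem tensorToLaurent_tmul_coeff (hφ : ∀ x : R, φ (algebraMap R A x) = HahnSeries.C x)
    (a : A) (c : K) (n : ℤ) :
    (tensorToLaurent φ K hφ (a ⊗ₜ[R] c)).coeff n = c * algebraMap R K ((φ a).coeff n) := by
  rw [tensorToLaurent_tmul, HahnSeries.C_mul_eq_smul, HahnSeries.coeff_smul, coeffMap_coeff,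
    smul_eq_mul]

omit [Fact ℓ.Prime] [Algebra R K] in
theorem coeff_finset_sum {ι : Type} (u : Finset ι) (f : ι → LaurentSeries K) (n : ℤ) :
    (∑ s ∈ u, f s).coeff n = ∑ s ∈ u, (f s).coeff n := by
  classical
  induction u using Finset.induction_on with
  | empty => simp
  | insert s u hs ih => rw [Finset.sum_insert hs, Finset.sum_insert hs, HahnSeries.coeff_add, ih]

/-- **T2, nontrivial version (general form).** -/
theorem nontrivial_tensor (hφ : ∀ x : R, φ (algebraMap R A x) = HahnSeries.C x) :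
    Nontrivial (A ⊗[R] K) :=
  (tensorToLaurent φ K hφ).toRingHom.domain_nontrivial

omit [Fact ℓ.Prime] in
/-- The map `(a_s)_s ↦ ∑ a_s ⊗ b_s`. -/
def thetaMap {ι : Type} (b : ι → K) : (ι →₀ A) →ₗ[R] A ⊗[R] K :=
  Finsupp.lsum R (fun s => (TensorProduct.mk R A K).flip (b s))

omit [Fact ℓ.Prime] in
theorem thetaMap_single {ι : Type} (b : ι → K) (s : ι) (x : A) :
    thetaMap (R := R) K b (Finsupp.single s x) = x ⊗ₜ[R] b s := by
  rw [thetaMap, Finsupp.lsum_single]
  rfl

omit [Fact ℓ.Prime] in
theorem thetaMap_apply {ι : Type} (b : ι → K) (a : ι →₀ A) :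
    thetaMap (R := R) K b a = ∑ s ∈ a.support, a s ⊗ₜ[R] b s := by
  rw [thetaMap, Finsupp.lsum_apply, Finsupp.sum]
  rfl

variable [CharP K ℓ]

/-- Every element of `A ⊗[R] K` is a finite sum `∑ a_s ⊗ b_s` over a fixed `ZMod ℓ`-spanning
family `b` of `K`. -/
theorem exists_finsupp_repr (hr : Function.Surjective r)
    (hr0 : ∀ a : R, r a = 0 ↔ ∃ b : R, a = (ℓ : R) * b)
    {ι : Type} (b : ι → K)
    (hspan : ∀ c : K, ∃ (t : Finset ι) (y : ι → ZMod ℓ),
      c = ∑ s ∈ t, ZMod.castHom (dvd_refl ℓ) K (y s) * b s)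
    (z : A ⊗[R] K) :
    ∃ a : ι →₀ A, z = thetaMap K b a := by
  classical
  induction z using TensorProduct.induction_on with
  | zero => exact ⟨0, by simp⟩
  | tmul x c =>
    obtain ⟨t, y, hc⟩ := hspan c
    choose y' hy' using fun s => hr (y s)
    refine ⟨∑ s ∈ t, Finsupp.single s (y' s • x), ?_⟩
    rw [map_sum, hc, TensorProduct.tmul_sum]
    refine Finset.sum_congr rfl fun s _ => ?_
    rw [thetaMap_single, TensorProduct.smul_tmul, Algebra.smul_def,
      ringHom_eq_cast r hr0 K (algebraMap R K) (y' s), hy']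
  | add z₁ z₂ h₁ h₂ =>
    obtain ⟨a₁, rfl⟩ := h₁
    obtain ⟨a₂, rfl⟩ := h₂
    exact ⟨a₁ + a₂, (map_add _ _ _).symm⟩

/-- **T2 (general form).** -/
theorem isDomain_tensor (hr : Function.Surjective r)
    (hr0 : ∀ a : R, r a = 0 ↔ ∃ b : R, a = (ℓ : R) * b)
    (hφ : ∀ x : R, φ (algebraMap R A x) = HahnSeries.C x)
    (hred : ∀ a : A, coeffMap r (φ a) = 0 → ∃ b : A, a = (ℓ : R) • b) :
    IsDomain (A ⊗[R] K) := by
  classical
  let _ : Algebra (ZMod ℓ) K := ZMod.algebra K ℓ
  have halg : ∀ y : ZMod ℓ, algebraMap (ZMod ℓ) K y = ZMod.castHom (dvd_refl ℓ) K y := by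
    intro y
    exact congrFun (congrArg DFunLike.coe
      (Subsingleton.elim (algebraMap (ZMod ℓ) K) (ZMod.castHom (dvd_refl ℓ) K))) y
  let B := Module.Basis.ofVectorSpace (ZMod ℓ) K
  have hspan : ∀ c : K, ∃ (t : Finset _) (y : _ → ZMod ℓ),
      c = ∑ s ∈ t, ZMod.castHom (dvd_refl ℓ) K (y s) * B s := by
    intro c
    refine ⟨(B.repr c).support, fun s => B.repr c s, ?_⟩
    conv_lhs => rw [← B.linearCombination_repr c]
    rw [Finsupp.linearCombination_apply, Finsupp.sum]
    refine Finset.sum_congr rfl fun s _ => ?_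
    rw [Algebra.smul_def, halg]
  have hlin : LinearIndependent (ZMod ℓ) B := B.linearIndependent
  have hinj : Function.Injective (tensorToLaurent φ K hφ) := by
    rw [injective_iff_map_eq_zero]
    intro z hz
    obtain ⟨a, rfl⟩ := exists_finsupp_repr r K hr hr0 B hspan z
    -- all coefficients of all `φ (a s)` vanish mod `ℓ`
    have hcoef : ∀ s ∈ a.support, coeffMap r (φ (a s)) = 0 := by
      intro s hs
      ext n
      rw [coeffMap_coeff, HahnSeries.coeff_zero]
      have hn : (tensorToLaurent φ K hφ (thetaMap K B a)).coeff n = 0 := by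
        rw [hz, HahnSeries.coeff_zero]
      rw [thetaMap_apply, map_sum] at hn
      have hn' : ∑ s ∈ a.support, r ((φ (a s)).coeff n) • B s = 0 := by
        rw [← hn]
        rw [coeff_finset_sum]
        refine Finset.sum_congr rfl fun s _ => ?_
        rw [tensorToLaurent_tmul_coeff, Algebra.smul_def, halg,
          ringHom_eq_cast r hr0 K (algebraMap R K), mul_comm]
      exact (linearIndependent_iff'.mp hlin) a.support (fun s => r ((φ (a s)).coeff n)) hn' s hs
    rw [thetaMap_apply]
    refine Finset.sum_eq_zero fun s hs => ?_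
    obtain ⟨b', hb'⟩ := hred (a s) (hcoef s hs)
    rw [hb', TensorProduct.smul_tmul, Algebra.smul_def, map_natCast, CharP.cast_eq_zero K ℓ,
      zero_mul, TensorProduct.tmul_zero]
  exact Function.Injective.isDomain (tensorToLaurent φ K hφ).toRingHom hinj

end General

end Fermat.Agent.S28.helper78
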