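import Mathlib
import Fermat.Prelude.Def_ModularCurve_IgusaScheme
import Fermat.Prelude.Def_ModularCurve_X0ModL
import Fermat.Agent.S28.helper94_Zl
import Fermat.Agent.S28.helper78_Tensor
import Fermat.Agent.S28.helper81_InfMid

/-!
# S28 (helper81): from the q-expansion property of the finite chart to the three charts `⊗ K`

`charts_good_of_hasQexp_fin`: if the chart `chartAlgFin` has the q-expansion property `HasQexp`
then for every field `K` of characteristic `ℓ` the algebras `chartAlgFin ⊗ K`, `chartAlgInf ⊗ K`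
are domains and `chartAlgMid ⊗ K` is nontrivial.
-/

set_option autoImplicit false

open ModularCurve ModularCurve.IgusaScheme HahnSeries
open scoped TensorProduct

noncomputable section

namespace Fermat.Agent.S28.helper81

open Fermat.Agent.S28.helper94

variable {N : ℕ} [NeZero N] {ℓ : ℕ} [Fact ℓ.Prime]

theorem ratCast_eq_single (c : ℚ) : ((c : ℚ) : LaurentSeries ℚ) = (single 0) c :=
  (eq_ratCast _ c).symm.trans (ModularCurve.algebraMap_apply_eq_single c)

omit [Fact ℓ.Prime] in
theorem coe_algebraMap_Zl (x : Zl ℓ) :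
    ((algebraMap (Zl ℓ) ↥(modularFunctionFieldFull N) x : ↥(modularFunctionFieldFull N)) :
      LaurentSeries ℚ) = HahnSeries.C (algebraMap (Zl ℓ) ℚ x) := by
  have e1 : algebraMap (Zl ℓ) ↥(modularFunctionFieldFull N) x =
      algebraMap ℚ ↥(modularFunctionFieldFull N) (algebraMap (Zl ℓ) ℚ x) := rfl
  rw [e1, eq_ratCast (algebraMap ℚ ↥(modularFunctionFieldFull N)) _, HahnSeries.C_apply,
    ← ratCast_eq_single]
  rfl

/-- a q-expansion homomorphism is compatible with constants -/
theorem qexp_algebraMap (A : Subalgebra (Zl ℓ) ↥(modularFunctionFieldFull N))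
    (φ : A →+* LaurentSeries (Zl ℓ))
    (hφ : ∀ a, coeffMap (algebraMap (Zl ℓ) ℚ) (φ a) =
      ((a : ↥(modularFunctionFieldFull N)) : LaurentSeries ℚ)) (x : Zl ℓ) :
    φ (algebraMap (Zl ℓ) A x) = HahnSeries.C x := by
  apply coeffMap_injective' (algebraMap (Zl ℓ) ℚ) (FaithfulSMul.algebraMap_injective _ _)
  rw [hφ, coeffMap_C']
  exact coe_algebraMap_Zl x

theorem isDomain_tensor_of_hasQexp (A : Subalgebra (Zl ℓ) ↥(modularFunctionFieldFull N))
    (h : HasQexp N ℓ A) (K : Type) [Field K] [CharP K ℓ] [Algebra (Zl ℓ) K] :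
    IsDomain (A ⊗[Zl ℓ] K) := by
  obtain ⟨φ, h1, h2⟩ := h
  exact helper78.isDomain_tensor (resZl ℓ) φ K (resZl_surjective ℓ) (resZl_eq_zero_iff ℓ)
    (qexp_algebraMap A φ h1) h2

/-- **Charts**: the q-expansion property of the finite chart implies that the two charts of the
special fibre are domains and that their overlap is nonempty. -/
theorem charts_good_of_hasQexp_fin (h : HasQexp N ℓ (chartAlgFin N ℓ))
    (K : Type) [Field K] [CharP K ℓ] [Algebra (Zl ℓ) K] :
    IsDomain ((chartAlgFin N ℓ) ⊗[Zl ℓ] K) ∧ IsDomain ((chartAlgInf N ℓ) ⊗[Zl ℓ] K) ∧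
      Nontrivial ((chartAlgMid N ℓ) ⊗[Zl ℓ] K) := by
  refine ⟨isDomain_tensor_of_hasQexp _ h K,
    isDomain_tensor_of_hasQexp _ (hasQexp_inf_of_fin h) K, ?_⟩
  obtain ⟨φ, hφ⟩ := exists_qexp_mid_of_fin h
  exact helper78.nontrivial_tensor φ K (qexp_algebraMap _ φ hφ)

end Fermat.Agent.S28.helper81
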