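import Mathlib
import Fermat.Prelude.Def_ModularCurve_IgusaScheme
import Fermat.Prelude.Def_ModularCurve_X0ModL
import Fermat.Agent.S28.helper58_Glue
import Fermat.Agent.S28.helper81_Charts
import Fermat.Agent.S28.helper81_Assembly

/-!
# S28 (helper81): conditional final statement

`igusa_of_statements`: the statement of S28 follows from the analytic theorem `ATStatement N`
(helper28's `analytic_conj`), the descent lemma and the Lagrange interpolation lemma.
-/

set_option autoImplicit false

open AlgebraicGeometry CategoryTheory CategoryTheory.Limits ModularCurve ModularCurve.IgusaScheme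

noncomputable section

namespace Fermat.Agent.S28.helper81

/-- **S28, conditional on the three input statements.** -/
theorem igusa_of_statements (N : ℕ) [NeZero N] (ℓ : ℕ) [Fact ℓ.Prime] (hℓN : ¬ ℓ ∣ N)
    (hAT : ATStatement N) (hD : DescentStatement) (hL : LagrangeStatement)
    (K : Type) [Field K] [CharP K ℓ] [Algebra ↥(GaloisRep.ratLocalizedAt ℓ) K] :
    IsIntegral ↑(pullback (igusaTo N ℓ)
      (Spec.map (CommRingCat.ofHom (algebraMap ↥(GaloisRep.ratLocalizedAt ℓ) K)))) := by
  obtain ⟨D⟩ := nonempty_conjData hAT
  have h := hasQexp_fin_of_conjData' D ℓ hℓN hD hL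
  obtain ⟨h1, h2, h3⟩ := charts_good_of_hasQexp_fin h K
  exact helper58.glue N ℓ K h1 h2 h3

end Fermat.Agent.S28.helper81
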