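import Mathlib
import Fermat.Prelude.Def_ModularCurve_IgusaScheme
import Fermat.Prelude.Def_ModularCurve_X0ModL
import Fermat.Agent.S28.helper56_Descent
import Fermat.Agent.S28.helper72_Lagrange
import Fermat.Agent.S28.helper81_Final

/-!
# S28 (helper81): S28 from the analytic theorem alone

`igusa_of_AT`: the statement of S28 follows from `ATStatement N` (the conclusion of helper28's
`analytic_conj`); the descent and Lagrange statements are discharged by the landed theorems of
helper56 and helper72.
-/

set_option autoImplicit false

open AlgebraicGeometry CategoryTheory CategoryTheory.Limits ModularCurve ModularCurve.IgusaScheme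

noncomputable section

namespace Fermat.Agent.S28.helper81

theorem descentStatement : DescentStatement :=
  fun x θ y hx P hPm hPirr hP0 R hR hdeg =>
    helper56.rational_of_eval_rational x θ y hx P hPm hPirr hP0 R hR hdeg

theorem lagrangeStatement : LagrangeStatement := by
  intro k _ I _ _ i₀ G _ E x hchar Θ g P hP
  exact helper72.lagrange_conj i₀ E x hchar Θ g P hP

/-- **S28 from the analytic theorem.** -/
theorem igusa_of_AT (N : ℕ) [NeZero N] (ℓ : ℕ) [Fact ℓ.Prime] (hℓN : ¬ ℓ ∣ N)
    (hAT : ATStatement N)
    (K : Type) [Field K] [CharP K ℓ] [Algebra ↥(GaloisRep.ratLocalizedAt ℓ) K] :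
    IsIntegral ↑(pullback (igusaTo N ℓ)
      (Spec.map (CommRingCat.ofHom (algebraMap ↥(GaloisRep.ratLocalizedAt ℓ) K)))) :=
  igusa_of_statements N ℓ hℓN hAT descentStatement lagrangeStatement K

end Fermat.Agent.S28.helper81
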