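import Mathlib
import Fermat.Agent.S28.ATDefs
import Fermat.Agent.S28.helper63_LevelOne

/-!
# S28-AT-E (helper22): characteristic polynomials of conjugate families

If a finite family `F i` of holomorphic functions on `ℍ` with `q_N`-expansions `s i` (with
coefficients in a subring `S ⊆ ℂ`) is permuted by `SL(2, ℤ)`, then the polynomial
`∏ i, (X - s i)` has coefficients in `S[x]`, `x = j(t^N)`.
-/

set_option autoImplicit false

noncomputable section

namespace Fermat.Agent.S28.helper22

open ModularCurve UpperHalfPlane Fermat.Agent.S28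
open Fermat.Agent.S24 (jfun scaleH rotL)
open Fermat.Agent.S23.helper74 (affPt xi)
open scoped MatrixGroups Manifold

/-- Evaluation at a point as a ring hom on `Wring N`. -/
def evW (N : ℕ) [NeZero N] (τ : ℍ) : Wring N →+* ℂ :=
  (Pi.evalRingHom (fun _ : ℍ => ℂ) τ).comp (Wring N).subtype

theorem evW_apply (N : ℕ) [NeZero N] (τ : ℍ) (f : Wring N) : evW N τ f = (f : ℍ → ℂ) τ := rfl

/-- **AT-E.** -/
theorem charpoly_coeffs (N : ℕ) [NeZero N] (S : Subring ℂ) {I : Type} [Fintype I]
    [DecidableEq I] (F : I → ℍ → ℂ) (s : I → LaurentSeries ℂ)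
    (hF : ∀ i, MDifferentiable 𝓘(ℂ) 𝓘(ℂ) (F i)) (hs : ∀ i, HasExp N (F i) (s i))
    (hS : ∀ i n, (s i).coeff n ∈ S)
    (hperm : ∀ γ : SL(2, ℤ), ∃ σ : Equiv.Perm I, ∀ i τ, F i (γ • τ) = F (σ i) τ) :
    ∃ P : Polynomial (Polynomial ℂ), (∀ k l, ((P.coeff k).coeff l) ∈ S) ∧
      (∏ i, (Polynomial.X - Polynomial.C (s i))) =
        P.map ((Polynomial.aeval (xC N) : Polynomial ℂ →ₐ[ℂ] LaurentSeries ℂ) :
          Polynomial ℂ →+* LaurentSeries ℂ) := by
  classical
  -- the family as elements of `Wring N`
  set f : I → Wring N := fun i => ⟨F i, hF i, s i, hs i⟩ with hf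
  have hexp : ∀ i, expHom N (f i) = s i := fun i => expW_eq N (f i) (hs i)
  set Q : Polynomial (Wring N) := ∏ i, (Polynomial.X - Polynomial.C (f i)) with hQ
  have hQmap : Q.map (expHom N) = ∏ i, (Polynomial.X - Polynomial.C (s i)) := by
    rw [hQ, Polynomial.map_prod]
    refine Finset.prod_congr rfl fun i _ => ?_
    rw [Polynomial.map_sub, Polynomial.map_X, Polynomial.map_C, hexp]
  have hQev : ∀ τ : ℍ, Q.map (evW N τ) = ∏ i, (Polynomial.X - Polynomial.C (F i τ)) := by
    intro τ
    rw [hQ, Polynomial.map_prod]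
    refine Finset.prod_congr rfl fun i _ => ?_
    rw [Polynomial.map_sub, Polynomial.map_X, Polynomial.map_C]
    rfl
  -- invariance of the coefficients
  have hinv : ∀ (k : ℕ) (γ : SL(2, ℤ)) (τ : ℍ),
      ((Q.coeff k : Wring N) : ℍ → ℂ) (γ • τ) = ((Q.coeff k : Wring N) : ℍ → ℂ) τ := by
    intro k γ τ
    obtain ⟨σ, hσ⟩ := hperm γ
    have h1 : Q.map (evW N (γ • τ)) = Q.map (evW N τ) := by
      rw [hQev, hQev]
      have : ∀ i, (Polynomial.X - Polynomial.C (F i (γ • τ)) : Polynomial ℂ)
          = (fun j => (Polynomial.X - Polynomial.C (F j τ) : Polynomial ℂ)) (σ i) := by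
        intro i
        simp only [hσ i τ]
      rw [Finset.prod_congr rfl (fun i _ => this i)]
      exact Equiv.prod_comp σ (fun j => (Polynomial.X - Polynomial.C (F j τ) : Polynomial ℂ))
    have h2 := congrArg (fun p => p.coeff k) h1
    simpa [Polynomial.coeff_map, evW_apply] using h2
  -- the coefficients of the expansion lie in `S`
  have hsmem : ∀ i, s i ∈ helper63.coeffSubring S := fun i =>
    (helper63.mem_coeffSubring_iff S (s i)).mpr (hS i)
  have hcoefS : ∀ k, (∏ i, (Polynomial.X - Polynomial.C (s i))).coeff k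
      ∈ helper63.coeffSubring S := by
    intro k
    have hlift : (∏ i, (Polynomial.X - Polynomial.C (s i)))
        = (∏ i, (Polynomial.X - Polynomial.C (⟨s i, hsmem i⟩ : helper63.coeffSubring S))).map
            (helper63.coeffSubring S).subtype := by
      rw [Polynomial.map_prod]
      refine Finset.prod_congr rfl fun i _ => ?_
      rw [Polynomial.map_sub, Polynomial.map_X, Polynomial.map_C]
      rfl
    rw [hlift, Polynomial.coeff_map]
    exact Subtype.prop _
  -- apply the level-one theorem coefficientwise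
  have hex : ∀ k : ℕ, ∃ P : Polynomial ℂ, (∀ l, P.coeff l ∈ S) ∧
      (∏ i, (Polynomial.X - Polynomial.C (s i))).coeff k
        = (Polynomial.aeval (xC N) : Polynomial ℂ →ₐ[ℂ] LaurentSeries ℂ) P := by
    intro k
    have hk : expHom N (Q.coeff k) = (∏ i, (Polynomial.X - Polynomial.C (s i))).coeff k := by
      rw [← hQmap, Polynomial.coeff_map]
    have hE : HasExp N ((Q.coeff k : Wring N) : ℍ → ℂ)
        ((∏ i, (Polynomial.X - Polynomial.C (s i))).coeff k) := by
      rw [← hk]
      exact hasExp_expW N (Q.coeff k)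
    exact helper63.levelOne_poly N S _ (Q.coeff k).2.1 (hinv k) _ hE
      ((helper63.mem_coeffSubring_iff S _).mp (hcoefS k))
  choose Pk hPkS hPk using hex
  -- assemble
  set n := (∏ i, (Polynomial.X - Polynomial.C (s i))).natDegree with hn
  refine ⟨∑ k ∈ Finset.range (n + 1), Polynomial.monomial k (Pk k), ?_, ?_⟩
  · intro k l
    rw [Polynomial.finset_sum_coeff]
    simp only [Polynomial.coeff_monomial]
    rw [Finset.sum_ite_eq']
    split_ifs
    · exact hPkS k l
    · simp
  · apply Polynomial.ext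
    intro k
    rw [Polynomial.coeff_map, Polynomial.finset_sum_coeff]
    simp only [Polynomial.coeff_monomial]
    rw [Finset.sum_ite_eq']
    split_ifs with hk
    · exact hPk k
    · rw [map_zero]
      apply Polynomial.coeff_eq_zero_of_natDegree_lt
      rw [Finset.mem_range, not_lt] at hk
      omega

end Fermat.Agent.S28.helper22
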