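import Mathlib
import Fermat.Prelude.Def_ModularCurve_IgusaScheme
import Fermat.Prelude.Def_ModularCurve_X0ModL
import Fermat.Agent.S23.Lagrange
import Fermat.Agent.S28.helper25_Descent
import Fermat.Agent.S28.helper25_ATInterface

/-!
# S28 assembly (c): `hgen` from the statement of `analytic_conj` (helper25)

Main results:
* `functionFieldGeneration_of_AT : ATProp N → ModularCurve.FunctionFieldGeneration N`
  (`j(q^d) ∈ ℚ(j(q), j(q^N))` for all `d ∣ N`),
* `hgen_of_AT` : the hypothesis `hgen` of `chart_qexp` for `x = jFull N`, `θ = jNFull N`.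
-/

set_option autoImplicit false
set_option linter.unusedSectionVars false

open ModularCurve ModularCurve.IgusaScheme Polynomial Finset

noncomputable section
namespace Fermat.Agent.S28.helper25

open Fermat.Agent.S23 (lagChi lagP lagChi_coeff lagP_coeff lagP_eval_self lagP_eval_eq_sum
  lagrange_identity)

/-! ### leading terms -/

section Leading

variable {R : Type*} [CommRing R]

theorem coeff_single_mul_ofPowerSeries (e : ℤ) (c : R) (p : PowerSeries R) (k : ℤ) :
    (HahnSeries.single e c * HahnSeries.ofPowerSeries ℤ R p).coeff k =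
      if e ≤ k then c * PowerSeries.coeff (k - e).toNat p else 0 := by
  have hk : k = (k - e) + e := by ring
  conv_lhs => rw [hk, HahnSeries.coeff_single_mul_add]
  split_ifs with h
  · have h2 : k - e = ((k - e).toNat : ℤ) := (Int.toNat_of_nonneg (by omega)).symm
    conv_lhs => rw [h2, HahnSeries.ofPowerSeries_apply_coeff]
  · rw [ofPowerSeries_coeff_of_neg _ (by omega), mul_zero]

theorem coeff_single_mul_ofPowerSeries_self (e : ℤ) (c : R) (p : PowerSeries R)
    (hp : PowerSeries.constantCoeff p = 1) :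
    (HahnSeries.single e c * HahnSeries.ofPowerSeries ℤ R p).coeff e = c := by
  rw [coeff_single_mul_ofPowerSeries, if_pos le_rfl, sub_self, Int.toNat_zero,
    PowerSeries.coeff_zero_eq_constantCoeff, hp, mul_one]

theorem coeff_single_mul_ofPowerSeries_of_lt (e : ℤ) (c : R) (p : PowerSeries R) {k : ℤ}
    (hk : k < e) :
    (HahnSeries.single e c * HahnSeries.ofPowerSeries ℤ R p).coeff k = 0 := by
  rw [coeff_single_mul_ofPowerSeries, if_neg (by omega)]

/-- the leading exponent and coefficient are determined by the series -/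
theorem single_mul_ofPowerSeries_inj {e e' : ℤ} {c c' : R} (hc : c ≠ 0) (hc' : c' ≠ 0)
    {p p' : PowerSeries R} (hp : PowerSeries.constantCoeff p = 1)
    (hp' : PowerSeries.constantCoeff p' = 1)
    (h : HahnSeries.single e c * HahnSeries.ofPowerSeries ℤ R p =
      HahnSeries.single e' c' * HahnSeries.ofPowerSeries ℤ R p') : e = e' ∧ c = c' := by
  have hee : e = e' := by
    rcases lt_trichotomy e e' with hlt | heq | hgt
    · exfalso
      have h1 : (HahnSeries.single e c * HahnSeries.ofPowerSeries ℤ R p).coeff e =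
          (HahnSeries.single e' c' * HahnSeries.ofPowerSeries ℤ R p').coeff e := by rw [h]
      rw [coeff_single_mul_ofPowerSeries_self e c p hp,
        coeff_single_mul_ofPowerSeries_of_lt e' c' p' hlt] at h1
      exact hc h1
    · exact heq
    · exfalso
      have h1 : (HahnSeries.single e c * HahnSeries.ofPowerSeries ℤ R p).coeff e' =
          (HahnSeries.single e' c' * HahnSeries.ofPowerSeries ℤ R p').coeff e' := by rw [h]
      rw [coeff_single_mul_ofPowerSeries_self e' c' p' hp',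
        coeff_single_mul_ofPowerSeries_of_lt e c p hgt] at h1
      exact hc' h1.symm
  refine ⟨hee, ?_⟩
  subst hee
  have h1 : (HahnSeries.single e c * HahnSeries.ofPowerSeries ℤ R p).coeff e =
      (HahnSeries.single e c' * HahnSeries.ofPowerSeries ℤ R p').coeff e := by rw [h]
  rwa [coeff_single_mul_ofPowerSeries_self e c p hp,
    coeff_single_mul_ofPowerSeries_self e c' p' hp'] at h1

end Leading

/-! ### Lagrange interpolation inside an intermediate field -/

section Lagrange

variable {F L : Type*} [Field F] [Field L] [Algebra F L]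
variable {ι : Type*} [Fintype ι] [DecidableEq ι]

theorem lagrange_mem (K₀ : IntermediateField F L) (a b : ι → L) (i₀ : ι)
    (hχ : ∀ m, (lagChi a).coeff m ∈ K₀)
    (hT : ∀ n, ∑ i, b i * a i ^ n ∈ K₀)
    (ha : a i₀ ∈ K₀) (hdist : ∀ i, i ≠ i₀ → a i ≠ a i₀) : b i₀ ∈ K₀ := by
  have hcoef : ∀ n, (lagP a i₀).coeff n ∈ K₀ := by
    intro n
    rw [lagP_coeff]
    refine sum_mem fun m hm => ?_
    rw [← lagChi_coeff a (Finset.mem_Icc.mp hm).2]
    exact mul_mem (pow_mem ha _) (hχ m)
  have hD : (∏ i ∈ (univ : Finset ι).erase i₀, (a i₀ - a i)) ∈ K₀ := by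
    rw [← lagP_eval_self, lagP_eval_eq_sum]
    exact sum_mem fun n _ => mul_mem (hcoef n) (pow_mem ha _)
  have hD0 : (∏ i ∈ (univ : Finset ι).erase i₀, (a i₀ - a i)) ≠ 0 := by
    rw [Finset.prod_ne_zero_iff]
    intro i hi
    exact sub_ne_zero.mpr (hdist i (Finset.ne_of_mem_erase hi)).symm
  have hid := lagrange_identity a b i₀
  have hN : (∏ i ∈ (univ : Finset ι).erase i₀, (a i₀ - a i)) * b i₀ ∈ K₀ := by
    rw [hid]
    exact sum_mem fun n _ => mul_mem (hcoef n) (hT n)
  have : b i₀ = (∏ i ∈ (univ : Finset ι).erase i₀, (a i₀ - a i))⁻¹ *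
      ((∏ i ∈ (univ : Finset ι).erase i₀, (a i₀ - a i)) * b i₀) := by
    rw [inv_mul_cancel_left₀ hD0]
  rw [this]
  exact mul_mem (inv_mem hD) hN

end Lagrange

/-! ### consequences of `analytic_conj` -/

section AT

variable (N : ℕ) [NeZero N]

theorem zetaC_pow_ne_zero (m : ℕ) : zetaC N ^ m ≠ 0 :=
  pow_ne_zero _ (Complex.exp_ne_zero _)

theorem aeval_mem_of_mem {F L : Type*} [Field F] [Field L] [Algebra F L]
    (K₀ : IntermediateField F L) {x : L} (hx : x ∈ K₀) (p : F[X]) : aeval x p ∈ K₀ := by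
  have h1 : aeval x p ∈ Algebra.adjoin F {x} := aeval_mem_adjoin_singleton F x
  have h2 : Algebra.adjoin F {x} ≤ K₀.toSubalgebra :=
    Algebra.adjoin_le (Set.singleton_subset_iff.mpr hx)
  exact h2 h1

/-- all conjugate expansions at the identity coset lie in `ℂ(x, θ)` -/
theorem E_mem_adjoin_of_AT
    {I : Type} [Fintype I] [DecidableEq I] (i₀ : I)
    {G : Type} [CommRing G] [Algebra ℂ G]
    (E : I → G →ₐ[ℂ] LaurentSeries ℂ) (Θ : G) (a : I → ℕ) (m : I → ℕ)
    (hinj : ∀ i i', a i = a i' → zetaC N ^ m i = zetaC N ^ m i' → i = i')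
    (hlead : ∀ i, ∃ p : PowerSeries ℂ, PowerSeries.constantCoeff p = 1 ∧
          E i Θ = HahnSeries.single (-((a i : ℤ) ^ 2)) (zetaC N ^ m i) *
            HahnSeries.ofPowerSeries ℤ ℂ p)
    (hchar : ∀ g : G, ∃ P : Polynomial (Polynomial ℂ),
          (∏ i, (X - C (E i g))) =
            P.map ((aeval (xC N) : Polynomial ℂ →ₐ[ℂ] LaurentSeries ℂ) :
              Polynomial ℂ →+* LaurentSeries ℂ))
    (g : G) :
    E i₀ g ∈ IntermediateField.adjoin ℂ {xC N, E i₀ Θ} := by
  set K₀ := IntermediateField.adjoin ℂ {xC N, E i₀ Θ} with hK₀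
  have hx : xC N ∈ K₀ := IntermediateField.subset_adjoin ℂ _ (Set.mem_insert _ _)
  have hθ : E i₀ Θ ∈ K₀ :=
    IntermediateField.subset_adjoin ℂ _ (Set.mem_insert_of_mem _ rfl)
  have hcard : 0 < (univ : Finset I).card := Finset.card_pos.mpr ⟨i₀, Finset.mem_univ _⟩
  refine lagrange_mem K₀ (fun i => E i Θ) (fun i => E i g) i₀ ?_ ?_ hθ ?_
  · intro k
    obtain ⟨P, hP⟩ := hchar Θ
    rw [lagChi, hP, coeff_map]
    exact aeval_mem_of_mem K₀ hx _
  · intro n
    obtain ⟨P, hP⟩ := hchar (g * Θ ^ n)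
    have h1 := prod_X_sub_C_coeff_card_pred (univ : Finset I) (fun i => E i (g * Θ ^ n)) hcard
    rw [hP, coeff_map] at h1
    have h2 : ∑ i, E i g * E i Θ ^ n = -(aeval (xC N) (P.coeff ((univ : Finset I).card - 1))) := by
      have : (aeval (xC N) : Polynomial ℂ →ₐ[ℂ] LaurentSeries ℂ)
          (P.coeff ((univ : Finset I).card - 1)) = -∑ i, E i (g * Θ ^ n) := h1
      rw [this, neg_neg]
      refine Finset.sum_congr rfl fun i _ => ?_
      rw [map_mul, map_pow]
    rw [h2]
    exact neg_mem (aeval_mem_of_mem K₀ hx _)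
  · intro i hi heq
    obtain ⟨p, hp, hEi⟩ := hlead i
    obtain ⟨p₀, hp₀, hE₀⟩ := hlead i₀
    rw [hEi, hE₀] at heq
    obtain ⟨h1, h2⟩ := single_mul_ofPowerSeries_inj (zetaC_pow_ne_zero N _)
      (zetaC_pow_ne_zero N _) hp hp₀ heq
    have h3 : a i = a i₀ := by
      have h4 : ((a i : ℤ)) ^ 2 = (a i₀ : ℤ) ^ 2 := by linarith
      have h5 : (a i) ^ 2 = (a i₀) ^ 2 := by exact_mod_cast h4
      exact Nat.pow_left_injective (by norm_num) h5
    exact hi (hinj i i₀ h3 h2)

theorem coeffMap_jq : coeffMap (algebraMap ℚ ℂ) jq = jqModC ℂ := by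
  rw [← jqModC_rat, coeffMap_jqModC]

/-- `j(q^d) ∈ ℚ(j(q), j(q^N))` for every `d ∣ N`. -/
theorem functionFieldGeneration_of_AT (hAT : ATProp N) : FunctionFieldGeneration N := by
  obtain ⟨I, _, _, i₀, G, _, _, E, J, Jd, U, a, -, h2, -, -, ⟨m, hinj, hlead⟩, -, -, h7⟩ := hAT
  intro d hd hne
  haveI := hne
  haveI hNd : NeZero (N * d) := ⟨Nat.mul_ne_zero (NeZero.ne N) (NeZero.ne d)⟩
  haveI hNN : NeZero (N * N) := ⟨Nat.mul_ne_zero (NeZero.ne N) (NeZero.ne N)⟩
  have hchar : ∀ g : G, ∃ P : Polynomial (Polynomial ℂ),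
      (∏ i, (X - C (E i g))) =
        P.map ((aeval (xC N) : Polynomial ℂ →ₐ[ℂ] LaurentSeries ℂ) :
          Polynomial ℂ →+* LaurentSeries ℂ) := by
    intro g
    obtain ⟨P, -, hP⟩ := h7 ⊤ g (fun _ _ => Subring.mem_top _)
    exact ⟨P, hP⟩
  have hmem := E_mem_adjoin_of_AT N i₀ E (Jd N) a m hinj hlead hchar (Jd d)
  rw [h2 d hd hNd, h2 N dvd_rfl hNN] at hmem
  -- pull back along `qExpand ℂ N`
  have hset : ({xC N, qExpand ℂ (N * N) (jqModC ℂ)} : Set (LaurentSeries ℂ)) =
      (qExpandAlgHomC ℂ N) '' {jqModC ℂ, qExpand ℂ N (jqModC ℂ)} := by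
    rw [Set.image_pair, qExpandAlgHomC_apply, qExpandAlgHomC_apply, qExpand_qExpand]
    rfl
  rw [hset, ← IntermediateField.adjoin_map, ← qExpand_qExpand d N (jqModC ℂ)] at hmem
  obtain ⟨w, hw, hwe⟩ := hmem
  have hw' : w = qExpand ℂ d (jqModC ℂ) := qExpand_injective N hwe
  rw [hw'] at hw
  -- descend to `ℚ`
  apply mem_adjoin_of_coeffMap_mem_adjoin (E := ℂ)
  rw [Set.image_pair, coeffMap_qExpand, coeffMap_qExpand, coeffMap_jq]
  exact hw

/-- the element `j(q^N)` of the modular function field -/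
def jNFull : ↥(modularFunctionFieldFull N) := ⟨qExpand ℚ N jq, jqd_mem_full N dvd_rfl⟩

@[simp] theorem coe_jNFull : (jNFull N : LaurentSeries ℚ) = qExpand ℚ N jq := rfl

/-- the hypothesis `hgen` of `chart_qexp` for `x = jFull N`, `θ = jNFull N` -/
theorem hgen_of_FunctionFieldGeneration (h : FunctionFieldGeneration N)
    (f : ↥(modularFunctionFieldFull N)) :
    (f : LaurentSeries ℚ) ∈ IntermediateField.adjoin ℚ
      {((jFull N : ↥(modularFunctionFieldFull N)) : LaurentSeries ℚ),
        ((jNFull N : ↥(modularFunctionFieldFull N)) : LaurentSeries ℚ)} := by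
  have hle : modularFunctionFieldFull N ≤
      IntermediateField.adjoin ℚ {jq, qExpand ℚ N jq} := by
    rw [modularFunctionFieldFull, IntermediateField.adjoin_le_iff]
    rintro x ⟨d, hne, hdvd, rfl⟩
    exact h d hdvd hne
  exact hle f.2

theorem hgen_of_AT (hAT : ATProp N) (f : ↥(modularFunctionFieldFull N)) :
    (f : LaurentSeries ℚ) ∈ IntermediateField.adjoin ℚ
      {((jFull N : ↥(modularFunctionFieldFull N)) : LaurentSeries ℚ),
        ((jNFull N : ↥(modularFunctionFieldFull N)) : LaurentSeries ℚ)} :=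
  hgen_of_FunctionFieldGeneration N (functionFieldGeneration_of_AT N hAT) f

end AT

end Fermat.Agent.S28.helper25
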