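import Mathlib
import Fermat.Agent.S28.ATDefs
import Fermat.Agent.S28.helper63_LevelOne
import Fermat.Agent.S28.helper78_CompAff
import Fermat.Agent.S28.helper93_LevelOne
import Fermat.Agent.S28.helper25_ATFormal

/-!
# S28-AT-D preparation (helper63): expansions of the `SL(2,ℤ)`-translates of `j(dτ)` and of the
modular units `Δ(dτ)/Δ(τ)`

Function-level statements (independent of any choice of a ring `G` of modular functions):
for `d ∣ N` and `g ∈ SL(2,ℤ)`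

* `hasExp_jfunD_smul` : `τ ↦ j(d gτ)` has the `q_N`-expansion `affL ξ e j` (`e = (N/D) a`);
* `hasExp_unit_smul`, `hasExp_unit_inv_smul` : the same for `Δ(d gτ)/Δ(gτ)` and its inverse;
* leading terms (`jfunN_lead`, `unit_lead`) and coefficient rings (`*_coeff_mem`).
-/

set_option autoImplicit false

noncomputable section

namespace Fermat.Agent.S28.helper63

open ModularCurve UpperHalfPlane Fermat.Agent.S28
open Fermat.Agent.S24 (jfun scaleH rotL)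
open Fermat.Agent.S23.helper74 (affPt xi)
open scoped MatrixGroups Manifold

local notation "Δ" => ModularForm.discriminant

/-! ### roots of unity -/

theorem zetaC_ne_zero (N : ℕ) : zetaC N ≠ 0 := Complex.exp_ne_zero _

theorem zetaC_pow_self (N : ℕ) [NeZero N] : zetaC N ^ N = 1 := by
  have hN : (N : ℂ) ≠ 0 := by exact_mod_cast NeZero.ne N
  rw [zetaC, ← Complex.exp_nat_mul,
    show (N : ℂ) * (2 * Real.pi * Complex.I / N) = 2 * Real.pi * Complex.I by field_simp]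
  exact Complex.exp_two_pi_mul_I

theorem zetaC_zpow_eq_pow (N : ℕ) [NeZero N] (k : ℤ) :
    zetaC N ^ k = zetaC N ^ (k % (N : ℤ)).toNat := by
  have hN : (N : ℤ) ≠ 0 := by exact_mod_cast NeZero.ne N
  have h0 : 0 ≤ k % (N : ℤ) := Int.emod_nonneg k hN
  have h1 : k = (N : ℤ) * (k / N) + ((k % (N : ℤ)).toNat : ℤ) := by
    rw [Int.toNat_of_nonneg h0]
    exact (Int.mul_ediv_add_emod k N).symm
  conv_lhs => rw [h1]
  rw [zpow_add₀ (zetaC_ne_zero N), zpow_mul, zpow_natCast, zpow_natCast, zetaC_pow_self,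
    one_zpow, one_mul]

theorem xi_eq_zetaC_zpow (N D : ℕ) [NeZero N] (hD : D ∣ N) (hD0 : 0 < D) (b : ℤ) :
    xi D b = zetaC N ^ (((N / D : ℕ) : ℤ) * b) := by
  obtain ⟨k, rfl⟩ := hD
  have hD' : (D : ℂ) ≠ 0 := by exact_mod_cast hD0.ne'
  have hk : k ≠ 0 := fun h => NeZero.ne (D * k) (by rw [h, mul_zero])
  have hk' : (k : ℂ) ≠ 0 := by exact_mod_cast hk
  rw [Nat.mul_div_cancel_left _ hD0, xi, zetaC, ← Complex.exp_int_mul]
  congr 1
  push_cast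
  field_simp

theorem zetaC_inv_mem (N : ℕ) [NeZero N] (S : Subring ℂ) (hζ : zetaC N ∈ S) :
    (zetaC N)⁻¹ ∈ S := by
  have h : (zetaC N)⁻¹ = zetaC N ^ (N - 1) := by
    have h2 : zetaC N ^ (N - 1) * zetaC N = 1 := by
      rw [← pow_succ, Nat.sub_add_cancel (Nat.pos_of_ne_zero (NeZero.ne N)), zetaC_pow_self]
    exact (eq_inv_of_mul_eq_one_left h2).symm
  rw [h]
  exact S.pow_mem hζ _

theorem xi_mem (N D : ℕ) [NeZero N] (hD : D ∣ N) (hD0 : 0 < D) (b : ℤ) (S : Subring ℂ)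
    (hζ : zetaC N ∈ S) : xi D b ∈ S := by
  rw [xi_eq_zetaC_zpow N D hD hD0 b]
  exact helper25.zpow_mem_of_mem_of_inv_mem S _ hζ (zetaC_inv_mem N S hζ) _

theorem xi_inv_mem (N D : ℕ) [NeZero N] (hD : D ∣ N) (hD0 : 0 < D) (b : ℤ) (S : Subring ℂ)
    (hζ : zetaC N ∈ S) : (xi D b)⁻¹ ∈ S := by
  rw [xi_eq_zetaC_zpow N D hD hD0 b, ← zpow_neg]
  exact helper25.zpow_mem_of_mem_of_inv_mem S _ hζ (zetaC_inv_mem N S hζ) _

theorem natCast_inv_mem (N D : ℕ) [NeZero N] (hD : D ∣ N) (S : Subring ℂ)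
    (hN : (N : ℂ)⁻¹ ∈ S) : (D : ℂ)⁻¹ ∈ S := by
  obtain ⟨k, rfl⟩ := hD
  have hD0 : D ≠ 0 := fun h => NeZero.ne (D * k) (by rw [h, zero_mul])
  have hk : k ≠ 0 := fun h => NeZero.ne (D * k) (by rw [h, mul_zero])
  have hD' : (D : ℂ) ≠ 0 := by exact_mod_cast hD0
  have hk' : (k : ℂ) ≠ 0 := by exact_mod_cast hk
  have : (D : ℂ)⁻¹ = (k : ℂ) * ((D * k : ℕ) : ℂ)⁻¹ := by
    push_cast
    field_simp
  rw [this]
  exact S.mul_mem (natCast_mem S k) hN

/-! ### arithmetic of the Hermite data -/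

theorem hermite_exponent {N d a D : ℕ} (hd : d ∣ N) (hD0 : 0 < D) (haD : a * D = d) :
    N / D * a * D = N * a ∧ N / D * a = N / d * a ^ 2 ∧ D ∣ N := by
  obtain ⟨k, rfl⟩ := hd
  subst haD
  have h1 : a * D * k / D = a * k := by
    rw [show a * D * k = D * (a * k) by ring, Nat.mul_div_cancel_left _ hD0]
  refine ⟨?_, ?_, ⟨a * k, by ring⟩⟩
  · rw [h1]; ring
  · rw [h1]
    rcases Nat.eq_zero_or_pos a with ha | ha
    · subst ha; simp
    · rw [Nat.mul_div_cancel_left _ (Nat.mul_pos ha hD0)]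
      ring

theorem gcd_gcd_of_dvd {N d : ℕ} (hd : d ∣ N) (c : ℕ) :
    Nat.gcd d (Nat.gcd N c) = Nat.gcd d c := by
  rw [← Nat.gcd_assoc, Nat.gcd_eq_left hd]

/-! ### translates of `j(dτ)` -/

theorem mdiff_jfun' : MDifferentiable 𝓘(ℂ) 𝓘(ℂ) jfun := Fermat.Agent.S24.helper17.mdiff_jfun

theorem mdiff_disc : MDifferentiable 𝓘(ℂ) 𝓘(ℂ) (fun τ : ℍ => Δ τ) :=
  CuspForm.discriminant.holo'

theorem mdiff_disc_inv : MDifferentiable 𝓘(ℂ) 𝓘(ℂ) (fun τ : ℍ => (Δ τ)⁻¹) :=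
  mdiff_disc.inv ModularForm.discriminant_ne_zero

/-- `τ ↦ j(d gτ)` is holomorphic. -/
theorem mdiff_jfunD_smul (d : ℕ) [NeZero d] (g : SL(2, ℤ)) :
    MDifferentiable 𝓘(ℂ) 𝓘(ℂ) (fun τ => jfun (scaleH d (g • τ))) := by
  obtain ⟨a, D, b, ha, hD, -, -, hj, -⟩ := helper93.hermite_transport d g
  have := helper78.mdiff_comp_affPt mdiff_jfun' a D b ha hD
  have e : (fun τ => jfun (scaleH d (g • τ))) = fun τ => jfun (affPt a D b ha hD τ) :=
    funext hj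
  rwa [e]

/-- **Expansion of the translates of `j(dτ)`.** -/
theorem hasExp_jfunD_smul (N d : ℕ) [NeZero N] [NeZero d] (hd : d ∣ N) (g : SL(2, ℤ)) :
    ∃ (a D : ℕ) (b : ℤ), 0 < a ∧ 0 < D ∧ a * D = d ∧ a = Nat.gcd d (g 1 0).natAbs ∧
      HasExp N (fun τ => jfun (scaleH d (g • τ))) (affL (xi D b) (N / D * a) (jqModC ℂ)) := by
  obtain ⟨a, D, b, ha, hD, haD, hgcd, hj, -⟩ := helper93.hermite_transport d g
  refine ⟨a, D, b, ha, hD, haD, hgcd, ?_⟩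
  have h := helper78.hasExp_comp_aff hasExp_jfun_one N a D (N / D * a) b ha hD
    (hermite_exponent hd hD haD).1
  have e : (fun τ => jfun (scaleH d (g • τ))) = fun τ => jfun (affPt a D b ha hD τ) :=
    funext hj
  rwa [e]

/-- **Expansion of the translates of the modular unit `Δ(dτ)/Δ(τ)` and of its inverse.** -/
theorem hasExp_unit_smul (N d : ℕ) [NeZero N] [NeZero d] (hd : d ∣ N) (g : SL(2, ℤ)) :
    ∃ (a D : ℕ) (b : ℤ), 0 < a ∧ 0 < D ∧ a * D = d ∧ a = Nat.gcd d (g 1 0).natAbs ∧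
      HasExp N (fun τ => Δ (scaleH d (g • τ)) / Δ (g • τ))
        (HahnSeries.C (((D : ℂ)⁻¹) ^ 12) *
          (affL (xi D b) (N / D * a) deltaS * qExpand ℂ N deltaSinv)) ∧
      HasExp N (fun τ => Δ (g • τ) / Δ (scaleH d (g • τ)))
        (HahnSeries.C ((D : ℂ) ^ 12) *
          (affL (xi D b) (N / D * a) deltaSinv * qExpand ℂ N deltaS)) := by
  obtain ⟨a, D, b, ha, hD, haD, hgcd, -, hΔ⟩ := helper93.hermite_transport d g
  refine ⟨a, D, b, ha, hD, haD, hgcd, ?_, ?_⟩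
  · have h1 := helper78.hasExp_comp_aff helper93.hasExp_disc N a D (N / D * a) b ha hD
      (hermite_exponent hd hD haD).1
    have h2 := hasExp_expand helper93.hasExp_disc_inv N
    have h3 := (HasExp.const N (((D : ℂ)⁻¹) ^ 12)).mul (h1.mul h2)
    refine Eq.mp ?_ h3
    congr 1
    funext τ
    rw [hΔ τ]
    simp only [Pi.mul_apply]
    rw [div_eq_mul_inv]
  · have h1 := helper78.hasExp_comp_aff helper93.hasExp_disc_inv N a D (N / D * a) b ha hD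
      (hermite_exponent hd hD haD).1
    have h2 := hasExp_expand helper93.hasExp_disc N
    have h3 := (HasExp.const N ((D : ℂ) ^ 12)).mul (h1.mul h2)
    refine Eq.mp ?_ h3
    congr 1
    funext τ
    have hD' : (D : ℂ) ≠ 0 := by exact_mod_cast hD.ne'
    have e1 : Δ (g • τ) / Δ (scaleH d (g • τ)) = (Δ (scaleH d (g • τ)) / Δ (g • τ))⁻¹ := by
      rw [inv_div]
    rw [e1, hΔ τ]
    simp only [Pi.mul_apply]
    rw [mul_inv, inv_div, inv_pow, inv_inv, div_eq_mul_inv, mul_comm (Δ τ)]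

theorem mdiff_unit_smul (d : ℕ) [NeZero d] (g : SL(2, ℤ)) :
    MDifferentiable 𝓘(ℂ) 𝓘(ℂ) (fun τ => Δ (scaleH d (g • τ)) / Δ (g • τ)) := by
  obtain ⟨a, D, b, ha, hD, -, -, -, hΔ⟩ := helper93.hermite_transport d g
  have h1 := helper78.mdiff_comp_affPt mdiff_disc a D b ha hD
  have h2 : MDifferentiable 𝓘(ℂ) 𝓘(ℂ)
      (fun τ => ((D : ℂ)⁻¹) ^ 12 * (Δ (affPt a D b ha hD τ) * (Δ τ)⁻¹)) :=
    mdifferentiable_const.mul (h1.mul mdiff_disc_inv)
  refine Eq.mp ?_ h2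
  congr 1
  funext τ
  rw [hΔ τ, div_eq_mul_inv]

theorem mdiff_unit_inv_smul (d : ℕ) [NeZero d] (g : SL(2, ℤ)) :
    MDifferentiable 𝓘(ℂ) 𝓘(ℂ) (fun τ => Δ (g • τ) / Δ (scaleH d (g • τ))) := by
  obtain ⟨a, D, b, ha, hD, -, -, -, hΔ⟩ := helper93.hermite_transport d g
  have h1 := helper78.mdiff_comp_affPt mdiff_disc_inv a D b ha hD
  have h2 : MDifferentiable 𝓘(ℂ) 𝓘(ℂ)
      (fun τ => (D : ℂ) ^ 12 * ((Δ (affPt a D b ha hD τ))⁻¹ * Δ τ)) :=
    mdifferentiable_const.mul (h1.mul mdiff_disc)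
  refine Eq.mp ?_ h2
  congr 1
  funext τ
  have e1 : Δ (g • τ) / Δ (scaleH d (g • τ)) = (Δ (scaleH d (g • τ)) / Δ (g • τ))⁻¹ := by
    rw [inv_div]
  rw [e1, hΔ τ, mul_inv, inv_div, inv_pow, inv_inv, div_eq_mul_inv, mul_comm (Δ τ)]

/-! ### uniqueness of the function with a given expansion -/

theorem lau_injective (M : ℕ) : Function.Injective (lau M) := by
  intro p r h
  ext n
  have := congrArg (fun s : LaurentSeries ℂ => s.coeff ((n : ℤ) - M)) h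
  simp only [lau_coeff] at this
  have h0 : (0 : ℤ) ≤ (n : ℤ) - M + M := by omega
  rw [if_pos h0, if_pos h0] at this
  have e : ((n : ℤ) - M + M).toNat = n := by
    rw [sub_add_cancel, Int.toNat_natCast]
  rwa [e] at this

/-- two functions with the same expansion are equal. -/
theorem hasExp_right_unique {N : ℕ} [NeZero N] {f f' : ℍ → ℂ} {s : LaurentSeries ℂ}
    (h : HasExp N f s) (h' : HasExp N f' s) : f = f' := by
  obtain ⟨M, p, hs, hp⟩ := h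
  obtain ⟨M', p', hs', hp'⟩ := h'
  have h1 := hp.shift M'
  have h2 := hp'.shift M
  rw [add_comm M' M] at h2
  have e : PowerSeries.X ^ M' * p = PowerSeries.X ^ M * p' := by
    apply lau_injective (M + M')
    rw [lau_shift, ← hs]
    conv_lhs => rw [hs']
    rw [add_comm M M', lau_shift]
  rw [e] at h1
  funext τ
  have h3 := (h1 τ).unique (h2 τ)
  exact mul_left_cancel₀ (pow_ne_zero _ (qN_ne_zero N τ)) h3

/-! ### leading terms -/

theorem constantCoeff_jNumC :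
    PowerSeries.constantCoeff (jNum.map (Int.castRingHom ℂ)) = 1 := by
  have h : PowerSeries.constantCoeff jNum = 1 := by
    rw [jNum, map_mul, map_pow, constantCoeff_eisenstein4, constantCoeff_dedekindEtaUnitInv]
    norm_num
  rw [← PowerSeries.coeff_zero_eq_constantCoeff_apply, PowerSeries.coeff_map,
    PowerSeries.coeff_zero_eq_constantCoeff_apply, h]
  simp

theorem constantCoeff_etaUnitC :
    PowerSeries.constantCoeff (dedekindEtaUnit.map (Int.castRingHom ℂ)) = 1 := by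
  rw [← PowerSeries.coeff_zero_eq_constantCoeff_apply, PowerSeries.coeff_map,
    PowerSeries.coeff_zero_eq_constantCoeff_apply, constantCoeff_dedekindEtaUnit]
  simp

theorem constantCoeff_etaUnitInvC :
    PowerSeries.constantCoeff (dedekindEtaUnitInv.map (Int.castRingHom ℂ)) = 1 := by
  rw [← PowerSeries.coeff_zero_eq_constantCoeff_apply, PowerSeries.coeff_map,
    PowerSeries.coeff_zero_eq_constantCoeff_apply, constantCoeff_dedekindEtaUnitInv]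
  simp

theorem affL_jq_lead (ξ : ℂ) (hξ : ξ ≠ 0) (e : ℕ) (he : e ≠ 0) :
    ∃ p : PowerSeries ℂ, PowerSeries.constantCoeff p = 1 ∧
      affL ξ e (jqModC ℂ) =
        HahnSeries.single (-(e : ℤ)) ξ⁻¹ * HahnSeries.ofPowerSeries ℤ ℂ p := by
  obtain ⟨p, hp, h⟩ := helper25.affL_lead ξ hξ e he (-1) 1 _ constantCoeff_jNumC
  refine ⟨p, hp, ?_⟩
  rw [jqModC, h, one_mul, zpow_neg_one, mul_neg_one]

theorem affL_deltaS_lead (ξ : ℂ) (hξ : ξ ≠ 0) (e : ℕ) (he : e ≠ 0) :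
    ∃ p : PowerSeries ℂ, PowerSeries.constantCoeff p = 1 ∧
      affL ξ e deltaS = HahnSeries.single (e : ℤ) ξ * HahnSeries.ofPowerSeries ℤ ℂ p := by
  obtain ⟨p, hp, h⟩ := helper25.affL_lead ξ hξ e he 1 1 _ constantCoeff_etaUnitC
  refine ⟨p, hp, ?_⟩
  rw [deltaS, h, one_mul, zpow_one, mul_one]

theorem affL_deltaSinv_lead (ξ : ℂ) (hξ : ξ ≠ 0) (e : ℕ) (he : e ≠ 0) :
    ∃ p : PowerSeries ℂ, PowerSeries.constantCoeff p = 1 ∧
      affL ξ e deltaSinv =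
        HahnSeries.single (-(e : ℤ)) ξ⁻¹ * HahnSeries.ofPowerSeries ℤ ℂ p := by
  obtain ⟨p, hp, h⟩ := helper25.affL_lead ξ hξ e he (-1) 1 _ constantCoeff_etaUnitInvC
  refine ⟨p, hp, ?_⟩
  rw [deltaSinv, h, one_mul, zpow_neg_one, mul_neg_one]

theorem affL_one_eq_qExpand (N : ℕ) [NeZero N] (s : LaurentSeries ℂ) :
    affL 1 N s = qExpand ℂ N s := by
  rw [affL_of_ne_zero]
  congr 1
  ext k
  rw [Fermat.Agent.S24.rotL_coeff, one_zpow, one_mul]

theorem C_mul_single_mul (c₀ : ℂ) (m : ℤ) (c : ℂ) (x : LaurentSeries ℂ) :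
    HahnSeries.C c₀ * (HahnSeries.single m c * x) = HahnSeries.single m (c₀ * c) * x := by
  rw [← mul_assoc, HahnSeries.C_apply, HahnSeries.single_mul_single, zero_add]

/-- leading term of the expansion of a translate of the modular unit. -/
theorem unit_series_lead (N : ℕ) [NeZero N] (ξ c₀ : ℂ) (hξ : ξ ≠ 0) (e : ℕ) (he : e ≠ 0) :
    ∃ p : PowerSeries ℂ, PowerSeries.constantCoeff p = 1 ∧
      HahnSeries.C c₀ * (affL ξ e deltaS * qExpand ℂ N deltaSinv) =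
        HahnSeries.single ((e : ℤ) - N) (c₀ * ξ) * HahnSeries.ofPowerSeries ℤ ℂ p := by
  obtain ⟨p₁, hp₁, h₁⟩ := affL_deltaS_lead ξ hξ e he
  obtain ⟨p₂, hp₂, h₂⟩ := affL_deltaSinv_lead 1 one_ne_zero N (NeZero.ne N)
  rw [affL_one_eq_qExpand] at h₂
  obtain ⟨r, hr, h⟩ := helper25.lead_mul (e : ℤ) (-(N : ℤ)) ξ (1 : ℂ)⁻¹ p₁ p₂ hp₁ hp₂
  refine ⟨r, hr, ?_⟩
  rw [h₁, h₂, h, C_mul_single_mul, inv_one, mul_one, sub_eq_add_neg]

/-! ### coefficient rings -/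

theorem C_coeff_mem (S : Subring ℂ) {c : ℂ} (hc : c ∈ S) :
    ∀ n, (HahnSeries.C c : LaurentSeries ℂ).coeff n ∈ S :=
  (mem_coeffSubring_iff S _).mp (C_mem_coeffSubring S hc)

theorem qExpand_coeff_mem (N : ℕ) [NeZero N] (S : Subring ℂ) (s : LaurentSeries ℂ)
    (hs : ∀ n, s.coeff n ∈ S) : ∀ n, (qExpand ℂ N s).coeff n ∈ S := by
  rw [← affL_one_eq_qExpand]
  exact helper25.affL_coeff_mem S 1 S.one_mem (by rw [inv_one]; exact S.one_mem) N s hs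

theorem jfunD_series_coeff_mem (N D : ℕ) [NeZero N] (hD : D ∣ N) (hD0 : 0 < D) (b : ℤ) (e : ℕ)
    (S : Subring ℂ) (hζ : zetaC N ∈ S) : ∀ n, (affL (xi D b) e (jqModC ℂ)).coeff n ∈ S :=
  helper25.affL_coeff_mem S _ (xi_mem N D hD hD0 b S hζ) (xi_inv_mem N D hD hD0 b S hζ) e _
    (helper25.jqModC_coeff_mem S)

theorem unit_series_coeff_mem (N D : ℕ) [NeZero N] (hD : D ∣ N) (hD0 : 0 < D) (b : ℤ) (e : ℕ)
    (S : Subring ℂ) (hζ : zetaC N ∈ S) (hN : (N : ℂ)⁻¹ ∈ S) :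
    ∀ n, (HahnSeries.C (((D : ℂ)⁻¹) ^ 12) *
      (affL (xi D b) e deltaS * qExpand ℂ N deltaSinv)).coeff n ∈ S :=
  helper25.mul_coeff_mem S _ _ (C_coeff_mem S (S.pow_mem (natCast_inv_mem N D hD S hN) 12))
    (helper25.mul_coeff_mem S _ _
      (helper25.affL_coeff_mem S _ (xi_mem N D hD hD0 b S hζ) (xi_inv_mem N D hD hD0 b S hζ) e _
        (helper25.deltaS_coeff_mem S))
      (qExpand_coeff_mem N S _ (helper25.deltaSinv_coeff_mem S)))

theorem unit_inv_series_coeff_mem (N D : ℕ) [NeZero N] (hD : D ∣ N) (hD0 : 0 < D) (b : ℤ)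
    (e : ℕ) (S : Subring ℂ) (hζ : zetaC N ∈ S) :
    ∀ n, (HahnSeries.C ((D : ℂ) ^ 12) *
      (affL (xi D b) e deltaSinv * qExpand ℂ N deltaS)).coeff n ∈ S :=
  helper25.mul_coeff_mem S _ _ (C_coeff_mem S (S.pow_mem (natCast_mem S D) 12))
    (helper25.mul_coeff_mem S _ _
      (helper25.affL_coeff_mem S _ (xi_mem N D hD hD0 b S hζ) (xi_inv_mem N D hD hD0 b S hζ) e _
        (helper25.deltaSinv_coeff_mem S))
      (qExpand_coeff_mem N S _ (helper25.deltaS_coeff_mem S)))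

/-! ### summary statements -/

/-- **Translates of `j(dτ)`, `d ∣ N`**: holomorphic, with a `q_N`-expansion with coefficients in
`ℤ[ζ_N]`. -/
theorem jfunD_translate (N d : ℕ) [NeZero N] [NeZero d] (hd : d ∣ N) (g : SL(2, ℤ)) :
    MDifferentiable 𝓘(ℂ) 𝓘(ℂ) (fun τ => jfun (scaleH d (g • τ))) ∧
    ∃ s : LaurentSeries ℂ, HasExp N (fun τ => jfun (scaleH d (g • τ))) s ∧
      ∀ S : Subring ℂ, zetaC N ∈ S → ∀ n, s.coeff n ∈ S := by
  refine ⟨mdiff_jfunD_smul d g, ?_⟩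
  obtain ⟨a, D, b, ha, hD, haD, -, h⟩ := hasExp_jfunD_smul N d hd g
  exact ⟨_, h, fun S hζ =>
    jfunD_series_coeff_mem N D (hermite_exponent hd hD haD).2.2 hD b _ S hζ⟩

/-- **Translates of `j(Nτ)`**: the expansion is `affL ξ (a²) j` with `ξ⁻¹ = ζ_N^m` and
`a = gcd(N, g₁₀)`; its leading term is `ζ_N^m t^(-a²)`. -/
theorem jfunN_translate (N : ℕ) [NeZero N] (g : SL(2, ℤ)) :
    ∃ (m : ℕ) (p : PowerSeries ℂ), PowerSeries.constantCoeff p = 1 ∧
      HasExp N (fun τ => jfun (scaleH N (g • τ)))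
        (affL ((zetaC N ^ m)⁻¹) ((Nat.gcd N (g 1 0).natAbs) ^ 2) (jqModC ℂ)) ∧
      affL ((zetaC N ^ m)⁻¹) ((Nat.gcd N (g 1 0).natAbs) ^ 2) (jqModC ℂ) =
        HahnSeries.single (-((Nat.gcd N (g 1 0).natAbs : ℤ) ^ 2)) (zetaC N ^ m) *
          HahnSeries.ofPowerSeries ℤ ℂ p := by
  obtain ⟨a, D, b, ha, hD, haD, hgcd, h⟩ := hasExp_jfunD_smul N N dvd_rfl g
  have hDN : D ∣ N := ⟨a, by rw [← haD]; ring⟩
  have hND : N / D = a := by
    conv_lhs => rw [← haD]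
    exact Nat.mul_div_cancel _ hD
  set m : ℕ := ((-(((N / D : ℕ) : ℤ) * b)) % (N : ℤ)).toNat with hm
  have hξ : (zetaC N ^ m)⁻¹ = xi D b := by
    rw [hm, ← zetaC_zpow_eq_pow, zpow_neg, inv_inv, xi_eq_zetaC_zpow N D hDN hD b]
  have he : N / D * a = (Nat.gcd N (g 1 0).natAbs) ^ 2 := by
    rw [hND, ← hgcd]; ring
  have ha2 : (Nat.gcd N (g 1 0).natAbs) ^ 2 ≠ 0 := by
    rw [← hgcd]
    exact pow_ne_zero 2 ha.ne'
  obtain ⟨p, hp, hlead⟩ := affL_jq_lead ((zetaC N ^ m)⁻¹)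
    (inv_ne_zero (pow_ne_zero _ (zetaC_ne_zero N))) _ ha2
  refine ⟨m, p, hp, ?_, ?_⟩
  · rw [hξ, ← he]
    exact h
  · rw [hlead, inv_inv]
    congr 2

/-- **Translates of the modular unit `Δ(dτ)/Δ(τ)`, `d ∣ N`.** -/
theorem unit_translate (N d : ℕ) [NeZero N] [NeZero d] (hd : d ∣ N) (g : SL(2, ℤ)) :
    MDifferentiable 𝓘(ℂ) 𝓘(ℂ) (fun τ => Δ (scaleH d (g • τ)) / Δ (g • τ)) ∧
    MDifferentiable 𝓘(ℂ) 𝓘(ℂ) (fun τ => Δ (g • τ) / Δ (scaleH d (g • τ))) ∧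
    ∃ s s' : LaurentSeries ℂ,
      HasExp N (fun τ => Δ (scaleH d (g • τ)) / Δ (g • τ)) s ∧
      HasExp N (fun τ => Δ (g • τ) / Δ (scaleH d (g • τ))) s' ∧
      (∃ (ε : ℂ) (p : PowerSeries ℂ), ε ≠ 0 ∧ PowerSeries.constantCoeff p = 1 ∧
        s = HahnSeries.single
            ((((N / d) * (Nat.gcd d (Nat.gcd N (g 1 0).natAbs)) ^ 2 : ℕ) : ℤ) - N) ε *
          HahnSeries.ofPowerSeries ℤ ℂ p) ∧
      (∀ S : Subring ℂ, zetaC N ∈ S → (N : ℂ)⁻¹ ∈ S →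
        ∀ n, s.coeff n ∈ S ∧ s'.coeff n ∈ S) := by
  refine ⟨mdiff_unit_smul d g, mdiff_unit_inv_smul d g, ?_⟩
  obtain ⟨a, D, b, ha, hD, haD, hgcd, h1, h2⟩ := hasExp_unit_smul N d hd g
  obtain ⟨he1, he2, hDN⟩ := hermite_exponent hd hD haD
  have hNpos : 0 < N := Nat.pos_of_ne_zero (NeZero.ne N)
  have he0 : N / D * a ≠ 0 := by
    intro h0
    rw [h0, zero_mul] at he1
    exact (Nat.mul_pos hNpos ha).ne he1
  have hD' : (D : ℂ) ≠ 0 := by exact_mod_cast hD.ne'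
  obtain ⟨p, hp, hlead⟩ := unit_series_lead N (xi D b) (((D : ℂ)⁻¹) ^ 12)
    (Fermat.Agent.S23.helper74.xi_ne_zero D b) (N / D * a) he0
  refine ⟨HahnSeries.C (((D : ℂ)⁻¹) ^ 12) *
      (affL (xi D b) (N / D * a) deltaS * qExpand ℂ N deltaSinv),
    HahnSeries.C ((D : ℂ) ^ 12) * (affL (xi D b) (N / D * a) deltaSinv * qExpand ℂ N deltaS),
    h1, h2, ⟨((D : ℂ)⁻¹) ^ 12 * xi D b, p, ?_, hp, ?_⟩, fun S hζ hN n =>
    ⟨unit_series_coeff_mem N D hDN hD b _ S hζ hN n,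
      unit_inv_series_coeff_mem N D hDN hD b _ S hζ n⟩⟩
  · exact mul_ne_zero (pow_ne_zero _ (inv_ne_zero hD'))
      (Fermat.Agent.S23.helper74.xi_ne_zero D b)
  · rw [hlead, gcd_gcd_of_dvd hd, ← hgcd, he2]

end Fermat.Agent.S28.helper63
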